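/-
Programme ORD (S33), chapter NODE = O6c (helper4): **the abstract node at the level of the big
field** and the proof that it is a `Node3.NodeChart`.

`B : Base L k` (the valuation ring `A` of `L`, `res : A →+* k`), `S`, `S'` two components
(`Side3.Side`: Gauss rings `G`, `G'` of `F` with reductions into `Ft`, `Ft'`).  A *node system* is

* `C ⊂ G ⊓ G'` a subring of `F` (the local ring of the model over `A` at the node: the union over
  all finite levels `K` of the local rings `(B_K)_{𝔪_K}`), local with residue map `χ : C →+* k`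
  (`LocBase`), through which both components pass (`LocSide`: `ker red ⊂ ker χ`, and `red C` is the
  valuation ring of the branch `Q`, resp. `red' C` that of `Q'`);
* good coordinates `x y u : C`, `ϖ : L` with `x * y = ϖ * u`, `χ u ≠ 0`, `0 < |ϖ| < 1`,
  `ord_Q (red x) = 1`, `ord_Q' (red' y) = 1`;
* (PEEL-N) for every `A`-valued point `val` of `C`: `ker val = (x - val x, y - val y)`;
* (UNIT-N) a function without zeros and poles on the tube `{P | C ⊂ O_P}` is `c * x ^ n * U` with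
  `U` a unit of `C`.

`NodeSys.nodeChart : NodeChart B HL S S' Hk Hk'` with `ann := {P | InDisc C P}`.
-/
import Mathlib
import Fermat.Agent.ORD.ANN.Node3
import Fermat.Agent.ORD.IFACEN.DiscPlaces8

set_option autoImplicit false
set_option linter.unusedSectionVars false
set_option linter.unusedVariables false
set_option linter.style.longLine false
set_option linter.style.haveILetI false

namespace Fermat.Agent.ORD.NODE.NodeSys4

open AlgebraicCurve Fermat.Agent.X0.FF Fermat.Agent.RR.LSpace Fermat.Agent.MW.EMB.Value6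
open Fermat.Agent.ORD.ANN.Side3 Fermat.Agent.ORD.ANN.Node3
open Fermat.Agent.ORD.IFACEN.DiscPlaces8

noncomputable section

variable {L k F Ft Ft' : Type*} [Field L] [Field k] [Field F] [Algebra L F]
  [Field Ft] [Algebra k Ft] [Field Ft'] [Algebra k Ft']

/-! ### a local subring over `A` -/

/-- A subring `C` of `F` containing `A`, local with residue map `χ`, with `Frac C = F`. -/
structure LocBase (B : Base L k) (C : Subring F) (χ : C →+* k) : Prop where
  const_mem : ∀ a : B.A, algebraMap L F (a : L) ∈ C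
  chi_const : ∀ a : B.A, χ ⟨algebraMap L F (a : L), const_mem a⟩ = B.res a
  inv_mem : ∀ c : C, χ c ≠ 0 → (c : F)⁻¹ ∈ C
  frac : ∀ f : F, ∃ a b : C, b ≠ 0 ∧ f * (b : F) = (a : F)

namespace LocBase

variable {B : Base L k} {C : Subring F} {χ : C →+* k} (h : LocBase B C χ)
include h

/-- the constant `a ∈ A` as an element of `C`. -/
def const (a : B.A) : C := ⟨algebraMap L F (a : L), h.const_mem a⟩

@[simp] theorem coe_const (a : B.A) : ((h.const a : C) : F) = algebraMap L F (a : L) := rfl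

theorem chi_const' (a : B.A) : χ (h.const a) = B.res a := h.chi_const a

theorem const_mul (a b : B.A) : h.const (a * b) = h.const a * h.const b :=
  Subtype.ext (by simp)

theorem const_one : h.const 1 = 1 := Subtype.ext (by simp)

theorem const_zero : h.const 0 = 0 := Subtype.ext (by simp)

theorem const_sub (a b : B.A) : h.const (a - b) = h.const a - h.const b :=
  Subtype.ext (by simp)

theorem const_add (a b : B.A) : h.const (a + b) = h.const a + h.const b :=
  Subtype.ext (by simp)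

theorem const_pow (a : B.A) (n : ℕ) : h.const (a ^ n) = h.const a ^ n :=
  Subtype.ext (by simp)

theorem const_ne_zero {a : B.A} (ha : a ≠ 0) : h.const a ≠ 0 := by
  intro h0
  have h1 : algebraMap L F (a : L) = 0 := congrArg Subtype.val h0
  rw [map_eq_zero] at h1
  exact ha (Subtype.ext h1)

theorem coe_ne_zero {c : C} (hc : c ≠ 0) : (c : F) ≠ 0 := fun h0 => hc (Subtype.ext h0)

theorem ne_zero_of_chi {c : C} (hc : χ c ≠ 0) : c ≠ 0 := by
  rintro rfl
  exact hc (map_zero _)

/-- the inverse in `C` of an element with `χ c ≠ 0`. -/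
def inv (c : C) (hc : χ c ≠ 0) : C := ⟨(c : F)⁻¹, h.inv_mem c hc⟩

@[simp] theorem coe_inv (c : C) (hc : χ c ≠ 0) : ((h.inv c hc : C) : F) = (c : F)⁻¹ := rfl

theorem mul_inv (c : C) (hc : χ c ≠ 0) : c * h.inv c hc = 1 :=
  Subtype.ext (by
    show (c : F) * (c : F)⁻¹ = 1
    exact mul_inv_cancel₀ (h.coe_ne_zero (h.ne_zero_of_chi hc)))

theorem chi_inv (c : C) (hc : χ c ≠ 0) : χ (h.inv c hc) = (χ c)⁻¹ := by
  have := congrArg χ (h.mul_inv c hc)
  rw [map_mul, map_one] at this
  exact eq_inv_of_mul_eq_one_right this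

theorem chi_inv_ne_zero (c : C) (hc : χ c ≠ 0) : χ (h.inv c hc) ≠ 0 := by
  rw [h.chi_inv]; exact inv_ne_zero hc

theorem isUnit_of_chi {c : C} (hc : χ c ≠ 0) : IsUnit c :=
  isUnit_iff_exists_inv.mpr ⟨h.inv c hc, h.mul_inv c hc⟩

theorem exists_res_eq_chi (c : C) : ∃ a : B.A, B.res a = χ c := B.res_surj (χ c)

/-! ### the value map at a place of the tube -/

section Value

variable (HL : LHyp L F) {P : Place L F} (hP : InDisc C P)

theorem valL_const (a : B.A) : valL HL hP (h.const a) = a := by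
  show val HL P (toPlace hP (h.const a)) = a
  have : toPlace hP (h.const a) = algebraMap L P.toValuationSubring (a : L) := Subtype.ext rfl
  rw [this, val_algebraMap]

/-- a function vanishing at the closed point has its value in the maximal ideal of `A`. -/
theorem valL_mem_of_chi_eq_zero {c : C} (hc : χ c = 0) :
    ∃ hm : valL HL hP c ∈ B.A, ¬ IsUnit (⟨valL HL hP c, hm⟩ : B.A) := by
  set lam : L := valL HL hP c with hlam
  by_cases hbad : ∃ hm : lam ∈ B.A, ¬ IsUnit (⟨lam, hm⟩ : B.A)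
  · exact hbad
  exfalso
  have hinv : lam ≠ 0 ∧ lam⁻¹ ∈ B.A := by
    by_cases hm : lam ∈ B.A
    · have hu : IsUnit (⟨lam, hm⟩ : B.A) := by
        by_contra hnu
        exact hbad ⟨hm, hnu⟩
      obtain ⟨b, hb⟩ := isUnit_iff_exists_inv.mp hu
      have h1 : lam * (b : L) = 1 := congrArg Subtype.val hb
      have h0 : lam ≠ 0 := by
        rintro h0
        rw [h0, zero_mul] at h1
        exact zero_ne_one h1
      refine ⟨h0, ?_⟩
      have : lam⁻¹ = (b : L) := inv_eq_of_mul_eq_one_right h1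
      rw [this]
      exact b.2
    · refine ⟨?_, (B.A.mem_or_inv_mem lam).resolve_left hm⟩
      rintro h0
      exact hm (h0 ▸ B.A.zero_mem)
  obtain ⟨h0, hmem⟩ := hinv
  set mu : B.A := ⟨lam⁻¹, hmem⟩ with hmu
  set w : C := 1 - h.const mu * c with hw
  have hχw : χ w ≠ 0 := by
    rw [hw, map_sub, map_mul, hc, mul_zero, sub_zero, map_one]
    exact one_ne_zero
  have hu : IsUnit (valL HL hP w) := (h.isUnit_of_chi hχw).map _
  have hz : valL HL hP w = 0 := by
    rw [hw, map_sub, map_mul, map_one, h.valL_const HL hP, ← hlam]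
    show 1 - lam⁻¹ * lam = 0
    rw [inv_mul_cancel₀ h0, sub_self]
  rw [hz] at hu
  exact not_isUnit_zero hu

theorem valL_mem (c : C) : valL HL hP c ∈ B.A := by
  obtain ⟨a, ha⟩ := h.exists_res_eq_chi c
  have h0 : χ (c - h.const a) = 0 := by rw [map_sub, h.chi_const', ha, sub_self]
  obtain ⟨hm, -⟩ := h.valL_mem_of_chi_eq_zero HL hP h0
  rw [map_sub, h.valL_const HL hP] at hm
  have := B.A.add_mem _ _ hm a.2
  rwa [sub_add_cancel] at this

/-- **the value map** `c ↦ c(P) ∈ A`. -/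
def valA : C →+* B.A :=
  (valL HL hP).codRestrict B.A.toSubring (fun c => h.valL_mem HL hP c)

theorem coe_valA (c : C) : ((h.valA HL hP c : B.A) : L) = valL HL hP c := rfl

theorem valA_const (a : B.A) : h.valA HL hP (h.const a) = a :=
  Subtype.ext (h.valL_const HL hP a)

theorem valA_eq_zero_iff (c : C) : h.valA HL hP c = 0 ↔ (c : F) = 0 ∨ 0 < P.ord (c : F) := by
  rw [← valL_eq_zero_iff HL hP c, ← h.coe_valA HL hP c]
  exact ⟨fun h0 => by rw [h0]; rfl, fun h0 => Subtype.ext h0⟩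

/-- **the centre of `P` is the closed point of `C`**. -/
theorem res_valA (c : C) : B.res (h.valA HL hP c) = χ c := by
  obtain ⟨a, ha⟩ := h.exists_res_eq_chi c
  have h0 : χ (c - h.const a) = 0 := by rw [map_sub, h.chi_const', ha, sub_self]
  obtain ⟨hm, hnu⟩ := h.valL_mem_of_chi_eq_zero HL hP h0
  have h1 : h.valA HL hP (c - h.const a) = ⟨valL HL hP (c - h.const a), hm⟩ := Subtype.ext rfl
  have h2 : B.res (h.valA HL hP (c - h.const a)) = 0 := by
    rw [h1]; exact (B.res_eq_zero_iff _).mpr hnu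
  rw [map_sub, h.valA_const, map_sub, sub_eq_zero] at h2
  rw [h2, ha]

omit h in
include hP in
theorem ord_nonneg (c : C) : 0 ≤ P.ord (c : F) := ffp_ord_nonneg_of_mem P (hP c c.2)

theorem valA_ne_zero_of_chi {c : C} (hc : χ c ≠ 0) : h.valA HL hP c ≠ 0 := by
  intro h0
  apply hc
  rw [← h.res_valA HL hP c, h0, map_zero]

theorem isUnit_valA_of_chi {c : C} (hc : χ c ≠ 0) : IsUnit (h.valA HL hP c) := by
  by_contra hnu
  apply hc
  rw [← h.res_valA HL hP c]
  exact (B.res_eq_zero_iff _).mpr hnu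

theorem not_isUnit_valA_of_chi {c : C} (hc : χ c = 0) : ¬ IsUnit (h.valA HL hP c) := by
  rw [← B.res_eq_zero_iff, h.res_valA HL hP c, hc]

theorem ord_eq_zero_of_valA_ne_zero {c : C} (hc : h.valA HL hP c ≠ 0) : P.ord (c : F) = 0 := by
  have h1 := ord_nonneg hP c
  by_contra hne
  exact hc ((h.valA_eq_zero_iff HL hP c).mpr (Or.inr (lt_of_le_of_ne h1 (Ne.symm hne))))

theorem ord_pos_of_valA_eq_zero {c : C} (hc0 : c ≠ 0) (hc : h.valA HL hP c = 0) :
    0 < P.ord (c : F) := by
  rcases (h.valA_eq_zero_iff HL hP c).mp hc with h0 | h0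
  · exact absurd (Subtype.ext h0) hc0
  · exact h0

/-- `c - c(P)` vanishes at `P`. -/
theorem valA_sub_const (c : C) : h.valA HL hP (c - h.const (h.valA HL hP c)) = 0 := by
  rw [map_sub, h.valA_const, sub_self]

/-- the value in the sense of `Value6.valF`. -/
theorem valF_eq (c : C) : valF HL P (c : F) = ((h.valA HL hP c : B.A) : L) := by
  rw [valF_of_mem HL P (hP c c.2)]
  rfl

end Value

end LocBase

/-! ### a component through the closed point -/

/-- The component `S` passes through the closed point of `C`, with branch `Q`. -/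
structure LocSide (B : Base L k) (S : Side B F Ft) (C : Subring F) (χ : C →+* k)
    (Q : Place k Ft) : Prop where
  le_G : ∀ c ∈ C, c ∈ S.G
  chi_of_red : ∀ c : C, S.red ⟨(c : F), le_G c c.2⟩ = 0 → χ c = 0
  mem_Q : ∀ f : Ft, f ∈ Q.toValuationSubring ↔ ∃ c : C, S.red ⟨(c : F), le_G c c.2⟩ = f

namespace LocSide

variable {B : Base L k} {S : Side B F Ft} {C : Subring F} {χ : C →+* k} {Q : Place k Ft}
  (hs : LocSide B S C χ Q) (hb : LocBase B C χ)

/-- the reduction on `C`. -/
def redC : C →+* Ft := S.red.comp (Subring.inclusion (S := C) (T := S.G) fun c hc => hs.le_G c hc)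

theorem redC_apply (c : C) : hs.redC c = S.red ⟨(c : F), hs.le_G c c.2⟩ := rfl

theorem chi_of_redC {c : C} (hc : hs.redC c = 0) : χ c = 0 := hs.chi_of_red c hc

theorem redC_ne_zero_of_chi {c : C} (hc : χ c ≠ 0) : hs.redC c ≠ 0 := fun h0 =>
  hc (hs.chi_of_redC h0)

theorem mem_Q' (f : Ft) : f ∈ Q.toValuationSubring ↔ ∃ c : C, hs.redC c = f := hs.mem_Q f

include hb in
theorem redC_const (a : B.A) : hs.redC (hb.const a) = algebraMap k Ft (B.res a) := S.red_const a

theorem ord_redC_nonneg (c : C) : 0 ≤ Q.ord (hs.redC c) :=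
  ffp_ord_nonneg_of_mem Q ((hs.mem_Q' _).mpr ⟨c, rfl⟩)

include hb in
/-- a unit of `C` reduces to a unit at `Q`. -/
theorem ord_redC_eq_zero_of_chi {c : C} (hc : χ c ≠ 0) : Q.ord (hs.redC c) = 0 := by
  have h1 := hs.ord_redC_nonneg c
  have h2 := hs.ord_redC_nonneg (hb.inv c hc)
  have h3 : hs.redC c * hs.redC (hb.inv c hc) = 1 := by rw [← map_mul, hb.mul_inv, map_one]
  have hr : hs.redC c ≠ 0 := hs.redC_ne_zero_of_chi hc
  have hr' : hs.redC (hb.inv c hc) ≠ 0 := by
    intro h0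
    rw [h0, mul_zero] at h3
    exact zero_ne_one h3
  have h4 := Q.ord_mul hr hr'
  rw [h3, Place.ord_one] at h4
  omega

/-- a non-unit of `C` with nonzero reduction vanishes at `Q`. -/
theorem ord_redC_pos {c : C} (hc : χ c = 0) (hr : hs.redC c ≠ 0) : 0 < Q.ord (hs.redC c) := by
  have h1 := hs.ord_redC_nonneg c
  by_contra hnp
  have h0 : Q.ord (hs.redC c) = 0 := by omega
  have hmem : (hs.redC c)⁻¹ ∈ Q.toValuationSubring := by
    apply ffp_mem_of_ord_nonneg
    rw [Place.ord_inv, h0, neg_zero]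
  obtain ⟨c', hc'⟩ := (hs.mem_Q' _).mp hmem
  have h2 : hs.redC (c * c' - 1) = 0 := by
    rw [map_sub, map_mul, hc', mul_inv_cancel₀ hr, map_one, sub_self]
  have h3 := hs.chi_of_redC h2
  rw [map_sub, map_mul, hc, zero_mul, map_one, zero_sub, neg_eq_zero] at h3
  exact one_ne_zero h3

include hb in
theorem chi_eq_zero_of_ord_pos {c : C} (hpos : 0 < Q.ord (hs.redC c)) : χ c = 0 := by
  by_contra hne
  have := hs.ord_redC_eq_zero_of_chi hb hne
  omega

include hb in
/-- **the value of the reduction at the branch is the residue at the node.** -/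
theorem valF_redC (Hk : LHyp k Ft) (c : C) : valF Hk Q (hs.redC c) = χ c := by
  obtain ⟨a, ha⟩ := hb.exists_res_eq_chi c
  have hmem : hs.redC c ∈ Q.toValuationSubring := (hs.mem_Q' _).mpr ⟨c, rfl⟩
  apply valF_unique Hk Q hmem
  have h0 : χ (c - hb.const a) = 0 := by rw [map_sub, hb.chi_const', ha, sub_self]
  have e : hs.redC (c - hb.const a) = hs.redC c - algebraMap k Ft (χ c) := by
    rw [map_sub, hs.redC_const hb, ha]
  by_cases hr : hs.redC (c - hb.const a) = 0
  · left
    rw [e, sub_eq_zero] at hr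
    exact hr
  · right
    rw [← e]
    exact hs.ord_redC_pos h0 hr

end LocSide

/-! ### the node system -/

/-- **The abstract node at the level of the big field.** -/
structure NodeSys (B : Base L k) (S : Side B F Ft) (S' : Side B F Ft') (C : Subring F)
    (χ : C →+* k) (Q : Place k Ft) (Q' : Place k Ft') (x y u : C) (ϖ : L) : Prop where
  base : LocBase B C χ
  side : LocSide B S C χ Q
  side' : LocSide B S' C χ Q'
  ord_x : Q.ord (side.redC x) = 1
  ord_y : Q'.ord (side'.redC y) = 1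
  chi_u : χ u ≠ 0
  mul : (x : F) * (y : F) = algebraMap L F ϖ * (u : F)
  pi_ne : ϖ ≠ 0
  pi_lt : B.IsM ϖ
  /-- (PEEL-N) -/
  peel : ∀ val : C →+* B.A, (∀ a : B.A, val (base.const a) = a) → ∀ z : C, val z = 0 →
    ∃ α β : C, z = α * (x - base.const (val x)) + β * (y - base.const (val y))
  /-- (UNIT-N) -/
  unit : ∀ φ : F, φ ≠ 0 → (∀ P : Place L F, InDisc C P → P.ord φ = 0) →
    ∃ (c : L) (n : ℤ) (U : C), c ≠ 0 ∧ χ U ≠ 0 ∧ φ = algebraMap L F c * (x : F) ^ n * (U : F)

theorem isM_of_not_isUnit {B : Base L k} {a : B.A} (ha : ¬ IsUnit a) : B.IsM (a : L) := by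
  have h1 : B.A.valuation (a : L) ≤ 1 := (B.A.valuation_le_one_iff _).mpr a.2
  have h2 : B.A.valuation (a : L) ≠ 1 := fun h => ha ((B.A.valuation_eq_one_iff a).mpr h)
  exact lt_of_le_of_ne h1 h2

namespace NodeSys

variable {B : Base L k} {S : Side B F Ft} {S' : Side B F Ft'} {C : Subring F}
  {χ : C →+* k} {Q : Place k Ft} {Q' : Place k Ft'} {x y u : C} {ϖ : L}
  (h : NodeSys B S S' C χ Q Q' x y u ϖ)
include h

theorem redx_ne : h.side.redC x ≠ 0 := by
  intro h0
  have := h.ord_x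
  rw [h0, Place.ord_zero] at this
  exact zero_ne_one this

theorem redy_ne : h.side'.redC y ≠ 0 := by
  intro h0
  have := h.ord_y
  rw [h0, Place.ord_zero] at this
  exact zero_ne_one this

theorem chi_x : χ x = 0 := h.side.chi_eq_zero_of_ord_pos h.base (by rw [h.ord_x]; exact one_pos)

theorem chi_y : χ y = 0 := h.side'.chi_eq_zero_of_ord_pos h.base (by rw [h.ord_y]; exact one_pos)

theorem x_ne : x ≠ 0 := by
  rintro rfl
  exact h.redx_ne (map_zero _)

theorem y_ne : y ≠ 0 := by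
  rintro rfl
  exact h.redy_ne (map_zero _)

theorem coe_x_ne : (x : F) ≠ 0 := h.base.coe_ne_zero h.x_ne

/-- the thickness as an element of `A`. -/
def piA : B.A := ⟨ϖ, h.pi_lt.mem⟩

@[simp] theorem coe_piA : ((h.piA : B.A) : L) = ϖ := rfl

theorem piA_ne : h.piA ≠ 0 := fun h0 => h.pi_ne (congrArg Subtype.val h0)

theorem not_isUnit_piA : ¬ IsUnit h.piA := h.pi_lt.not_isUnit

theorem res_piA : B.res h.piA = 0 := (B.res_eq_zero_iff _).mpr h.not_isUnit_piA

theorem mulC : x * y = h.base.const h.piA * u := Subtype.ext h.mul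

/-- `π / x = y / u` as an element of `C`. -/
def yu : C := y * h.base.inv u h.chi_u

theorem coe_yu : ((h.yu : C) : F) = algebraMap L F ϖ * (x : F)⁻¹ := by
  have hu0 : (u : F) ≠ 0 := h.base.coe_ne_zero (h.base.ne_zero_of_chi h.chi_u)
  have hx0 := h.coe_x_ne
  show (y : F) * (u : F)⁻¹ = algebraMap L F ϖ * (x : F)⁻¹
  have e := h.mul
  field_simp
  linear_combination e

theorem ord_redC_yu : Q'.ord (h.side'.redC h.yu) = 1 := by
  have hr : h.side'.redC (h.base.inv u h.chi_u) ≠ 0 :=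
    h.side'.redC_ne_zero_of_chi (h.base.chi_inv_ne_zero u h.chi_u)
  rw [yu, map_mul, Q'.ord_mul h.redy_ne hr, h.ord_y,
    h.side'.ord_redC_eq_zero_of_chi h.base (h.base.chi_inv_ne_zero u h.chi_u), add_zero]

/-! ### the places of the tube -/

section Tube

variable (HL : LHyp L F) {P : Place L F} (hP : InDisc C P)

/-- the value map at `P`. -/
abbrev va : C →+* B.A := h.base.valA HL hP

/-- `x - x(P)`. -/
def xi : C := x - h.base.const (h.va HL hP x)

/-- `y - y(P)`. -/
def eta : C := y - h.base.const (h.va HL hP y)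

theorem coe_xi : ((h.xi HL hP : C) : F) = (x : F) - algebraMap L F (valF HL P (x : F)) := by
  rw [h.base.valF_eq HL hP]
  rfl

theorem va_xi : h.va HL hP (h.xi HL hP) = 0 := h.base.valA_sub_const HL hP x

theorem va_eta : h.va HL hP (h.eta HL hP) = 0 := h.base.valA_sub_const HL hP y

theorem va_mul : h.va HL hP x * h.va HL hP y = h.piA * h.va HL hP u := by
  have := congrArg (h.va HL hP) h.mulC
  rwa [map_mul, map_mul, h.base.valA_const] at this

theorem isUnit_va_u : IsUnit (h.va HL hP u) := h.base.isUnit_valA_of_chi HL hP h.chi_u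

theorem va_u_ne : h.va HL hP u ≠ 0 := (h.isUnit_va_u HL hP).ne_zero

theorem va_x_ne : h.va HL hP x ≠ 0 := by
  intro h0
  have e := h.va_mul HL hP
  rw [h0, zero_mul] at e
  rcases mul_eq_zero.mp e.symm with h1 | h1
  · exact h.piA_ne h1
  · exact h.va_u_ne HL hP h1

theorem coe_va_x_ne : ((h.va HL hP x : B.A) : L) ≠ 0 := fun h0 =>
  h.va_x_ne HL hP (Subtype.ext h0)

theorem isM_va_x : B.IsM ((h.va HL hP x : B.A) : L) :=
  isM_of_not_isUnit (h.base.not_isUnit_valA_of_chi HL hP h.chi_x)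

theorem isM_va_y : B.IsM ((h.va HL hP y : B.A) : L) :=
  isM_of_not_isUnit (h.base.not_isUnit_valA_of_chi HL hP h.chi_y)

/-- `π / x(P) = y(P) / u(P)`. -/
theorem pi_div_eq : ϖ / ((h.va HL hP x : B.A) : L) =
    ((h.va HL hP y : B.A) : L) * (((h.va HL hP u : B.A) : L))⁻¹ := by
  have e : ((h.va HL hP x : B.A) : L) * ((h.va HL hP y : B.A) : L) =
      ϖ * ((h.va HL hP u : B.A) : L) := congrArg Subtype.val (h.va_mul HL hP)
  have h1 := h.coe_va_x_ne HL hP
  have h2 : ((h.va HL hP u : B.A) : L) ≠ 0 := fun h0 => h.va_u_ne HL hP (Subtype.ext h0)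
  field_simp
  linear_combination -e

theorem isM_pi_div : B.IsM (ϖ / ((h.va HL hP x : B.A) : L)) := by
  rw [h.pi_div_eq HL hP]
  have h1 : B.A.valuation (((h.va HL hP u : B.A) : L))⁻¹ = 1 :=
    (Base.isU_of_isUnit (h.isUnit_va_u HL hP)).inv
  show B.A.valuation _ < 1
  rw [map_mul, h1, mul_one]
  exact h.isM_va_y HL hP

/-- `π / x(P)` as an element of `A`. -/
def rA : B.A := ⟨ϖ / ((h.va HL hP x : B.A) : L), (h.isM_pi_div HL hP).mem⟩

theorem va_x_mul_rA : h.va HL hP x * h.rA HL hP = h.piA := by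
  apply Subtype.ext
  show ((h.va HL hP x : B.A) : L) * (ϖ / ((h.va HL hP x : B.A) : L)) = ϖ
  have h1 := h.coe_va_x_ne HL hP
  field_simp

theorem res_rA : B.res (h.rA HL hP) = 0 :=
  (B.res_eq_zero_iff _).mpr (h.isM_pi_div HL hP).not_isUnit

/-- **the key identity**: `x(P) * (y - y(P)) ∈ (x - x(P)) C`. -/
theorem exists_eta_eq : ∃ δ : C, h.base.const (h.va HL hP x) * h.eta HL hP = h.xi HL hP * δ := by
  obtain ⟨α, β, hαβ⟩ := h.peel (h.va HL hP) (h.base.valA_const HL hP)
    (u - h.base.const (h.va HL hP u)) (h.base.valA_sub_const HL hP u)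
  set a := h.va HL hP x with ha
  set b := h.va HL hP y with hb
  set ξ := h.xi HL hP with hξ
  set η := h.eta HL hP with hη
  have h1 := h.mulC
  have h2 : h.base.const a * h.base.const b = h.base.const h.piA * h.base.const (h.va HL hP u) := by
    rw [← h.base.const_mul, ← h.base.const_mul, h.va_mul HL hP]
  have hαβ' : u - h.base.const (h.va HL hP u) = α * ξ + β * η := hαβ
  have hξe : ξ = x - h.base.const a := rfl
  have hηe : η = y - h.base.const b := rfl
  -- `ξ (y - π α) = η (π β - a)`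
  set t : C := 1 - h.base.const (h.rA HL hP) * β with ht
  have hχt : χ t ≠ 0 := by
    rw [ht, map_sub, map_one, map_mul, h.base.chi_const', h.res_rA HL hP, zero_mul, sub_zero]
    exact one_ne_zero
  have hp : h.base.const h.piA = h.base.const a * h.base.const (h.rA HL hP) := by
    rw [← h.base.const_mul, h.va_x_mul_rA HL hP]
  have hstar : ξ * (y - h.base.const h.piA * α) = η * (-(h.base.const a) * t) := by
    rw [ht, hξe, hηe]
    rw [hξe, hηe] at hαβ'
    linear_combination h1 - h2 + h.base.const h.piA * hαβ' +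
      (β * (y - h.base.const b)) * hp
  have hti := h.base.mul_inv t hχt
  refine ⟨-(y - h.base.const h.piA * α) * h.base.inv t hχt, ?_⟩
  linear_combination (h.base.inv t hχt) * hstar - h.base.const a * η * hti

/-- every function vanishing at `P` is, up to the constant `x(P)`, a multiple of `x - x(P)`. -/
theorem exists_eq_xi_mul {z : C} (hz : h.va HL hP z = 0) :
    ∃ z' : C, h.base.const (h.va HL hP x) * z = h.xi HL hP * z' := by
  obtain ⟨δ, hδ⟩ := h.exists_eta_eq HL hP
  obtain ⟨α, β, hαβ⟩ := h.peel (h.va HL hP) (h.base.valA_const HL hP) z hz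
  refine ⟨h.base.const (h.va HL hP x) * α + β * δ, ?_⟩
  have hαβ' : z = α * h.xi HL hP + β * h.eta HL hP := hαβ
  rw [hαβ']
  linear_combination β * hδ

theorem redC_xi : h.side.redC (h.xi HL hP) = h.side.redC x := by
  rw [xi, map_sub, h.side.redC_const h.base, h.base.res_valA HL hP, h.chi_x, map_zero, sub_zero]

theorem xi_ne : h.xi HL hP ≠ 0 := by
  intro h0
  have := h.redC_xi HL hP
  rw [h0, map_zero] at this
  exact h.redx_ne this.symm

theorem ord_xi_pos : 0 < P.ord ((h.xi HL hP : C) : F) :=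
  h.base.ord_pos_of_valA_eq_zero HL hP (h.xi_ne HL hP) (h.va_xi HL hP)

theorem ord_const_va_x : P.ord ((h.base.const (h.va HL hP x) : C) : F) = 0 :=
  ffp_ord_algebraMap P _

theorem const_va_x_ne : h.base.const (h.va HL hP x) ≠ 0 := h.base.const_ne_zero (h.va_x_ne HL hP)

/-- every nonzero element of `C` is, up to a power of the constant `x(P)`, a power of `x - x(P)`
times an element not vanishing at `P`. -/
theorem exists_factor (c : C) (hc : c ≠ 0) :
    ∃ (n i : ℕ) (c₀ : C), h.base.const (h.va HL hP x) ^ n * c = h.xi HL hP ^ i * c₀ ∧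
      h.va HL hP c₀ ≠ 0 := by
  have key : ∀ m : ℕ, ∀ c : C, c ≠ 0 → P.ord (c : F) = m →
      ∃ (n i : ℕ) (c₀ : C), h.base.const (h.va HL hP x) ^ n * c = h.xi HL hP ^ i * c₀ ∧
        h.va HL hP c₀ ≠ 0 := by
    intro m
    induction m using Nat.strong_induction_on with
    | _ m ih =>
      intro c hc hm
      by_cases hv : h.va HL hP c = 0
      · obtain ⟨c', hc'⟩ := h.exists_eq_xi_mul HL hP hv
        have hc'0 : c' ≠ 0 := by
          rintro rfl
          rw [mul_zero] at hc'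
          rcases mul_eq_zero.mp hc' with h1 | h1
          · exact h.const_va_x_ne HL hP h1
          · exact hc h1
        have hord : P.ord (c : F) = P.ord ((h.xi HL hP : C) : F) + P.ord (c' : F) := by
          have e1 : P.ord (((h.base.const (h.va HL hP x) * c : C)) : F) = P.ord (c : F) := by
            have : (((h.base.const (h.va HL hP x) * c : C)) : F) =
                ((h.base.const (h.va HL hP x) : C) : F) * (c : F) := rfl
            rw [this, P.ord_mul (h.base.coe_ne_zero (h.const_va_x_ne HL hP))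
              (h.base.coe_ne_zero hc), h.ord_const_va_x HL hP, zero_add]
          rw [← e1, hc']
          exact P.ord_mul (h.base.coe_ne_zero (h.xi_ne HL hP)) (h.base.coe_ne_zero hc'0)
        have h1 := h.ord_xi_pos HL hP
        have h2 := LocBase.ord_nonneg hP c'
        obtain ⟨m', hm'⟩ := Int.eq_ofNat_of_zero_le h2
        have hlt : m' < m := by omega
        obtain ⟨n, i, c₀, e, hv₀⟩ := ih m' hlt c' hc'0 hm'
        refine ⟨n + 1, i + 1, c₀, ?_, hv₀⟩
        rw [pow_succ, pow_succ]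
        linear_combination h.base.const (h.va HL hP x) ^ n * hc' + h.xi HL hP * e
      · exact ⟨0, 0, c, by rw [pow_zero, pow_zero], hv⟩
  obtain ⟨m, hm⟩ := Int.eq_ofNat_of_zero_le (LocBase.ord_nonneg hP c)
  exact key m c hc hm

theorem ord_of_factor {c : C} (hc : c ≠ 0) {n i : ℕ} {c₀ : C}
    (e : h.base.const (h.va HL hP x) ^ n * c = h.xi HL hP ^ i * c₀) (hv : h.va HL hP c₀ ≠ 0) :
    P.ord (c : F) = i * P.ord ((h.xi HL hP : C) : F) := by
  have hc₀ : c₀ ≠ 0 := by
    rintro rfl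
    exact hv (map_zero _)
  have e' : ((h.base.const (h.va HL hP x) : C) : F) ^ n * (c : F) =
      ((h.xi HL hP : C) : F) ^ i * (c₀ : F) := by
    have := congrArg (Subtype.val : C → F) e
    simpa using this
  have h1 : P.ord (((h.base.const (h.va HL hP x) : C) : F) ^ n * (c : F)) = P.ord (c : F) := by
    rw [P.ord_mul (pow_ne_zero _ (h.base.coe_ne_zero (h.const_va_x_ne HL hP)))
      (h.base.coe_ne_zero hc), ord_pow, h.ord_const_va_x HL hP, mul_zero, zero_add]
  have h2 : P.ord (((h.xi HL hP : C) : F) ^ i * (c₀ : F)) = i * P.ord ((h.xi HL hP : C) : F) := by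
    rw [P.ord_mul (pow_ne_zero _ (h.base.coe_ne_zero (h.xi_ne HL hP))) (h.base.coe_ne_zero hc₀),
      ord_pow, h.base.ord_eq_zero_of_valA_ne_zero HL hP hv, add_zero]
  rw [← h1, e', h2]

/-- **`x - x(P)` is a uniformiser at `P`.** -/
theorem ord_xi_eq_one : P.ord ((h.xi HL hP : C) : F) = 1 := by
  obtain ⟨π, hπ⟩ := ffp_exists_irreducible P
  have hπ1 : P.ord (π : F) = 1 := P.ord_coe_irreducible hπ
  have hπ0 : (π : F) ≠ 0 := fun h0 => hπ.ne_zero (Subtype.ext h0)
  obtain ⟨a, b, hb, hab⟩ := h.base.frac (π : F)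
  have ha : a ≠ 0 := by
    rintro rfl
    have : (π : F) * (b : F) = 0 := by rw [hab]; rfl
    rcases mul_eq_zero.mp this with h1 | h1
    · exact hπ0 h1
    · exact h.base.coe_ne_zero hb h1
  obtain ⟨n, i, a₀, ea, hva⟩ := h.exists_factor HL hP a ha
  obtain ⟨n', j, b₀, eb, hvb⟩ := h.exists_factor HL hP b hb
  have h1 : P.ord ((π : F) * (b : F)) = 1 + P.ord (b : F) := by
    rw [P.ord_mul hπ0 (h.base.coe_ne_zero hb), hπ1]
  rw [hab, h.ord_of_factor HL hP ha ea hva, h.ord_of_factor HL hP hb eb hvb] at h1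
  have hm := h.ord_xi_pos HL hP
  have h2 : ((i : ℤ) - j) * P.ord ((h.xi HL hP : C) : F) = 1 := by linarith
  have h3 : P.ord ((h.xi HL hP : C) : F) ∣ 1 := ⟨(i : ℤ) - j, by rw [mul_comm]; exact h2.symm⟩
  exact Int.eq_one_of_dvd_one hm.le h3

end Tube

/-! ### injectivity of `P ↦ x(P)` -/

section Inj

variable (HL : LHyp L F) {P P' : Place L F} (hP : InDisc C P) (hP' : InDisc C P')

/-- two places of the tube with the same `x`-coordinate have the same value map. -/
theorem va_eq_of_va_x_eq (hx : h.va HL hP' x = h.va HL hP x) (c : C) :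
    h.va HL hP' c = h.va HL hP c := by
  -- first `y(P') = y(P)`
  have hy : h.va HL hP' y = h.va HL hP y := by
    obtain ⟨δ, hδ⟩ := h.exists_eta_eq HL hP
    have e := congrArg (h.va HL hP') hδ
    rw [map_mul, map_mul, h.base.valA_const, NodeSys.eta, NodeSys.xi, map_sub, map_sub,
      h.base.valA_const, h.base.valA_const, hx, sub_self, zero_mul] at e
    rcases mul_eq_zero.mp e with h1 | h1
    · exact absurd h1 (h.va_x_ne HL hP)
    · exact sub_eq_zero.mp h1
  obtain ⟨α, β, hαβ⟩ := h.peel (h.va HL hP) (h.base.valA_const HL hP)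
    (c - h.base.const (h.va HL hP c)) (h.base.valA_sub_const HL hP c)
  have e := congrArg (h.va HL hP') hαβ
  rw [map_sub, h.base.valA_const, map_add, map_mul, map_mul, map_sub, map_sub,
    h.base.valA_const, h.base.valA_const, hx, hy, sub_self, sub_self, mul_zero, mul_zero,
    add_zero] at e
  exact sub_eq_zero.mp e

/-- **(PT), injectivity.** -/
theorem eq_of_va_x_eq (hx : h.va HL hP' x = h.va HL hP x) : P' = P := by
  have hval := h.va_eq_of_va_x_eq HL hP hP' hx
  have hle : P.toValuationSubring ≤ P'.toValuationSubring := by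
    intro f hf
    rcases eq_or_ne f 0 with rfl | hf0
    · exact zero_mem _
    obtain ⟨a, b, hb, hab⟩ := h.base.frac f
    have ha : a ≠ 0 := by
      rintro rfl
      have : f * (b : F) = 0 := by rw [hab]; rfl
      rcases mul_eq_zero.mp this with h1 | h1
      · exact hf0 h1
      · exact h.base.coe_ne_zero hb h1
    obtain ⟨n, i, a₀, ea, hva⟩ := h.exists_factor HL hP a ha
    obtain ⟨n', j, b₀, eb, hvb⟩ := h.exists_factor HL hP b hb
    have hfo : 0 ≤ P.ord f := ffp_ord_nonneg_of_mem P hf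
    have h1 : P.ord (f * (b : F)) = P.ord f + P.ord (b : F) :=
      P.ord_mul hf0 (h.base.coe_ne_zero hb)
    rw [hab, h.ord_of_factor HL hP ha ea hva, h.ord_of_factor HL hP hb eb hvb,
      h.ord_xi_eq_one HL hP] at h1
    have hij : j ≤ i := by
      have : (j : ℤ) ≤ i := by linarith
      exact_mod_cast this
    set A₀ : F := ((h.base.const (h.va HL hP x) : C) : F) with hA₀
    set ξ : F := ((h.xi HL hP : C) : F) with hξ
    have hA₀0 : A₀ ≠ 0 := h.base.coe_ne_zero (h.const_va_x_ne HL hP)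
    have hξ0 : ξ ≠ 0 := h.base.coe_ne_zero (h.xi_ne HL hP)
    have hb₀ : b₀ ≠ 0 := by
      rintro rfl
      exact hvb (map_zero _)
    have hb₀F : (b₀ : F) ≠ 0 := h.base.coe_ne_zero hb₀
    have ea' : A₀ ^ n * (a : F) = ξ ^ i * (a₀ : F) := congrArg (Subtype.val : C → F) ea
    have eb' : A₀ ^ n' * (b : F) = ξ ^ j * (b₀ : F) := congrArg (Subtype.val : C → F) eb
    have e2 : ξ ^ i = ξ ^ j * ξ ^ (i - j) := by rw [← pow_add, Nat.add_sub_cancel' hij]
    have h2 : f * ((b₀ : F) * A₀ ^ n) = A₀ ^ n' * ξ ^ (i - j) * (a₀ : F) := by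
      have e3 : ξ ^ j * (f * ((b₀ : F) * A₀ ^ n)) = ξ ^ j * (A₀ ^ n' * ξ ^ (i - j) * (a₀ : F)) := by
        rw [e2] at ea'
        linear_combination (f * A₀ ^ n) * (-eb') + (A₀ ^ n * A₀ ^ n') * hab + A₀ ^ n' * ea'
      exact mul_left_cancel₀ (pow_ne_zero _ hξ0) e3
    have hvb' : h.va HL hP' b₀ ≠ 0 := by rw [hval]; exact hvb
    have hb₀' : P'.ord (b₀ : F) = 0 := h.base.ord_eq_zero_of_valA_ne_zero HL hP' hvb'
    have h3 : f = A₀ ^ n' * ξ ^ (i - j) * (a₀ : F) * ((b₀ : F)⁻¹ * (A₀ ^ n)⁻¹) := by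
      rw [← h2]; field_simp
    rw [h3]
    refine mul_mem (mul_mem (mul_mem (pow_mem (hP' _ (h.base.const _).2) _)
      (pow_mem (hP' _ (h.xi HL hP).2) _)) (hP' _ a₀.2)) (mul_mem ?_ ?_)
    · apply ffp_mem_of_ord_nonneg
      rw [Place.ord_inv, hb₀', neg_zero]
    · apply ffp_mem_of_ord_nonneg
      rw [Place.ord_inv, ord_pow]
      have : P'.ord A₀ = 0 := ffp_ord_algebraMap P' _
      rw [this, mul_zero, neg_zero]
  have := Fermat.Agent.ES.HECKE.FundIdentity19.valuationSubring_eq_of_le P P'.toValuationSubring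
    hle P'.ne_top'
  exact Place.ext this

end Inj

/-! ### the node chart -/

theorem y_mem' : algebraMap L F ϖ * (x : F)⁻¹ ∈ S'.G := by
  rw [← h.coe_yu]
  exact h.side'.le_G _ h.yu.2

theorem ord_y' : Q'.ord (S'.red ⟨algebraMap L F ϖ * (x : F)⁻¹, h.y_mem'⟩) = 1 := by
  have : (⟨algebraMap L F ϖ * (x : F)⁻¹, h.y_mem'⟩ : S'.G) =
      ⟨(h.yu : F), h.side'.le_G _ h.yu.2⟩ := Subtype.ext h.coe_yu.symm
  rw [this]
  exact h.ord_redC_yu

theorem unit_aux (Hk : LHyp k Ft) (Hk' : LHyp k Ft') (U : C) (hχ : χ U ≠ 0) (f : F)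
    (hf : f = (U : F)) :
    ∃ (hU : f ∈ S.G) (hU' : f ∈ S'.G), S.red ⟨f, hU⟩ ≠ 0 ∧ S'.red ⟨f, hU'⟩ ≠ 0 ∧
      Q.ord (S.red ⟨f, hU⟩) = 0 ∧ Q'.ord (S'.red ⟨f, hU'⟩) = 0 ∧
      valF Hk Q (S.red ⟨f, hU⟩) = valF Hk' Q' (S'.red ⟨f, hU'⟩) := by
  subst hf
  refine ⟨h.side.le_G _ U.2, h.side'.le_G _ U.2, h.side.redC_ne_zero_of_chi hχ,
    h.side'.redC_ne_zero_of_chi hχ, h.side.ord_redC_eq_zero_of_chi h.base hχ,
    h.side'.ord_redC_eq_zero_of_chi h.base hχ, ?_⟩
  have h1 := h.side.valF_redC h.base Hk U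
  have h2 := h.side'.valF_redC h.base Hk' U
  rw [LocSide.redC_apply] at h1 h2
  rw [h1, h2]

theorem unit' (Hk : LHyp k Ft) (Hk' : LHyp k Ft') (φ : F) (hφ : φ ≠ 0)
    (hord : ∀ P : Place L F, InDisc C P → P.ord φ = 0) :
    ∃ (c : L) (n : ℤ), c ≠ 0 ∧
      ∃ (hU : φ / (algebraMap L F c * (x : F) ^ n) ∈ S.G)
        (hU' : φ / (algebraMap L F c * (x : F) ^ n) ∈ S'.G),
        S.red ⟨_, hU⟩ ≠ 0 ∧ S'.red ⟨_, hU'⟩ ≠ 0 ∧
        Q.ord (S.red ⟨_, hU⟩) = 0 ∧ Q'.ord (S'.red ⟨_, hU'⟩) = 0 ∧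
        valF Hk Q (S.red ⟨_, hU⟩) = valF Hk' Q' (S'.red ⟨_, hU'⟩) := by
  obtain ⟨c, n, U, hc, hχ, e⟩ := h.unit φ hφ hord
  refine ⟨c, n, hc, ?_⟩
  apply h.unit_aux Hk Hk' U hχ
  have hcF : algebraMap L F c ≠ 0 := (map_ne_zero _).mpr hc
  have hxn : (x : F) ^ n ≠ 0 := zpow_ne_zero _ h.coe_x_ne
  rw [e]
  field_simp

/-- **A node system is a node chart.** -/
def nodeChart (HL : LHyp L F) (Hk : LHyp k Ft) (Hk' : LHyp k Ft') :
    NodeChart B HL S S' Hk Hk' where
  Q := Q
  Q' := Q'
  x := (x : F)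
  π := ϖ
  π_ne := h.pi_ne
  π_lt := h.pi_lt
  ann := {P | InDisc C P}
  x_mem := h.side.le_G _ x.2
  ord_x := h.ord_x
  y_mem := h.y_mem'
  ord_y := h.ord_y'
  x_reg := fun P hP => LocBase.ord_nonneg hP x
  a_lt := fun P hP => by
    rw [h.base.valF_eq HL hP]
    exact h.isM_va_x HL hP
  a_gt := fun P hP => by
    rw [h.base.valF_eq HL hP]
    exact h.isM_pi_div HL hP
  a_ne := fun P hP => by
    rw [h.base.valF_eq HL hP]
    exact h.coe_va_x_ne HL hP
  ord_lin := fun P hP => by
    rw [← h.coe_xi HL hP]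
    exact h.ord_xi_eq_one HL hP
  a_inj := fun P hP P' hP' hxx => by
    rw [h.base.valF_eq HL hP, h.base.valF_eq HL hP'] at hxx
    exact (h.eq_of_va_x_eq HL hP hP' (Subtype.ext hxx.symm)).symm
  unit := h.unit' Hk Hk'

@[simp] theorem nodeChart_ann (HL : LHyp L F) (Hk : LHyp k Ft) (Hk' : LHyp k Ft') :
    (h.nodeChart HL Hk Hk').ann = {P | InDisc C P} := rfl

@[simp] theorem nodeChart_Q (HL : LHyp L F) (Hk : LHyp k Ft) (Hk' : LHyp k Ft') :
    (h.nodeChart HL Hk Hk').Q = Q := rfl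

@[simp] theorem nodeChart_Q' (HL : LHyp L F) (Hk : LHyp k Ft) (Hk' : LHyp k Ft') :
    (h.nodeChart HL Hk Hk').Q' = Q' := rfl

@[simp] theorem nodeChart_x (HL : LHyp L F) (Hk : LHyp k Ft) (Hk' : LHyp k Ft') :
    (h.nodeChart HL Hk Hk').x = (x : F) := rfl

@[simp] theorem nodeChart_π (HL : LHyp L F) (Hk : LHyp k Ft) (Hk' : LHyp k Ft') :
    (h.nodeChart HL Hk Hk').π = ϖ := rfl

end NodeSys

end

end Fermat.Agent.ORD.NODE.NodeSys4
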