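/-
Programme ORD (S33), chapter NODE (lead): **termination of the node iteration = good coordinates**,
abstract algebra part.

`B` a noetherian local domain (the local ring of the model at a node), `R → B` (the DVR of the
base, `π` its uniformizer), `𝔭₁ 𝔭₂` the two vertical primes through the node with
`𝔭₁ ∩ 𝔭₂ = π B` (reduced special fibre), the node `R`-rational (`B = R + 𝔪`).

A *labelled triple of level `j`* is `(x, y, w)` with `𝔪 = (π, x, y)`, `x y = π^(j+1) w`,
`y ∈ 𝔭₁`, `x ∈ 𝔭₂`.  `NodeDich11.IsTriple.step` produces a triple of the next level as long as `w`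
is not a unit.  We prove that the iteration STOPS as soon as the generic fibre is smooth in the
following weak, completion-free form:

  `(S)`  `π ^ N ∈ I`, `I` := the ideal generated by all `δ b`, `δ : Derivation R B B`, `b : B`.

Indeed, for a labelled triple of level `j`:
* `(A1)` `x` is a non-zero-divisor modulo `(y, π^n)` for `n ≤ j+1` (and symmetrically);
* `(A2)` every `R`-derivation `δ` of `B` has `δ y ∈ (y, π^(j+1))`, `δ x ∈ (x, π^(j+1))`, hence
  `δ B ⊆ 𝔞 := (x, y, π^(j+1))` because `B = R + 𝔞`;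
* `(A3)` `π^i ∉ 𝔞` for `i ≤ j`.
So `(S)` forbids triples of level `≥ N`, and a triple of maximal level has a unit `w`:
`x y = π^E · unit` (`exists_good`).
-/
import Mathlib
import Fermat.Agent.ES.N34.NodeDich11

set_option autoImplicit false

namespace Fermat.Agent.ORD.NODE.Term0

open IsLocalRing Fermat.Agent.ES.N34.NodeDich11

variable {R B : Type*} [CommRing R] [CommRing B] [Algebra R B]

/-- The configuration of the two vertical primes at a node. -/
structure Cfg [IsLocalRing B] (π : R) (p1 p2 : Ideal B) : Prop where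
  pr1 : p1.IsPrime
  pr2 : p2.IsPrime
  pi1 : algebraMap R B π ∈ p1
  pi2 : algebraMap R B π ∈ p2
  inter : ∀ b, b ∈ p1 → b ∈ p2 → algebraMap R B π ∣ b
  ne1 : ¬ maximalIdeal B ≤ p1
  ne2 : ¬ maximalIdeal B ≤ p2
  pi_ne : algebraMap R B π ≠ 0
  pi_mem : algebraMap R B π ∈ maximalIdeal B
  res : ∀ b : B, ∃ r : R, b - algebraMap R B r ∈ maximalIdeal B

/-- A labelled triple of level `j`. -/
structure Lab [IsLocalRing B] (π : R) (p1 p2 : Ideal B) (j : ℕ) (x y w : B) : Prop where
  tr : IsTriple π j x y w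
  y1 : y ∈ p1
  x2 : x ∈ p2

theorem Cfg.symm [IsLocalRing B] {π : R} {p1 p2 : Ideal B} (C : Cfg π p1 p2) : Cfg π p2 p1 :=
  { pr1 := C.pr2, pr2 := C.pr1, pi1 := C.pi2, pi2 := C.pi1
    inter := fun b h2 h1 => C.inter b h1 h2
    ne1 := C.ne2, ne2 := C.ne1, pi_ne := C.pi_ne, pi_mem := C.pi_mem, res := C.res }

theorem Lab.symm [IsLocalRing B] {π : R} {p1 p2 : Ideal B} {j : ℕ} {x y w : B}
    (T : Lab π p1 p2 j x y w) : Lab π p2 p1 j y x w := by
  refine ⟨⟨?_, T.tr.y_mem, T.tr.x_mem, ?_⟩, T.x2, T.y1⟩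
  · refine T.tr.gen.trans (Ideal.span_mono ?_)
    intro t ht
    rcases ht with h | h | h
    · exact Or.inl h
    · exact Or.inr (Or.inr h)
    · exact Or.inr (Or.inl h)
  · rw [mul_comm]; exact T.tr.mul

section Basic

variable [IsLocalRing B] {π : R} {p1 p2 : Ideal B} {j : ℕ} {x y w : B}

theorem Lab.x_not1 (C : Cfg π p1 p2) (T : Lab π p1 p2 j x y w) : x ∉ p1 := by
  intro hx
  apply C.ne1
  refine T.tr.gen.trans ?_
  rw [Ideal.span_le]
  intro t ht
  rcases ht with h | h | h
  · rw [h]; exact C.pi1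
  · rw [h]; exact hx
  · rw [Set.mem_singleton_iff.mp h]; exact T.y1

theorem Lab.y_not2 (C : Cfg π p1 p2) (T : Lab π p1 p2 j x y w) : y ∉ p2 :=
  T.symm.x_not1 C.symm

/-- `𝔭₁ = (π, y)` (Nakayama). -/
theorem Lab.p1_le [IsNoetherianRing B] (C : Cfg π p1 p2) (T : Lab π p1 p2 j x y w) :
    p1 ≤ Ideal.span {algebraMap R B π, y} := by
  haveI := C.pr1
  set p : B := algebraMap R B π with hp
  set K : Ideal B := Ideal.span {p, y} with hK
  have hKle : K ≤ p1 := by
    rw [hK, Ideal.span_le]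
    rintro t (rfl | rfl)
    · exact C.pi1
    · exact T.y1
  have hstep : p1 ≤ K ⊔ maximalIdeal B • p1 := by
    intro b hb
    have hbm : b ∈ maximalIdeal B := by
      by_contra h
      have hu : IsUnit b := by
        by_contra h'
        exact h ((IsLocalRing.mem_maximalIdeal b).mpr h')
      exact C.pr1.ne_top (Ideal.eq_top_of_isUnit_mem _ hb hu)
    obtain ⟨a, z, hz, hbz⟩ := Ideal.mem_span_insert.mp (T.tr.gen hbm)
    obtain ⟨c, z', hz', rfl⟩ := Ideal.mem_span_insert.mp hz
    obtain ⟨d, rfl⟩ := Ideal.mem_span_singleton'.mp hz'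
    -- b = a p + c x + d y
    have hcx : c * x ∈ p1 := by
      have : c * x = b - a * p - d * y := by rw [hbz]; ring
      rw [this]
      exact Ideal.sub_mem _ (Ideal.sub_mem _ hb (Ideal.mul_mem_left _ _ C.pi1))
        (Ideal.mul_mem_left _ _ T.y1)
    have hc : c ∈ p1 := by
      rcases C.pr1.mem_or_mem hcx with h | h
      · exact h
      · exact absurd h (T.x_not1 C)
    refine Submodule.mem_sup.mpr ⟨a * p + d * y, ?_, c * x, ?_, ?_⟩
    · exact Ideal.add_mem _ (Ideal.mul_mem_left _ _ (Ideal.subset_span (by simp)))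
        (Ideal.mul_mem_left _ _ (Ideal.subset_span (by simp)))
    · rw [mul_comm]
      exact Submodule.smul_mem_smul T.tr.x_mem hc
    · rw [hbz]; ring
  have hfg : p1.FG := IsNoetherian.noetherian _
  have hjac : maximalIdeal B ≤ Ideal.jacobson (⊥ : Ideal B) := by
    rw [IsLocalRing.jacobson_eq_maximalIdeal ⊥ bot_ne_top]
  exact Submodule.le_of_le_smul_of_le_jacobson_bot hfg hjac hstep

theorem Lab.p2_le [IsNoetherianRing B] (C : Cfg π p1 p2) (T : Lab π p1 p2 j x y w) :
    p2 ≤ Ideal.span {algebraMap R B π, x} :=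
  T.symm.p1_le C.symm

theorem Lab.exists_of_mem1 [IsNoetherianRing B] (C : Cfg π p1 p2) (T : Lab π p1 p2 j x y w)
    {a : B} (ha : a ∈ p1) : ∃ a2 a1 : B, a = a2 * algebraMap R B π + a1 * y := by
  obtain ⟨a2, a1, h⟩ := Ideal.mem_span_pair.mp (T.p1_le C ha)
  exact ⟨a2, a1, h.symm⟩

theorem Lab.exists_of_mem2 [IsNoetherianRing B] (C : Cfg π p1 p2) (T : Lab π p1 p2 j x y w)
    {a : B} (ha : a ∈ p2) : ∃ a2 a1 : B, a = a2 * algebraMap R B π + a1 * x :=
  T.symm.exists_of_mem1 C.symm ha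

end Basic

section Core

variable [IsDomain B] [IsLocalRing B] [IsNoetherianRing B]
  {π : R} {p1 p2 : Ideal B} {j : ℕ} {x y w : B}

/-- **(A1)** `x` is a non-zero-divisor modulo `(y, π^n)` for `n ≤ j + 1`. -/
theorem Lab.nzd (C : Cfg π p1 p2) (T : Lab π p1 p2 j x y w) :
    ∀ n : ℕ, n ≤ j + 1 → ∀ a : B, x * a ∈ Ideal.span {y, algebraMap R B π ^ n} →
      a ∈ Ideal.span {y, algebraMap R B π ^ n} := by
  haveI := C.pr1
  haveI := C.pr2
  set p : B := algebraMap R B π with hp
  intro n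
  induction n with
  | zero =>
    intro _ a _
    have : Ideal.span {y, p ^ 0} = ⊤ := by
      rw [Ideal.eq_top_iff_one]
      exact Ideal.subset_span (by simp)
    rw [this]; trivial
  | succ n ih =>
    intro hn a ha
    obtain ⟨c, d, hcd⟩ := Ideal.mem_span_pair.mp ha
    -- c * y + d * p^(n+1) = x * a
    have hxa1 : x * a ∈ p1 := by
      rw [← hcd]
      exact Ideal.add_mem _ (Ideal.mul_mem_left _ _ T.y1)
        (Ideal.mul_mem_left _ _ (Ideal.pow_mem_of_mem _ C.pi1 _ (by omega)))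
    have ha1 : a ∈ p1 := by
      rcases C.pr1.mem_or_mem hxa1 with h | h
      · exact absurd h (T.x_not1 C)
      · exact h
    obtain ⟨a2, a1, rfl⟩ := T.exists_of_mem1 C ha1
    -- b' := c - x a1
    have hyb : y * (c - x * a1) = p * (x * a2 - d * p ^ n) := by
      have : c * y = x * (a2 * p + a1 * y) - d * p ^ (n + 1) := by rw [← hcd]; ring
      calc y * (c - x * a1) = c * y - x * a1 * y := by ring
        _ = x * (a2 * p + a1 * y) - d * p ^ (n + 1) - x * a1 * y := by rw [this]
        _ = p * (x * a2 - d * p ^ n) := by rw [pow_succ]; ring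
    have hb2 : c - x * a1 ∈ p2 := by
      have hmem : y * (c - x * a1) ∈ p2 := by
        rw [hyb]; exact Ideal.mul_mem_right _ _ C.pi2
      rcases C.pr2.mem_or_mem hmem with h | h
      · exact absurd h (T.y_not2 C)
      · exact h
    obtain ⟨b1, b2, hb⟩ := T.exists_of_mem2 C hb2
    -- cancel p
    have hcancel : x * a2 = b1 * y + (p ^ (j - n) * w * b2 + d) * p ^ n := by
      apply mul_left_cancel₀ C.pi_ne
      have hxy := T.tr.mul
      have hj : p ^ (j + 1) = p * (p ^ (j - n) * p ^ n) := by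
        rw [← pow_add, ← pow_succ']
        congr 1; omega
      have h1 : p * (x * a2) = y * (c - x * a1) + d * p ^ (n + 1) := by
        rw [hyb, pow_succ]; ring
      rw [h1, hb]
      have : y * (b1 * p + b2 * x) = p * (b1 * y) + b2 * (x * y) := by ring
      rw [this, hxy, hj, pow_succ]
      ring
    have hmem : x * a2 ∈ Ideal.span {y, p ^ n} := by
      rw [hcancel]
      exact Ideal.add_mem _ (Ideal.mul_mem_left _ _ (Ideal.subset_span (by simp)))
        (Ideal.mul_mem_left _ _ (Ideal.subset_span (by simp)))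
    obtain ⟨e, f, hef⟩ := Ideal.mem_span_pair.mp (ih (by omega) a2 hmem)
    rw [Ideal.mem_span_pair]
    refine ⟨e * p + a1, f, ?_⟩
    rw [← hef, pow_succ]; ring

/-- **(A2a)** every `R`-derivation maps `y` into `(y, π^(j+1))`. -/
theorem Lab.deriv_y (C : Cfg π p1 p2) (T : Lab π p1 p2 j x y w) (δ : Derivation R B B) :
    δ y ∈ Ideal.span {y, algebraMap R B π ^ (j + 1)} := by
  set p : B := algebraMap R B π with hp
  apply T.nzd C (j + 1) le_rfl
  have h1 : δ (x * y) = x • δ y + y • δ x := Derivation.leibniz δ x y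
  have hp0 : δ (p ^ (j + 1)) = 0 := by
    have : p ^ (j + 1) = algebraMap R B (π ^ (j + 1)) := by rw [map_pow]
    rw [this, Derivation.map_algebraMap]
  have h2 : δ (p ^ (j + 1) * w) = p ^ (j + 1) • δ w + w • δ (p ^ (j + 1)) :=
    Derivation.leibniz δ _ _
  rw [T.tr.mul, h2, hp0, smul_zero, add_zero] at h1
  have : x * δ y = (-(δ x)) * y + δ w * p ^ (j + 1) := by
    have h3 : x * δ y = p ^ (j + 1) • δ w - y • δ x := by rw [h1]; simp [smul_eq_mul]
    rw [h3]; simp only [smul_eq_mul]; ring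
  rw [this]
  exact Ideal.add_mem _ (Ideal.mul_mem_left _ _ (Ideal.subset_span (Set.mem_insert _ _)))
    (Ideal.mul_mem_left _ _ (Ideal.subset_span (Set.mem_insert_of_mem _ rfl)))

theorem Lab.deriv_x (C : Cfg π p1 p2) (T : Lab π p1 p2 j x y w) (δ : Derivation R B B) :
    δ x ∈ Ideal.span {x, algebraMap R B π ^ (j + 1)} :=
  T.symm.deriv_y C.symm δ

/-- the ideal `𝔞 n = (x, y) + (π^n)`. -/
def aa (π : R) (x y : B) (n : ℕ) : Ideal B :=
  Ideal.span {x, y} ⊔ Ideal.span {algebraMap R B π ^ n}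

omit [IsDomain B] [IsNoetherianRing B] in
theorem aa_anti (π : R) (x y : B) {m n : ℕ} (h : m ≤ n) : aa π x y n ≤ aa π x y m := by
  refine sup_le le_sup_left ?_
  rw [Ideal.span_singleton_le_iff_mem]
  apply Ideal.mem_sup_right
  rw [Ideal.mem_span_singleton]
  exact pow_dvd_pow _ h

omit [IsDomain B] [IsNoetherianRing B] in
/-- `B = R + 𝔞 n` for every `n`. -/
theorem Lab.exists_res (C : Cfg π p1 p2) (T : Lab π p1 p2 j x y w) (n : ℕ) (b : B) :
    ∃ r : R, b - algebraMap R B r ∈ aa π x y n := by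
  set p : B := algebraMap R B π with hp
  induction n generalizing b with
  | zero =>
    refine ⟨0, ?_⟩
    have : aa π x y 0 = ⊤ := by
      rw [Ideal.eq_top_iff_one]
      apply Ideal.mem_sup_right
      rw [pow_zero]
      exact Ideal.subset_span rfl
    rw [this]; trivial
  | succ n ih =>
    obtain ⟨r, hr⟩ := ih b
    obtain ⟨s, hs, z, hz, hsz⟩ := Submodule.mem_sup.mp hr
    obtain ⟨γ, rfl⟩ := Ideal.mem_span_singleton'.mp hz
    obtain ⟨r', hr'⟩ := C.res γ
    obtain ⟨a, z, hz, haz⟩ := Ideal.mem_span_insert.mp (T.tr.gen hr')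
    refine ⟨r + r' * π ^ n, ?_⟩
    have hxy : z ∈ Ideal.span {x, y} := hz
    have : b - algebraMap R B (r + r' * π ^ n) = (s + p ^ n * z) + a * p ^ (n + 1) := by
      have h1 : b - algebraMap R B r = s + γ * p ^ n := hsz.symm
      have h2 : γ = algebraMap R B r' + (a * p + z) := by rw [← haz]; ring
      rw [map_add, map_mul, map_pow]
      calc b - (algebraMap R B r + algebraMap R B r' * p ^ n)
          = (b - algebraMap R B r) - algebraMap R B r' * p ^ n := by ring
        _ = s + γ * p ^ n - algebraMap R B r' * p ^ n := by rw [h1]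
        _ = s + (algebraMap R B r' + (a * p + z)) * p ^ n - algebraMap R B r' * p ^ n := by
            rw [← h2]
        _ = (s + p ^ n * z) + a * p ^ (n + 1) := by rw [pow_succ]; ring
    rw [this]
    refine Ideal.add_mem _ (Ideal.mem_sup_left (Ideal.add_mem _ hs (Ideal.mul_mem_left _ _ hxy)))
      (Ideal.mem_sup_right (Ideal.mul_mem_left _ _ (Ideal.subset_span rfl)))

/-- **(A2)** every `R`-derivation of `B` has values in `𝔞 (j+1)`. -/
theorem Lab.deriv_mem (C : Cfg π p1 p2) (T : Lab π p1 p2 j x y w) (δ : Derivation R B B)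
    (b : B) : δ b ∈ aa π x y (j + 1) := by
  set p : B := algebraMap R B π with hp
  obtain ⟨r, hr⟩ := T.exists_res C (j + 1) b
  have hb : b = algebraMap R B r + (b - algebraMap R B r) := by ring
  have hδ : δ b = δ (b - algebraMap R B r) := by
    conv_lhs => rw [hb]
    rw [map_add, Derivation.map_algebraMap, zero_add]
  rw [hδ]
  -- it suffices: δ maps 𝔞 into 𝔞
  have hx : δ x ∈ aa π x y (j + 1) := by
    have := T.deriv_x C δ
    obtain ⟨c, d, hcd⟩ := Ideal.mem_span_pair.mp this
    rw [← hcd]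
    exact Ideal.add_mem _ (Ideal.mem_sup_left (Ideal.mul_mem_left _ _ (Ideal.subset_span (by simp))))
      (Ideal.mem_sup_right (Ideal.mul_mem_left _ _ (Ideal.subset_span rfl)))
  have hy : δ y ∈ aa π x y (j + 1) := by
    have := T.deriv_y C δ
    obtain ⟨c, d, hcd⟩ := Ideal.mem_span_pair.mp this
    rw [← hcd]
    exact Ideal.add_mem _ (Ideal.mem_sup_left (Ideal.mul_mem_left _ _ (Ideal.subset_span (by simp))))
      (Ideal.mem_sup_right (Ideal.mul_mem_left _ _ (Ideal.subset_span rfl)))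
  have hxm : x ∈ aa π x y (j + 1) := Ideal.mem_sup_left (Ideal.subset_span (by simp))
  have hym : y ∈ aa π x y (j + 1) := Ideal.mem_sup_left (Ideal.subset_span (by simp))
  have hpm : p ^ (j + 1) ∈ aa π x y (j + 1) := Ideal.mem_sup_right (Ideal.subset_span rfl)
  obtain ⟨s, hs, z, hz, hsz⟩ := Submodule.mem_sup.mp hr
  obtain ⟨γ, rfl⟩ := Ideal.mem_span_singleton'.mp hz
  obtain ⟨α, β, rfl⟩ := Ideal.mem_span_pair.mp hs
  rw [← hsz]
  have hp0 : δ (p ^ (j + 1)) = 0 := by
    have : p ^ (j + 1) = algebraMap R B (π ^ (j + 1)) := by rw [map_pow]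
    rw [this, Derivation.map_algebraMap]
  rw [map_add, map_add, Derivation.leibniz, Derivation.leibniz, Derivation.leibniz, hp0]
  simp only [smul_eq_mul, mul_zero, zero_add]
  refine Ideal.add_mem _ (Ideal.add_mem _ (Ideal.add_mem _ ?_ ?_) (Ideal.add_mem _ ?_ ?_)) ?_
  · exact Ideal.mul_mem_left _ _ hx
  · exact Ideal.mul_mem_right _ _ hxm
  · exact Ideal.mul_mem_left _ _ hy
  · exact Ideal.mul_mem_right _ _ hym
  · exact Ideal.mul_mem_right _ _ hpm

omit [IsNoetherianRing B] in
/-- auxiliary: `1 - π z` is a unit. -/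
theorem Cfg.isUnit_one_sub (C : Cfg π p1 p2) (z : B) : IsUnit (1 - algebraMap R B π * z) := by
  by_contra h
  have h1 : 1 - algebraMap R B π * z ∈ maximalIdeal B := (IsLocalRing.mem_maximalIdeal _).mpr h
  have h2 : algebraMap R B π * z ∈ maximalIdeal B := Ideal.mul_mem_right _ _ C.pi_mem
  have : (1 : B) ∈ maximalIdeal B := by
    have := Ideal.add_mem _ h1 h2
    simpa using this
  exact (Ideal.ne_top_iff_one _).mp (IsLocalRing.maximalIdeal.isMaximal B).ne_top this

/-- **(A3')** `π^i ∉ (x, y)` for `i ≤ j`. -/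
theorem Lab.pow_not_mem_span (C : Cfg π p1 p2) (T : Lab π p1 p2 j x y w) :
    ∀ i : ℕ, i ≤ j → algebraMap R B π ^ i ∉ Ideal.span {x, y} := by
  haveI := C.pr1
  haveI := C.pr2
  set p : B := algebraMap R B π with hp
  intro i
  induction i with
  | zero =>
    intro _ h
    rw [pow_zero] at h
    have hle : Ideal.span {x, y} ≤ maximalIdeal B := by
      rw [Ideal.span_le]
      rintro t (rfl | rfl)
      · exact T.tr.x_mem
      · exact T.tr.y_mem
    exact (Ideal.ne_top_iff_one _).mp (IsLocalRing.maximalIdeal.isMaximal B).ne_top (hle h)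
  | succ i ih =>
    intro hi h
    apply ih (by omega)
    obtain ⟨α, β, hαβ⟩ := Ideal.mem_span_pair.mp h
    -- α x + β y = p^(i+1)
    have hα1 : α ∈ p1 := by
      have hmem : α * x ∈ p1 := by
        have : α * x = p ^ (i + 1) - β * y := by rw [← hαβ]; ring
        rw [this]
        exact Ideal.sub_mem _ (Ideal.pow_mem_of_mem _ C.pi1 _ (by omega))
          (Ideal.mul_mem_left _ _ T.y1)
      rcases C.pr1.mem_or_mem hmem with h' | h'
      · exact h'
      · exact absurd h' (T.x_not1 C)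
    have hβ2 : β ∈ p2 := by
      have hmem : β * y ∈ p2 := by
        have : β * y = p ^ (i + 1) - α * x := by rw [← hαβ]; ring
        rw [this]
        exact Ideal.sub_mem _ (Ideal.pow_mem_of_mem _ C.pi2 _ (by omega))
          (Ideal.mul_mem_left _ _ T.x2)
      rcases C.pr2.mem_or_mem hmem with h' | h'
      · exact h'
      · exact absurd h' (T.y_not2 C)
    obtain ⟨α2, α1, rfl⟩ := T.exists_of_mem1 C hα1
    obtain ⟨β2, β1, rfl⟩ := T.exists_of_mem2 C hβ2
    -- p^i (1 - p * (p^(j-i-1) w (α1+β1))) = α2 x + β2 y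
    have hxy := T.tr.mul
    have hj : p ^ (j + 1) = p * (p ^ i * (p * p ^ (j - i - 1))) := by
      rw [← pow_succ', ← pow_add, ← pow_succ']
      congr 1; omega
    have hkey : p ^ i * (1 - p * (p ^ (j - i - 1) * w * (α1 + β1))) = α2 * x + β2 * y := by
      apply mul_left_cancel₀ C.pi_ne
      have h1 : p * (p ^ i * (1 - p * (p ^ (j - i - 1) * w * (α1 + β1))))
          = p ^ (i + 1) - p ^ (j + 1) * w * (α1 + β1) := by
        rw [hj, pow_succ]; ring
      rw [h1, ← hαβ, ← hxy]; ring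
    obtain ⟨u, hu⟩ := C.isUnit_one_sub (p ^ (j - i - 1) * w * (α1 + β1))
    have : p ^ i = (α2 * x + β2 * y) * (↑u⁻¹ : B) := by
      rw [← hkey, ← hu, mul_assoc, Units.mul_inv, mul_one]
    rw [this]
    apply Ideal.mul_mem_right
    exact Ideal.add_mem _ (Ideal.mul_mem_left _ _ (Ideal.subset_span (by simp)))
      (Ideal.mul_mem_left _ _ (Ideal.subset_span (by simp)))

/-- **(A3)** `π^i ∉ 𝔞 (i+1)` for `i ≤ j`. -/
theorem Lab.pow_not_mem (C : Cfg π p1 p2) (T : Lab π p1 p2 j x y w) (i : ℕ) (hi : i ≤ j) :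
    algebraMap R B π ^ i ∉ aa π x y (i + 1) := by
  set p : B := algebraMap R B π with hp
  intro h
  apply T.pow_not_mem_span C i hi
  obtain ⟨s, hs, z, hz, hsz⟩ := Submodule.mem_sup.mp h
  obtain ⟨γ, rfl⟩ := Ideal.mem_span_singleton'.mp hz
  obtain ⟨u, hu⟩ := C.isUnit_one_sub γ
  have : p ^ i = s * (↑u⁻¹ : B) := by
    have h1 : p ^ i * (1 - p * γ) = s := by
      have : p ^ i = s + γ * p ^ (i + 1) := hsz.symm
      calc p ^ i * (1 - p * γ) = p ^ i - γ * p ^ (i + 1) := by rw [pow_succ]; ring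
        _ = s := by rw [this]; ring
    rw [← h1, ← hu, mul_assoc, Units.mul_inv, mul_one]
  rw [this]
  exact Ideal.mul_mem_right _ _ hs

/-- The ideal generated by the values of all `R`-derivations of `B`. -/
def derIdeal (R B : Type*) [CommRing R] [CommRing B] [Algebra R B] : Ideal B :=
  Ideal.span {z : B | ∃ (δ : Derivation R B B) (b : B), z = δ b}

/-- **(A4a)** smoothness of the generic fibre bounds the level of every labelled triple. -/
theorem Lab.level_lt (C : Cfg π p1 p2) (T : Lab π p1 p2 j x y w) {N : ℕ}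
    (hN : algebraMap R B π ^ N ∈ derIdeal R B) : j < N := by
  by_contra hlt
  have hNj : N ≤ j := by omega
  apply T.pow_not_mem C N hNj
  have hle : derIdeal R B ≤ aa π x y (j + 1) := by
    unfold derIdeal
    rw [Ideal.span_le]
    rintro z ⟨δ, b, rfl⟩
    exact T.deriv_mem C δ b
  exact aa_anti π x y (by omega) (hle hN)

omit [IsDomain B] [IsNoetherianRing B] in
/-- the STEP for labelled triples. -/
theorem Lab.step (C : Cfg π p1 p2) (T : Lab π p1 p2 j x y w) (hw : w ∈ maximalIdeal B) :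
    ∃ x' y' w' : B, Lab π p1 p2 (j + 1) x' y' w' := by
  set p : B := algebraMap R B π with hp
  obtain ⟨a, z, hz, hwz⟩ := Ideal.mem_span_insert.mp (T.tr.gen hw)
  obtain ⟨b, z', hz', rfl⟩ := Ideal.mem_span_insert.mp hz
  obtain ⟨c, rfl⟩ := Ideal.mem_span_singleton'.mp hz'
  have hπ := C.pi_mem
  refine ⟨x - p ^ (j + 1) * c, y - p ^ (j + 1) * b, a + p ^ j * (b * c), ⟨⟨?_, ?_, ?_, ?_⟩, ?_, ?_⟩⟩
  · refine T.tr.gen.trans ?_
    rw [Ideal.span_le]
    set I : Ideal B := Ideal.span {p, x - p ^ (j + 1) * c, y - p ^ (j + 1) * b} with hI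
    have hpmem : p ∈ I := Ideal.subset_span (by simp)
    have hxmem : x ∈ I := by
      have h1 : x - p ^ (j + 1) * c ∈ I := Ideal.subset_span (by simp)
      have h2 : x = (x - p ^ (j + 1) * c) + (p ^ j * c) * p := by rw [pow_succ]; ring
      rw [h2]
      exact Ideal.add_mem _ h1 (Ideal.mul_mem_left _ _ hpmem)
    have hymem : y ∈ I := by
      have h1 : y - p ^ (j + 1) * b ∈ I := Ideal.subset_span (by simp)
      have h2 : y = (y - p ^ (j + 1) * b) + (p ^ j * b) * p := by rw [pow_succ]; ring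
      rw [h2]
      exact Ideal.add_mem _ h1 (Ideal.mul_mem_left _ _ hpmem)
    intro t ht
    rcases ht with h | h | h
    · rw [h]; exact hpmem
    · rw [h]; exact hxmem
    · rw [Set.mem_singleton_iff.mp h]; exact hymem
  · exact Ideal.sub_mem _ T.tr.x_mem
      (Ideal.mul_mem_right _ _ (Ideal.pow_mem_of_mem _ hπ _ (by omega)))
  · exact Ideal.sub_mem _ T.tr.y_mem
      (Ideal.mul_mem_right _ _ (Ideal.pow_mem_of_mem _ hπ _ (by omega)))
  · have h1 : (x - p ^ (j + 1) * c) * (y - p ^ (j + 1) * b)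
        = x * y - p ^ (j + 1) * (b * x + c * y) + p ^ (j + 1) * p ^ (j + 1) * (b * c) := by ring
    have h2 : b * x + c * y = w - a * p := by rw [hwz]; ring
    rw [h1, T.tr.mul, h2]
    have h3 : p ^ (j + 1 + 1) = p ^ (j + 1) * p := pow_succ _ _
    have h4 : p ^ (j + 1) = p ^ j * p := pow_succ _ _
    rw [h3]
    nth_rewrite 5 [h4]
    ring
  · exact Ideal.sub_mem _ T.y1
      (Ideal.mul_mem_right _ _ (Ideal.pow_mem_of_mem _ C.pi1 _ (by omega)))
  · exact Ideal.sub_mem _ T.x2
      (Ideal.mul_mem_right _ _ (Ideal.pow_mem_of_mem _ C.pi2 _ (by omega)))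

/-- **(A4) GOOD COORDINATES.**  If the generic fibre is smooth (`π^N ∈ derIdeal`), a labelled
triple of level `0` can be improved to a labelled triple with `w` a UNIT:
`x y = π^(j+1) · unit`, `j < N`. -/
theorem exists_good (C : Cfg π p1 p2) {x₀ y₀ w₀ : B} (T₀ : Lab π p1 p2 0 x₀ y₀ w₀) {N : ℕ}
    (hN : algebraMap R B π ^ N ∈ derIdeal R B) :
    ∃ (j : ℕ) (x y w : B), Lab π p1 p2 j x y w ∧ IsUnit w ∧ j < N := by
  by_contra hcon
  have hex : ∀ j : ℕ, ∃ x y w : B, Lab π p1 p2 j x y w := by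
    intro j
    induction j with
    | zero => exact ⟨x₀, y₀, w₀, T₀⟩
    | succ j ih =>
      obtain ⟨x, y, w, T⟩ := ih
      by_cases hw : w ∈ maximalIdeal B
      · exact T.step C hw
      · exfalso
        apply hcon
        have hu : IsUnit w := by
          by_contra h
          exact hw ((IsLocalRing.mem_maximalIdeal w).mpr h)
        exact ⟨j, x, y, w, T, hu, T.level_lt C hN⟩
  obtain ⟨x, y, w, T⟩ := hex N
  exact lt_irrefl _ (T.level_lt C hN)

end Core

end Fermat.Agent.ORD.NODE.Term0
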