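/-
Programme ORD (S33), chapter NODE (lead): **good coordinates in N34's chart vocabulary.**

`B ⊆ F` a noetherian chart (`R`-subalgebra of `F`), `O1 O2` the two Gauss valuation rings (uniformizer
`π`), `𝔪` a prime of `B` lying on BOTH components (a node), with the literal hypotheses of
`NodalCore13.NodalTwoChartModel` (`leO`, `unif`, `pi_nonunit`, `sat`).  From LABELLED level-`0`
coordinates (`x₀ ∈ π O2`, `y₀ ∈ π O1`, `d₀ x₀ y₀ = π w₀`, `𝔪 B_𝔪 = (π, x₀, y₀)`), the two vertical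
primes being `≠ 𝔪`, the node `R`-rational and `(S)` (`π^N ∈ derIdeal R B_𝔪`, `Smooth0`), we get
GOOD coordinates in chart form (`goodCoords`):

  `∃ E x y w d0, 0 < E ∧ x, y ∈ 𝔪 ∧ 𝔪 B_𝔪 = (π, x, y) ∧ d0, w ∉ 𝔪 ∧ d0 (x y) = π^E w`
  `∧ x ∈ π O2 ∧ y ∈ π O1`.

Bridge: `A := locSub B 𝔪` (a noetherian local domain), `𝔭_j := {a ∈ A | v_j a < 1}`, `Term0.exists_good`.
-/
import Mathlib
import Fermat.Agent.ORD.NODE.Term0
import Fermat.Agent.ES.N34.NodalSmooth13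

set_option autoImplicit false

namespace Fermat.Agent.ORD.NODE.GoodChart0

open IsLocalRing Fermat.Agent.ES.N34.NodalSmooth13 Fermat.Agent.ES.N34.NodeDich11
  Fermat.Agent.ORD.NODE.Term0

variable {R F : Type*} [CommRing R] [Field F] [Algebra R F]

/-- The chart hypotheses at a node (literal shapes of `NodalTwoChartModel` + two-branch point). -/
structure NodeHyp (π : R) (B : Subalgebra R F) (O1 O2 : ValuationSubring F) (𝔪 : Ideal B) :
    Prop where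
  leO1 : ∀ x ∈ B, x ∈ O1
  leO2 : ∀ x ∈ B, x ∈ O2
  pi_ne : algebraMap R F π ≠ 0
  pi_nonunit1 : (algebraMap R F π)⁻¹ ∉ O1
  pi_nonunit2 : (algebraMap R F π)⁻¹ ∉ O2
  unif1 : ∀ x ∈ O1, x⁻¹ ∉ O1 → ∃ c ∈ O1, x = algebraMap R F π * c
  unif2 : ∀ x ∈ O2, x⁻¹ ∉ O2 → ∃ c ∈ O2, x = algebraMap R F π * c
  sat : ∀ b ∈ B, ∀ c : F, c ∈ O1 → c ∈ O2 → b = algebraMap R F π * c → c ∈ B
  pi_mem : algebraMap R B π ∈ 𝔪
  hon1 : ∀ b : B, (∃ c ∈ O1, (b : F) = algebraMap R F π * c) → b ∈ 𝔪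
  hon2 : ∀ b : B, (∃ c ∈ O2, (b : F) = algebraMap R F π * c) → b ∈ 𝔪
  ne1 : ∃ z ∈ 𝔪, ¬ ∃ c ∈ O1, ((z : B) : F) = algebraMap R F π * c
  ne2 : ∃ z ∈ 𝔪, ¬ ∃ c ∈ O2, ((z : B) : F) = algebraMap R F π * c
  res : ∀ b : B, ∃ r : R, b - algebraMap R B r ∈ 𝔪

theorem NodeHyp.symm {π : R} {B : Subalgebra R F} {O1 O2 : ValuationSubring F} {𝔪 : Ideal B}
    (H : NodeHyp π B O1 O2 𝔪) : NodeHyp π B O2 O1 𝔪 :=
  { leO1 := H.leO2, leO2 := H.leO1, pi_ne := H.pi_ne, pi_nonunit1 := H.pi_nonunit2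
    pi_nonunit2 := H.pi_nonunit1, unif1 := H.unif2, unif2 := H.unif1
    sat := fun b hb c h2 h1 h => H.sat b hb c h1 h2 h
    pi_mem := H.pi_mem, hon1 := H.hon2, hon2 := H.hon1, ne1 := H.ne2, ne2 := H.ne1, res := H.res }

section Val

variable (π : R) (O : ValuationSubring F)

/-- `v z < 1 ↔ z ∈ π O` for a valuation ring with uniformizer `π`. -/
theorem val_lt_one_iff (pi_ne : algebraMap R F π ≠ 0) (pi_nonunit : (algebraMap R F π)⁻¹ ∉ O)
    (unif : ∀ x ∈ O, x⁻¹ ∉ O → ∃ c ∈ O, x = algebraMap R F π * c) (z : F) :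
    O.valuation z < 1 ↔ ∃ c ∈ O, z = algebraMap R F π * c := by
  have hπ : O.valuation (algebraMap R F π) < 1 := by
    rw [← ValuationSubring.mem_nonunits_iff, ValuationSubring.mem_nonunits_iff_or]
    exact Or.inr pi_nonunit
  constructor
  · intro h
    rw [← ValuationSubring.mem_nonunits_iff, ValuationSubring.mem_nonunits_iff_or] at h
    rcases h with h | h
    · exact ⟨0, O.zero_mem, by rw [h, mul_zero]⟩
    · have hz : z ∈ O := by
        rcases O.mem_or_inv_mem z with h' | h'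
        · exact h'
        · exact absurd h' h
      exact unif z hz h
  · rintro ⟨c, hc, rfl⟩
    rw [map_mul]
    calc O.valuation (algebraMap R F π) * O.valuation c
        ≤ O.valuation (algebraMap R F π) * 1 :=
          mul_le_mul_right ((O.valuation_le_one_iff c).mpr hc) _
      _ = O.valuation (algebraMap R F π) := mul_one _
      _ < 1 := hπ

end Val

section Loc

variable {π : R} {B : Subalgebra R F} {O1 O2 : ValuationSubring F} {𝔪 : Ideal B}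
  [h𝔪 : 𝔪.IsPrime]

/-- denominators are units of `O1`. -/
theorem NodeHyp.val_den (H : NodeHyp π B O1 O2 𝔪) {d : B} (hd : d ∉ 𝔪) :
    O1.valuation (d : F) = 1 := by
  rcases lt_or_eq_of_le ((O1.valuation_le_one_iff _).mpr (H.leO1 _ d.2)) with h | h
  · exfalso
    apply hd
    apply H.hon1
    exact (val_lt_one_iff π O1 H.pi_ne H.pi_nonunit1 H.unif1 _).mp h
  · exact h

/-- `B_𝔪 ⊆ O1`, and the valuation of `a / d` is that of `a`. -/
theorem NodeHyp.val_loc (H : NodeHyp π B O1 O2 𝔪) {z : F} {a d : B} (hd : d ∉ 𝔪)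
    (h : z * (d : F) = (a : F)) : O1.valuation z = O1.valuation (a : F) := by
  have := congrArg O1.valuation h
  rw [map_mul, H.val_den hd, mul_one] at this
  exact this

theorem NodeHyp.le_loc (H : NodeHyp π B O1 O2 𝔪) {z : F} (hz : z ∈ locSub B 𝔪) :
    O1.valuation z ≤ 1 := by
  obtain ⟨a, d, hd, h⟩ := hz
  rw [H.val_loc hd h]
  exact (O1.valuation_le_one_iff _).mpr (H.leO1 _ a.2)

/-- The vertical prime of `B_𝔪` along `O1`. -/
def vertLoc (H : NodeHyp π B O1 O2 𝔪) : Ideal ↥(locSub B 𝔪) where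
  carrier := {a | O1.valuation (a : F) < 1}
  add_mem' := by
    intro a b ha hb
    show O1.valuation ((a : F) + (b : F)) < 1
    exact lt_of_le_of_lt (Valuation.map_add _ _ _) (max_lt ha hb)
  zero_mem' := by
    show O1.valuation ((0 : F)) < 1
    rw [map_zero]; exact zero_lt_one
  smul_mem' := by
    intro c a ha
    show O1.valuation ((c : F) * (a : F)) < 1
    rw [map_mul]
    calc O1.valuation (c : F) * O1.valuation (a : F) ≤ 1 * O1.valuation (a : F) :=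
          mul_le_mul_left (H.le_loc c.2) _
      _ = O1.valuation (a : F) := one_mul _
      _ < 1 := ha

theorem mem_vertLoc (H : NodeHyp π B O1 O2 𝔪) (a : ↥(locSub B 𝔪)) :
    a ∈ vertLoc H ↔ O1.valuation (a : F) < 1 := Iff.rfl

theorem vertLoc_isPrime (H : NodeHyp π B O1 O2 𝔪) : (vertLoc H).IsPrime := by
  refine ⟨?_, ?_⟩
  · intro h
    have : (1 : ↥(locSub B 𝔪)) ∈ vertLoc H := by rw [h]; trivial
    rw [mem_vertLoc] at this
    simp at this
  · intro a b hab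
    rw [mem_vertLoc] at hab
    by_contra hcon
    rw [not_or, mem_vertLoc, mem_vertLoc, not_lt, not_lt] at hcon
    have h1 : O1.valuation ((a : F)) = 1 := le_antisymm (H.le_loc a.2) hcon.1
    have h2 : O1.valuation ((b : F)) = 1 := le_antisymm (H.le_loc b.2) hcon.2
    have : O1.valuation (((a * b : ↥(locSub B 𝔪)) : F)) = 1 := by
      rw [Subalgebra.coe_mul, map_mul, h1, h2, one_mul]
    rw [this] at hab
    exact lt_irrefl _ hab

/-- an element of `B_𝔪` is a nonunit iff its numerators lie in `𝔪`. -/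
theorem mem_maximalIdeal_loc {z : ↥(locSub B 𝔪)} {a d : B} (hd : d ∉ 𝔪)
    (h : (z : F) * (d : F) = (a : F)) : z ∈ maximalIdeal ↥(locSub B 𝔪) ↔ a ∈ 𝔪 := by
  constructor
  · intro hz
    exact num_mem_of_not_isUnit B 𝔪 ((IsLocalRing.mem_maximalIdeal z).mp hz) hd h
  · intro ha
    rw [IsLocalRing.mem_maximalIdeal]
    intro hu
    have hau : IsUnit (algebraMap ↥B ↥(locSub B 𝔪) a) := by
      have : algebraMap ↥B ↥(locSub B 𝔪) a = z * algebraMap ↥B ↥(locSub B 𝔪) d := by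
        apply Subtype.ext
        show (a : F) = (z : F) * (d : F)
        exact h.symm
      rw [this]
      exact hu.mul ((IsLocalization.AtPrime.isUnit_to_map_iff ↥(locSub B 𝔪) 𝔪 d).mpr hd)
    exact not_isUnit_of_mem B 𝔪 ha hau

theorem coe_mem_maximalIdeal_loc {b : B} :
    (algebraMap ↥B ↥(locSub B 𝔪) b) ∈ maximalIdeal ↥(locSub B 𝔪) ↔ b ∈ 𝔪 := by
  have h1 : (1 : B) ∉ 𝔪 := fun h => h𝔪.ne_top ((Ideal.eq_top_iff_one 𝔪).mpr h)
  exact mem_maximalIdeal_loc (z := algebraMap ↥B ↥(locSub B 𝔪) b) (a := b) (d := 1) h1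
    (by simp [coe_algebraMap_loc])

/-- **The configuration `Cfg` on `B_𝔪`.** -/
theorem NodeHyp.cfg (H : NodeHyp π B O1 O2 𝔪) (hmax : 𝔪.IsMaximal) :
    Cfg π (vertLoc H) (vertLoc H.symm) := by
  have hπ1 : O1.valuation (algebraMap R F π) < 1 :=
    (val_lt_one_iff π O1 H.pi_ne H.pi_nonunit1 H.unif1 _).mpr ⟨1, O1.one_mem, by rw [mul_one]⟩
  have hπ2 : O2.valuation (algebraMap R F π) < 1 :=
    (val_lt_one_iff π O2 H.pi_ne H.pi_nonunit2 H.unif2 _).mpr ⟨1, O2.one_mem, by rw [mul_one]⟩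
  have hne : ∀ {O1 O2 : ValuationSubring F} (H : NodeHyp π B O1 O2 𝔪),
      ¬ maximalIdeal ↥(locSub B 𝔪) ≤ vertLoc H := by
    intro O1 O2 H hle
    obtain ⟨z, hz, hzn⟩ := H.ne1
    apply hzn
    have : algebraMap ↥B ↥(locSub B 𝔪) z ∈ vertLoc H := hle (coe_mem_maximalIdeal_loc.mpr hz)
    rw [mem_vertLoc] at this
    exact (val_lt_one_iff π O1 H.pi_ne H.pi_nonunit1 H.unif1 _).mp this
  refine
    { pr1 := vertLoc_isPrime H
      pr2 := vertLoc_isPrime H.symm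
      pi1 := hπ1
      pi2 := hπ2
      inter := ?_
      ne1 := hne H
      ne2 := hne H.symm
      pi_ne := ?_
      pi_mem := ?_
      res := ?_ }
  · -- saturation of `B_𝔪`
    intro b hb1 hb2
    rw [mem_vertLoc] at hb1 hb2
    obtain ⟨c1, hc1, hbc1⟩ := (val_lt_one_iff π O1 H.pi_ne H.pi_nonunit1 H.unif1 _).mp hb1
    obtain ⟨c2, hc2, hbc2⟩ := (val_lt_one_iff π O2 H.pi_ne H.pi_nonunit2 H.unif2 _).mp hb2
    have hc12 : c1 = c2 := by
      apply mul_left_cancel₀ H.pi_ne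
      rw [← hbc1, ← hbc2]
    obtain ⟨a, d, hd, had⟩ := b.2
    -- a = π (c1 d)
    have hcd : c1 * (d : F) ∈ B := by
      refine H.sat (a : F) a.2 _ (O1.mul_mem _ _ hc1 (H.leO1 _ d.2))
        (by rw [hc12]; exact O2.mul_mem _ _ hc2 (H.leO2 _ d.2)) ?_
      rw [← had, hbc1]; ring
    have hcl : c1 ∈ locSub B 𝔪 := ⟨⟨_, hcd⟩, d, hd, rfl⟩
    refine ⟨⟨c1, hcl⟩, ?_⟩
    apply Subtype.ext
    exact hbc1
  · intro h
    apply H.pi_ne
    have := congrArg (fun z : ↥(locSub B 𝔪) => (z : F)) h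
    simpa using this
  · have : algebraMap R ↥(locSub B 𝔪) π = algebraMap ↥B ↥(locSub B 𝔪) (algebraMap R B π) := by
      apply Subtype.ext; rfl
    rw [this]
    exact coe_mem_maximalIdeal_loc.mpr H.pi_mem
  · intro b
    obtain ⟨a, d, hd, had⟩ := b.2
    -- `d` is invertible modulo the maximal ideal `𝔪`
    obtain ⟨d', i, hi, hdi⟩ := hmax.exists_inv hd
    obtain ⟨r, hr⟩ := H.res (a * d')
    refine ⟨r, ?_⟩
    -- b - r = (b - a d') + (a d' - r),  b - a d' = b (1 - d d') = b i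
    have h1 : b - algebraMap R ↥(locSub B 𝔪) r
        = b * algebraMap ↥B ↥(locSub B 𝔪) i
          + algebraMap ↥B ↥(locSub B 𝔪) (a * d' - algebraMap R B r) := by
      apply Subtype.ext
      have hi' : (i : F) = 1 - (d' : F) * (d : F) := by
        have := congrArg (fun z : B => (z : F)) hdi
        simp only [Subalgebra.coe_add, Subalgebra.coe_mul, Subalgebra.coe_one] at this
        rw [← this]; ring
      show (b : F) - algebraMap R F r
        = (b : F) * (i : F) + (((a * d' - algebraMap R B r : B)) : F)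
      rw [hi']
      simp only [Subalgebra.coe_sub, Subalgebra.coe_mul, Subalgebra.coe_algebraMap]
      rw [← had]; ring
    rw [h1]
    exact Ideal.add_mem _ (Ideal.mul_mem_left _ _ (coe_mem_maximalIdeal_loc.mpr hi))
      (coe_mem_maximalIdeal_loc.mpr hr)

end Loc

section Main

variable {π : R} {B : Subalgebra R F} [hnoe : IsNoetherianRing B] {O1 O2 : ValuationSubring F}
  {𝔪 : Ideal B} [h𝔪 : 𝔪.IsPrime]

omit hnoe in
/-- the labelled level-`0` triple on `B_𝔪` from chart coordinates with denominators. -/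
theorem NodeHyp.lab0 (H : NodeHyp π B O1 O2 𝔪)
    (x₀ y₀ w₀ d₀ : B) (hx₀ : x₀ ∈ 𝔪) (hy₀ : y₀ ∈ 𝔪)
    (hgen₀ : ∀ b ∈ 𝔪, ∃ d : B, d ∉ 𝔪 ∧ d * b ∈ Ideal.span {algebraMap R B π, x₀, y₀})
    (hd₀ : d₀ ∉ 𝔪) (hmul₀ : d₀ * (x₀ * y₀) = algebraMap R B π * w₀)
    (hx₀2 : ∃ c ∈ O2, (x₀ : F) = algebraMap R F π * c)
    (hy₀1 : ∃ c ∈ O1, (y₀ : F) = algebraMap R F π * c) :
    ∃ W₀ : ↥(locSub B 𝔪), Lab π (vertLoc H) (vertLoc H.symm) 0
      (algebraMap ↥B ↥(locSub B 𝔪) x₀) (algebraMap ↥B ↥(locSub B 𝔪) y₀) W₀ := by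
  have hd₀F : (d₀ : F) ≠ 0 := coe_ne_zero_of_notMem B 𝔪 hd₀
  have hW : (w₀ : F) * (d₀ : F)⁻¹ ∈ locSub B 𝔪 :=
    (locSub B 𝔪).mul_mem (le_locSub B 𝔪 w₀.2) (inv_mem_locSub B 𝔪 hd₀)
  refine ⟨⟨_, hW⟩, ⟨⟨?_, ?_, ?_, ?_⟩, ?_, ?_⟩⟩
  · -- generation
    intro z hz
    obtain ⟨a, d, hd, had⟩ := z.2
    have ha : a ∈ 𝔪 := (mem_maximalIdeal_loc hd had).mp hz
    obtain ⟨d', hd', hmem⟩ := hgen₀ a ha
    obtain ⟨α, t, ht, hαt⟩ := Ideal.mem_span_insert.mp hmem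
    obtain ⟨β, t', ht', rfl⟩ := Ideal.mem_span_insert.mp ht
    obtain ⟨γ, rfl⟩ := Ideal.mem_span_singleton'.mp ht'
    -- d' a = α π + β x₀ + γ y₀
    have hdF : (d : F) ≠ 0 := coe_ne_zero_of_notMem B 𝔪 hd
    have hd'F : (d' : F) ≠ 0 := coe_ne_zero_of_notMem B 𝔪 hd'
    have hinv : ((d' : F) * (d : F))⁻¹ ∈ locSub B 𝔪 := by
      rw [mul_inv]
      exact (locSub B 𝔪).mul_mem (inv_mem_locSub B 𝔪 hd') (inv_mem_locSub B 𝔪 hd)
    set u : ↥(locSub B 𝔪) := ⟨_, hinv⟩ with hu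
    have hz' : z = u * algebraMap ↥B ↥(locSub B 𝔪) α * algebraMap R ↥(locSub B 𝔪) π
        + u * algebraMap ↥B ↥(locSub B 𝔪) β * algebraMap ↥B ↥(locSub B 𝔪) x₀
        + u * algebraMap ↥B ↥(locSub B 𝔪) γ * algebraMap ↥B ↥(locSub B 𝔪) y₀ := by
      apply Subtype.ext
      have h1 := congrArg (fun b : B => (b : F)) hαt
      simp only [Subalgebra.coe_add, Subalgebra.coe_mul, Subalgebra.coe_algebraMap] at h1
      show (z : F) = ((d' : F) * (d : F))⁻¹ * (α : F) * algebraMap R F π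
        + ((d' : F) * (d : F))⁻¹ * (β : F) * (x₀ : F)
        + ((d' : F) * (d : F))⁻¹ * (γ : F) * (y₀ : F)
      have h2 : (z : F) = ((d' : F) * (d : F))⁻¹ * ((d' : F) * (a : F)) := by
        rw [← had]; field_simp
      rw [h2, h1]; ring
    rw [hz']
    refine Ideal.add_mem _ (Ideal.add_mem _ ?_ ?_) ?_
    · exact Ideal.mul_mem_left _ _ (Ideal.subset_span (by simp))
    · exact Ideal.mul_mem_left _ _ (Ideal.subset_span (by simp))
    · exact Ideal.mul_mem_left _ _ (Ideal.subset_span (by simp))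
  · exact coe_mem_maximalIdeal_loc.mpr hx₀
  · exact coe_mem_maximalIdeal_loc.mpr hy₀
  · apply Subtype.ext
    have h1 := congrArg (fun b : B => (b : F)) hmul₀
    simp only [Subalgebra.coe_mul, Subalgebra.coe_algebraMap] at h1
    show (x₀ : F) * (y₀ : F) = algebraMap R F π ^ (0 + 1) * ((w₀ : F) * (d₀ : F)⁻¹)
    rw [zero_add, pow_one]
    have : (x₀ : F) * (y₀ : F) = ((d₀ : F) * ((x₀ : F) * (y₀ : F))) * (d₀ : F)⁻¹ := by
      field_simp
    rw [this, h1]; ring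
  · rw [mem_vertLoc]
    exact (val_lt_one_iff π O1 H.pi_ne H.pi_nonunit1 H.unif1 _).mpr hy₀1
  · rw [mem_vertLoc]
    exact (val_lt_one_iff π O2 H.pi_ne H.pi_nonunit2 H.unif2 _).mpr hx₀2

/-- **GOOD COORDINATES in chart form.** -/
theorem goodCoords (H : NodeHyp π B O1 O2 𝔪) (hmax : 𝔪.IsMaximal)
    (x₀ y₀ w₀ d₀ : B) (hx₀ : x₀ ∈ 𝔪) (hy₀ : y₀ ∈ 𝔪)
    (hgen₀ : ∀ b ∈ 𝔪, ∃ d : B, d ∉ 𝔪 ∧ d * b ∈ Ideal.span {algebraMap R B π, x₀, y₀})
    (hd₀ : d₀ ∉ 𝔪) (hmul₀ : d₀ * (x₀ * y₀) = algebraMap R B π * w₀)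
    (hx₀2 : ∃ c ∈ O2, (x₀ : F) = algebraMap R F π * c)
    (hy₀1 : ∃ c ∈ O1, (y₀ : F) = algebraMap R F π * c)
    {N : ℕ} (hN : algebraMap R ↥(locSub B 𝔪) π ^ N ∈ derIdeal R ↥(locSub B 𝔪)) :
    ∃ (E : ℕ) (x y w d0 : B), 0 < E ∧ E ≤ N ∧ x ∈ 𝔪 ∧ y ∈ 𝔪 ∧
      (∀ b ∈ 𝔪, ∃ d : B, d ∉ 𝔪 ∧ d * b ∈ Ideal.span {algebraMap R B π, x, y}) ∧
      d0 ∉ 𝔪 ∧ w ∉ 𝔪 ∧ d0 * (x * y) = algebraMap R B π ^ E * w ∧
      (∃ c ∈ O2, (x : F) = algebraMap R F π * c) ∧
      (∃ c ∈ O1, (y : F) = algebraMap R F π * c) := by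
  haveI : IsNoetherianRing ↥(locSub B 𝔪) :=
    IsLocalization.isNoetherianRing 𝔪.primeCompl ↥(locSub B 𝔪) hnoe
  have C := H.cfg hmax
  obtain ⟨W₀, T₀⟩ := H.lab0 x₀ y₀ w₀ d₀ hx₀ hy₀ hgen₀ hd₀ hmul₀ hx₀2 hy₀1
  obtain ⟨j, x, y, w, T, hw, hj⟩ := exists_good C T₀ hN
  obtain ⟨ax, dx, hdx, hx⟩ := x.2
  obtain ⟨ay, dy, hdy, hy⟩ := y.2
  obtain ⟨aw, dw, hdw, hwF⟩ := w.2
  have hdxF : (dx : F) ≠ 0 := coe_ne_zero_of_notMem B 𝔪 hdx
  have hdyF : (dy : F) ≠ 0 := coe_ne_zero_of_notMem B 𝔪 hdy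
  have hax : ax ∈ 𝔪 := (mem_maximalIdeal_loc hdx hx).mp T.tr.x_mem
  have hay : ay ∈ 𝔪 := (mem_maximalIdeal_loc hdy hy).mp T.tr.y_mem
  have haw : aw ∉ 𝔪 := by
    intro h
    have : w ∈ maximalIdeal ↥(locSub B 𝔪) := (mem_maximalIdeal_loc hdw hwF).mpr h
    exact (IsLocalRing.mem_maximalIdeal w).mp this hw
  have hmulF : (x : F) * (y : F) = algebraMap R F π ^ (j + 1) * (w : F) := by
    have := congrArg (fun z : ↥(locSub B 𝔪) => (z : F)) T.tr.mul
    simpa using this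
  refine ⟨j + 1, ax, ay, aw * dx * dy, dw, Nat.succ_pos _, hj, hax, hay, ?_, hdw, ?_, ?_, ?_, ?_⟩
  · -- generation with denominators
    intro b hb
    have hbm : algebraMap ↥B ↥(locSub B 𝔪) b ∈ maximalIdeal ↥(locSub B 𝔪) :=
      coe_mem_maximalIdeal_loc.mpr hb
    obtain ⟨α, t, ht, hαt⟩ := Ideal.mem_span_insert.mp (T.tr.gen hbm)
    obtain ⟨β, t', ht', rfl⟩ := Ideal.mem_span_insert.mp ht
    obtain ⟨γ, rfl⟩ := Ideal.mem_span_singleton'.mp ht'
    -- b = α π + β x + γ y in B_𝔪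
    obtain ⟨a1, d1, hd1, h1⟩ := α.2
    obtain ⟨a2, d2, hd2, h2⟩ := β.2
    obtain ⟨a3, d3, hd3, h3⟩ := γ.2
    have hd1F : (d1 : F) ≠ 0 := coe_ne_zero_of_notMem B 𝔪 hd1
    have hd2F : (d2 : F) ≠ 0 := coe_ne_zero_of_notMem B 𝔪 hd2
    have hd3F : (d3 : F) ≠ 0 := coe_ne_zero_of_notMem B 𝔪 hd3
    refine ⟨d1 * d2 * d3 * dx * dy, ?_, ?_⟩
    · intro hmem
      rcases h𝔪.mem_or_mem hmem with h | h
      · rcases h𝔪.mem_or_mem h with h | h
        · rcases h𝔪.mem_or_mem h with h | h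
          · rcases h𝔪.mem_or_mem h with h | h
            · exact hd1 h
            · exact hd2 h
          · exact hd3 h
        · exact hdx h
      · exact hdy h
    · have hbF : (b : F) = (α : F) * algebraMap R F π + ((β : F) * (x : F) + (γ : F) * (y : F)) := by
        have := congrArg (fun z : ↥(locSub B 𝔪) => (z : F)) hαt
        simpa [coe_algebraMap_loc] using this
      have heq : d1 * d2 * d3 * dx * dy * b
          = (a1 * d2 * d3 * dx * dy) * algebraMap R B π + (a2 * d1 * d3 * dy) * ax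
            + (a3 * d1 * d2 * dx) * ay := by
        apply Subtype.ext
        simp only [Subalgebra.coe_add, Subalgebra.coe_mul, Subalgebra.coe_algebraMap]
        rw [hbF, ← h1, ← h2, ← h3, ← hx, ← hy]; ring
      rw [heq]
      refine Ideal.add_mem _ (Ideal.add_mem _ ?_ ?_) ?_
      · exact Ideal.mul_mem_left _ _ (Ideal.subset_span (by simp))
      · exact Ideal.mul_mem_left _ _ (Ideal.subset_span (by simp))
      · exact Ideal.mul_mem_left _ _ (Ideal.subset_span (by simp))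
  · intro hmem
    rcases h𝔪.mem_or_mem hmem with h | h
    · rcases h𝔪.mem_or_mem h with h | h
      · exact haw h
      · exact hdx h
    · exact hdy h
  · apply Subtype.ext
    simp only [Subalgebra.coe_mul, Subalgebra.coe_pow, Subalgebra.coe_algebraMap]
    rw [← hx, ← hy, ← hwF]
    calc (dw : F) * ((x : F) * (dx : F) * ((y : F) * (dy : F)))
        = (dw : F) * (dx : F) * (dy : F) * ((x : F) * (y : F)) := by ring
      _ = algebraMap R F π ^ (j + 1) * ((w : F) * (dw : F) * (dx : F) * (dy : F)) := by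
          rw [hmulF]; ring
  · have hv : O2.valuation (x : F) < 1 := (mem_vertLoc H.symm x).mp T.x2
    have : O2.valuation (ax : F) < 1 := by
      rw [← H.symm.val_loc hdx hx]; exact hv
    exact (val_lt_one_iff π O2 H.pi_ne H.pi_nonunit2 H.unif2 _).mp this
  · have hv : O1.valuation (y : F) < 1 := (mem_vertLoc H y).mp T.y1
    have : O1.valuation (ay : F) < 1 := by
      rw [← H.val_loc hdy hy]; exact hv
    exact (val_lt_one_iff π O1 H.pi_ne H.pi_nonunit1 H.unif1 _).mp this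

end Main


end Fermat.Agent.ORD.NODE.GoodChart0
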