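/-
Programme ORD (S33), chapter NODE = O6c (helper4): **good coordinates at a node, finite level**.

Vocabulary of ES/N34 (`B : Subalgebra R F` a chart of the nodal model over the DVR `R = A ∩ K`,
`𝔪 : Ideal B` a closed point on both components, `O1 O2 : ValuationSubring F` the two Gauss valuation
rings with common uniformiser `π`).

* `GoodCoords π B 𝔪` : the OUTPUT of the termination brick (`ORD/NODE/Term0*`, lead):
  `x y ∈ 𝔪`, `𝔪 B_𝔪 = (π, x, y)`, `d0 * (x * y) = π ^ E * w` with `d0, w ∉ 𝔪` and `0 < E`.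
  (It is `NumData13.NodeCoords` with an exponent and a UNIT.)
* valuation-ring helpers for a `ValuationSubring` with uniformiser `p`: `PiMul`,
  `inv_mem_of_not_piMul`, `not_piMul_of_inv_mem`, `exists_zpow_mul_unit` (every `f ≠ 0` is
  `p ^ a * unit`).
* `HorInt π B 𝔪 ε` : `ε` is integral at every horizontal prime through `𝔪` (the hypothesis `hhor` of
  `NodalStart13.exists_den_of_horizontal`), with its closure properties; `HorUnit`.
-/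
import Mathlib
import Fermat.Agent.ES.N34.NodalStart13
import Fermat.Agent.ES.N34.NodalSmooth13
import Fermat.Agent.ES.N34.NodeCoords29

set_option autoImplicit false
set_option linter.unusedSectionVars false
set_option linter.unusedVariables false

namespace Fermat.Agent.ORD.NODE.GoodCoords4

open Fermat.Agent.ES.N34.NodalCore13 Fermat.Agent.ES.N34.NodalSmooth13
  Fermat.Agent.ES.N34.NodeCoords29

variable {R F : Type*} [CommRing R] [Field F] [Algebra R F]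

/-- **Good coordinates** at the closed point `𝔪` of the chart `B`: the output of TERMINATION. -/
def GoodCoords (π : R) (B : Subalgebra R F) (𝔪 : Ideal B) : Prop :=
  ∃ (E : ℕ) (x y w d0 : B), 0 < E ∧ x ∈ 𝔪 ∧ y ∈ 𝔪 ∧
    (∀ b ∈ 𝔪, ∃ d : B, d ∉ 𝔪 ∧ d * b ∈ Ideal.span {algebraMap R B π, x, y}) ∧
    d0 ∉ 𝔪 ∧ w ∉ 𝔪 ∧ d0 * (x * y) = algebraMap R B π ^ E * w

/-! ### a valuation ring with uniformiser `p` -/

section Val

variable (p : F) (O : ValuationSubring F)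

/-- `x ∈ p O`. -/
def PiMul (x : F) : Prop := ∃ c ∈ O, x = p * c

variable {p O}

theorem PiMul.mem (hp : p ∈ O) {x : F} (h : PiMul p O x) : x ∈ O := by
  obtain ⟨c, hc, rfl⟩ := h
  exact O.mul_mem _ _ hp hc

theorem piMul_zero : PiMul p O 0 := ⟨0, O.zero_mem, by simp⟩

theorem piMul_self : PiMul p O p := ⟨1, O.one_mem, by simp⟩

theorem PiMul.add {x y : F} (hx : PiMul p O x) (hy : PiMul p O y) : PiMul p O (x + y) := by
  obtain ⟨c, hc, rfl⟩ := hx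
  obtain ⟨c', hc', rfl⟩ := hy
  exact ⟨c + c', O.add_mem _ _ hc hc', by ring⟩

theorem PiMul.mul_left {x : F} (hx : PiMul p O x) {c : F} (hc : c ∈ O) : PiMul p O (c * x) := by
  obtain ⟨c', hc', rfl⟩ := hx
  exact ⟨c * c', O.mul_mem _ _ hc hc', by ring⟩

theorem PiMul.mul_right {x : F} (hx : PiMul p O x) {c : F} (hc : c ∈ O) : PiMul p O (x * c) := by
  rw [mul_comm]; exact hx.mul_left hc

theorem PiMul.neg {x : F} (hx : PiMul p O x) : PiMul p O (-x) := by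
  obtain ⟨c, hc, rfl⟩ := hx
  exact ⟨-c, O.neg_mem _ hc, by ring⟩

theorem PiMul.sub {x y : F} (hx : PiMul p O x) (hy : PiMul p O y) : PiMul p O (x - y) := by
  rw [sub_eq_add_neg]; exact hx.add hy.neg

/-- a nonzero element of `p O` is not a unit of `O`. -/
theorem not_piMul_of_inv_mem (hp0 : p ≠ 0) (hpn : p⁻¹ ∉ O) {x : F} (hx0 : x ≠ 0)
    (hx : x⁻¹ ∈ O) : ¬ PiMul p O x := by
  rintro ⟨c, hc, rfl⟩
  apply hpn
  have hc0 : c ≠ 0 := fun h => hx0 (by rw [h, mul_zero])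
  have : p⁻¹ = c * (p * c)⁻¹ := by field_simp
  rw [this]
  exact O.mul_mem _ _ hc hx

/-- an element of `O` outside `p O` is a unit of `O`. -/
theorem inv_mem_of_not_piMul (unif : ∀ x ∈ O, x⁻¹ ∉ O → ∃ c ∈ O, x = p * c) {x : F} (hx : x ∈ O)
    (h : ¬ PiMul p O x) : x⁻¹ ∈ O := by
  by_contra hn
  exact h (unif x hx hn)

/-- `p O` is a prime ideal of `O`, elementwise. -/
theorem piMul_or_of_mul (unif : ∀ x ∈ O, x⁻¹ ∉ O → ∃ c ∈ O, x = p * c) {x y : F} (hx : x ∈ O)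
    (hy : y ∈ O) (h : PiMul p O (x * y)) : PiMul p O x ∨ PiMul p O y := by
  by_cases hx' : PiMul p O x
  · exact Or.inl hx'
  · right
    have hxi := inv_mem_of_not_piMul unif hx hx'
    have hx0 : x ≠ 0 := fun h0 => hx' (h0 ▸ piMul_zero)
    have : y = x⁻¹ * (x * y) := by field_simp
    rw [this]
    exact h.mul_left hxi

theorem zpow_mem_of_nonneg (hp : p ∈ O) {a : ℤ} (ha : 0 ≤ a) : p ^ a ∈ O := by
  obtain ⟨n, rfl⟩ := Int.eq_ofNat_of_zero_le ha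
  rw [zpow_natCast]
  exact O.pow_mem hp n

/-- if `p ^ a ∈ O` then `0 ≤ a`. -/
theorem nonneg_of_zpow_mem (hp : p ∈ O) (hpn : p⁻¹ ∉ O) {a : ℤ} (h : p ^ a ∈ O) : 0 ≤ a := by
  by_contra hneg
  have hneg' : a < 0 := by omega
  obtain ⟨n, hn⟩ : ∃ n : ℕ, a = -(n + 1 : ℕ) := ⟨(-a - 1).toNat, by omega⟩
  apply hpn
  have h1 : p⁻¹ = p ^ a * p ^ n := by
    rw [hn, zpow_neg, zpow_natCast, pow_succ]
    rcases eq_or_ne p 0 with rfl | hp0
    · simp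
    · field_simp
  rw [h1]
  exact O.mul_mem _ _ h (O.pow_mem hp n)

/-- **discreteness**: every nonzero `f` is `p ^ (-a)` times a unit of `O`. -/
theorem exists_zpow_mul_unit (hp : p ∈ O) (hp0 : p ≠ 0) (hpn : p⁻¹ ∉ O)
    (unif : ∀ x ∈ O, x⁻¹ ∉ O → ∃ c ∈ O, x = p * c)
    (arch : ∀ x : F, ∃ k : ℕ, p ^ k * x ∈ O) {f : F} (hf : f ≠ 0) :
    ∃ a : ℤ, p ^ a * f ∈ O ∧ (p ^ a * f)⁻¹ ∈ O := by
  classical
  obtain ⟨l, hl⟩ := arch f⁻¹
  -- the set of `k : ℕ` with `p ^ (k - l) * f ∈ O` is nonempty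
  obtain ⟨k0, hk0⟩ := arch f
  have hex : ∃ k : ℕ, p ^ ((k : ℤ) - l) * f ∈ O := by
    refine ⟨k0 + l, ?_⟩
    have : ((k0 + l : ℕ) : ℤ) - l = k0 := by push_cast; ring
    rw [this, zpow_natCast]; exact hk0
  let k := Nat.find hex
  have hk : p ^ ((k : ℤ) - l) * f ∈ O := Nat.find_spec hex
  refine ⟨(k : ℤ) - l, hk, ?_⟩
  by_contra hn
  obtain ⟨c, hc, hcc⟩ := unif _ hk hn
  -- then `p ^ (k - 1 - l) * f = c ∈ O`; minimality forces `k = 0`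
  have hc' : p ^ ((k : ℤ) - 1 - l) * f = c := by
    have : p ^ ((k : ℤ) - l) = p * p ^ ((k : ℤ) - 1 - l) := by
      rw [← zpow_one_add₀ hp0]; congr 1; ring
    rw [this, mul_assoc] at hcc
    exact mul_left_cancel₀ hp0 hcc
  rcases Nat.eq_zero_or_pos k with hk0' | hkpos
  · -- `p ^ (-1 - l) * f ∈ O` and `p ^ l * f⁻¹ ∈ O` give `p⁻¹ ∈ O`
    apply hpn
    have : p⁻¹ = (p ^ ((k : ℤ) - 1 - l) * f) * (p ^ l * f⁻¹) := by
      rw [hk0']
      have h1 : p ^ (((0 : ℕ) : ℤ) - 1 - l) = p⁻¹ * (p ^ l)⁻¹ := by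
        have : ((0 : ℕ) : ℤ) - 1 - l = -1 + -(l : ℤ) := by push_cast; ring
        rw [this, zpow_add₀ hp0, zpow_neg, zpow_neg, zpow_one, zpow_natCast]
      rw [h1]
      field_simp
    rw [this, hc']
    exact O.mul_mem _ _ hc hl
  · have hlt : k - 1 < k := by omega
    have := Nat.find_min hex hlt
    apply this
    have h2 : ((k - 1 : ℕ) : ℤ) - l = (k : ℤ) - 1 - l := by
      rw [Nat.cast_sub hkpos]; push_cast; ring
    rw [h2, hc']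
    exact hc

end Val

/-! ### integrality at the horizontal primes through `𝔪` -/

section Hor

variable (π : R) (B : Subalgebra R F) (𝔪 : Ideal B)

/-- `ε` is integral at every nonzero horizontal prime `𝔭 ≤ 𝔪` of the chart (the hypothesis `hhor` of
`NodalStart13.exists_den_of_horizontal`). -/
def HorInt (ε : F) : Prop :=
  ∀ 𝔭 : Ideal B, 𝔭.IsPrime → 𝔭 ≠ ⊥ → 𝔭 ≤ 𝔪 → algebraMap R B π ∉ 𝔭 →
    ∃ a s : B, s ∉ 𝔭 ∧ ε * (s : F) = (a : F)

/-- `ε` is a unit at every nonzero horizontal prime through `𝔪`. -/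
def HorUnit (ε : F) : Prop := HorInt π B 𝔪 ε ∧ HorInt π B 𝔪 ε⁻¹

variable {π B 𝔪}

theorem horInt_of_mem {b : F} (hb : b ∈ B) : HorInt π B 𝔪 b := fun 𝔭 h𝔭 _ _ _ =>
  ⟨⟨b, hb⟩, 1, fun h1 => h𝔭.ne_top ((Ideal.eq_top_iff_one 𝔭).mpr h1), by simp⟩

theorem HorInt.mul {ε ε' : F} (h : HorInt π B 𝔪 ε) (h' : HorInt π B 𝔪 ε') :
    HorInt π B 𝔪 (ε * ε') := by
  intro 𝔭 h𝔭 h0 hle hπ
  obtain ⟨a, s, hs, e⟩ := h 𝔭 h𝔭 h0 hle hπ
  obtain ⟨a', s', hs', e'⟩ := h' 𝔭 h𝔭 h0 hle hπ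
  exact ⟨a * a', s * s', fun hh => (h𝔭.mem_or_mem hh).elim hs hs', by
    push_cast; rw [← e, ← e']; ring⟩

theorem HorInt.add {ε ε' : F} (h : HorInt π B 𝔪 ε) (h' : HorInt π B 𝔪 ε') :
    HorInt π B 𝔪 (ε + ε') := by
  intro 𝔭 h𝔭 h0 hle hπ
  obtain ⟨a, s, hs, e⟩ := h 𝔭 h𝔭 h0 hle hπ
  obtain ⟨a', s', hs', e'⟩ := h' 𝔭 h𝔭 h0 hle hπ
  exact ⟨a * s' + a' * s, s * s', fun hh => (h𝔭.mem_or_mem hh).elim hs hs', by
    push_cast; rw [← e, ← e']; ring⟩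

theorem HorInt.pow {ε : F} (h : HorInt π B 𝔪 ε) (n : ℕ) : HorInt π B 𝔪 (ε ^ n) := by
  induction n with
  | zero => rw [pow_zero]; exact horInt_of_mem B.one_mem
  | succ n ih => rw [pow_succ]; exact ih.mul h

/-- an element of the chart which lies in no horizontal prime through `𝔪` is a horizontal unit. -/
theorem horUnit_of_mem {b : F} (hb : b ∈ B) (hb0 : b ≠ 0)
    (hnot : ∀ 𝔭 : Ideal B, 𝔭.IsPrime → 𝔭 ≠ ⊥ → 𝔭 ≤ 𝔪 → algebraMap R B π ∉ 𝔭 →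
      (⟨b, hb⟩ : B) ∉ 𝔭) : HorUnit π B 𝔪 b :=
  ⟨horInt_of_mem hb, fun 𝔭 h𝔭 h0 hle hπ =>
    ⟨1, ⟨b, hb⟩, hnot 𝔭 h𝔭 h0 hle hπ, by simp [inv_mul_cancel₀ hb0]⟩⟩

theorem horUnit_pi (hp0 : algebraMap R F π ≠ 0) : HorUnit π B 𝔪 (algebraMap R F π) :=
  horUnit_of_mem (B.algebraMap_mem π) hp0 fun 𝔭 _ _ _ hπ => hπ

theorem HorUnit.inv {ε : F} (h : HorUnit π B 𝔪 ε) : HorUnit π B 𝔪 ε⁻¹ :=
  ⟨h.2, by rw [inv_inv]; exact h.1⟩

theorem HorUnit.mul {ε ε' : F} (h : HorUnit π B 𝔪 ε) (h' : HorUnit π B 𝔪 ε') :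
    HorUnit π B 𝔪 (ε * ε') :=
  ⟨h.1.mul h'.1, by rw [mul_inv]; exact h.2.mul h'.2⟩

theorem HorUnit.pow {ε : F} (h : HorUnit π B 𝔪 ε) (n : ℕ) : HorUnit π B 𝔪 (ε ^ n) :=
  ⟨h.1.pow n, by rw [← inv_pow]; exact h.2.pow n⟩

theorem HorUnit.zpow {ε : F} (h : HorUnit π B 𝔪 ε) (n : ℤ) : HorUnit π B 𝔪 (ε ^ n) := by
  rcases Int.eq_nat_or_neg n with ⟨k, rfl | rfl⟩
  · rw [zpow_natCast]; exact h.pow k
  · rw [zpow_neg, zpow_natCast]; exact (h.pow k).inv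

end Hor

end Fermat.Agent.ORD.NODE.GoodCoords4
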