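/-
Programme ORD (S33), chapter NODE = O6c (helper4): **the local ring of a node with good coordinates**
(finite level, vocabulary of ES/N34).

* `NodeSetup π B O1 O2 𝔪` : the fields of `NodalCore13.NodalTwoChartModel` / `NumData13.NodalNumData`
  used here, for ONE chart `B` and a closed point `𝔪` on BOTH components (`on1`, `on2`).
* `IsGood π B O1 O2 𝔪 E x y w d0` : LABELLED good coordinates (`x ∈ π O2 ∖ π O1`, `y ∈ π O1 ∖ π O2`,
  `𝔪 B_𝔪 = (π, x, y)`, `d0 * (x * y) = π ^ E * w`, `d0, w ∉ 𝔪`).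
* `A := locSub B 𝔪 ⊆ O1 ⊓ O2`; HARTOGS `mem_locSub_of_horInt`; the vertical prime `q1 = A ∩ π O1`;
  `maximalIdeal A = (π, x, y)`.
* `branch_decomp` : **the branch `A / q1` is a DVR with uniformiser `x`**: every `g ∈ A ∖ q1` is
  `x ^ n * v` modulo `q1` with `v` a unit of `A`.
-/
import Mathlib
import Fermat.Agent.ORD.NODE.GoodCoords4

set_option autoImplicit false
set_option linter.unusedSectionVars false
set_option linter.unusedVariables false
set_option linter.style.haveILetI false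

namespace Fermat.Agent.ORD.NODE.NodeLocal4

open Fermat.Agent.ES.N34.NodalCore13 Fermat.Agent.ES.N34.NodalSmooth13
  Fermat.Agent.ES.N34.NodalStart13 Fermat.Agent.ES.N34.NodeCoords29
  Fermat.Agent.ORD.NODE.GoodCoords4 IsLocalRing

variable {R F : Type*} [CommRing R] [Field F] [Algebra R F]

/-- The model hypotheses at a closed point `𝔪` of the chart `B` lying on both components. -/
structure NodeSetup (π : R) (B : Subalgebra R F) (O1 O2 : ValuationSubring F) (𝔪 : Ideal B) :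
    Prop where
  noeth : IsNoetherianRing B
  leO1 : ∀ x ∈ B, x ∈ O1
  leO2 : ∀ x ∈ B, x ∈ O2
  pi_ne : algebraMap R F π ≠ 0
  pi_nonunit1 : (algebraMap R F π)⁻¹ ∉ O1
  pi_nonunit2 : (algebraMap R F π)⁻¹ ∉ O2
  unif1 : ∀ x ∈ O1, x⁻¹ ∉ O1 → ∃ c ∈ O1, x = algebraMap R F π * c
  unif2 : ∀ x ∈ O2, x⁻¹ ∉ O2 → ∃ c ∈ O2, x = algebraMap R F π * c
  arch1 : ∀ x : F, ∃ k : ℕ, algebraMap R F π ^ k * x ∈ O1
  arch2 : ∀ x : F, ∃ k : ℕ, algebraMap R F π ^ k * x ∈ O2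
  sat : ∀ b ∈ B, ∀ c : F, c ∈ O1 → c ∈ O2 → b = algebraMap R F π * c → c ∈ B
  frac : ∀ x : F, ∃ a ∈ B, ∃ b ∈ B, b ≠ 0 ∧ x * b = a
  on1 : ∀ b : B, PiMul (algebraMap R F π) O1 (b : F) → b ∈ 𝔪
  on2 : ∀ b : B, PiMul (algebraMap R F π) O2 (b : F) → b ∈ 𝔪

/-- LABELLED good coordinates at `𝔪`. -/
structure IsGood (π : R) (B : Subalgebra R F) (O1 O2 : ValuationSubring F) (𝔪 : Ideal B)
    (E : ℕ) (x y w d0 : B) : Prop where
  E_pos : 0 < E
  x_mem : x ∈ 𝔪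
  y_mem : y ∈ 𝔪
  gen : ∀ b ∈ 𝔪, ∃ d : B, d ∉ 𝔪 ∧ d * b ∈ Ideal.span {algebraMap R B π, x, y}
  d0_notMem : d0 ∉ 𝔪
  w_notMem : w ∉ 𝔪
  mul : d0 * (x * y) = algebraMap R B π ^ E * w
  x_two : PiMul (algebraMap R F π) O2 (x : F)
  y_one : PiMul (algebraMap R F π) O1 (y : F)
  x_one : ¬ PiMul (algebraMap R F π) O1 (x : F)
  y_two : ¬ PiMul (algebraMap R F π) O2 (y : F)

section Setup

variable {π : R} {B : Subalgebra R F} {O1 O2 : ValuationSubring F} {𝔪 : Ideal B}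
  [h𝔪 : 𝔪.IsPrime] (S : NodeSetup π B O1 O2 𝔪)

include S

theorem NodeSetup.pi_mem1 : algebraMap R F π ∈ O1 := S.leO1 _ (B.algebraMap_mem π)

theorem NodeSetup.pi_mem2 : algebraMap R F π ∈ O2 := S.leO2 _ (B.algebraMap_mem π)

/-- elements of `B ∖ 𝔪` are units of `O1`. -/
theorem NodeSetup.inv_mem1 {d : B} (hd : d ∉ 𝔪) : ((d : F))⁻¹ ∈ O1 :=
  inv_mem_of_not_piMul S.unif1 (S.leO1 _ d.2) fun h => hd (S.on1 d h)

/-- elements of `B ∖ 𝔪` are units of `O2`. -/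
theorem NodeSetup.inv_mem2 {d : B} (hd : d ∉ 𝔪) : ((d : F))⁻¹ ∈ O2 :=
  inv_mem_of_not_piMul S.unif2 (S.leO2 _ d.2) fun h => hd (S.on2 d h)

theorem NodeSetup.locSub_le1 {z : F} (hz : z ∈ locSub B 𝔪) : z ∈ O1 := by
  obtain ⟨a, d, hd, h⟩ := hz
  have hd0 : (d : F) ≠ 0 := coe_ne_zero_of_notMem B 𝔪 hd
  have : z = (a : F) * ((d : F))⁻¹ := by rw [← h]; field_simp
  rw [this]
  exact O1.mul_mem _ _ (S.leO1 _ a.2) (S.inv_mem1 hd)

theorem NodeSetup.locSub_le2 {z : F} (hz : z ∈ locSub B 𝔪) : z ∈ O2 := by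
  obtain ⟨a, d, hd, h⟩ := hz
  have hd0 : (d : F) ≠ 0 := coe_ne_zero_of_notMem B 𝔪 hd
  have : z = (a : F) * ((d : F))⁻¹ := by rw [← h]; field_simp
  rw [this]
  exact O2.mul_mem _ _ (S.leO2 _ a.2) (S.inv_mem2 hd)

/-- **HARTOGS at the node** (`NodalStart13.exists_den_of_horizontal`). -/
theorem NodeSetup.mem_locSub_of_horInt {ε : F} (h1 : ε ∈ O1) (h2 : ε ∈ O2)
    (hhor : HorInt π B 𝔪 ε) : ε ∈ locSub B 𝔪 :=
  exists_den_of_horizontal π B O1 O2 S.leO1 S.leO2 S.arch1 S.arch2 S.sat S.frac 𝔪 ε hhor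
    (Or.inl h1) (Or.inl h2)

end Setup

/-- membership in an ideal generated by three elements. -/
theorem mem_span_triple {T : Type*} [CommRing T] {a b c z : T} :
    z ∈ Ideal.span ({a, b, c} : Set T) ↔ ∃ α β γ : T, z = α * a + β * b + γ * c := by
  constructor
  · intro h
    obtain ⟨α, u, hu, rfl⟩ := Ideal.mem_span_insert.mp h
    obtain ⟨β, v, hv, rfl⟩ := Ideal.mem_span_insert.mp hu
    obtain ⟨γ, rfl⟩ := Ideal.mem_span_singleton'.mp hv
    exact ⟨α, β, γ, by ring⟩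
  · rintro ⟨α, β, γ, rfl⟩
    refine Ideal.add_mem _ (Ideal.add_mem _ ?_ ?_) ?_
    · exact Ideal.mul_mem_left _ _ (Ideal.subset_span (by simp))
    · exact Ideal.mul_mem_left _ _ (Ideal.subset_span (by simp))
    · exact Ideal.mul_mem_left _ _ (Ideal.subset_span (by simp))

section Local

variable {π : R} {B : Subalgebra R F} {O1 O2 : ValuationSubring F} {𝔪 : Ideal B}
  [h𝔪 : 𝔪.IsPrime] (S : NodeSetup π B O1 O2 𝔪)

/-- the vertical ideal `A ∩ π O1` of `A = B_𝔪`. -/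
def q1 : Ideal ↥(locSub B 𝔪) := vert π (locSub B 𝔪) O1 fun _ hz => S.locSub_le1 hz

/-- the vertical ideal `A ∩ π O2` of `A = B_𝔪`. -/
def q2 : Ideal ↥(locSub B 𝔪) := vert π (locSub B 𝔪) O2 fun _ hz => S.locSub_le2 hz

theorem mem_q1 {z : ↥(locSub B 𝔪)} : z ∈ q1 S ↔ PiMul (algebraMap R F π) O1 (z : F) := Iff.rfl

theorem mem_q2 {z : ↥(locSub B 𝔪)} : z ∈ q2 S ↔ PiMul (algebraMap R F π) O2 (z : F) := Iff.rfl

instance isDomain_locSub : IsDomain ↥(locSub B 𝔪) := inferInstance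

include S in
theorem isNoetherianRing_locSub : IsNoetherianRing ↥(locSub B 𝔪) :=
  IsLocalization.isNoetherianRing 𝔪.primeCompl _ S.noeth

theorem q1_isPrime : (q1 S).IsPrime := by
  refine ⟨?_, ?_⟩
  · intro htop
    have h1 : (1 : ↥(locSub B 𝔪)) ∈ q1 S := by rw [htop]; trivial
    rw [mem_q1] at h1
    exact not_piMul_of_inv_mem S.pi_ne S.pi_nonunit1 one_ne_zero (by simp [O1.one_mem]) h1
  · intro a b hab
    rw [mem_q1] at hab ⊢
    rw [mem_q1]
    exact piMul_or_of_mul S.unif1 (S.locSub_le1 a.2) (S.locSub_le1 b.2) (by simpa using hab)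

theorem q2_isPrime : (q2 S).IsPrime := by
  refine ⟨?_, ?_⟩
  · intro htop
    have h1 : (1 : ↥(locSub B 𝔪)) ∈ q2 S := by rw [htop]; trivial
    rw [mem_q2] at h1
    exact not_piMul_of_inv_mem S.pi_ne S.pi_nonunit2 one_ne_zero (by simp [O2.one_mem]) h1
  · intro a b hab
    rw [mem_q2] at hab ⊢
    rw [mem_q2]
    exact piMul_or_of_mul S.unif2 (S.locSub_le2 a.2) (S.locSub_le2 b.2) (by simpa using hab)

/-- units of `A` are not in `q1`. -/
theorem notMem_q1_of_isUnit {z : ↥(locSub B 𝔪)} (hz : IsUnit z) : z ∉ q1 S := by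
  intro h
  haveI := q1_isPrime S
  exact (q1_isPrime S).ne_top (Ideal.eq_top_of_isUnit_mem _ h hz)

theorem q1_le_maximalIdeal : q1 S ≤ maximalIdeal ↥(locSub B 𝔪) :=
  le_maximalIdeal (q1_isPrime S).ne_top

theorem q2_le_maximalIdeal : q2 S ≤ maximalIdeal ↥(locSub B 𝔪) :=
  le_maximalIdeal (q2_isPrime S).ne_top

end Local

section Good

variable {π : R} {B : Subalgebra R F} {O1 O2 : ValuationSubring F} {𝔪 : Ideal B}
  [h𝔪 : 𝔪.IsPrime] (S : NodeSetup π B O1 O2 𝔪)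
  {E : ℕ} {x y w d0 : B} (G : IsGood π B O1 O2 𝔪 E x y w d0)

/-- `π` as an element of `A`. -/
def pA (π : R) (B : Subalgebra R F) (𝔪 : Ideal B) [𝔪.IsPrime] : ↥(locSub B 𝔪) :=
  algebraMap R ↥(locSub B 𝔪) π

/-- an element of the chart as an element of `A`. -/
def toA (b : B) : ↥(locSub B 𝔪) := algebraMap ↥B ↥(locSub B 𝔪) b

@[simp] theorem coe_pA : ((pA π B 𝔪 : ↥(locSub B 𝔪)) : F) = algebraMap R F π := rfl

@[simp] theorem coe_toA (b : B) : ((toA b : ↥(locSub B 𝔪)) : F) = (b : F) := rfl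

include G in
/-- `𝔪 A = (π, x, y)`. -/
theorem maximalIdeal_le :
    maximalIdeal ↥(locSub B 𝔪) ≤ Ideal.span {pA π B 𝔪, toA x, toA y} := by
  intro z hz
  have hzu : ¬ IsUnit z := (mem_maximalIdeal z).mp hz
  obtain ⟨a, d, hd, h⟩ := z.2
  have ha : a ∈ 𝔪 := num_mem_of_not_isUnit B 𝔪 hzu hd h
  obtain ⟨d', hd', hmem⟩ := G.gen a ha
  obtain ⟨α, β, γ, hαβγ⟩ := mem_span_triple.mp hmem
  have hdd' : d * d' ∉ 𝔪 := fun hh => (h𝔪.mem_or_mem hh).elim hd hd'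
  let u : ↥(locSub B 𝔪) := ⟨((d * d' : B) : F)⁻¹, inv_mem_locSub B 𝔪 hdd'⟩
  have hz' : z = u * toA α * pA π B 𝔪 + u * toA β * toA x + u * toA γ * toA y := by
    apply Subtype.ext
    have hd0 : (d : F) ≠ 0 := coe_ne_zero_of_notMem B 𝔪 hd
    have hd'0 : (d' : F) ≠ 0 := coe_ne_zero_of_notMem B 𝔪 hd'
    have h1 : (d' : F) * (a : F) = (α : F) * algebraMap R F π + (β : F) * (x : F)
        + (γ : F) * (y : F) := by
      have := congrArg (fun b : B => (b : F)) hαβγ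
      simpa using this
    show (z : F) = ((d * d' : B) : F)⁻¹ * (α : F) * algebraMap R F π
      + ((d * d' : B) : F)⁻¹ * (β : F) * (x : F) + ((d * d' : B) : F)⁻¹ * (γ : F) * (y : F)
    have h2 : (z : F) = (a : F) * (d : F)⁻¹ := by rw [← h]; field_simp
    rw [h2]
    push_cast
    field_simp
    linear_combination h1
  rw [hz']
  exact mem_span_triple.mpr ⟨_, _, _, rfl⟩

theorem pA_mem_q1 : pA π B 𝔪 ∈ q1 S := (mem_q1 S).mpr piMul_self

theorem pA_mem_q2 : pA π B 𝔪 ∈ q2 S := (mem_q2 S).mpr piMul_self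

include G in
theorem y_mem_q1 : (toA y : ↥(locSub B 𝔪)) ∈ q1 S := (mem_q1 S).mpr G.y_one

include G in
theorem x_mem_q2 : (toA x : ↥(locSub B 𝔪)) ∈ q2 S := (mem_q2 S).mpr G.x_two

include G in
theorem x_notMem_q1 : (toA x : ↥(locSub B 𝔪)) ∉ q1 S := fun h => G.x_one ((mem_q1 S).mp h)

include G in
theorem y_notMem_q2 : (toA y : ↥(locSub B 𝔪)) ∉ q2 S := fun h => G.y_two ((mem_q2 S).mp h)

include G in
theorem x_mem_maximalIdeal : (toA x : ↥(locSub B 𝔪)) ∈ maximalIdeal ↥(locSub B 𝔪) :=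
  (mem_maximalIdeal _).mpr (not_isUnit_of_mem B 𝔪 G.x_mem)

include G in
/-- **The branch `A / q1` is a DVR with uniformiser `x`.** -/
theorem branch_decomp (g : ↥(locSub B 𝔪)) (hg : g ∉ q1 S) :
    ∃ (n : ℕ) (v : ↥(locSub B 𝔪)), IsUnit v ∧ g - toA x ^ n * v ∈ q1 S := by
  haveI := q1_isPrime S
  haveI := isNoetherianRing_locSub S
  set 𝔮 := q1 S with h𝔮
  let D := ↥(locSub B 𝔪) ⧸ 𝔮
  let mk : ↥(locSub B 𝔪) →+* D := Ideal.Quotient.mk 𝔮
  have hmk : Function.Surjective mk := Ideal.Quotient.mk_surjective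
  haveI : IsDomain D := Ideal.Quotient.isDomain 𝔮
  haveI : Nontrivial D := Ideal.Quotient.nontrivial_iff.mpr (q1_isPrime S).ne_top
  haveI : IsLocalRing D := IsLocalRing.of_surjective' mk hmk
  have hp0 : mk (pA π B 𝔪) = 0 := Ideal.Quotient.eq_zero_iff_mem.mpr (pA_mem_q1 S)
  have hy0 : mk (toA y) = 0 := Ideal.Quotient.eq_zero_iff_mem.mpr (y_mem_q1 S G)
  -- nonunits of `A` map into `(x̄)`
  have hnon : ∀ a : ↥(locSub B 𝔪), ¬ IsUnit a → mk a ∈ Ideal.span {mk (toA x)} := by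
    intro a ha
    have ham : a ∈ maximalIdeal ↥(locSub B 𝔪) := (mem_maximalIdeal a).mpr ha
    obtain ⟨α, β, γ, rfl⟩ := mem_span_triple.mp (maximalIdeal_le G ham)
    rw [map_add, map_add, map_mul, map_mul, map_mul, hp0, hy0, mul_zero, mul_zero, add_zero,
      zero_add]
    exact Ideal.mul_mem_left _ _ (Ideal.subset_span rfl)
  have hxnu : ¬ IsUnit (mk (toA x)) := by
    intro hu
    obtain ⟨b', hb'⟩ := hu.exists_right_inv
    obtain ⟨b, rfl⟩ := hmk b'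
    rw [← map_mul, ← map_one mk] at hb'
    have h1 : toA x * b - 1 ∈ 𝔮 := by
      rw [← Ideal.Quotient.eq_zero_iff_mem, map_sub, hb', sub_self]
    have h2 : toA x * b - 1 ∈ maximalIdeal ↥(locSub B 𝔪) := q1_le_maximalIdeal S h1
    have h3 : toA x * b ∈ maximalIdeal ↥(locSub B 𝔪) :=
      Ideal.mul_mem_right _ _ (x_mem_maximalIdeal G)
    have h4 : (1 : ↥(locSub B 𝔪)) ∈ maximalIdeal ↥(locSub B 𝔪) := by
      have h5 := Ideal.sub_mem _ h3 h2
      have h6 : toA x * b - (toA x * b - 1) = (1 : ↥(locSub B 𝔪)) := by ring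
      rw [h6] at h5
      exact h5
    exact (mem_maximalIdeal _).mp h4 isUnit_one
  have hmax : maximalIdeal D = Ideal.span {mk (toA x)} := by
    apply le_antisymm
    · intro d hd
      obtain ⟨a, rfl⟩ := hmk d
      apply hnon a
      intro hau
      exact (mem_maximalIdeal _).mp hd (hau.map mk)
    · rw [Ideal.span_le, Set.singleton_subset_iff]
      exact (mem_maximalIdeal _).mpr hxnu
  have hprin : (maximalIdeal D).IsPrincipal := ⟨⟨mk (toA x), hmax⟩⟩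
  have hg0 : mk g ≠ 0 := fun h => hg (Ideal.Quotient.eq_zero_iff_mem.mp h)
  have hgI : Ideal.span {mk g} ≠ ⊥ := by
    rw [Ne, Ideal.span_singleton_eq_bot]; exact hg0
  obtain ⟨n, hn⟩ := exists_maximalIdeal_pow_eq_of_principal D hprin (Ideal.span {mk g}) hgI
  rw [hmax, Ideal.span_singleton_pow, Ideal.span_singleton_eq_span_singleton] at hn
  obtain ⟨u, hu⟩ := hn.symm
  obtain ⟨v, hv⟩ := hmk (u : D)
  refine ⟨n, v, ?_, ?_⟩
  · by_contra hvn
    have h1 := hnon v hvn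
    rw [← hmax, hv] at h1
    exact (mem_maximalIdeal _).mp h1 u.isUnit
  · rw [← Ideal.Quotient.eq_zero_iff_mem]
    show mk (g - toA x ^ n * v) = 0
    rw [map_sub, map_mul, map_pow, hv, hu, sub_self]

end Good

end Fermat.Agent.ORD.NODE.NodeLocal4
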