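/-
PROGRAMME ORD (S33), chapter NODE = O6c (helper2): **labelled good coordinates at ONE finite level
from N34's unlabelled node coordinates.**

`B ⊆ F` a noetherian chart, `O1 O2` the two Gauss valuation rings (uniformiser `π`), `𝔪` a maximal
ideal of `B` on both components: lead's `GoodChart0.NodeHyp π B O1 O2 𝔪`.  N34 gives UNLABELLED
coordinates `NumData13.NodeCoords π B 𝔪` (`x y ∈ 𝔪`, `d (x y) = π e`, `𝔪 B_𝔪 = (π, x, y)`).

* `labelled` : if the two components are distinct at the level (a SEPARATOR `e ∈ B`, `e ∈ π O2`,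
  `e ∉ π O1`), then after swapping `x ↔ y` if necessary: `x ∈ π O2`, `y ∈ π O1`.  (The bad case
  `x ∈ π O1 ∩ π O2 = π B` gives `𝔪 B_𝔪 = (π, y)`, hence `𝔭₂ B_𝔪 = π B_𝔪` by Nakayama, hence
  `e ∈ π O1`.)
* `isGood` : with (S) `π ^ N ∈ derIdeal R B_𝔪` (lead's `SmoothChart0.exists_pow_mem_derIdeal`),
  `GoodChart0.goodCoords` and `NodeHyp.ne1/ne2`:
  `∃ E x y w d0, NodeLocal4.IsGood π B O1 O2 𝔪 E x y w d0`
  (the field `good` of helper4's `NodeLevelAt4.NodeLevelAt`).
-/
import Mathlib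
import Fermat.Agent.ORD.NODE.GoodChart0
import Fermat.Agent.ORD.NODE.NodeLocal4
import Fermat.Agent.ES.N34.NumData13

set_option autoImplicit false
set_option linter.unusedSectionVars false
set_option linter.unusedVariables false
set_option linter.style.longLine false
set_option linter.style.haveILetI false

namespace Fermat.Agent.ORD.NODE.GoodAt2

open IsLocalRing Fermat.Agent.ES.N34.NodalSmooth13 Fermat.Agent.ES.N34.NumData13
  Fermat.Agent.ORD.NODE.Term0 Fermat.Agent.ORD.NODE.GoodChart0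
  Fermat.Agent.ORD.NODE.GoodCoords4 Fermat.Agent.ORD.NODE.NodeLocal4

variable {R F : Type*} [CommRing R] [Field F] [Algebra R F]
variable {π : R} {B : Subalgebra R F} {O1 O2 : ValuationSubring F} {𝔪 : Ideal B}
  [h𝔪 : 𝔪.IsPrime]

/-! ### valuations on the chart -/

theorem val1_lt_iff (H : NodeHyp π B O1 O2 𝔪) (z : F) :
    O1.valuation z < 1 ↔ PiMul (algebraMap R F π) O1 z :=
  val_lt_one_iff π O1 H.pi_ne H.pi_nonunit1 H.unif1 z

theorem val2_lt_iff (H : NodeHyp π B O1 O2 𝔪) (z : F) :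
    O2.valuation z < 1 ↔ PiMul (algebraMap R F π) O2 z :=
  val_lt_one_iff π O2 H.pi_ne H.pi_nonunit2 H.unif2 z

theorem val1_le (H : NodeHyp π B O1 O2 𝔪) (b : B) : O1.valuation (b : F) ≤ 1 :=
  (O1.valuation_le_one_iff _).mpr (H.leO1 _ b.2)

theorem val1_pi (H : NodeHyp π B O1 O2 𝔪) : O1.valuation (algebraMap R F π) < 1 :=
  (val1_lt_iff H _).mpr ⟨1, O1.one_mem, by rw [mul_one]⟩

/-- an element of the ideal `(π, x, y)` with `x, y ∈ π O1` lies in `π O1`. -/
theorem val1_lt_of_mem_span (H : NodeHyp π B O1 O2 𝔪) {x y z : B}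
    (hx : O1.valuation (x : F) < 1) (hy : O1.valuation (y : F) < 1)
    (hz : z ∈ Ideal.span {algebraMap R B π, x, y}) : O1.valuation (z : F) < 1 := by
  obtain ⟨α, β, γ, rfl⟩ := mem_span_triple.mp hz
  have h1 : O1.valuation ((α * algebraMap R B π : B) : F) < 1 := by
    rw [Subalgebra.coe_mul, map_mul]
    calc O1.valuation (α : F) * O1.valuation ((algebraMap R B π : B) : F)
        ≤ 1 * O1.valuation ((algebraMap R B π : B) : F) := mul_le_mul_left (val1_le H α) _
      _ = O1.valuation (algebraMap R F π) := by rw [one_mul]; rfl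
      _ < 1 := val1_pi H
  have h2 : O1.valuation ((β * x : B) : F) < 1 := by
    rw [Subalgebra.coe_mul, map_mul]
    calc O1.valuation (β : F) * O1.valuation (x : F)
        ≤ 1 * O1.valuation (x : F) := mul_le_mul_left (val1_le H β) _
      _ = O1.valuation (x : F) := one_mul _
      _ < 1 := hx
  have h3 : O1.valuation ((γ * y : B) : F) < 1 := by
    rw [Subalgebra.coe_mul, map_mul]
    calc O1.valuation (γ : F) * O1.valuation (y : F)
        ≤ 1 * O1.valuation (y : F) := mul_le_mul_left (val1_le H γ) _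
      _ = O1.valuation (y : F) := one_mul _
      _ < 1 := hy
  rw [Subalgebra.coe_add, Subalgebra.coe_add]
  exact lt_of_le_of_lt (Valuation.map_add _ _ _)
    (max_lt (lt_of_le_of_lt (Valuation.map_add _ _ _) (max_lt h1 h2)) h3)

/-- denominators do not change the valuation. -/
theorem val1_den_mul (H : NodeHyp π B O1 O2 𝔪) {d : B} (hd : d ∉ 𝔪) (z : B) :
    O1.valuation ((d * z : B) : F) = O1.valuation (z : F) := by
  rw [Subalgebra.coe_mul, map_mul, H.val_den hd, one_mul]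

/-- **if `𝔪 B_𝔪 = (π, x, y)` then `x` and `y` do not both lie in `π O1`** (`𝔪 ≠ 𝔭₁`). -/
theorem not_both (H : NodeHyp π B O1 O2 𝔪) {x y : B}
    (hgen : ∀ b ∈ 𝔪, ∃ d : B, d ∉ 𝔪 ∧ d * b ∈ Ideal.span {algebraMap R B π, x, y})
    (hx : O1.valuation (x : F) < 1) (hy : O1.valuation (y : F) < 1) : False := by
  obtain ⟨z, hz, hzn⟩ := H.ne1
  obtain ⟨d, hd, hdz⟩ := hgen z hz
  have h1 := val1_lt_of_mem_span H hx hy hdz
  rw [val1_den_mul H hd] at h1
  exact hzn ((val1_lt_iff H _).mp h1)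

/-- from `d (x y) = π e`: one of `x, y` lies in `π O1`. -/
theorem lt_or_lt_of_mul (H : NodeHyp π B O1 O2 𝔪) {x y d e : B} (hd : d ∉ 𝔪)
    (hmul : d * (x * y) = algebraMap R B π * e) :
    O1.valuation (x : F) < 1 ∨ O1.valuation (y : F) < 1 := by
  by_contra hcon
  rw [not_or, not_lt, not_lt] at hcon
  have hx1 : O1.valuation (x : F) = 1 := le_antisymm (val1_le H x) hcon.1
  have hy1 : O1.valuation (y : F) = 1 := le_antisymm (val1_le H y) hcon.2
  have h1 := congrArg (fun b : B => O1.valuation (b : F)) hmul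
  simp only [Subalgebra.coe_mul, map_mul, hx1, hy1, H.val_den hd, mul_one] at h1
  have h2 : O1.valuation ((algebraMap R B π : B) : F) * O1.valuation (e : F) < 1 := by
    calc O1.valuation ((algebraMap R B π : B) : F) * O1.valuation (e : F)
        ≤ O1.valuation ((algebraMap R B π : B) : F) * 1 := mul_le_mul_right (val1_le H e) _
      _ = O1.valuation (algebraMap R F π) := by rw [mul_one]; rfl
      _ < 1 := val1_pi H
  rw [← h1] at h2
  exact lt_irrefl _ h2

/-! ### the bad case -/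

/-- **The bad case is impossible**: if `𝔪 B_𝔪 = (π, x, y)` with `x ∈ π O1 ∩ π O2`, then every
`e ∈ B ∩ π O2` lies in `π O1` (Nakayama: `𝔭₂ B_𝔪 = π B_𝔪`). -/
theorem val1_lt_of_bad [hnoe : IsNoetherianRing B] (H : NodeHyp π B O1 O2 𝔪) {x y : B}
    (hgen : ∀ b ∈ 𝔪, ∃ d : B, d ∉ 𝔪 ∧ d * b ∈ Ideal.span {algebraMap R B π, x, y})
    (hy : y ∈ 𝔪)
    (hx1 : O1.valuation (x : F) < 1) (hx2 : O2.valuation (x : F) < 1)
    (e : B) (he : O2.valuation (e : F) < 1) : O1.valuation (e : F) < 1 := by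
  haveI : IsNoetherianRing ↥(locSub B 𝔪) :=
    IsLocalization.isNoetherianRing 𝔪.primeCompl ↥(locSub B 𝔪) hnoe
  -- `v₂ y = 1`
  have hy2 : O2.valuation (y : F) = 1 := by
    refine le_antisymm (val1_le H.symm y) (not_lt.mp fun hlt => ?_)
    exact not_both H.symm (x := x) (y := y) hgen hx2 hlt
  -- `x = π x'`
  obtain ⟨c1, hc1, hxc1⟩ := (val1_lt_iff H _).mp hx1
  obtain ⟨c2, hc2, hxc2⟩ := (val2_lt_iff H _).mp hx2
  have hc12 : c1 = c2 := by
    apply mul_left_cancel₀ H.pi_ne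
    rw [← hxc1, ← hxc2]
  have hc1B : c1 ∈ B := H.sat (x : F) x.2 c1 hc1 (hc12 ▸ hc2) hxc1
  set x' : B := ⟨c1, hc1B⟩ with hx'
  have hxx' : x = algebraMap R B π * x' := Subtype.ext hxc1
  -- Nakayama
  set A := ↥(locSub B 𝔪) with hA
  set M : Ideal A := vertLoc H.symm with hM
  set N : Ideal A := Ideal.span {algebraMap R A π} with hN
  have hMfg : (M : Submodule A A).FG := (isNoetherianRing_iff_ideal_fg A).mp inferInstance M
  have hjac : maximalIdeal A ≤ Ideal.jacobson ⊥ := IsLocalRing.maximalIdeal_le_jacobson ⊥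
  have hle : M ≤ N ⊔ maximalIdeal A • M := by
    intro a ha
    rw [hM, mem_vertLoc] at ha
    obtain ⟨b, d, hd, hbd⟩ := a.2
    have hb2 : O2.valuation (b : F) < 1 := by
      rw [← H.symm.val_loc hd hbd]; exact ha
    have hb𝔪 : b ∈ 𝔪 := H.hon2 b ((val2_lt_iff H _).mp hb2)
    obtain ⟨d', hd', hspan⟩ := hgen b hb𝔪
    obtain ⟨α, β, γ, hαβγ⟩ := mem_span_triple.mp hspan
    -- `v₂ γ < 1`
    have hγy : (γ * y : B) = d' * b - (α + β * x') * algebraMap R B π := by
      rw [hαβγ, hxx']; ring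
    have hγ2 : O2.valuation (γ : F) < 1 := by
      have h1 : O2.valuation ((γ * y : B) : F) < 1 := by
        rw [hγy, Subalgebra.coe_sub]
        refine lt_of_le_of_lt (Valuation.map_sub _ _ _) (max_lt ?_ ?_)
        · rw [val1_den_mul H.symm hd']; exact hb2
        · rw [Subalgebra.coe_mul, map_mul]
          calc O2.valuation ((α + β * x' : B) : F) * O2.valuation ((algebraMap R B π : B) : F)
              ≤ 1 * O2.valuation ((algebraMap R B π : B) : F) :=
                mul_le_mul_left (val1_le H.symm _) _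
            _ = O2.valuation (algebraMap R F π) := by rw [one_mul]; rfl
            _ < 1 := val1_pi H.symm
      rwa [Subalgebra.coe_mul, map_mul, hy2, mul_one] at h1
    -- the decomposition `a = u π + y g`
    have hdF : (d : F) ≠ 0 := coe_ne_zero_of_notMem B 𝔪 hd
    have hd'F : (d' : F) ≠ 0 := coe_ne_zero_of_notMem B 𝔪 hd'
    have hinv : ((d : F) * (d' : F))⁻¹ ∈ locSub B 𝔪 := by
      rw [mul_inv]
      exact (locSub B 𝔪).mul_mem (inv_mem_locSub B 𝔪 hd) (inv_mem_locSub B 𝔪 hd')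
    set ι : A := ⟨((d : F) * (d' : F))⁻¹, hinv⟩ with hι
    set u : A := algebraMap ↥B A (α + β * x') * ι with hu
    set g : A := algebraMap ↥B A γ * ι with hg
    have hιv : O2.valuation (ι : F) = 1 := by
      show O2.valuation (((d : F) * (d' : F))⁻¹) = 1
      rw [map_inv₀, map_mul, H.symm.val_den hd, H.symm.val_den hd', one_mul, inv_one]
    have hgM : g ∈ M := by
      rw [hM, mem_vertLoc]
      show O2.valuation ((γ : F) * (ι : F)) < 1
      rw [map_mul, hιv, mul_one]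
      exact hγ2
    have hyA : algebraMap ↥B A y ∈ maximalIdeal A := coe_mem_maximalIdeal_loc.mpr hy
    have hdecomp : a = u * algebraMap R A π + algebraMap ↥B A y * g := by
      apply Subtype.ext
      show (a : F) = ((α + β * x' : B) : F) * ((d : F) * (d' : F))⁻¹ * algebraMap R F π
        + (y : F) * ((γ : F) * ((d : F) * (d' : F))⁻¹)
      have h1 := congrArg (fun b : B => (b : F)) hαβγ
      simp only [Subalgebra.coe_add, Subalgebra.coe_mul, Subalgebra.coe_algebraMap] at h1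
      have h2 : (x : F) = algebraMap R F π * (x' : F) := hxc1
      rw [h2] at h1
      simp only [Subalgebra.coe_add, Subalgebra.coe_mul]
      have h3 : (a : F) = (b : F) * (d : F)⁻¹ := by rw [← hbd]; field_simp
      have h4 : (b : F) * (d : F)⁻¹ = ((d' : F) * (b : F)) * ((d : F) * (d' : F))⁻¹ := by
        field_simp
      rw [h3, h4, h1]; ring
    rw [hdecomp]
    refine Submodule.add_mem_sup ?_ ?_
    · exact Ideal.mul_mem_left _ _ (Ideal.subset_span rfl)
    · exact Submodule.smul_mem_smul hyA hgM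
  have hMN : M ≤ N := Submodule.le_of_le_smul_of_le_jacobson_bot hMfg hjac hle
  -- `e ∈ M`
  have heM : algebraMap ↥B A e ∈ M := by
    rw [hM, mem_vertLoc]; exact he
  obtain ⟨a, ha⟩ := Ideal.mem_span_singleton'.mp (hMN heM)
  have haF : (e : F) = (a : F) * algebraMap R F π := by
    have := congrArg (fun z : A => (z : F)) ha
    exact this.symm
  rw [haF, map_mul]
  calc O1.valuation (a : F) * O1.valuation (algebraMap R F π)
      ≤ 1 * O1.valuation (algebraMap R F π) := mul_le_mul_left (H.le_loc a.2) _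
    _ = O1.valuation (algebraMap R F π) := one_mul _
    _ < 1 := val1_pi H

/-! ### labelling -/

/-- **Labelling of N34's node coordinates**: if the two components are distinct at the level, then
after swapping the two coordinates if necessary, `x ∈ π O2` and `y ∈ π O1`. -/
theorem labelled [hnoe : IsNoetherianRing B] (H : NodeHyp π B O1 O2 𝔪)
    (hsep : ∃ e : B, PiMul (algebraMap R F π) O2 (e : F) ∧ ¬ PiMul (algebraMap R F π) O1 (e : F))
    (hnc : NodeCoords π B 𝔪) :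
    ∃ x y w d : B, x ∈ 𝔪 ∧ y ∈ 𝔪 ∧
      (∀ b ∈ 𝔪, ∃ d : B, d ∉ 𝔪 ∧ d * b ∈ Ideal.span {algebraMap R B π, x, y}) ∧
      d ∉ 𝔪 ∧ d * (x * y) = algebraMap R B π * w ∧
      PiMul (algebraMap R F π) O2 (x : F) ∧ PiMul (algebraMap R F π) O1 (y : F) := by
  obtain ⟨e, he2, he1⟩ := hsep
  have he2' : O2.valuation (e : F) < 1 := (val2_lt_iff H _).mpr he2
  obtain ⟨x, y, hx, hy, ⟨d, hd, w, hmul⟩, hgen⟩ := hnc
  have hgen' : ∀ b ∈ 𝔪, ∃ d : B, d ∉ 𝔪 ∧ d * b ∈ Ideal.span {algebraMap R B π, y, x} := by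
    intro b hb
    obtain ⟨d, hd, h⟩ := hgen b hb
    refine ⟨d, hd, ?_⟩
    have : ({algebraMap R B π, y, x} : Set B) = {algebraMap R B π, x, y} := by
      ext z; simp only [Set.mem_insert_iff, Set.mem_singleton_iff]; tauto
    rw [this]; exact h
  have hmul' : d * (y * x) = algebraMap R B π * w := by rw [mul_comm y x]; exact hmul
  rcases lt_or_lt_of_mul H hd hmul with h1 | h1
  · -- `x ∈ π O1`
    rcases lt_or_lt_of_mul H.symm hd hmul with h2 | h2
    · -- bad case: `x ∈ π O1 ∩ π O2`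
      exact absurd ((val1_lt_iff H _).mp (val1_lt_of_bad H hgen hy h1 h2 e he2')) he1
    · -- `x ∈ π O1`, `y ∈ π O2`: swap
      exact ⟨y, x, w, d, hy, hx, hgen', hd, hmul', (val2_lt_iff H _).mp h2,
        (val1_lt_iff H _).mp h1⟩
  · -- `y ∈ π O1`
    rcases lt_or_lt_of_mul H.symm hd hmul with h2 | h2
    · exact ⟨x, y, w, d, hx, hy, hgen, hd, hmul, (val2_lt_iff H _).mp h2,
        (val1_lt_iff H _).mp h1⟩
    · -- bad case: `y ∈ π O1 ∩ π O2`
      exact absurd ((val1_lt_iff H _).mp (val1_lt_of_bad H hgen' hx h1 h2 e he2')) he1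

/-! ### good coordinates -/

/-- **LABELLED GOOD COORDINATES at a node of one finite level**, from N34's node coordinates, a
separator and (S). -/
theorem isGood [hnoe : IsNoetherianRing B] (H : NodeHyp π B O1 O2 𝔪) (hmax : 𝔪.IsMaximal)
    (hsep : ∃ e : B, PiMul (algebraMap R F π) O2 (e : F) ∧ ¬ PiMul (algebraMap R F π) O1 (e : F))
    (hnc : NodeCoords π B 𝔪)
    (hS : ∃ N : ℕ, algebraMap R ↥(locSub B 𝔪) π ^ N ∈ derIdeal R ↥(locSub B 𝔪)) :
    ∃ (E : ℕ) (x y w d0 : B), IsGood π B O1 O2 𝔪 E x y w d0 := by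
  obtain ⟨x₀, y₀, w₀, d₀, hx₀, hy₀, hgen₀, hd₀, hmul₀, hx₀2, hy₀1⟩ := labelled H hsep hnc
  obtain ⟨N, hN⟩ := hS
  obtain ⟨E, x, y, w, d0, hE, -, hx, hy, hgen, hd0, hw, hmul, hx2, hy1⟩ :=
    goodCoords H hmax x₀ y₀ w₀ d₀ hx₀ hy₀ hgen₀ hd₀ hmul₀ hx₀2 hy₀1 hN
  refine ⟨E, x, y, w, d0, ⟨hE, hx, hy, hgen, hd0, hw, hmul, hx2, hy1, ?_, ?_⟩⟩
  · intro hx1
    exact not_both H hgen ((val1_lt_iff H _).mpr hx1) ((val1_lt_iff H _).mpr hy1)
  · intro hy2
    have hgen' : ∀ b ∈ 𝔪, ∃ d : B, d ∉ 𝔪 ∧ d * b ∈ Ideal.span {algebraMap R B π, y, x} := by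
      intro b hb
      obtain ⟨d, hd, h⟩ := hgen b hb
      refine ⟨d, hd, ?_⟩
      have : ({algebraMap R B π, y, x} : Set B) = {algebraMap R B π, x, y} := by
        ext z; simp only [Set.mem_insert_iff, Set.mem_singleton_iff]; tauto
      rw [this]; exact h
    exact not_both H.symm hgen' ((val2_lt_iff H _).mpr hy2) ((val2_lt_iff H _).mpr hx2)

/-! ### separators from `O1 ≠ O2` -/

/-- **If the two Gauss valuation rings are different, the two vertical primes of the chart are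
different**: some `e ∈ B` lies in exactly one of `π O1`, `π O2`.  (Otherwise the descent on the
`π`-adic order shows `O1 = B_𝔭 = O2`.) -/
theorem exists_separator (π : R) (B : Subalgebra R F) (O1 O2 : ValuationSubring F)
    (leO1 : ∀ x ∈ B, x ∈ O1) (leO2 : ∀ x ∈ B, x ∈ O2)
    (pi_nonunit1 : (algebraMap R F π)⁻¹ ∉ O1) (pi_nonunit2 : (algebraMap R F π)⁻¹ ∉ O2)
    (unif1 : ∀ x ∈ O1, x⁻¹ ∉ O1 → ∃ c ∈ O1, x = algebraMap R F π * c)
    (unif2 : ∀ x ∈ O2, x⁻¹ ∉ O2 → ∃ c ∈ O2, x = algebraMap R F π * c)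
    (arch1 : ∀ x : F, ∃ n : ℕ, algebraMap R F π ^ n * x ∈ O1)
    (arch2 : ∀ x : F, ∃ n : ℕ, algebraMap R F π ^ n * x ∈ O2)
    (sat : ∀ b ∈ B, ∀ c : F, c ∈ O1 → c ∈ O2 → b = algebraMap R F π * c → c ∈ B)
    (frac : ∀ x : F, ∃ a ∈ B, ∃ b ∈ B, b ≠ 0 ∧ x * b = a)
    (hne : O1 ≠ O2) :
    ∃ e : B, (PiMul (algebraMap R F π) O2 (e : F) ∧ ¬ PiMul (algebraMap R F π) O1 (e : F)) ∨
      (PiMul (algebraMap R F π) O1 (e : F) ∧ ¬ PiMul (algebraMap R F π) O2 (e : F)) := by
  by_contra hcon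
  have hsame : ∀ e : B, PiMul (algebraMap R F π) O1 (e : F) ↔
      PiMul (algebraMap R F π) O2 (e : F) := by
    intro e
    constructor
    · intro h1
      by_contra h2
      exact hcon ⟨e, Or.inr ⟨h1, h2⟩⟩
    · intro h2
      by_contra h1
      exact hcon ⟨e, Or.inl ⟨h2, h1⟩⟩
  -- one inclusion, symmetric in the two rings
  have key : ∀ (Oa Ob : ValuationSubring F), (∀ x ∈ B, x ∈ Oa) → (∀ x ∈ B, x ∈ Ob) →
      (algebraMap R F π)⁻¹ ∉ Oa →
      (∀ x ∈ Ob, x⁻¹ ∉ Ob → ∃ c ∈ Ob, x = algebraMap R F π * c) →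
      (∀ x : F, ∃ n : ℕ, algebraMap R F π ^ n * x ∈ Oa) →
      (∀ b ∈ B, ∀ c : F, c ∈ Oa → c ∈ Ob → b = algebraMap R F π * c → c ∈ B) →
      (∀ e : B, PiMul (algebraMap R F π) Oa (e : F) ↔ PiMul (algebraMap R F π) Ob (e : F)) →
      ∀ g ∈ Oa, g ∈ Ob := by
    intro Oa Ob leOa leOb pi_nonunit unifb arch sat' hsame' g hg
    set p : F := algebraMap R F π with hp
    have hp0 : p ≠ 0 := by
      intro h0
      apply pi_nonunit
      rw [h0, inv_zero]
      exact Oa.zero_mem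
    have hdesc : ∀ n : ℕ, ∀ a b : B, (b : F) ≠ 0 → p ^ n * ((b : F))⁻¹ ∈ Oa →
        g * (b : F) = (a : F) →
        ∃ a' b' : B, ¬ PiMul p Oa (b' : F) ∧ g * (b' : F) = (a' : F) := by
      intro n
      induction n with
      | zero =>
        intro a b hb0 hn hab
        refine ⟨a, b, ?_, hab⟩
        rintro ⟨c, hc, hbc⟩
        rw [pow_zero, one_mul] at hn
        apply pi_nonunit
        have : p⁻¹ = c * ((b : F))⁻¹ := by
          rw [hbc]
          have hc0 : c ≠ 0 := by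
            rintro rfl
            rw [mul_zero] at hbc
            exact hb0 hbc
          field_simp
        rw [this]
        exact Oa.mul_mem _ _ hc hn
      | succ n ih =>
        intro a b hb0 hn hab
        by_cases hb : PiMul p Oa (b : F)
        · obtain ⟨c, hc, hbc⟩ := hb
          have hc0 : c ≠ 0 := by
            rintro rfl
            rw [mul_zero] at hbc
            exact hb0 hbc
          -- `c ∈ Ob`
          obtain ⟨c', hc', hbc'⟩ := (hsame' b).mp ⟨c, hc, hbc⟩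
          have hcc' : c = c' := mul_left_cancel₀ hp0 (hbc.symm.trans hbc')
          have hcB : c ∈ B := sat' (b : F) b.2 c hc (hcc' ▸ hc') hbc
          -- `g c ∈ B`
          have hac : (a : F) = p * (g * c) := by rw [← hab, hbc]; ring
          obtain ⟨c'', hc'', hac''⟩ := (hsame' a).mp ⟨g * c, Oa.mul_mem _ _ hg hc, hac⟩
          have hgc : g * c = c'' := mul_left_cancel₀ hp0 (hac.symm.trans hac'')
          have hgcB : g * c ∈ B :=
            sat' (a : F) a.2 (g * c) (Oa.mul_mem _ _ hg hc) (hgc ▸ hc'') hac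
          refine ih ⟨g * c, hgcB⟩ ⟨c, hcB⟩ hc0 ?_ rfl
          show p ^ n * c⁻¹ ∈ Oa
          have : p ^ n * c⁻¹ = p ^ (n + 1) * ((b : F))⁻¹ := by
            rw [hbc, pow_succ]
            field_simp
          rw [this]
          exact hn
        · exact ⟨a, b, hb, hab⟩
    obtain ⟨a, ha, b, hb, hb0, hab⟩ := frac g
    obtain ⟨n, hn⟩ := arch ((b : F))⁻¹
    obtain ⟨a', b', hb', hab'⟩ := hdesc n ⟨a, ha⟩ ⟨b, hb⟩ hb0 hn hab
    -- `b'` is a unit of `Ob`
    have hb'b : ¬ PiMul p Ob (b' : F) := fun h => hb' ((hsame' b').mpr h)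
    have hinv : ((b' : F))⁻¹ ∈ Ob := by
      by_contra hni
      exact hb'b (unifb _ (leOb _ b'.2) hni)
    have hb'0 : (b' : F) ≠ 0 := by
      intro h0
      apply hb'b
      exact ⟨0, Ob.zero_mem, by rw [h0, mul_zero]⟩
    have : g = (a' : F) * ((b' : F))⁻¹ := by
      rw [← hab']; field_simp
    rw [this]
    exact Ob.mul_mem _ _ (leOb _ a'.2) hinv
  apply hne
  apply le_antisymm
  · exact fun g hg => key O1 O2 leO1 leO2 pi_nonunit1 unif2 arch1 sat hsame g hg
  · exact fun g hg => key O2 O1 leO2 leO1 pi_nonunit2 unif1 arch2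
      (fun b hb c h2 h1 e => sat b hb c h1 h2 e) (fun e => (hsame e).symm) g hg

/-- **LABELLED GOOD COORDINATES at a node of one finite level**, with a separator in either
direction. -/
theorem isGood' [hnoe : IsNoetherianRing B] (H : NodeHyp π B O1 O2 𝔪) (hmax : 𝔪.IsMaximal)
    (hsep : ∃ e : B,
      (PiMul (algebraMap R F π) O2 (e : F) ∧ ¬ PiMul (algebraMap R F π) O1 (e : F)) ∨
      (PiMul (algebraMap R F π) O1 (e : F) ∧ ¬ PiMul (algebraMap R F π) O2 (e : F)))
    (hnc : NodeCoords π B 𝔪)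
    (hS : ∃ N : ℕ, algebraMap R ↥(locSub B 𝔪) π ^ N ∈ derIdeal R ↥(locSub B 𝔪)) :
    ∃ (E : ℕ) (x y w d0 : B), IsGood π B O1 O2 𝔪 E x y w d0 := by
  obtain ⟨e, he | he⟩ := hsep
  · exact isGood H hmax ⟨e, he⟩ hnc hS
  · -- the separator in the other direction: label for `H.symm` and swap
    obtain ⟨x₀, y₀, w₀, d₀, hx₀, hy₀, hgen₀, hd₀, hmul₀, hx₀1, hy₀2⟩ :=
      labelled H.symm ⟨e, he⟩ hnc
    obtain ⟨N, hN⟩ := hS
    have hgen₀' : ∀ b ∈ 𝔪, ∃ d : B, d ∉ 𝔪 ∧ d * b ∈ Ideal.span {algebraMap R B π, y₀, x₀} := by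
      intro b hb
      obtain ⟨d, hd, h⟩ := hgen₀ b hb
      refine ⟨d, hd, ?_⟩
      have : ({algebraMap R B π, y₀, x₀} : Set B) = {algebraMap R B π, x₀, y₀} := by
        ext z; simp only [Set.mem_insert_iff, Set.mem_singleton_iff]; tauto
      rw [this]; exact h
    have hmul₀' : d₀ * (y₀ * x₀) = algebraMap R B π * w₀ := by rw [mul_comm y₀ x₀]; exact hmul₀
    obtain ⟨E, x, y, w, d0, hE, -, hx, hy, hgen, hd0, hw, hmul, hx2, hy1⟩ :=
      goodCoords H hmax y₀ x₀ w₀ d₀ hy₀ hx₀ hgen₀' hd₀ hmul₀' hy₀2 hx₀1 hN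
    refine ⟨E, x, y, w, d0, ⟨hE, hx, hy, hgen, hd0, hw, hmul, hx2, hy1, ?_, ?_⟩⟩
    · intro hx1
      exact not_both H hgen ((val1_lt_iff H _).mpr hx1) ((val1_lt_iff H _).mpr hy1)
    · intro hy2
      have hgen' : ∀ b ∈ 𝔪, ∃ d : B, d ∉ 𝔪 ∧ d * b ∈ Ideal.span {algebraMap R B π, y, x} := by
        intro b hb
        obtain ⟨d, hd, h⟩ := hgen b hb
        refine ⟨d, hd, ?_⟩
        have : ({algebraMap R B π, y, x} : Set B) = {algebraMap R B π, x, y} := by
          ext z; simp only [Set.mem_insert_iff, Set.mem_singleton_iff]; tauto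
        rw [this]; exact h
      exact not_both H.symm hgen' ((val2_lt_iff H _).mpr hy2) ((val2_lt_iff H _).mpr hx2)

end Fermat.Agent.ORD.NODE.GoodAt2
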