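/-
Programme ORD (S33), chapter NODE = O6c (helper4): **(UNIT) at finite level**.

With labelled good coordinates `(x, y)` at a closed point `𝔪` of the chart `B` on both components
(`NodeLocal4.IsGood`), every `φ ∈ F^×` which is a unit at all horizontal primes through `𝔪`
(no zeros and no poles on the tube of the node) is

  `φ = π ^ a * x ^ n * U`,   `a n : ℤ`,   `U ∈ A^×`,   `A = B_𝔪 = locSub B 𝔪`.

This is axiom (UNIT) of finding #335 at one finite level: `U ∈ A^×` is a unit of both Gauss valuation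
rings and its two reductions are regular, nonvanishing at the two branches, with the same value
`U mod 𝔪_A`.

* `x_ne_zero`, `x_inv_mem_O1`, `horUnit_x`;
* `unit_of_mem` : the case `ψ ∈ O1^× ∩ O2`;
* `unit_decomp` : the general case.
-/
import Mathlib
import Fermat.Agent.ORD.NODE.NodeLocal4

set_option autoImplicit false
set_option linter.unusedSectionVars false
set_option linter.unusedVariables false
set_option linter.style.haveILetI false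

namespace Fermat.Agent.ORD.NODE.UnitLocal4

open Fermat.Agent.ES.N34.NodalCore13 Fermat.Agent.ES.N34.NodalSmooth13
  Fermat.Agent.ES.N34.NodalStart13 Fermat.Agent.ES.N34.NodeCoords29
  Fermat.Agent.ORD.NODE.GoodCoords4 Fermat.Agent.ORD.NODE.NodeLocal4 IsLocalRing

variable {R F : Type*} [CommRing R] [Field F] [Algebra R F]
  {π : R} {B : Subalgebra R F} {O1 O2 : ValuationSubring F} {𝔪 : Ideal B}
  [h𝔪 : 𝔪.IsPrime] (S : NodeSetup π B O1 O2 𝔪)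
  {E : ℕ} {x y w d0 : B} (G : IsGood π B O1 O2 𝔪 E x y w d0)

/-- the field inverse of a unit of `A` lies in `A`. -/
theorem inv_mem_of_isUnit {a : ↥(locSub B 𝔪)} (h : IsUnit a) : ((a : F))⁻¹ ∈ locSub B 𝔪 := by
  obtain ⟨u, rfl⟩ := h
  have h1 : ((u : ↥(locSub B 𝔪)) : F) * (((u⁻¹ : (↥(locSub B 𝔪))ˣ) : ↥(locSub B 𝔪)) : F) = 1 := by
    have h0 := congrArg (fun z : ↥(locSub B 𝔪) => (z : F)) u.mul_inv
    exact h0
  have h2 : (((u : ↥(locSub B 𝔪)) : F))⁻¹ = (((u⁻¹ : (↥(locSub B 𝔪))ˣ) : ↥(locSub B 𝔪)) : F) :=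
    inv_eq_of_mul_eq_one_right h1
  rw [h2]
  exact (u⁻¹ : (↥(locSub B 𝔪))ˣ).1.2

/-- an element of `A` whose field inverse lies in `A` is a unit. -/
theorem isUnit_of_inv_mem {a : ↥(locSub B 𝔪)} (h0 : (a : F) ≠ 0)
    (h : ((a : F))⁻¹ ∈ locSub B 𝔪) : IsUnit a := by
  refine ⟨⟨a, ⟨_, h⟩, ?_, ?_⟩, rfl⟩
  · apply Subtype.ext
    show (a : F) * (a : F)⁻¹ = 1
    exact mul_inv_cancel₀ h0
  · apply Subtype.ext
    show (a : F)⁻¹ * (a : F) = 1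
    exact inv_mul_cancel₀ h0

include S G

theorem x_ne_zero : (x : F) ≠ 0 := by
  intro h
  exact G.x_one (h ▸ piMul_zero)

theorem y_ne_zero : (y : F) ≠ 0 := by
  intro h
  exact G.y_two (h ▸ piMul_zero)

theorem x_inv_mem_O1 : ((x : F))⁻¹ ∈ O1 := inv_mem_of_not_piMul S.unif1 (S.leO1 _ x.2) G.x_one

theorem y_inv_mem_O2 : ((y : F))⁻¹ ∈ O2 := inv_mem_of_not_piMul S.unif2 (S.leO2 _ y.2) G.y_two

/-- `x` lies in no horizontal prime through `𝔪`. -/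
theorem x_notMem_hor (𝔭 : Ideal B) (h𝔭 : 𝔭.IsPrime) (hle : 𝔭 ≤ 𝔪)
    (hπ : algebraMap R B π ∉ 𝔭) : x ∉ 𝔭 := by
  intro hx
  have h1 : algebraMap R B π ^ E * w ∈ 𝔭 := by
    rw [← G.mul]
    exact Ideal.mul_mem_left _ _ (Ideal.mul_mem_right _ _ hx)
  rcases h𝔭.mem_or_mem h1 with h2 | h2
  · exact hπ (h𝔭.mem_of_pow_mem _ h2)
  · exact G.w_notMem (hle h2)

theorem y_notMem_hor (𝔭 : Ideal B) (h𝔭 : 𝔭.IsPrime) (hle : 𝔭 ≤ 𝔪)
    (hπ : algebraMap R B π ∉ 𝔭) : y ∉ 𝔭 := by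
  intro hy
  have h1 : algebraMap R B π ^ E * w ∈ 𝔭 := by
    rw [← G.mul]
    exact Ideal.mul_mem_left _ _ (Ideal.mul_mem_left _ _ hy)
  rcases h𝔭.mem_or_mem h1 with h2 | h2
  · exact hπ (h𝔭.mem_of_pow_mem _ h2)
  · exact G.w_notMem (hle h2)

theorem horUnit_x : HorUnit π B 𝔪 (x : F) :=
  horUnit_of_mem x.2 (x_ne_zero S G) fun 𝔭 h𝔭 _ hle hπ => x_notMem_hor S G 𝔭 h𝔭 hle hπ

theorem horUnit_y : HorUnit π B 𝔪 (y : F) :=
  horUnit_of_mem y.2 (y_ne_zero S G) fun 𝔭 h𝔭 _ hle hπ => y_notMem_hor S G 𝔭 h𝔭 hle hπ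

/-- **(UNIT), the core case**: `ψ` a unit of `O1`, integral for `O2`, a unit at the horizontal
primes through `𝔪`. Then `ψ = x ^ n * U` with `U ∈ A^×`. -/
theorem unit_of_mem {ψ : F} (hψ0 : ψ ≠ 0) (h1 : ψ ∈ O1) (h1' : ψ⁻¹ ∈ O1) (h2 : ψ ∈ O2)
    (hh : HorUnit π B 𝔪 ψ) :
    ∃ n : ℕ, ψ * ((x : F) ^ n)⁻¹ ∈ locSub B 𝔪 ∧ (ψ * ((x : F) ^ n)⁻¹)⁻¹ ∈ locSub B 𝔪 := by
  haveI := q1_isPrime S
  have hx0 := x_ne_zero S G
  have hψA : ψ ∈ locSub B 𝔪 := S.mem_locSub_of_horInt h1 h2 hh.1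
  let g : ↥(locSub B 𝔪) := ⟨ψ, hψA⟩
  have hg : g ∉ q1 S := fun h =>
    not_piMul_of_inv_mem S.pi_ne S.pi_nonunit1 hψ0 h1' ((mem_q1 S).mp h)
  obtain ⟨n, v, hv, hgv⟩ := branch_decomp S G g hg
  refine ⟨n, ?_⟩
  set ψ' : F := ψ * ((x : F) ^ n)⁻¹ with hψ'
  have hxn0 : (x : F) ^ n ≠ 0 := pow_ne_zero _ hx0
  have hψ'0 : ψ' ≠ 0 := mul_ne_zero hψ0 (inv_ne_zero hxn0)
  have hψ'1 : ψ' ∈ O1 := by
    rw [hψ', ← inv_pow]
    exact O1.mul_mem _ _ h1 (O1.pow_mem (x_inv_mem_O1 S G) n)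
  have hψ'1' : ψ'⁻¹ ∈ O1 := by
    rw [hψ', mul_inv, inv_inv]
    exact O1.mul_mem _ _ h1' (O1.pow_mem (S.leO1 _ x.2) n)
  have hhψ' : HorUnit π B 𝔪 ψ' := hh.mul ((horUnit_x S G).pow n).inv
  have hxnq : (toA x : ↥(locSub B 𝔪)) ^ n ∉ q1 S := fun h =>
    x_notMem_q1 S G ((q1_isPrime S).mem_of_pow_mem _ h)
  rcases O2.mem_or_inv_mem ψ' with hc | hc
  · -- `ψ' ∈ A`, and `ψ' ≡ v` modulo `q1`
    have hψ'A : ψ' ∈ locSub B 𝔪 := S.mem_locSub_of_horInt hψ'1 hc hhψ'.1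
    refine ⟨hψ'A, ?_⟩
    let g' : ↥(locSub B 𝔪) := ⟨ψ', hψ'A⟩
    have hgg' : g = g' * toA x ^ n := by
      apply Subtype.ext
      show ψ = ψ' * (x : F) ^ n
      rw [hψ']; field_simp
    have h3 : toA x ^ n * (g' - v) ∈ q1 S := by
      have : toA x ^ n * (g' - v) = g - toA x ^ n * v := by rw [hgg']; ring
      rw [this]; exact hgv
    have h4 : g' - v ∈ q1 S := ((q1_isPrime S).mem_or_mem h3).resolve_left hxnq
    have hg'u : IsUnit g' := by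
      by_contra hnu
      have h5 : g' ∈ maximalIdeal ↥(locSub B 𝔪) := (mem_maximalIdeal _).mpr hnu
      have h6 : v ∈ maximalIdeal ↥(locSub B 𝔪) := by
        have := Ideal.sub_mem _ h5 (q1_le_maximalIdeal S h4)
        rwa [sub_sub_cancel] at this
      exact (mem_maximalIdeal _).mp h6 hv
    exact inv_mem_of_isUnit hg'u
  · -- `ψ'⁻¹ ∈ A`, and `ψ'⁻¹ * v ≡ 1` modulo `q1`
    have hψ''A : ψ'⁻¹ ∈ locSub B 𝔪 := S.mem_locSub_of_horInt hψ'1' hc hhψ'.2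
    let g'' : ↥(locSub B 𝔪) := ⟨ψ'⁻¹, hψ''A⟩
    have hgg'' : g'' * g = toA x ^ n := by
      apply Subtype.ext
      show ψ'⁻¹ * ψ = (x : F) ^ n
      rw [hψ']; field_simp
    have h3 : toA x ^ n * (1 - g'' * v) ∈ q1 S := by
      have : toA x ^ n * (1 - g'' * v) = g'' * (g - toA x ^ n * v) := by
        rw [mul_sub, ← hgg'']; ring
      rw [this]; exact Ideal.mul_mem_left _ _ hgv
    have h4 : 1 - g'' * v ∈ q1 S := ((q1_isPrime S).mem_or_mem h3).resolve_left hxnq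
    have hg''u : IsUnit g'' := by
      by_contra hnu
      have h5 : g'' * v ∈ maximalIdeal ↥(locSub B 𝔪) :=
        Ideal.mul_mem_right _ _ ((mem_maximalIdeal _).mpr hnu)
      have h6 : (1 : ↥(locSub B 𝔪)) ∈ maximalIdeal ↥(locSub B 𝔪) := by
        have := Ideal.add_mem _ (q1_le_maximalIdeal S h4) h5
        rwa [sub_add_cancel] at this
      exact (mem_maximalIdeal _).mp h6 isUnit_one
    have h7 : ((g'' : ↥(locSub B 𝔪)) : F)⁻¹ ∈ locSub B 𝔪 := inv_mem_of_isUnit hg''u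
    have h8 : ((g'' : ↥(locSub B 𝔪)) : F)⁻¹ = ψ' := inv_inv ψ'
    rw [h8] at h7
    exact ⟨h7, hψ''A⟩

/-- **(UNIT) at finite level.** -/
theorem unit_decomp {φ : F} (hφ0 : φ ≠ 0) (hh : HorUnit π B 𝔪 φ) :
    ∃ a n : ℤ, φ * (algebraMap R F π ^ a * (x : F) ^ n)⁻¹ ∈ locSub B 𝔪 ∧
      (φ * (algebraMap R F π ^ a * (x : F) ^ n)⁻¹)⁻¹ ∈ locSub B 𝔪 := by
  have hx0 := x_ne_zero S G
  have hp0 := S.pi_ne
  obtain ⟨a0, ha0, ha0'⟩ := exists_zpow_mul_unit S.pi_mem1 S.pi_ne S.pi_nonunit1 S.unif1 S.arch1 hφ0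
  set ψ : F := algebraMap R F π ^ a0 * φ with hψ
  have hψ0 : ψ ≠ 0 := mul_ne_zero (zpow_ne_zero _ hp0) hφ0
  have hhψ : HorUnit π B 𝔪 ψ := ((horUnit_pi hp0).zpow a0).mul hh
  rcases O2.mem_or_inv_mem ψ with hc | hc
  · obtain ⟨n, h1, h2⟩ := unit_of_mem S G hψ0 ha0 ha0' hc hhψ
    refine ⟨-a0, n, ?_, ?_⟩
    · have : φ * (algebraMap R F π ^ (-a0) * (x : F) ^ (n : ℤ))⁻¹ = ψ * ((x : F) ^ n)⁻¹ := by
        rw [hψ, zpow_neg, zpow_natCast]; field_simp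
      rw [this]; exact h1
    · have : φ * (algebraMap R F π ^ (-a0) * (x : F) ^ (n : ℤ))⁻¹ = ψ * ((x : F) ^ n)⁻¹ := by
        rw [hψ, zpow_neg, zpow_natCast]; field_simp
      rw [this]; exact h2
  · have hψi0 : ψ⁻¹ ≠ 0 := inv_ne_zero hψ0
    obtain ⟨n, h1, h2⟩ := unit_of_mem S G hψi0 ha0' (by rwa [inv_inv]) hc hhψ.inv
    refine ⟨-a0, -(n : ℤ), ?_, ?_⟩
    · have : φ * (algebraMap R F π ^ (-a0) * (x : F) ^ (-(n : ℤ)))⁻¹
          = (ψ⁻¹ * ((x : F) ^ n)⁻¹)⁻¹ := by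
        rw [hψ, zpow_neg, zpow_neg, zpow_natCast]; field_simp
      rw [this]; exact h2
    · have : φ * (algebraMap R F π ^ (-a0) * (x : F) ^ (-(n : ℤ)))⁻¹
          = (ψ⁻¹ * ((x : F) ^ n)⁻¹)⁻¹ := by
        rw [hψ, zpow_neg, zpow_neg, zpow_natCast]; field_simp
      rw [this, inv_inv]; exact h1

end Fermat.Agent.ORD.NODE.UnitLocal4
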