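/-
Programme ORD (S33), chapter NODE = O6c (helper4): **more on the local ring of a node with good
coordinates** (finite level).

* `NodeSetup.symm`, `IsGood.symm` : the two components play symmetric roles;
* `branch_decomp'` : the branch `A / q2` is a DVR with uniformiser `y`;
* `exists_eq_pA_mul` : LOCAL SATURATION `q1 ⊓ q2 = π A`;
* `exists_eq_add_of_val_eq_zero` : (PEEL at a node, one level) for a noetherian local ring `C` with
  `𝔪_C ≤ (π, u, v)` and a homomorphism `val : C →+* Ω` to a domain with `val u = val v = 0`,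
  `val π ≠ 0` : `ker val = (u, v)` (Krull's intersection theorem, as in `ES/RED/PeelLocal22`).
-/
import Mathlib
import Fermat.Agent.ORD.NODE.UnitLocal4

set_option autoImplicit false
set_option linter.unusedSectionVars false
set_option linter.unusedVariables false
set_option linter.style.haveILetI false

namespace Fermat.Agent.ORD.NODE.NodeLocalMore4

open Fermat.Agent.ES.N34.NodalCore13 Fermat.Agent.ES.N34.NodalSmooth13
  Fermat.Agent.ES.N34.NodalStart13 Fermat.Agent.ES.N34.NodeCoords29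
  Fermat.Agent.ORD.NODE.GoodCoords4 Fermat.Agent.ORD.NODE.NodeLocal4
  Fermat.Agent.ORD.NODE.UnitLocal4 IsLocalRing

variable {R F : Type*} [CommRing R] [Field F] [Algebra R F]
  {π : R} {B : Subalgebra R F} {O1 O2 : ValuationSubring F} {𝔪 : Ideal B}

/-- the two components play symmetric roles. -/
theorem NodeSetup.symm (S : NodeSetup π B O1 O2 𝔪) : NodeSetup π B O2 O1 𝔪 :=
  { noeth := S.noeth
    leO1 := S.leO2
    leO2 := S.leO1
    pi_ne := S.pi_ne
    pi_nonunit1 := S.pi_nonunit2
    pi_nonunit2 := S.pi_nonunit1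
    unif1 := S.unif2
    unif2 := S.unif1
    arch1 := S.arch2
    arch2 := S.arch1
    sat := fun b hb c h2 h1 e => S.sat b hb c h1 h2 e
    frac := S.frac
    on1 := S.on2
    on2 := S.on1 }

theorem IsGood.symm {E : ℕ} {x y w d0 : B} (G : IsGood π B O1 O2 𝔪 E x y w d0) :
    IsGood π B O2 O1 𝔪 E y x w d0 :=
  { E_pos := G.E_pos
    x_mem := G.y_mem
    y_mem := G.x_mem
    gen := by
      intro b hb
      obtain ⟨d, hd, hmem⟩ := G.gen b hb
      refine ⟨d, hd, ?_⟩
      have : ({algebraMap R B π, y, x} : Set B) = {algebraMap R B π, x, y} := by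
        ext z
        simp only [Set.mem_insert_iff, Set.mem_singleton_iff]
        tauto
      rw [this]
      exact hmem
    d0_notMem := G.d0_notMem
    w_notMem := G.w_notMem
    mul := by rw [mul_comm y x]; exact G.mul
    x_two := G.y_one
    y_one := G.x_two
    x_one := G.y_two
    y_two := G.x_one }

section Local

variable [h𝔪 : 𝔪.IsPrime] (S : NodeSetup π B O1 O2 𝔪)
  {E : ℕ} {x y w d0 : B} (G : IsGood π B O1 O2 𝔪 E x y w d0)

theorem q1_symm : q1 (NodeSetup.symm S) = q2 S := rfl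

theorem q2_symm : q2 (NodeSetup.symm S) = q1 S := rfl

include G in
/-- **The branch `A / q2` is a DVR with uniformiser `y`.** -/
theorem branch_decomp' (g : ↥(locSub B 𝔪)) (hg : g ∉ q2 S) :
    ∃ (n : ℕ) (v : ↥(locSub B 𝔪)), IsUnit v ∧ g - toA y ^ n * v ∈ q2 S :=
  branch_decomp (NodeSetup.symm S) (IsGood.symm G) g hg

/-- units of `A` are not in `q2`. -/
theorem notMem_q2_of_isUnit {z : ↥(locSub B 𝔪)} (hz : IsUnit z) : z ∉ q2 S :=
  notMem_q1_of_isUnit (NodeSetup.symm S) hz

include G in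
theorem y_mem_maximalIdeal : (toA y : ↥(locSub B 𝔪)) ∈ maximalIdeal ↥(locSub B 𝔪) :=
  (mem_maximalIdeal _).mpr (not_isUnit_of_mem B 𝔪 G.y_mem)

/-- **local saturation**: `q1 ⊓ q2 = π A`. -/
theorem exists_eq_pA_mul {z : ↥(locSub B 𝔪)} (h1 : z ∈ q1 S) (h2 : z ∈ q2 S) :
    ∃ c : ↥(locSub B 𝔪), z = pA π B 𝔪 * c := by
  obtain ⟨c1, hc1, e1⟩ := (mem_q1 S).mp h1
  obtain ⟨c2, hc2, e2⟩ := (mem_q2 S).mp h2
  have hp0 := S.pi_ne
  have hc : c1 = c2 := by
    have : algebraMap R F π * c1 = algebraMap R F π * c2 := by rw [← e1, ← e2]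
    exact mul_left_cancel₀ hp0 this
  subst hc
  obtain ⟨a, d, hd, e⟩ := z.2
  have hd0 : (d : F) ≠ 0 := coe_ne_zero_of_notMem B 𝔪 hd
  -- `a = π (c d)`, `c d ∈ O1 ⊓ O2`
  have hmem : c1 * (d : F) ∈ B := by
    refine S.sat (a : F) a.2 _ (O1.mul_mem _ _ hc1 (S.leO1 _ d.2)) (O2.mul_mem _ _ hc2 (S.leO2 _ d.2)) ?_
    rw [← e, e1]; ring
  refine ⟨⟨c1, ⟨⟨c1 * (d : F), hmem⟩, d, hd, rfl⟩⟩, ?_⟩
  apply Subtype.ext
  exact e1

end Local

/-! ### peeling at a node, one level -/

section Peel

variable {C : Type*} [CommRing C] [IsLocalRing C] {p u v : C}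
  (hm : maximalIdeal C ≤ Ideal.span {p, u, v})
  {Ω : Type*} [CommRing Ω] [IsDomain Ω] (val : C →+* Ω) (hu : val u = 0) (hv : val v = 0)
  (hp : val p ≠ 0)

include hm hu hv hp

/-- elements of the kernel are congruent to `0` modulo `(u, v) + (p ^ j)` for every `j`. -/
theorem exists_eq_add_pow {z : C} (hz : val z = 0) (j : ℕ) :
    ∃ w w' a : C, z = u * w + v * w' + p ^ j * a := by
  induction j with
  | zero => exact ⟨0, 0, z, by ring⟩
  | succ j ih =>
    obtain ⟨w, w', a, e⟩ := ih
    have hva : val a = 0 := by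
      have h1 : val z = val u * val w + val v * val w' + val p ^ j * val a := by
        rw [e, map_add, map_add, map_mul, map_mul, map_mul, map_pow]
      rw [hz, hu, hv, zero_mul, zero_mul, zero_add, zero_add] at h1
      rcases mul_eq_zero.1 h1.symm with h2 | h2
      · exact absurd (pow_eq_zero_iff (M₀ := Ω) (by
          intro hj; rw [hj, pow_zero] at h2; exact one_ne_zero h2) |>.1 h2) hp
      · exact h2
    have ham : a ∈ maximalIdeal C := by
      rw [mem_maximalIdeal, mem_nonunits_iff]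
      intro hunit
      have := hunit.map val
      rw [hva] at this
      exact not_isUnit_zero this
    obtain ⟨α, β, γ, ha⟩ := mem_span_triple.mp (hm ham)
    refine ⟨w + p ^ j * β, w' + p ^ j * γ, α, ?_⟩
    rw [e, ha, pow_succ]
    ring

/-- **(PEEL at a node, one level)**: the kernel of `val` is `(u, v)`. -/
theorem exists_eq_add_of_val_eq_zero [IsNoetherianRing C] (hpm : p ∈ maximalIdeal C) {z : C}
    (hz : val z = 0) : ∃ α β : C, z = α * u + β * v := by
  set I : Ideal C := Ideal.span {u, v} with hI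
  have hkrull := Ideal.iInf_pow_smul_eq_bot_of_isLocalRing (R := C)
    (M := C ⧸ I) (maximalIdeal C) (Ideal.IsPrime.ne_top')
  have hmem : (Ideal.Quotient.mk I z : C ⧸ I) ∈
      (⨅ i : ℕ, maximalIdeal C ^ i • (⊤ : Submodule C (C ⧸ I))) := by
    rw [Submodule.mem_iInf]
    intro j
    obtain ⟨w, w', a, e⟩ := exists_eq_add_pow hm val hu hv hp hz j
    have hu0 : (Ideal.Quotient.mk I u : C ⧸ I) = 0 :=
      Ideal.Quotient.eq_zero_iff_mem.2 (Ideal.subset_span (by simp))
    have hv0 : (Ideal.Quotient.mk I v : C ⧸ I) = 0 :=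
      Ideal.Quotient.eq_zero_iff_mem.2 (Ideal.subset_span (by simp))
    have h1 : (Ideal.Quotient.mk I z : C ⧸ I) =
        (p ^ j) • (Ideal.Quotient.mk I a : C ⧸ I) := by
      rw [e, map_add, map_add, map_mul, map_mul, map_mul, hu0, hv0, zero_mul, zero_mul, zero_add,
        zero_add]
      rfl
    rw [h1]
    apply Submodule.smul_mem_smul _ Submodule.mem_top
    exact Ideal.pow_mem_pow hpm j
  rw [hkrull, Submodule.mem_bot] at hmem
  have hzI : z ∈ I := Ideal.Quotient.eq_zero_iff_mem.1 hmem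
  rw [hI, Ideal.mem_span_pair] at hzI
  obtain ⟨α, β, e⟩ := hzI
  exact ⟨α, β, e.symm⟩

end Peel

end Fermat.Agent.ORD.NODE.NodeLocalMore4
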