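/-
Programme ORD (S33), chapter NODE = O6c (helper4): **one finite level of a nodal chart at a
TWO-branch closed point** (the analogue of helper8's `IFACEN/LevelAt8` at a node).

Big field: `BA ⊂ F` chart over `A`, `χ₀ : BA →+* k` closed point lying on BOTH components
`(G, red)`, `(G', red')` (`LocAt8.OnComp` twice).  Finite level: `RK`, `FK`, `BK ⊂ FK`, `πK`,
`j : FK →+* F`, `O1`, `O2` the two Gauss valuation rings of `FK`.

`NodeLevelAt` lists what N34's `NodalNumData` gives at a maximal ideal on both components, the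
comparison with the big field (`j_mem pi_const on_G on_G' red_zero_iff red_zero_iff'`), the existence
of LABELLED GOOD COORDINATES at the closed point of level `K` (`good`: lead's
`GoodChart0.goodCoords`), and the dictionary `hor` "horizontal primes of `B_K` through `x_K` are
centres of places of the tube of `χ₀`".  Outputs (one level), with `Bk := (BK)_{xK}`:

* `setup : NodeSetup πK BK O1 O2 xK`; `ιK : Bk →+* locC BA χ₀` (injective);
* `chiC_ιK_eq_zero_iff`, `redC_ιK_eq_zero_iff` (`↔ z ∈ q1`), `redC'_ιK_eq_zero_iff` (`↔ z ∈ q2`);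
* `pi_dvd_of_const` : a constant of `𝔪_A` lying in `Bk` is divisible by `πk`;
* with good coordinates: `br1`, `br2` (the branches are DVRs with uniformisers `x`, `y`),
  `unitK` ((UNIT) at level `K` in terms of the tube of `χ₀`).
-/
import Mathlib
import Fermat.Agent.ORD.IFACEN.LevelAt8
import Fermat.Agent.ORD.IFACEN.DiscPlaces8
import Fermat.Agent.ORD.NODE.NodeLocalMore4

set_option autoImplicit false
set_option linter.unusedSectionVars false
set_option linter.unusedVariables false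
set_option linter.style.longLine false
set_option linter.style.haveILetI false

namespace Fermat.Agent.ORD.NODE.NodeLevelAt4

open AlgebraicCurve Fermat.Agent.ES.N34.NodalSmooth13 Fermat.Agent.ORD.IFACEN.LocAt8
  Fermat.Agent.ORD.IFACEN.DiscPlaces8
  Fermat.Agent.ORD.NODE.GoodCoords4 Fermat.Agent.ORD.NODE.NodeLocal4
  Fermat.Agent.ORD.NODE.UnitLocal4 Fermat.Agent.ORD.NODE.NodeLocalMore4 IsLocalRing

variable {L F k Ft Ft' : Type*} [Field L] [Field F] [Algebra L F] [Field k] [Field Ft]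
  [Algebra k Ft] [Field Ft'] [Algebra k Ft']
variable {A : ValuationSubring L} [Algebra A F] [IsScalarTower A L F]

variable (res : A →+* k) (BA : Subalgebra A F) (χ₀ : BA →+* k) (G : Subring F) (red : G →+* Ft)
  (G' : Subring F) (red' : G' →+* Ft')
variable {RK FK : Type*} [CommRing RK] [Field FK] [Algebra RK FK]
  (BK : Subalgebra RK FK) (πK : RK) (j : FK →+* F) (O1 O2 : ValuationSubring FK)

/-- **One finite level at a two-branch closed point.** -/
structure NodeLevelAt : Prop where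
  j_mem : ∀ b ∈ BK, j b ∈ BA
  pi_const : ∃ ϖ : A, ϖ ≠ 0 ∧ res ϖ = 0 ∧ j (algebraMap RK FK πK) = algebraMap L F (ϖ : L)
  noeth : IsNoetherianRing BK
  le1 : ∀ b ∈ BK, b ∈ O1
  le2 : ∀ b ∈ BK, b ∈ O2
  unif1 : ∀ x ∈ O1, x⁻¹ ∉ O1 → ∃ c ∈ O1, x = algebraMap RK FK πK * c
  unif2 : ∀ x ∈ O2, x⁻¹ ∉ O2 → ∃ c ∈ O2, x = algebraMap RK FK πK * c
  pi_nonunit1 : (algebraMap RK FK πK)⁻¹ ∉ O1
  pi_nonunit2 : (algebraMap RK FK πK)⁻¹ ∉ O2
  arch1 : ∀ x : FK, ∃ n : ℕ, algebraMap RK FK πK ^ n * x ∈ O1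
  arch2 : ∀ x : FK, ∃ n : ℕ, algebraMap RK FK πK ^ n * x ∈ O2
  sat : ∀ b ∈ BK, ∀ c : FK, c ∈ O1 → c ∈ O2 → b = algebraMap RK FK πK * c → c ∈ BK
  frac : ∀ x : FK, ∃ a ∈ BK, ∃ b ∈ BK, b ≠ 0 ∧ x * b = a
  on_G : ∀ f ∈ O1, j f ∈ G
  on_G' : ∀ f ∈ O2, j f ∈ G'
  red_zero_iff : ∀ (f : FK) (hf : f ∈ O1), red ⟨j f, on_G f hf⟩ = 0 ↔
    ∃ c ∈ O1, f = algebraMap RK FK πK * c
  red_zero_iff' : ∀ (f : FK) (hf : f ∈ O2), red' ⟨j f, on_G' f hf⟩ = 0 ↔
    ∃ c ∈ O2, f = algebraMap RK FK πK * c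
  isMax : (RingHom.ker (χ₀.comp ((j.comp BK.val.toRingHom).codRestrict BA.toSubring
    (fun b => j_mem b b.2)))).IsMaximal
  /-- labelled good coordinates at the closed point of level `K` -/
  good : ∃ (E : ℕ) (x y w d0 : BK), IsGood πK BK O1 O2
    (RingHom.ker (χ₀.comp ((j.comp BK.val.toRingHom).codRestrict BA.toSubring
      (fun b => j_mem b b.2)))) E x y w d0
  /-- horizontal primes through the closed point of level `K` are centres of places of the tube -/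
  hor : ∀ ε : FK, (∀ P : Place L F, InDisc (locC BA χ₀) P → j ε ∈ P.toValuationSubring) →
    HorInt πK BK (RingHom.ker (χ₀.comp ((j.comp BK.val.toRingHom).codRestrict BA.toSubring
      (fun b => j_mem b b.2)))) ε

variable {res BA χ₀ G red G' red' BK πK j O1 O2}

namespace NodeLevelAt

variable (h : NodeLevelAt res BA χ₀ G red G' red' BK πK j O1 O2) (hOn : OnComp BA χ₀ G red)
  (hOn' : OnComp BA χ₀ G' red') (hχ₀ : ∀ a : A, χ₀ (algebraMap A BA a) = res a)

include h in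
/-- the two components play symmetric roles. -/
theorem symm : NodeLevelAt res BA χ₀ G' red' G red BK πK j O2 O1 :=
  { j_mem := h.j_mem
    pi_const := h.pi_const
    noeth := h.noeth
    le1 := h.le2
    le2 := h.le1
    unif1 := h.unif2
    unif2 := h.unif1
    pi_nonunit1 := h.pi_nonunit2
    pi_nonunit2 := h.pi_nonunit1
    arch1 := h.arch2
    arch2 := h.arch1
    sat := fun b hb c h2 h1 e => h.sat b hb c h1 h2 e
    frac := h.frac
    on_G := h.on_G'
    on_G' := h.on_G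
    red_zero_iff := h.red_zero_iff'
    red_zero_iff' := h.red_zero_iff
    isMax := h.isMax
    good := by
      obtain ⟨E, x, y, w, d0, Gd⟩ := h.good
      exact ⟨E, y, x, w, d0, IsGood.symm Gd⟩
    hor := h.hor }

/-- the base change on the chart. -/
def jB : BK →+* BA :=
  (j.comp BK.val.toRingHom).codRestrict BA.toSubring (fun b => h.j_mem b b.2)

@[simp] theorem coe_jB (b : BK) : ((h.jB b : BA) : F) = j (b : FK) := rfl

/-- the closed point at the finite level. -/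
def xK : Ideal BK := RingHom.ker (χ₀.comp h.jB)

theorem mem_xK_iff {b : BK} : b ∈ h.xK ↔ χ₀ (h.jB b) = 0 := Iff.rfl

instance xK_isMaximal : h.xK.IsMaximal := h.isMax

instance xK_isPrime : h.xK.IsPrime := h.isMax.isPrime

include hχ₀ in
theorem pi_mem_xK : algebraMap RK BK πK ∈ h.xK := by
  obtain ⟨ϖ, -, hres, e⟩ := h.pi_const
  rw [mem_xK_iff]
  have : h.jB (algebraMap RK BK πK) = algebraMap A BA ϖ := Subtype.ext (by
    show j (algebraMap RK FK πK) = ((algebraMap A BA ϖ : BA) : F)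
    rw [e, ← algebraMap_A_eq]; rfl)
  rw [this, hχ₀, hres]

include h in
theorem pi_ne : algebraMap RK FK πK ≠ 0 := by
  obtain ⟨ϖ, hϖ, -, e⟩ := h.pi_const
  intro h0
  rw [h0, map_zero] at e
  have : algebraMap L F (ϖ : L) ≠ 0 := by
    rw [Ne, map_eq_zero]
    exact fun h1 => hϖ (Subtype.ext h1)
  exact this e.symm

include hOn hOn' in
/-- **the node setup of level `K`.** -/
theorem setup : NodeSetup πK BK O1 O2 h.xK :=
  { noeth := h.noeth
    leO1 := h.le1
    leO2 := h.le2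
    pi_ne := h.pi_ne
    pi_nonunit1 := h.pi_nonunit1
    pi_nonunit2 := h.pi_nonunit2
    unif1 := h.unif1
    unif2 := h.unif2
    arch1 := h.arch1
    arch2 := h.arch2
    sat := h.sat
    frac := h.frac
    on1 := by
      intro b hb
      have h0 : red ⟨j (b : FK), h.on_G _ (h.le1 _ b.2)⟩ = 0 :=
        (h.red_zero_iff _ (h.le1 _ b.2)).mpr hb
      exact hOn.on (h.jB b) h0
    on2 := by
      intro b hb
      have h0 : red' ⟨j (b : FK), h.on_G' _ (h.le2 _ b.2)⟩ = 0 :=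
        (h.red_zero_iff' _ (h.le2 _ b.2)).mpr hb
      exact hOn'.on (h.jB b) h0 }

/-- the local ring of the chart of level `K` at the closed point. -/
abbrev Bk : Type _ := ↥(locSub BK h.xK)

/-- the uniformiser in the local ring. -/
def πk : h.Bk := pA πK BK h.xK

@[simp] theorem coe_πk : ((h.πk : h.Bk) : FK) = algebraMap RK FK πK := rfl

theorem j_mem_locC (z : h.Bk) : j (z : FK) ∈ locC BA χ₀ := by
  obtain ⟨a, d, hd, e⟩ := z.2
  refine ⟨h.jB a, h.jB d, hd, ?_⟩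
  rw [coe_jB, coe_jB, ← map_mul, e]

/-- **the level homomorphism** `(BK)_{xK} →+* locC`. -/
def ιK : h.Bk →+* locC BA χ₀ where
  toFun z := ⟨j (z : FK), h.j_mem_locC z⟩
  map_one' := Subtype.ext (map_one j)
  map_mul' _ _ := Subtype.ext (map_mul j _ _)
  map_zero' := Subtype.ext (map_zero j)
  map_add' _ _ := Subtype.ext (map_add j _ _)

@[simp] theorem coe_ιK (z : h.Bk) : ((h.ιK z : locC BA χ₀) : F) = j (z : FK) := rfl

theorem ιK_injective : Function.Injective h.ιK := by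
  intro a b hab
  have h1 : j (a : FK) = j (b : FK) := congrArg (fun z : locC BA χ₀ => (z : F)) hab
  exact Subtype.ext (j.injective h1)

theorem ιK_toA (b : BK) : h.ιK (toA b) = ofBA BA χ₀ (h.jB b) := rfl

theorem coe_ιK_πk : ∃ ϖ : A, ϖ ≠ 0 ∧ res ϖ = 0 ∧
    ((h.ιK h.πk : locC BA χ₀) : F) = algebraMap L F (ϖ : L) := h.pi_const

/-- the value of `χ` on the image of a fraction. -/
theorem chiC_ιK_mul {z : h.Bk} {a d : BK} (e : (z : FK) * (d : FK) = (a : FK)) :
    chiC BA χ₀ (h.ιK z) * χ₀ (h.jB d) = χ₀ (h.jB a) := by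
  apply chiC_mul_eq BA χ₀
  rw [coe_ιK, coe_jB, coe_jB, ← map_mul, e]

/-- **the kernel of `χ` at level `K` is the maximal ideal.** -/
theorem chiC_ιK_eq_zero_iff (z : h.Bk) : chiC BA χ₀ (h.ιK z) = 0 ↔ ¬ IsUnit z := by
  constructor
  · intro h0 hu
    exact ((hu.map h.ιK).map (chiC BA χ₀)).ne_zero h0
  · intro hnu
    obtain ⟨a, d, hd, e⟩ := z.2
    have ha : a ∈ h.xK := num_mem_of_not_isUnit BK h.xK hnu hd e
    have h1 := h.chiC_ιK_mul e
    rw [(h.mem_xK_iff).mp ha] at h1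
    rcases mul_eq_zero.mp h1 with h2 | h2
    · exact h2
    · exact absurd h2 hd

theorem chiC_ιK_ne_zero_iff (z : h.Bk) : chiC BA χ₀ (h.ιK z) ≠ 0 ↔ IsUnit z := by
  rw [Ne, h.chiC_ιK_eq_zero_iff, not_not]

theorem noeth_loc : IsNoetherianRing h.Bk :=
  IsLocalization.isNoetherianRing h.xK.primeCompl _ h.noeth

include hOn hOn' in
/-- **(L3) on the first component**: `red (ι z) = 0 ↔ z ∈ q1`. -/
theorem redC_ιK_eq_zero_iff (z : h.Bk) :
    hOn.redC (h.ιK z) = 0 ↔ z ∈ q1 (h.setup hOn hOn') := by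
  have hz1 : (z : FK) ∈ O1 := (h.setup hOn hOn').locSub_le1 z.2
  have e : hOn.redC (h.ιK z) = red ⟨j (z : FK), h.on_G _ hz1⟩ := rfl
  rw [e, h.red_zero_iff _ hz1]
  exact (mem_q1 (h.setup hOn hOn')).symm

include hOn hOn' in
/-- **(L3) on the second component**: `red' (ι z) = 0 ↔ z ∈ q2`. -/
theorem redC'_ιK_eq_zero_iff (z : h.Bk) :
    hOn'.redC (h.ιK z) = 0 ↔ z ∈ q2 (h.setup hOn hOn') := by
  have hz2 : (z : FK) ∈ O2 := (h.setup hOn hOn').locSub_le2 z.2
  have e : hOn'.redC (h.ιK z) = red' ⟨j (z : FK), h.on_G' _ hz2⟩ := rfl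
  rw [e, h.red_zero_iff' _ hz2]
  exact (mem_q2 (h.setup hOn hOn')).symm

include hOn hOn' in
/-- an element of `Bk` killed by both reductions is divisible by `πk`. -/
theorem pi_dvd_of_red_eq_zero {z : h.Bk} (h1 : hOn.redC (h.ιK z) = 0)
    (h2 : hOn'.redC (h.ιK z) = 0) : ∃ c : h.Bk, z = h.πk * c :=
  exists_eq_pA_mul (h.setup hOn hOn') ((h.redC_ιK_eq_zero_iff hOn hOn' z).mp h1)
    ((h.redC'_ιK_eq_zero_iff hOn hOn' z).mp h2)

/-! ### good coordinates at level `K` -/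

section Good

variable {E : ℕ} {x y w d0 : BK} (Gd : IsGood πK BK O1 O2 h.xK E x y w d0)

include hOn hOn' Gd in
/-- the first branch is a DVR with uniformiser `x`, in reduced form. -/
theorem br1 (z : h.Bk) (hz : hOn.redC (h.ιK z) ≠ 0) :
    ∃ (n : ℕ) (v : h.Bk), IsUnit v ∧
      hOn.redC (h.ιK z) = hOn.redC (h.ιK (toA x)) ^ n * hOn.redC (h.ιK v) := by
  have hz1 : z ∉ q1 (h.setup hOn hOn') := fun hh =>
    hz ((h.redC_ιK_eq_zero_iff hOn hOn' z).mpr hh)
  obtain ⟨n, v, hv, hmem⟩ := branch_decomp (h.setup hOn hOn') Gd z hz1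
  refine ⟨n, v, hv, ?_⟩
  have h0 := (h.redC_ιK_eq_zero_iff hOn hOn' _).mpr hmem
  rw [map_sub, map_sub, sub_eq_zero, map_mul, map_mul, map_pow, map_pow] at h0
  exact h0

include hOn hOn' Gd in
/-- the second branch is a DVR with uniformiser `y`, in reduced form. -/
theorem br2 (z : h.Bk) (hz : hOn'.redC (h.ιK z) ≠ 0) :
    ∃ (n : ℕ) (v : h.Bk), IsUnit v ∧
      hOn'.redC (h.ιK z) = hOn'.redC (h.ιK (toA y)) ^ n * hOn'.redC (h.ιK v) := by
  have hz2 : z ∉ q2 (h.setup hOn hOn') := fun hh =>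
    hz ((h.redC'_ιK_eq_zero_iff hOn hOn' z).mpr hh)
  obtain ⟨n, v, hv, hmem⟩ := branch_decomp' (h.setup hOn hOn') Gd z hz2
  refine ⟨n, v, hv, ?_⟩
  have h0 := (h.redC'_ιK_eq_zero_iff hOn hOn' _).mpr hmem
  rw [map_sub, map_sub, sub_eq_zero, map_mul, map_mul, map_pow, map_pow] at h0
  exact h0

include hOn hOn' Gd in
theorem redC_x_ne : hOn.redC (h.ιK (toA x)) ≠ 0 := fun h0 =>
  x_notMem_q1 (h.setup hOn hOn') Gd ((h.redC_ιK_eq_zero_iff hOn hOn' _).mp h0)

include hOn hOn' Gd in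
theorem redC'_y_ne : hOn'.redC (h.ιK (toA y)) ≠ 0 := fun h0 =>
  y_notMem_q2 (h.setup hOn hOn') Gd ((h.redC'_ιK_eq_zero_iff hOn hOn' _).mp h0)

include hOn hOn' Gd in
theorem redC'_x_eq : hOn'.redC (h.ιK (toA x)) = 0 :=
  (h.redC'_ιK_eq_zero_iff hOn hOn' _).mpr (x_mem_q2 (h.setup hOn hOn') Gd)

include hOn hOn' Gd in
theorem redC_y_eq : hOn.redC (h.ιK (toA y)) = 0 :=
  (h.redC_ιK_eq_zero_iff hOn hOn' _).mpr (y_mem_q1 (h.setup hOn hOn') Gd)

include Gd in
theorem chiC_x : chiC BA χ₀ (h.ιK (toA x)) = 0 :=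
  (h.chiC_ιK_eq_zero_iff _).mpr (not_isUnit_of_mem BK h.xK Gd.x_mem)

include Gd in
theorem chiC_y : chiC BA χ₀ (h.ιK (toA y)) = 0 :=
  (h.chiC_ιK_eq_zero_iff _).mpr (not_isUnit_of_mem BK h.xK Gd.y_mem)

include hOn hOn' Gd in
/-- **(UNIT) at level `K`**, the hypothesis in terms of the tube of `χ₀`. -/
theorem unitK {φ : FK} (hφ : φ ≠ 0)
    (hord : ∀ P : Place L F, InDisc (locC BA χ₀) P → P.ord (j φ) = 0) :
    ∃ (a n : ℤ) (U : h.Bk), IsUnit U ∧
      φ = algebraMap RK FK πK ^ a * (x : FK) ^ n * (U : FK) := by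
  have hh : HorUnit πK BK h.xK φ := by
    refine ⟨h.hor φ fun P hP => ?_, h.hor φ⁻¹ fun P hP => ?_⟩
    · apply Fermat.Agent.X0.FF.ffp_mem_of_ord_nonneg
      rw [hord P hP]
    · apply Fermat.Agent.X0.FF.ffp_mem_of_ord_nonneg
      rw [map_inv₀, Place.ord_inv, hord P hP, neg_zero]
  obtain ⟨a, n, h1, h2⟩ := unit_decomp (h.setup hOn hOn') Gd hφ hh
  have hx0 := x_ne_zero (h.setup hOn hOn') Gd
  have hp0 := h.pi_ne
  have hden : algebraMap RK FK πK ^ a * (x : FK) ^ n ≠ 0 :=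
    mul_ne_zero (zpow_ne_zero _ hp0) (zpow_ne_zero _ hx0)
  set U : h.Bk := ⟨φ * (algebraMap RK FK πK ^ a * (x : FK) ^ n)⁻¹, h1⟩ with hU
  have hU0 : (U : FK) ≠ 0 := mul_ne_zero hφ (inv_ne_zero hden)
  refine ⟨a, n, U, isUnit_of_inv_mem hU0 h2, ?_⟩
  show φ = algebraMap RK FK πK ^ a * (x : FK) ^ n *
    (φ * (algebraMap RK FK πK ^ a * (x : FK) ^ n)⁻¹)
  field_simp

end Good

end NodeLevelAt

end Fermat.Agent.ORD.NODE.NodeLevelAt4
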