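/-
Programme ORD (S33), chapter NODE = O6c (helper4): **the family of finite levels of a nodal chart at
a TWO-branch closed point** (the analogue of helper8's `LevelAt8.Levels`).

`B : Base L k`, `S S' : Side B F Ft/Ft'` the two components, `BA ⊂ F` the chart over `A = B.A`,
`χ₀ : BA →+* k` the closed point (on both components), levels `i : I` as in `NodeLevelAt4`.

* `NodeLevels` : the hypotheses; `NodeLevels.symm`;
* `locBase : LocBase B (locC BA χ₀) (chiC BA χ₀)` (the local ring at the node, `NodeSys4`);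
* `L0_loc` : every finite list of elements of the local ring comes from one level.
-/
import Mathlib
import Fermat.Agent.ORD.NODE.NodeLevelAt4
import Fermat.Agent.ORD.NODE.NodeSys4

set_option autoImplicit false
set_option linter.unusedSectionVars false
set_option linter.unusedVariables false
set_option linter.style.longLine false
set_option linter.style.haveILetI false

namespace Fermat.Agent.ORD.NODE.NodeLevels4

open AlgebraicCurve Fermat.Agent.ES.N34.NodalSmooth13 Fermat.Agent.ORD.IFACEN.LocAt8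
  Fermat.Agent.ORD.IFACEN.DiscPlaces8 Fermat.Agent.ORD.ANN.Side3
  Fermat.Agent.ORD.NODE.GoodCoords4 Fermat.Agent.ORD.NODE.NodeLocal4
  Fermat.Agent.ORD.NODE.NodeLevelAt4 Fermat.Agent.ORD.NODE.NodeSys4

variable {L F k Ft Ft' : Type*} [Field L] [Field F] [Algebra L F] [Field k] [Field Ft]
  [Algebra k Ft] [Field Ft'] [Algebra k Ft']

variable (B : Base L k) [Algebra B.A F] [IsScalarTower B.A L F]
  (S : Side B F Ft) (S' : Side B F Ft') (BA : Subalgebra B.A F) (χ₀ : BA →+* k)
variable {I : Type*} (RK FK : I → Type*) [∀ i, CommRing (RK i)] [∀ i, Field (FK i)]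
  [∀ i, Algebra (RK i) (FK i)] (BK : ∀ i, Subalgebra (RK i) (FK i)) (πK : ∀ i, RK i)
  (j : ∀ i, FK i →+* F) (O1 O2 : ∀ i, ValuationSubring (FK i))

/-- **The level system of a nodal chart at a two-branch closed point.** -/
structure NodeLevels : Prop where
  chi_const : ∀ a : B.A, χ₀ (algebraMap B.A BA a) = B.res a
  onComp : OnComp BA χ₀ S.G S.red
  onComp' : OnComp BA χ₀ S'.G S'.red
  frac : ∀ y : F, ∃ a b : BA, b ≠ 0 ∧ y * (b : F) = (a : F)
  pir : ∀ O : ValuationSubring Ft, (∀ c : k, algebraMap k Ft c ∈ O) → O ≠ ⊤ →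
    IsPrincipalIdealRing O
  pir' : ∀ O : ValuationSubring Ft', (∀ c : k, algebraMap k Ft' c ∈ O) → O ≠ ⊤ →
    IsPrincipalIdealRing O
  L4 : ∀ y : Ft, ∃ a b : BA, S.red ⟨(b : F), onComp.le_G b b.2⟩ ≠ 0 ∧
    y * S.red ⟨(b : F), onComp.le_G b b.2⟩ = S.red ⟨(a : F), onComp.le_G a a.2⟩
  L4' : ∀ y : Ft', ∃ a b : BA, S'.red ⟨(b : F), onComp'.le_G b b.2⟩ ≠ 0 ∧
    y * S'.red ⟨(b : F), onComp'.le_G b b.2⟩ = S'.red ⟨(a : F), onComp'.le_G a a.2⟩
  level : ∀ i, NodeLevelAt B.res BA χ₀ S.G S.red S'.G S'.red (BK i) (πK i) (j i) (O1 i) (O2 i)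
  L0 : ∀ T : List BA, ∃ i, ∀ b ∈ T, ∃ b' : BK i, j i (b' : FK i) = (b : F)

variable {B S S' BA χ₀ RK FK BK πK j O1 O2}

namespace NodeLevels

variable (H : NodeLevels B S S' BA χ₀ RK FK BK πK j O1 O2)

include H in
/-- the two components play symmetric roles. -/
theorem symm : NodeLevels B S' S BA χ₀ RK FK BK πK j O2 O1 :=
  { chi_const := H.chi_const
    onComp := H.onComp'
    onComp' := H.onComp
    frac := H.frac
    pir := H.pir'
    pir' := H.pir
    L4 := H.L4'
    L4' := H.L4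
    level := fun i => (H.level i).symm
    L0 := H.L0 }

include H in
/-- **the local ring at the node.** -/
theorem locBase : LocBase B (locC BA χ₀) (chiC BA χ₀) :=
  { const_mem := const_mem_locC BA χ₀
    chi_const := chiC_const BA χ₀ H.chi_const
    inv_mem := inv_mem_locC BA χ₀
    frac := frac_locC BA χ₀ H.frac }

/-- a representation of an element of the local ring as a fraction. -/
noncomputable def rep (c : locC BA χ₀) : BA × BA :=
  (Classical.choose (exists_rep BA χ₀ c),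
    Classical.choose (Classical.choose_spec (exists_rep BA χ₀ c)))

theorem rep_spec (c : locC BA χ₀) :
    χ₀ (rep c).2 ≠ 0 ∧ (c : F) * ((rep c).2 : F) = ((rep c).1 : F) :=
  Classical.choose_spec (Classical.choose_spec (exists_rep BA χ₀ c))

/-- **(L0)** for the local ring. -/
theorem L0_loc (T : List (locC BA χ₀)) :
    ∃ i, ∀ c ∈ T, ∃ z : (H.level i).Bk, (H.level i).ιK z = c := by
  obtain ⟨i, hi⟩ := H.L0 (T.flatMap fun c => [(rep c).1, (rep c).2])
  refine ⟨i, fun c hc => ?_⟩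
  obtain ⟨hd, e⟩ := rep_spec c
  obtain ⟨a', ha'⟩ := hi (rep c).1 (List.mem_flatMap.mpr ⟨c, hc, by simp⟩)
  obtain ⟨d', hd'⟩ := hi (rep c).2 (List.mem_flatMap.mpr ⟨c, hc, by simp⟩)
  have hjd : (H.level i).jB d' = (rep c).2 := Subtype.ext hd'
  have hd'x : d' ∉ (H.level i).xK := by
    intro hmem
    apply hd
    rw [← hjd]
    exact hmem
  have hd'0 : (d' : FK i) ≠ 0 := coe_ne_zero_of_notMem (BK i) (H.level i).xK hd'x
  refine ⟨⟨(a' : FK i) * (d' : FK i)⁻¹, ⟨a', d', hd'x, by field_simp⟩⟩, ?_⟩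
  apply Subtype.ext
  show j i ((a' : FK i) * (d' : FK i)⁻¹) = (c : F)
  have hd0 : ((rep c).2 : F) ≠ 0 := by
    intro h0
    apply hd
    have : (rep c).2 = 0 := Subtype.ext h0
    rw [this, map_zero]
  rw [map_mul, map_inv₀, ha', hd', ← e]
  field_simp

/-- the constant `ϖ_i` of level `i`. -/
theorem exists_pi (i : I) : ∃ ϖ : B.A, ϖ ≠ 0 ∧ B.res ϖ = 0 ∧
    (H.level i).ιK (H.level i).πk = H.locBase.const ϖ := by
  obtain ⟨ϖ, h1, h2, e⟩ := (H.level i).coe_ιK_πk
  exact ⟨ϖ, h1, h2, Subtype.ext e⟩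

end NodeLevels

end Fermat.Agent.ORD.NODE.NodeLevels4
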