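/-
PROGRAMME ORD (S33), chapter NODE = O6c (helper2, the "place half" agreed with helper4): **the branch
places of a node**.

Part 1 (abstract).  `S` a component (`Side3.Side`), `C ⊂ S.G` a subring of `F`, local with residue map
`χ` (`NodeSys4.LocBase`), through whose closed point the component passes (`ker red ⊂ ker χ`), with
* (L4) `Ft = Frac (red C)`,
* (BD) the branch is a discrete valuation ring, in reduced form: any two `a, b ∈ C` with nonzero
  reductions satisfy `red a = red ξ ^ n * red v`, `red b = red ξ ^ m * red v'` for one `ξ ∈ C` and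
  units `v, v'` of `C`,
* the closed point is not the generic point of the component (`nonunit`), and valuation rings of
  `Ft / k` are principal (`pir`).
Then `red C` is a valuation ring of `Ft` (`valO`), it is the valuation ring of a place `placeQ` of
`Ft / k`, and `locSide : NodeSys4.LocSide B S C χ placeQ`.

Part 2 (levels).  For helper4's `NodeLevels4.NodeLevels` (a family of finite levels `NodeLevelAt4` of a
nodal chart at a two-branch closed point `χ₀` of the chart `BA`), `C = locC BA χ₀`, `χ = chiC BA χ₀`: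
`NodeLevels.placeQ`, `NodeLevels.locSide`; the second branch by `H.symm`.
-/
import Mathlib
import Fermat.Agent.ORD.NODE.NodeSys4
import Fermat.Agent.ORD.NODE.NodeLevels4

set_option autoImplicit false
set_option linter.unusedSectionVars false
set_option linter.style.longLine false

namespace Fermat.Agent.ORD.NODE.NodeSide2

open AlgebraicCurve Fermat.Agent.X0.FF Fermat.Agent.RR.LSpace
open Fermat.Agent.ORD.ANN.Side3 Fermat.Agent.ORD.NODE.NodeSys4

noncomputable section

variable {L k F Ft : Type*} [Field L] [Field k] [Field F] [Algebra L F] [Field Ft] [Algebra k Ft]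

/-! ### Part 1: the abstract branch -/

/-- **The hypotheses of one branch at a closed point.** -/
structure Branch (B : Base L k) (S : Side B F Ft) (C : Subring F) (χ : C →+* k) : Prop where
  base : LocBase B C χ
  le_G : ∀ c ∈ C, c ∈ S.G
  chi_of_red : ∀ c : C, S.red ⟨(c : F), le_G c c.2⟩ = 0 → χ c = 0
  L4 : ∀ y : Ft, ∃ a b : C, S.red ⟨(b : F), le_G b b.2⟩ ≠ 0 ∧
    y * S.red ⟨(b : F), le_G b b.2⟩ = S.red ⟨(a : F), le_G a a.2⟩
  BD : ∀ a b : C, S.red ⟨(a : F), le_G a a.2⟩ ≠ 0 → S.red ⟨(b : F), le_G b b.2⟩ ≠ 0 →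
    ∃ (ξ : C) (n m : ℕ) (v v' : C), χ v ≠ 0 ∧ χ v' ≠ 0 ∧
      S.red ⟨(a : F), le_G a a.2⟩ =
        S.red ⟨(ξ : F), le_G ξ ξ.2⟩ ^ n * S.red ⟨(v : F), le_G v v.2⟩ ∧
      S.red ⟨(b : F), le_G b b.2⟩ =
        S.red ⟨(ξ : F), le_G ξ ξ.2⟩ ^ m * S.red ⟨(v' : F), le_G v' v'.2⟩
  nonunit : ∃ z : C, χ z = 0 ∧ S.red ⟨(z : F), le_G z z.2⟩ ≠ 0
  pir : ∀ O : ValuationSubring Ft, (∀ c : k, algebraMap k Ft c ∈ O) → O ≠ ⊤ →
    IsPrincipalIdealRing O

namespace Branch

variable {B : Base L k} {S : Side B F Ft} {C : Subring F} {χ : C →+* k} (h : Branch B S C χ)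
include h

/-- the reduction on `C`. -/
def redC : C →+* Ft := S.red.comp (Subring.inclusion (S := C) (T := S.G) fun c hc => h.le_G c hc)

theorem redC_apply (c : C) : h.redC c = S.red ⟨(c : F), h.le_G c c.2⟩ := rfl

theorem redC_ne_zero_of_chi {c : C} (hc : χ c ≠ 0) : h.redC c ≠ 0 := fun h0 =>
  hc (h.chi_of_red c h0)

theorem redC_inv (c : C) (hc : χ c ≠ 0) : h.redC (h.base.inv c hc) = (h.redC c)⁻¹ := by
  have := congrArg h.redC (h.base.mul_inv c hc)
  rw [map_mul, map_one] at this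
  exact eq_inv_of_mul_eq_one_right this

/-- **(VAL)**: `red C` is a valuation ring of `Ft`. -/
theorem mem_or_inv_mem (y : Ft) : (∃ c : C, h.redC c = y) ∨ ∃ c : C, h.redC c = y⁻¹ := by
  by_cases hy0 : y = 0
  · left; exact ⟨0, by rw [map_zero, hy0]⟩
  obtain ⟨a, b, hb, e⟩ := h.L4 y
  have hb' : h.redC b ≠ 0 := hb
  have e' : y * h.redC b = h.redC a := e
  have ha : h.redC a ≠ 0 := by rw [← e']; exact mul_ne_zero hy0 hb'
  obtain ⟨ξ, n, m, v, v', hv, hv', ea, eb⟩ := h.BD a b ha hb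
  have ea' : h.redC a = h.redC ξ ^ n * h.redC v := ea
  have eb' : h.redC b = h.redC ξ ^ m * h.redC v' := eb
  have hrv : h.redC v ≠ 0 := h.redC_ne_zero_of_chi hv
  have hrv' : h.redC v' ≠ 0 := h.redC_ne_zero_of_chi hv'
  have hξn : h.redC ξ ^ n ≠ 0 := fun h0 => ha (by rw [ea', h0, zero_mul])
  have hξm : h.redC ξ ^ m ≠ 0 := fun h0 => hb' (by rw [eb', h0, zero_mul])
  rcases le_total m n with hmn | hnm
  · left
    obtain ⟨d, rfl⟩ := Nat.exists_eq_add_of_le hmn
    refine ⟨ξ ^ d * v * h.base.inv v' hv', ?_⟩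
    rw [map_mul, map_mul, map_pow, h.redC_inv v' hv']
    rw [ea', eb', pow_add] at e'
    have e2 : y * h.redC v' = h.redC ξ ^ d * h.redC v := by
      apply mul_left_cancel₀ hξm
      linear_combination e' 
    rw [← e2, mul_assoc, mul_inv_cancel₀ hrv', mul_one]
  · right
    obtain ⟨d, rfl⟩ := Nat.exists_eq_add_of_le hnm
    refine ⟨ξ ^ d * v' * h.base.inv v hv, ?_⟩
    rw [map_mul, map_mul, map_pow, h.redC_inv v hv]
    rw [ea', eb', pow_add] at e'
    have e2 : y * (h.redC ξ ^ d * h.redC v') = h.redC v := by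
      apply mul_left_cancel₀ hξn
      linear_combination e' 
    have hd : h.redC ξ ^ d ≠ 0 := fun h0 => hξm (by rw [pow_add, h0, mul_zero])
    rw [← e2]
    field_simp

/-- the valuation subring `red C` of `Ft`. -/
def valO : ValuationSubring Ft where
  carrier := {y | ∃ c : C, h.redC c = y}
  mul_mem' := by
    rintro _ _ ⟨a, rfl⟩ ⟨b, rfl⟩
    exact ⟨a * b, map_mul _ _ _⟩
  one_mem' := ⟨1, map_one _⟩
  add_mem' := by
    rintro _ _ ⟨a, rfl⟩ ⟨b, rfl⟩
    exact ⟨a + b, map_add _ _ _⟩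
  zero_mem' := ⟨0, map_zero _⟩
  neg_mem' := by
    rintro _ ⟨a, rfl⟩
    exact ⟨-a, map_neg _ _⟩
  mem_or_inv_mem' := h.mem_or_inv_mem

theorem mem_valO_iff {y : Ft} : y ∈ h.valO ↔ ∃ c : C, h.redC c = y := Iff.rfl

theorem algebraMap_mem_valO (c : k) : algebraMap k Ft c ∈ h.valO := by
  obtain ⟨a, rfl⟩ := B.res_surj c
  exact ⟨h.base.const a, S.red_const a⟩

/-- a non-unit of `C` with nonzero reduction reduces to a non-unit of `red C`. -/
theorem inv_not_mem_valO {z : C} (hχ : χ z = 0) (hr : h.redC z ≠ 0) : (h.redC z)⁻¹ ∉ h.valO := by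
  rintro ⟨c, hc⟩
  have h0 : h.redC (z * c - 1) = 0 := by
    rw [map_sub, map_mul, hc, mul_inv_cancel₀ hr, map_one, sub_self]
  have h2 := h.chi_of_red (z * c - 1) h0
  rw [map_sub, map_mul, hχ, zero_mul, map_one, zero_sub, neg_eq_zero] at h2
  exact one_ne_zero h2

theorem valO_ne_top : h.valO ≠ ⊤ := by
  obtain ⟨z, hχ, hr⟩ := h.nonunit
  intro htop
  apply h.inv_not_mem_valO hχ hr
  rw [htop]
  exact ValuationSubring.mem_top _

/-- **the branch place**: the place `Q` of `Ft / k` with valuation ring `red C`. -/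
def placeQ : Place k Ft :=
  ⟨h.valO, h.algebraMap_mem_valO, h.valO_ne_top, h.pir _ h.algebraMap_mem_valO h.valO_ne_top⟩

theorem mem_placeQ_iff (y : Ft) : y ∈ h.placeQ.toValuationSubring ↔ ∃ c : C, h.redC c = y := Iff.rfl

/-- **the component passes through the closed point of `C`, with branch `placeQ`.** -/
theorem locSide : LocSide B S C χ h.placeQ :=
  { le_G := h.le_G
    chi_of_red := h.chi_of_red
    mem_Q := fun f => h.mem_placeQ_iff f }

end Branch

/-! ### Part 2: the branch places of a node from its finite levels -/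

section Levels

open Fermat.Agent.ORD.IFACEN.LocAt8 Fermat.Agent.ORD.NODE.NodeLevelAt4
  Fermat.Agent.ORD.NODE.NodeLevels4 Fermat.Agent.ORD.NODE.NodeLocal4
  Fermat.Agent.ORD.NODE.GoodCoords4

variable {Ft' : Type*} [Field Ft'] [Algebra k Ft']
variable {B : Base L k} [Algebra B.A F] [IsScalarTower B.A L F]
  {S : Side B F Ft} {S' : Side B F Ft'} {BA : Subalgebra B.A F} {χ₀ : BA →+* k}
variable {I : Type*} {RK FK : I → Type*} [∀ i, CommRing (RK i)] [∀ i, Field (FK i)]
  [∀ i, Algebra (RK i) (FK i)] {BK : ∀ i, Subalgebra (RK i) (FK i)} {πK : ∀ i, RK i}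
  {j : ∀ i, FK i →+* F} {O1 O2 : ∀ i, ValuationSubring (FK i)}

/-- **the first branch of a node is a `Branch`.** -/
theorem branch_of_levels (H : NodeLevels B S S' BA χ₀ RK FK BK πK j O1 O2) :
    Branch B S (locC BA χ₀) (chiC BA χ₀) := by
  have hle : ∀ c ∈ locC BA χ₀, c ∈ S.G := fun c hc => H.onComp.locC_le hc
  refine
    { base := H.locBase
      le_G := hle
      chi_of_red := fun c hc => H.onComp.chiC_of_redC c hc
      L4 := ?_
      BD := ?_
      nonunit := ?_
      pir := H.pir }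
  · intro y
    obtain ⟨a, b, hb, e⟩ := H.L4 y
    exact ⟨ofBA BA χ₀ a, ofBA BA χ₀ b, hb, e⟩
  · intro a b ha hb
    obtain ⟨i, hi⟩ := H.L0_loc [a, b]
    obtain ⟨za, rfl⟩ := hi a (by simp)
    obtain ⟨zb, rfl⟩ := hi b (by simp)
    obtain ⟨E, x, y, w, d0, Gd⟩ := (H.level i).good
    obtain ⟨n, v, hv, ea⟩ := (H.level i).br1 H.onComp H.onComp' Gd za ha
    obtain ⟨m, v', hv', eb⟩ := (H.level i).br1 H.onComp H.onComp' Gd zb hb
    exact ⟨(H.level i).ιK (toA x), n, m, (H.level i).ιK v, (H.level i).ιK v',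
      ((H.level i).chiC_ιK_ne_zero_iff v).mpr hv, ((H.level i).chiC_ιK_ne_zero_iff v').mpr hv',
      ea, eb⟩
  · obtain ⟨i, -⟩ := H.L0 []
    obtain ⟨E, x, y, w, d0, Gd⟩ := (H.level i).good
    exact ⟨(H.level i).ιK (toA x), (H.level i).chiC_x Gd,
      (H.level i).redC_x_ne H.onComp H.onComp' Gd⟩

/-- **the branch place of the node on the first component** (`O_Q = red (locC BA χ₀)`). -/
def placeQ (H : NodeLevels B S S' BA χ₀ RK FK BK πK j O1 O2) : Place k Ft :=
  (branch_of_levels H).placeQ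

/-- **the branch place of the node on the second component.** -/
def placeQ' (H : NodeLevels B S S' BA χ₀ RK FK BK πK j O1 O2) : Place k Ft' :=
  (branch_of_levels H.symm).placeQ

theorem mem_placeQ_iff (H : NodeLevels B S S' BA χ₀ RK FK BK πK j O1 O2) (y : Ft) :
    y ∈ (placeQ H).toValuationSubring ↔ ∃ c : locC BA χ₀, H.onComp.redC c = y := Iff.rfl

theorem mem_placeQ'_iff (H : NodeLevels B S S' BA χ₀ RK FK BK πK j O1 O2) (y : Ft') :
    y ∈ (placeQ' H).toValuationSubring ↔ ∃ c : locC BA χ₀, H.onComp'.redC c = y := Iff.rfl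

/-- **the first component passes through the node, with branch `placeQ H`.** -/
theorem locSide (H : NodeLevels B S S' BA χ₀ RK FK BK πK j O1 O2) :
    LocSide B S (locC BA χ₀) (chiC BA χ₀) (placeQ H) := (branch_of_levels H).locSide

/-- **the second component passes through the node, with branch `placeQ' H`.** -/
theorem locSide' (H : NodeLevels B S S' BA χ₀ RK FK BK πK j O1 O2) :
    LocSide B S' (locC BA χ₀) (chiC BA χ₀) (placeQ' H) := (branch_of_levels H.symm).locSide

/-- the reduction of the first good coordinate of any level is a non-unit at `placeQ H`, and that of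
a unit of the local ring is a unit. -/
theorem ord_placeQ_eq_zero_of_chi (H : NodeLevels B S S' BA χ₀ RK FK BK πK j O1 O2)
    {c : locC BA χ₀} (hc : chiC BA χ₀ c ≠ 0) : (placeQ H).ord (H.onComp.redC c) = 0 :=
  (locSide H).ord_redC_eq_zero_of_chi H.locBase hc

/-- the order at the branch of `ξ ^ n * v` with `v` a unit. -/
theorem ord_pow_mul_unit {Q : Place k Ft} (a b : Ft) (n : ℕ) (hb : Q.ord b = 0) (hb0 : b ≠ 0) :
    Q.ord (a ^ n * b) = n * Q.ord a := by
  rcases eq_or_ne a 0 with rfl | ha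
  · rcases Nat.eq_zero_or_pos n with rfl | hn
    · rw [pow_zero, one_mul, hb, Place.ord_zero, mul_zero]
    · rw [zero_pow (Nat.pos_iff_ne_zero.mp hn), zero_mul, Place.ord_zero, mul_zero]
  · have h1 := Q.ord_zpow a n
    rw [zpow_natCast] at h1
    rw [Q.ord_mul (pow_ne_zero _ ha) hb0, h1, hb, add_zero]

/-- **a level whose good coordinates are uniformizers of the two branches**: at some level `i`, for
ANY good coordinates `(x, y)` of that level, `ord_Q (red x) = 1` and `ord_Q' (red' y) = 1`. -/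
theorem exists_level_ord (H : NodeLevels B S S' BA χ₀ RK FK BK πK j O1 O2) :
    ∃ i, ∀ {E : ℕ} {x y w d0 : BK i},
      IsGood (πK i) (BK i) (O1 i) (O2 i) (H.level i).xK E x y w d0 →
      (placeQ H).ord (H.onComp.redC ((H.level i).ιK (toA x))) = 1 ∧
      (placeQ' H).ord (H.onComp'.redC ((H.level i).ιK (toA y))) = 1 := by
  obtain ⟨ϖ, hϖ⟩ := ffp_exists_irreducible (placeQ H)
  obtain ⟨ϖ', hϖ'⟩ := ffp_exists_irreducible (placeQ' H)
  have h1 : (placeQ H).ord (ϖ : Ft) = 1 := (placeQ H).ord_coe_irreducible hϖ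
  have h1' : (placeQ' H).ord (ϖ' : Ft') = 1 := (placeQ' H).ord_coe_irreducible hϖ'
  obtain ⟨c, hc⟩ := (mem_placeQ_iff H _).mp ϖ.2
  obtain ⟨c', hc'⟩ := (mem_placeQ'_iff H _).mp ϖ'.2
  obtain ⟨i, hi⟩ := H.L0_loc [c, c']
  obtain ⟨z, rfl⟩ := hi c (by simp)
  obtain ⟨z', rfl⟩ := hi c' (by simp)
  refine ⟨i, fun {E x y w d0} Gd => ⟨?_, ?_⟩⟩
  · have hz : H.onComp.redC ((H.level i).ιK z) ≠ 0 := by
      intro h0
      rw [hc] at h0
      rw [h0, Place.ord_zero] at h1
      exact zero_ne_one h1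
    obtain ⟨n, v, hv, e⟩ := (H.level i).br1 H.onComp H.onComp' Gd z hz
    have hvχ : chiC BA χ₀ ((H.level i).ιK v) ≠ 0 := ((H.level i).chiC_ιK_ne_zero_iff v).mpr hv
    have hv0 : (placeQ H).ord (H.onComp.redC ((H.level i).ιK v)) = 0 :=
      ord_placeQ_eq_zero_of_chi H hvχ
    have hvne : H.onComp.redC ((H.level i).ιK v) ≠ 0 := fun h0 =>
      hvχ (H.onComp.chiC_of_redC _ h0)
    have h2 := ord_pow_mul_unit (Q := placeQ H)
      (H.onComp.redC ((H.level i).ιK (toA x))) _ n hv0 hvne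
    rw [← e, hc, h1] at h2
    -- `1 = n * ord x̄` with `ord x̄ ≥ 0`
    have hx0 : 0 ≤ (placeQ H).ord (H.onComp.redC ((H.level i).ιK (toA x))) :=
      ffp_ord_nonneg_of_mem _ ((mem_placeQ_iff H _).mpr ⟨_, rfl⟩)
    have hn : (n : ℤ) = 1 ∨ (n : ℤ) = -1 := Int.eq_one_or_neg_one_of_mul_eq_one h2.symm
    rcases hn with hn | hn
    · rw [hn, one_mul] at h2
      exact h2.symm
    · have : (0 : ℤ) ≤ n := Int.natCast_nonneg n
      omega
  · have hz : H.onComp'.redC ((H.level i).ιK z') ≠ 0 := by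
      intro h0
      rw [hc'] at h0
      rw [h0, Place.ord_zero] at h1'
      exact zero_ne_one h1'
    obtain ⟨n, v, hv, e⟩ := (H.level i).br2 H.onComp H.onComp' Gd z' hz
    have hvχ : chiC BA χ₀ ((H.level i).ιK v) ≠ 0 := ((H.level i).chiC_ιK_ne_zero_iff v).mpr hv
    have hv0 : (placeQ' H).ord (H.onComp'.redC ((H.level i).ιK v)) = 0 :=
      (locSide' H).ord_redC_eq_zero_of_chi H.locBase hvχ
    have hvne : H.onComp'.redC ((H.level i).ιK v) ≠ 0 := fun h0 =>
      hvχ (H.onComp'.chiC_of_redC _ h0)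
    have h2 := ord_pow_mul_unit (Q := placeQ' H)
      (H.onComp'.redC ((H.level i).ιK (toA y))) _ n hv0 hvne
    rw [← e, hc', h1'] at h2
    have hn : (n : ℤ) = 1 ∨ (n : ℤ) = -1 := Int.eq_one_or_neg_one_of_mul_eq_one h2.symm
    rcases hn with hn | hn
    · rw [hn, one_mul] at h2
      exact h2.symm
    · have : (0 : ℤ) ≤ n := Int.natCast_nonneg n
      omega

end Levels

end

end Fermat.Agent.ORD.NODE.NodeSide2
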