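/-
Programme ORD (S33), chapter NODE = O6c (helper4): **from the levels to the node system.**

`H : NodeLevels B S S' BA χ₀ …` (file `NodeLevels4`), `C := locC BA χ₀`, `χ := chiC BA χ₀`, and the
two branch places given abstractly: `hs : LocSide B S C χ Q`, `hs' : LocSide B S' C χ Q'`
(helper2's `NodeSide2` constructs them from `H`).  Then

  `exists_nodeSys : ∃ x y u ϖ, NodeSys B S S' C χ Q Q' x y u ϖ`.

* `ord_x_of_unif` : if the reduction of some element of level `i` is a uniformiser of `Q`, so is the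
  reduction of the good coordinate `x_i` of that level;
* `stab` : STABILITY OF THE COORDINATE: if `X ∈ C` has `ord_Q (red X) = 1` and no zero on the tube,
  then at every level `i` containing `X`: `X = x_i * unit` (by `UnitLocal4.unit_decomp`);
  no unramifiedness statement for the tower of constant fields is needed;
* `peel`  : (PEEL-N) by Krull's intersection theorem at one level (`NodeLocalMore4`);
* `unit`  : (UNIT-N) from `unitK` at one level.
-/
import Mathlib
import Fermat.Agent.ORD.NODE.NodeLevels4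

set_option autoImplicit false
set_option linter.unusedSectionVars false
set_option linter.unusedVariables false
set_option linter.style.longLine false
set_option linter.style.haveILetI false

namespace Fermat.Agent.ORD.NODE.NodeTop4

open AlgebraicCurve Fermat.Agent.X0.FF Fermat.Agent.ES.N34.NodalSmooth13
  Fermat.Agent.ORD.IFACEN.LocAt8
  Fermat.Agent.ORD.IFACEN.DiscPlaces8 Fermat.Agent.ORD.ANN.Side3
  Fermat.Agent.ORD.NODE.GoodCoords4 Fermat.Agent.ORD.NODE.NodeLocal4
  Fermat.Agent.ORD.NODE.UnitLocal4 Fermat.Agent.ORD.NODE.NodeLocalMore4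
  Fermat.Agent.ORD.NODE.NodeLevelAt4 Fermat.Agent.ORD.NODE.NodeSys4
  Fermat.Agent.ORD.NODE.NodeLevels4 IsLocalRing

variable {L F k Ft Ft' : Type*} [Field L] [Field F] [Algebra L F] [Field k] [Field Ft]
  [Algebra k Ft] [Field Ft'] [Algebra k Ft']

/-! ### generalities -/

/-- sections of a local ring over `A` induce the residue map. -/
theorem locBase_res_val {B : Base L k} {C : Subring F} {χ : C →+* k} (h : LocBase B C χ)
    (val : C →+* B.A) (hval : ∀ a : B.A, val (h.const a) = a) (c : C) :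
    B.res (val c) = χ c := by
  have key : ∀ c : C, χ c = 0 → B.res (val c) = 0 := by
    intro c hc
    by_contra hne
    have hu : IsUnit (val c) := by
      by_contra hnu
      exact hne ((B.res_eq_zero_iff _).mpr hnu)
    obtain ⟨b, hb⟩ := isUnit_iff_exists_inv.mp hu
    set w : C := 1 - h.const b * c with hw
    have hχw : χ w ≠ 0 := by
      rw [hw, map_sub, map_mul, hc, mul_zero, sub_zero, map_one]
      exact one_ne_zero
    have h1 : w * h.inv w hχw = 1 := h.mul_inv w hχw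
    have h2 : val w = 0 := by
      rw [hw, map_sub, map_mul, map_one, hval, mul_comm, hb, sub_self]
    have h3 := congrArg val h1
    rw [map_mul, h2, zero_mul, map_one] at h3
    exact zero_ne_one h3
  obtain ⟨a, ha⟩ := h.exists_res_eq_chi c
  have h0 : χ (c - h.const a) = 0 := by rw [map_sub, h.chi_const', ha, sub_self]
  have h1 := key _ h0
  rw [map_sub, hval, map_sub, sub_eq_zero] at h1
  rw [h1, ha]

/-- a unit of `C` has no zero or pole on the tube. -/
theorem locBase_ord_eq_zero_of_chi {B : Base L k} {C : Subring F} {χ : C →+* k}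
    (h : LocBase B C χ) {P : Place L F} (hP : InDisc C P) {c : C} (hc : χ c ≠ 0) :
    P.ord (c : F) = 0 := by
  have h1 := LocBase.ord_nonneg hP c
  have h2 := LocBase.ord_nonneg hP (h.inv c hc)
  have hc0 : (c : F) ≠ 0 := h.coe_ne_zero (h.ne_zero_of_chi hc)
  have h3 : (c : F) * ((h.inv c hc : C) : F) = 1 := mul_inv_cancel₀ hc0
  have h4 := P.ord_mul hc0 (inv_ne_zero hc0)
  rw [show (c : F) * (c : F)⁻¹ = 1 from mul_inv_cancel₀ hc0, Place.ord_one] at h4
  have h5 : P.ord ((c : F)⁻¹) = P.ord ((h.inv c hc : C) : F) := rfl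
  omega

/-- if `X * Y = ϖ * u` with `ϖ` a nonzero constant and `u` a unit, then `X` has no zero on the
tube. -/
theorem locBase_ord_eq_zero_of_mul {B : Base L k} {C : Subring F} {χ : C →+* k}
    (h : LocBase B C χ) {P : Place L F} (hP : InDisc C P) {X Y u : C} {ϖ : B.A} (hϖ : ϖ ≠ 0)
    (hu : χ u ≠ 0) (e : X * Y = h.const ϖ * u) : P.ord (X : F) = 0 := by
  have hu0 : (u : F) ≠ 0 := h.coe_ne_zero (h.ne_zero_of_chi hu)
  have hϖ0 : ((h.const ϖ : C) : F) ≠ 0 := h.coe_ne_zero (h.const_ne_zero hϖ)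
  have e' : (X : F) * (Y : F) = ((h.const ϖ : C) : F) * (u : F) := congrArg Subtype.val e
  have hX0 : (X : F) ≠ 0 := by
    intro h0
    rw [h0, zero_mul] at e'
    exact mul_ne_zero hϖ0 hu0 e'.symm
  have hY0 : (Y : F) ≠ 0 := by
    intro h0
    rw [h0, mul_zero] at e'
    exact mul_ne_zero hϖ0 hu0 e'.symm
  have h1 := P.ord_mul hX0 hY0
  have h2 := P.ord_mul hϖ0 hu0
  rw [e', h2, locBase_ord_eq_zero_of_chi h hP hu] at h1
  have h3 : P.ord ((h.const ϖ : C) : F) = 0 := ffp_ord_algebraMap P _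
  have h4 := LocBase.ord_nonneg hP X
  have h5 := LocBase.ord_nonneg hP Y
  omega

/-- integer powers of a unit of a subalgebra of a field. -/
theorem exists_unit_zpow {R E : Type*} [CommRing R] [Field E] [Algebra R E] (T : Subalgebra R E)
    {u : T} (hu : IsUnit u) (n : ℤ) : ∃ W : T, IsUnit W ∧ (W : E) = (u : E) ^ n := by
  refine ⟨((hu.unit ^ n : Tˣ) : T), (hu.unit ^ n).isUnit, ?_⟩
  have h1 : (Units.map (T.val : T →* E)) (hu.unit ^ n) = (Units.map (T.val : T →* E)) hu.unit ^ n :=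
    map_zpow _ _ _
  have h2 := congrArg (fun v : Eˣ => (v : E)) h1
  simp only [Units.val_zpow_eq_zpow_val] at h2
  exact h2

/-- powers of an element which is a unit of a valuation ring. -/
theorem zpow_mem_of_mem_of_inv_mem {E : Type*} [Field E] (O : ValuationSubring E) {a : E}
    (h1 : a ∈ O) (h2 : a⁻¹ ∈ O) (n : ℤ) : a ^ n ∈ O := by
  rcases le_or_gt 0 n with hn | hn
  · obtain ⟨m, rfl⟩ := Int.eq_ofNat_of_zero_le hn
    rw [zpow_natCast]
    exact pow_mem h1 m
  · obtain ⟨m, hm⟩ := Int.eq_ofNat_of_zero_le (by omega : 0 ≤ -n)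
    have : n = -(m : ℤ) := by omega
    rw [this, zpow_neg, zpow_natCast, ← inv_pow]
    exact pow_mem h2 m

/-! ### one side -/

section OneSide

variable {B : Base L k} [Algebra B.A F] [IsScalarTower B.A L F]
  {S : Side B F Ft} {S' : Side B F Ft'} {BA : Subalgebra B.A F} {χ₀ : BA →+* k}
variable {I : Type*} {RK FK : I → Type*} [∀ i, CommRing (RK i)] [∀ i, Field (FK i)]
  [∀ i, Algebra (RK i) (FK i)] {BK : ∀ i, Subalgebra (RK i) (FK i)} {πK : ∀ i, RK i}
  {j : ∀ i, FK i →+* F} {O1 O2 : ∀ i, ValuationSubring (FK i)}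
  (H : NodeLevels B S S' BA χ₀ RK FK BK πK j O1 O2)
  {Q : Place k Ft} (hs : LocSide B S (locC BA χ₀) (chiC BA χ₀) Q)

theorem redC_eq (c : locC BA χ₀) : hs.redC c = H.onComp.redC c := rfl

include H in
/-- the image of a unit of level `i` reduces to a unit at `Q`. -/
theorem ord_redC_unit (i : I) {v : (H.level i).Bk} (hv : IsUnit v) :
    Q.ord (hs.redC ((H.level i).ιK v)) = 0 :=
  hs.ord_redC_eq_zero_of_chi H.locBase (((H.level i).chiC_ιK_ne_zero_iff v).mpr hv)

include H in
theorem redC_unit_ne (i : I) {v : (H.level i).Bk} (hv : IsUnit v) :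
    hs.redC ((H.level i).ιK v) ≠ 0 :=
  hs.redC_ne_zero_of_chi (((H.level i).chiC_ιK_ne_zero_iff v).mpr hv)

/-- a uniformiser of `Q` coming from `C`. -/
theorem exists_unif : ∃ c : locC BA χ₀, Q.ord (hs.redC c) = 1 := by
  obtain ⟨π, hπ⟩ := ffp_exists_irreducible Q
  have hπ1 : Q.ord (π : Ft) = 1 := Q.ord_coe_irreducible hπ
  obtain ⟨c, hc⟩ := (hs.mem_Q' _).mp π.2
  exact ⟨c, by rw [hc]; exact hπ1⟩

include H in
/-- the good coordinate `x_i` of a level does not vanish identically on the component, vanishes at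
the node. -/
theorem ord_redC_x_pos (i : I) {E : ℕ} {x y w d0 : BK i}
    (Gd : IsGood (πK i) (BK i) (O1 i) (O2 i) (H.level i).xK E x y w d0) :
    0 < Q.ord (hs.redC ((H.level i).ιK (toA x))) :=
  hs.ord_redC_pos ((H.level i).chiC_x Gd) ((H.level i).redC_x_ne H.onComp H.onComp' Gd)

include H in
/-- if the reduction of some element of level `i` is a uniformiser of `Q`, so is the reduction of the
good coordinate `x_i` of that level. -/
theorem ord_x_of_unif (i : I) {E : ℕ} {x y w d0 : BK i}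
    (Gd : IsGood (πK i) (BK i) (O1 i) (O2 i) (H.level i).xK E x y w d0) (z : (H.level i).Bk)
    (hz : Q.ord (hs.redC ((H.level i).ιK z)) = 1) :
    Q.ord (hs.redC ((H.level i).ιK (toA x))) = 1 := by
  have hz0 : hs.redC ((H.level i).ιK z) ≠ 0 := by
    intro h0
    rw [h0, Place.ord_zero] at hz
    exact zero_ne_one hz
  obtain ⟨n, v, hv, e⟩ := (H.level i).br1 H.onComp H.onComp' Gd z hz0
  have e' : hs.redC ((H.level i).ιK z) =
      hs.redC ((H.level i).ιK (toA x)) ^ n * hs.redC ((H.level i).ιK v) := e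
  have hx0 : hs.redC ((H.level i).ιK (toA x)) ≠ 0 := (H.level i).redC_x_ne H.onComp H.onComp' Gd
  rw [e', Q.ord_mul (pow_ne_zero _ hx0) (redC_unit_ne H hs i hv), ord_pow, ord_redC_unit H hs i hv,
    add_zero] at hz
  have hpos := ord_redC_x_pos H hs i Gd
  exact Int.eq_one_of_dvd_one hpos.le ⟨n, by rw [mul_comm]; exact hz.symm⟩

include H in
/-- **STABILITY OF THE COORDINATE.**  If `X ∈ C` has `ord_Q (red X) = 1` and no zero on the tube,
then at every level containing it, `X` is a unit multiple of the good coordinate of that level. -/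
theorem stab {X : locC BA χ₀} (hX : Q.ord (hs.redC X) = 1)
    (htube : ∀ P : Place L F, InDisc (locC BA χ₀) P → P.ord (X : F) = 0)
    (i : I) {E : ℕ} {x y w d0 : BK i}
    (Gd : IsGood (πK i) (BK i) (O1 i) (O2 i) (H.level i).xK E x y w d0)
    (x' : (H.level i).Bk) (hx' : (H.level i).ιK x' = X) :
    ∃ U : (H.level i).Bk, IsUnit U ∧ x' = toA x * U := by
  have St := (H.level i).setup H.onComp H.onComp'
  have hX0 : hs.redC X ≠ 0 := by
    intro h0
    rw [h0, Place.ord_zero] at hX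
    exact zero_ne_one hX
  have hXF : (X : F) ≠ 0 := H.locBase.coe_ne_zero (fun h0 => hX0 (by rw [h0, map_zero]))
  have hjx' : (j i) (x' : FK i) = (X : F) := congrArg Subtype.val hx'
  have hx'0 : (x' : FK i) ≠ 0 := by
    intro h0
    rw [h0, map_zero] at hjx'
    exact hXF hjx'.symm
  obtain ⟨a, n, U, hU, e⟩ := (H.level i).unitK H.onComp H.onComp' Gd hx'0 (by
    intro P hP
    rw [hjx']
    exact htube P hP)
  have hx0 := x_ne_zero St Gd
  have hp0 := (H.level i).pi_ne
  -- everything is a unit of `O1`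
  have hx'1 : (x' : FK i) ∈ O1 i := St.locSub_le1 x'.2
  have hx'not : ¬ PiMul (algebraMap (RK i) (FK i) (πK i)) (O1 i) (x' : FK i) := by
    intro hpm
    apply hX0
    rw [← hx']
    exact ((H.level i).redC_ιK_eq_zero_iff H.onComp H.onComp' x').mpr ((mem_q1 St).mpr hpm)
  have hx'inv : ((x' : FK i))⁻¹ ∈ O1 i := inv_mem_of_not_piMul St.unif1 hx'1 hx'not
  have hx1 : (x : FK i) ∈ O1 i := St.leO1 _ x.2
  have hxinv : ((x : FK i))⁻¹ ∈ O1 i := x_inv_mem_O1 St Gd
  have hU1 : (U : FK i) ∈ O1 i := St.locSub_le1 U.2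
  have hUinv : ((U : FK i))⁻¹ ∈ O1 i := St.locSub_le1 (inv_mem_of_isUnit hU)
  have hU0 : (U : FK i) ≠ 0 := by
    intro h0
    rw [h0, mul_zero] at e
    exact hx'0 e
  have hxn0 : (x : FK i) ^ n ≠ 0 := zpow_ne_zero _ hx0
  -- `a = 0`
  have ha : a = 0 := by
    have e1 : algebraMap (RK i) (FK i) (πK i) ^ a =
        (x' : FK i) * ((x : FK i) ^ n)⁻¹ * ((U : FK i))⁻¹ := by
      rw [e]; field_simp
    have e2 : algebraMap (RK i) (FK i) (πK i) ^ (-a) =
        ((x' : FK i))⁻¹ * (x : FK i) ^ n * (U : FK i) := by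
      rw [zpow_neg, e1]; field_simp
    have m1 : algebraMap (RK i) (FK i) (πK i) ^ a ∈ O1 i := by
      rw [e1, ← zpow_neg]
      exact (O1 i).mul_mem _ _ ((O1 i).mul_mem _ _ hx'1
        (zpow_mem_of_mem_of_inv_mem (O1 i) hx1 hxinv _)) hUinv
    have m2 : algebraMap (RK i) (FK i) (πK i) ^ (-a) ∈ O1 i := by
      rw [e2]
      exact (O1 i).mul_mem _ _ ((O1 i).mul_mem _ _ hx'inv
        (zpow_mem_of_mem_of_inv_mem (O1 i) hx1 hxinv _)) hU1
    have n1 := nonneg_of_zpow_mem St.pi_mem1 St.pi_nonunit1 m1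
    have n2 := nonneg_of_zpow_mem St.pi_mem1 St.pi_nonunit1 m2
    omega
  rw [ha, zpow_zero, one_mul] at e
  -- `n = 1`
  set Xi : locC BA χ₀ := (H.level i).ιK (toA x) with hXi
  set Ui : locC BA χ₀ := (H.level i).ιK U with hUi
  have hXi0 : hs.redC Xi ≠ 0 := (H.level i).redC_x_ne H.onComp H.onComp' Gd
  have hUi0 : hs.redC Ui ≠ 0 := redC_unit_ne H hs i hU
  have hUiord : Q.ord (hs.redC Ui) = 0 := ord_redC_unit H hs i hU
  have hpos : 0 < Q.ord (hs.redC Xi) := ord_redC_x_pos H hs i Gd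
  have hn : n = 1 := by
    rcases le_or_gt 0 n with hn | hn
    · obtain ⟨m, rfl⟩ := Int.eq_ofNat_of_zero_le hn
      have e3 : X = Xi ^ m * Ui := by
        rw [← hx']
        apply Subtype.ext
        show (j i) (x' : FK i) = ((j i) (x : FK i)) ^ m * (j i) (U : FK i)
        rw [e, zpow_natCast, map_mul, map_pow]
      have e4 := congrArg (fun c => Q.ord (hs.redC c)) e3
      simp only [map_mul, map_pow] at e4
      rw [hX, Q.ord_mul (pow_ne_zero _ hXi0) hUi0, ord_pow, hUiord, add_zero] at e4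
      have : (m : ℤ) = 1 := Int.eq_one_of_mul_eq_one_right (by omega) e4.symm
      exact this
    · exfalso
      obtain ⟨m, hm⟩ := Int.eq_ofNat_of_zero_le (by omega : 0 ≤ -n)
      have hnm : n = -(m : ℤ) := by omega
      have e3 : X * Xi ^ m = Ui := by
        rw [← hx']
        apply Subtype.ext
        show (j i) (x' : FK i) * ((j i) (x : FK i)) ^ m = (j i) (U : FK i)
        rw [e, hnm, zpow_neg, zpow_natCast, map_mul, map_inv₀, map_pow]
        have : (j i) (x : FK i) ≠ 0 := (map_ne_zero _).mpr hx0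
        field_simp
      have e4 := congrArg (fun c => Q.ord (hs.redC c)) e3
      simp only [map_mul, map_pow] at e4
      rw [Q.ord_mul hX0 (pow_ne_zero _ hXi0), hX, ord_pow, hUiord] at e4
      have : 0 ≤ (m : ℤ) * Q.ord (hs.redC Xi) := mul_nonneg (by omega) hpos.le
      omega
  refine ⟨U, hU, Subtype.ext ?_⟩
  show (x' : FK i) = (x : FK i) * (U : FK i)
  rw [e, hn, zpow_one]

end OneSide

/-! ### the two sides -/

section TwoSides

variable {B : Base L k} [Algebra B.A F] [IsScalarTower B.A L F]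
  {S : Side B F Ft} {S' : Side B F Ft'} {BA : Subalgebra B.A F} {χ₀ : BA →+* k}
variable {I : Type*} {RK FK : I → Type*} [∀ i, CommRing (RK i)] [∀ i, Field (FK i)]
  [∀ i, Algebra (RK i) (FK i)] {BK : ∀ i, Subalgebra (RK i) (FK i)} {πK : ∀ i, RK i}
  {j : ∀ i, FK i →+* F} {O1 O2 : ∀ i, ValuationSubring (FK i)}
  (H : NodeLevels B S S' BA χ₀ RK FK BK πK j O1 O2)
  {Q : Place k Ft} {Q' : Place k Ft'}
  (hs : LocSide B S (locC BA χ₀) (chiC BA χ₀) Q) (hs' : LocSide B S' (locC BA χ₀) (chiC BA χ₀) Q')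

include H in
/-- good coordinates at the level `i` (the field `good`, with the closed point written `xK`). -/
theorem good' (i : I) : ∃ (E : ℕ) (x y w d0 : BK i),
    IsGood (πK i) (BK i) (O1 i) (O2 i) (H.level i).xK E x y w d0 := (H.level i).good

include H in
/-- **a level whose good coordinates reduce to uniformisers of the two branches.** -/
theorem exists_coords : ∃ (i : I) (E : ℕ) (x y w d0 : BK i),
    IsGood (πK i) (BK i) (O1 i) (O2 i) (H.level i).xK E x y w d0 ∧
    Q.ord (hs.redC ((H.level i).ιK (toA x))) = 1 ∧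
    Q'.ord (hs'.redC ((H.level i).ιK (toA y))) = 1 := by
  obtain ⟨c, hc⟩ := exists_unif hs
  obtain ⟨c', hc'⟩ := exists_unif hs'
  obtain ⟨i, hi⟩ := H.L0_loc [c, c']
  obtain ⟨z, hz⟩ := hi c (by simp)
  obtain ⟨z', hz'⟩ := hi c' (by simp)
  obtain ⟨E, x, y, w, d0, Gd⟩ := good' H i
  refine ⟨i, E, x, y, w, d0, Gd, ?_, ?_⟩
  · exact ord_x_of_unif H hs i Gd z (by rw [hz]; exact hc)
  · exact ord_x_of_unif H.symm hs' i (IsGood.symm Gd) z' (by
      have : (H.symm.level i).ιK z' = c' := hz'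
      rw [this]; exact hc')

include H in
/-- elements of the chart outside the closed point are units of the local ring. -/
theorem isUnit_toA (i : I) {d : BK i} (hd : d ∉ (H.level i).xK) :
    IsUnit (toA d : (H.level i).Bk) :=
  IsLocalization.map_units (H.level i).Bk (⟨d, hd⟩ : (H.level i).xK.primeCompl)

include H in
/-- the equation `X * Y = ϖ ^ E * u` of the good coordinates of a level, in `C`. -/
theorem coords_mul (i : I) {E : ℕ} {x y w d0 : BK i}
    (Gd : IsGood (πK i) (BK i) (O1 i) (O2 i) (H.level i).xK E x y w d0) :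
    ∃ (ϖ₁ : B.A) (u : locC BA χ₀), ϖ₁ ≠ 0 ∧ B.res ϖ₁ = 0 ∧ chiC BA χ₀ u ≠ 0 ∧
      (H.level i).ιK (toA x) * (H.level i).ιK (toA y) = H.locBase.const (ϖ₁ ^ E) * u := by
  obtain ⟨ϖ₁, h1, h2, e⟩ := H.exists_pi i
  have hD0 : chiC BA χ₀ ((H.level i).ιK (toA d0)) ≠ 0 :=
    ((H.level i).chiC_ιK_ne_zero_iff _).mpr (isUnit_toA H i Gd.d0_notMem)
  have hW : chiC BA χ₀ ((H.level i).ιK (toA w)) ≠ 0 :=
    ((H.level i).chiC_ιK_ne_zero_iff _).mpr (isUnit_toA H i Gd.w_notMem)
  refine ⟨ϖ₁, (H.level i).ιK (toA w) * H.locBase.inv _ hD0, h1, h2, ?_, ?_⟩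
  · rw [map_mul]
    exact mul_ne_zero hW (H.locBase.chi_inv_ne_zero _ hD0)
  · have hmul : (toA d0 : (H.level i).Bk) * (toA x * toA y) = (H.level i).πk ^ E * toA w := by
      apply Subtype.ext
      have := congrArg (fun b : BK i => (b : FK i)) Gd.mul
      simpa using this
    have e2 := congrArg (H.level i).ιK hmul
    rw [map_mul, map_mul, map_mul, map_pow, e] at e2
    have hinv := H.locBase.mul_inv _ hD0
    rw [H.locBase.const_pow]
    linear_combination (H.locBase.inv _ hD0) * e2 -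
      ((H.level i).ιK (toA x) * (H.level i).ιK (toA y)) * hinv

include H in
/-- **(PEEL-N)** -/
theorem peel {X Y : locC BA χ₀} (hX : Q.ord (hs.redC X) = 1) (hY : Q'.ord (hs'.redC Y) = 1)
    (htX : ∀ P : Place L F, InDisc (locC BA χ₀) P → P.ord (X : F) = 0)
    (htY : ∀ P : Place L F, InDisc (locC BA χ₀) P → P.ord (Y : F) = 0)
    (val : locC BA χ₀ →+* B.A) (hval : ∀ a : B.A, val (H.locBase.const a) = a)
    (z : locC BA χ₀) (hz : val z = 0) :
    ∃ α β : locC BA χ₀, z = α * (X - H.locBase.const (val X)) + β * (Y - H.locBase.const (val Y)) := by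
  set a := val X with ha
  set b := val Y with hb
  have hχX : chiC BA χ₀ X = 0 :=
    hs.chi_eq_zero_of_ord_pos H.locBase (by rw [hX]; exact one_pos)
  have hχY : chiC BA χ₀ Y = 0 :=
    hs'.chi_eq_zero_of_ord_pos H.locBase (by rw [hY]; exact one_pos)
  have hresa : B.res a = 0 := by rw [ha, locBase_res_val H.locBase val hval, hχX]
  have hresb : B.res b = 0 := by rw [hb, locBase_res_val H.locBase val hval, hχY]
  obtain ⟨i, hi⟩ := H.L0_loc [z, X, Y, H.locBase.const a, H.locBase.const b]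
  obtain ⟨z', hz'⟩ := hi z (by simp)
  obtain ⟨x', hx'⟩ := hi X (by simp)
  obtain ⟨y', hy'⟩ := hi Y (by simp)
  obtain ⟨a', ha'⟩ := hi (H.locBase.const a) (by simp)
  obtain ⟨b', hb'⟩ := hi (H.locBase.const b) (by simp)
  obtain ⟨E, x, y, w, d0, Gd⟩ := good' H i
  obtain ⟨Ux, hUx, ex⟩ := stab H hs hX htX i Gd x' hx'
  have hsy : ∃ Uy : (H.level i).Bk, IsUnit Uy ∧ y' = toA y * Uy :=
    stab H.symm hs' hY htY i (IsGood.symm Gd) y' hy'
  obtain ⟨Uy, hUy, ey'⟩ := hsy
  -- the constants are divisible by `πk`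
  have hconst1 : ∀ c : B.A, B.res c = 0 → H.onComp.redC (H.locBase.const c) = 0 := by
    intro c hc
    show S.red ⟨algebraMap L F (c : L), _⟩ = 0
    rw [S.red_const, hc, map_zero]
  have hconst2 : ∀ c : B.A, B.res c = 0 → H.onComp'.redC (H.locBase.const c) = 0 := by
    intro c hc
    show S'.red ⟨algebraMap L F (c : L), _⟩ = 0
    rw [S'.red_const, hc, map_zero]
  obtain ⟨a'', ea⟩ := (H.level i).pi_dvd_of_red_eq_zero H.onComp H.onComp'
    (by rw [ha']; exact hconst1 a hresa) (by rw [ha']; exact hconst2 a hresa)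
  obtain ⟨b'', eb⟩ := (H.level i).pi_dvd_of_red_eq_zero H.onComp H.onComp'
    (by rw [hb']; exact hconst1 b hresb) (by rw [hb']; exact hconst2 b hresb)
  obtain ⟨Vx, hVx⟩ := isUnit_iff_exists_inv.mp hUx
  obtain ⟨Vy, hVy⟩ := isUnit_iff_exists_inv.mp hUy
  have tx : (toA x : (H.level i).Bk) = x' * Vx := by rw [ex, mul_assoc, hVx, mul_one]
  have ty : (toA y : (H.level i).Bk) = y' * Vy := by rw [ey', mul_assoc, hVy, mul_one]
  have hm : maximalIdeal (H.level i).Bk ≤ Ideal.span {(H.level i).πk, x' - a', y' - b'} := by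
    intro m hmm
    obtain ⟨α, β, γ, e⟩ := mem_span_triple.mp (maximalIdeal_le Gd hmm)
    rw [mem_span_triple]
    refine ⟨α + β * Vx * a'' + γ * Vy * b'', β * Vx, γ * Vy, ?_⟩
    rw [e]
    show α * (H.level i).πk + β * toA x + γ * toA y = _
    linear_combination β * tx + γ * ty + (β * Vx) * ea + (γ * Vy) * eb
  haveI := (H.level i).noeth_loc
  obtain ⟨ϖ, hϖ, hres, eϖ⟩ := H.exists_pi i
  have hu : (val.comp (H.level i).ιK) (x' - a') = 0 := by
    rw [RingHom.comp_apply, map_sub, map_sub, hx', ha', hval, sub_self]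
  have hv : (val.comp (H.level i).ιK) (y' - b') = 0 := by
    rw [RingHom.comp_apply, map_sub, map_sub, hy', hb', hval, sub_self]
  have hp : (val.comp (H.level i).ιK) (H.level i).πk ≠ 0 := by
    rw [RingHom.comp_apply, eϖ, hval]
    exact hϖ
  have hpm : (H.level i).πk ∈ maximalIdeal (H.level i).Bk := by
    rw [mem_maximalIdeal, mem_nonunits_iff, ← (H.level i).chiC_ιK_eq_zero_iff, eϖ,
      H.locBase.chi_const', hres]
  have hz'val : (val.comp (H.level i).ιK) z' = 0 := by rw [RingHom.comp_apply, hz', hz]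
  obtain ⟨α, β, e⟩ := exists_eq_add_of_val_eq_zero hm (val.comp (H.level i).ιK) hu hv hp hpm hz'val
  refine ⟨(H.level i).ιK α, (H.level i).ιK β, ?_⟩
  rw [← hz', e, map_add, map_mul, map_mul, map_sub, map_sub, hx', hy', ha', hb']

include H in
/-- **(UNIT-N)** -/
theorem unit {X : locC BA χ₀} (hX : Q.ord (hs.redC X) = 1)
    (htX : ∀ P : Place L F, InDisc (locC BA χ₀) P → P.ord (X : F) = 0)
    (φ : F) (hφ : φ ≠ 0) (hord : ∀ P : Place L F, InDisc (locC BA χ₀) P → P.ord φ = 0) :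
    ∃ (c : L) (n : ℤ) (U : locC BA χ₀), c ≠ 0 ∧ chiC BA χ₀ U ≠ 0 ∧
      φ = algebraMap L F c * (X : F) ^ n * (U : F) := by
  obtain ⟨a, b, hb, hab⟩ := H.locBase.frac φ
  obtain ⟨i, hi⟩ := H.L0_loc [a, b, X]
  obtain ⟨za, hza⟩ := hi a (by simp)
  obtain ⟨zb, hzb⟩ := hi b (by simp)
  obtain ⟨x', hx'⟩ := hi X (by simp)
  have hja : (j i) (za : FK i) = (a : F) := congrArg Subtype.val hza
  have hjb : (j i) (zb : FK i) = (b : F) := congrArg Subtype.val hzb
  have hjx : (j i) (x' : FK i) = (X : F) := congrArg Subtype.val hx'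
  have hbF : (b : F) ≠ 0 := H.locBase.coe_ne_zero hb
  have hjφ : (j i) ((za : FK i) * (zb : FK i)⁻¹) = φ := by
    rw [map_mul, map_inv₀, hja, hjb, ← hab]
    field_simp
  have hφi0 : (za : FK i) * (zb : FK i)⁻¹ ≠ 0 := by
    intro h0
    rw [h0, map_zero] at hjφ
    exact hφ hjφ.symm
  obtain ⟨E, x, y, w, d0, Gd⟩ := good' H i
  obtain ⟨a0, n, U, hU, e⟩ := (H.level i).unitK H.onComp H.onComp' Gd hφi0 (by
    intro P hP
    rw [hjφ]
    exact hord P hP)
  obtain ⟨Ux, hUx, ex⟩ := stab H hs hX htX i Gd x' hx'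
  obtain ⟨W, hW, eW⟩ := exists_unit_zpow (locSub (BK i) (H.level i).xK) hUx (-n)
  obtain ⟨ϖ, hϖ, hres, eϖ⟩ := H.exists_pi i
  have hϖF : (j i) (algebraMap (RK i) (FK i) (πK i)) = algebraMap L F (ϖ : L) :=
    congrArg Subtype.val eϖ
  have hϖL : (ϖ : L) ≠ 0 := fun h0 => hϖ (Subtype.ext h0)
  have hUx0 : (Ux : FK i) ≠ 0 := by
    intro h0
    obtain ⟨V, hV⟩ := isUnit_iff_exists_inv.mp hUx
    have : (Ux : FK i) * (V : FK i) = 1 := congrArg Subtype.val hV
    rw [h0, zero_mul] at this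
    exact zero_ne_one this
  have exF : (x' : FK i) = (x : FK i) * (Ux : FK i) := congrArg Subtype.val ex
  have hxx : (x : FK i) ^ n = (x' : FK i) ^ n * (W : FK i) := by
    rw [eW, exF, mul_zpow, zpow_neg, mul_assoc, mul_inv_cancel₀ (zpow_ne_zero _ hUx0), mul_one]
  refine ⟨(ϖ : L) ^ a0, n, (H.level i).ιK (W * U), zpow_ne_zero _ hϖL,
    ((H.level i).chiC_ιK_ne_zero_iff _).mpr (hW.mul hU), ?_⟩
  rw [← hjφ, e, hxx]
  show (j i) (algebraMap (RK i) (FK i) (πK i) ^ a0 * ((x' : FK i) ^ n * (W : FK i)) * (U : FK i)) =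
    algebraMap L F ((ϖ : L) ^ a0) * (X : F) ^ n * (j i) ((W : FK i) * (U : FK i))
  rw [map_mul, map_mul, map_mul, map_zpow₀, map_zpow₀, map_zpow₀, hϖF, hjx, map_mul]
  ring

include H hs hs' in
/-- **The node system of a family of levels at a two-branch closed point.** -/
theorem exists_nodeSys : ∃ (x y u : locC BA χ₀) (ϖ : L),
    NodeSys B S S' (locC BA χ₀) (chiC BA χ₀) Q Q' x y u ϖ := by
  obtain ⟨i, E, x, y, w, d0, Gd, hox, hoy⟩ := exists_coords H hs hs'
  obtain ⟨ϖ₁, u, h1, h2, hu, emul⟩ := coords_mul H i Gd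
  set X := (H.level i).ιK (toA x) with hXdef
  set Y := (H.level i).ιK (toA y) with hYdef
  have hpow : ϖ₁ ^ E ≠ 0 := pow_ne_zero _ h1
  have htX : ∀ P : Place L F, InDisc (locC BA χ₀) P → P.ord (X : F) = 0 := fun P hP =>
    locBase_ord_eq_zero_of_mul H.locBase hP hpow hu emul
  have htY : ∀ P : Place L F, InDisc (locC BA χ₀) P → P.ord (Y : F) = 0 := fun P hP =>
    locBase_ord_eq_zero_of_mul H.locBase hP hpow hu (by rw [mul_comm]; exact emul)
  refine ⟨X, Y, u, ((ϖ₁ ^ E : B.A) : L), ?_⟩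
  exact
    { base := H.locBase
      side := hs
      side' := hs'
      ord_x := hox
      ord_y := hoy
      chi_u := hu
      mul := congrArg Subtype.val emul
      pi_ne := fun h0 => hpow (Subtype.ext h0)
      pi_lt := by
        apply isM_of_not_isUnit
        intro hunit
        have := (B.res_eq_zero_iff (ϖ₁ ^ E)).mp (by rw [map_pow, h2, zero_pow Gd.E_pos.ne'])
        exact this hunit
      peel := fun val hval z hz => peel H hs hs' hox hoy htX htY val hval z hz
      unit := fun φ hφ hord => unit H hs hox htX φ hφ hord }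

open Fermat.Agent.RR.LSpace Fermat.Agent.ORD.ANN.Node3 in
include H hs hs' in
/-- **The node chart of a family of levels at a two-branch closed point**: annulus = the tube of the
closed point, branches `Q`, `Q'`. -/
theorem exists_nodeChart (HL : LHyp L F) (Hk : LHyp k Ft) (Hk' : LHyp k Ft') :
    ∃ N : NodeChart B HL S S' Hk Hk', N.ann = {P | InDisc (locC BA χ₀) P} ∧ N.Q = Q ∧ N.Q' = Q' ∧
      ∃ (x y u : locC BA χ₀) (ϖ : L),
        NodeSys B S S' (locC BA χ₀) (chiC BA χ₀) Q Q' x y u ϖ ∧ N.x = (x : F) ∧ N.π = ϖ := by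
  obtain ⟨x, y, u, ϖ, hN⟩ := exists_nodeSys H hs hs'
  exact ⟨hN.nodeChart HL Hk Hk', rfl, rfl, rfl, x, y, u, ϖ, hN, rfl, rfl⟩

end TwoSides

end Fermat.Agent.ORD.NODE.NodeTop4
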