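/-
PROGRAMME ORD (S33), chapter NODE = O6c (helper2): **the level system at every TWO-branch closed
point, from the point-independent families of levels of the two components.**

`B : Base L k`, two components `S S' : Side B F Ft`, a chart `BA ⊂ F` over `A = B.A`, finite levels
`i : I` (`RK FK BK πK j`) with the two Gauss valuation rings `O1 i`, `O2 i`.  helper8's
`LevelFamily8.LevelFamily` (point-independent, one component `on`, the other `off`) is assumed twice:

* `H₁` : `on = S`,  `off = S'` (rings `O1`, `O2`);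
* `H₂` : `on = S'`, `off = S`  (rings `O2`, `O1`);

together with two SEPARATORS `e₁ e₂ : BA` (`red e₁ ≠ 0 = red' e₁`, `red' e₂ ≠ 0 = red e₂`).  For a
closed point `χ₀` of `BA` lying on BOTH components and, at every level, the two genuinely nodal inputs
(`hgood` : labelled good coordinates, `hhor` : horizontal primes are centres of places of the tube),
we get helper4's `NodeLevels4.NodeLevels B S S' BA χ₀ RK FK BK πK j O1 O2` (`nodeLevels`), hence (with
`NodeSide2.locSide` and `NodeTop4.exists_nodeSys`) the node system of the closed point: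
`exists_nodeSys : ∃ Q Q' x y u ϖ, NodeSys B S S' (locC BA χ₀) (chiC BA χ₀) Q Q' x y u ϖ`
(the hypothesis `nd` of `TwoCompAssembly3.TwoCompHyp` for a closed point of one chart).

`LevelFamily.restrict` : restriction of a family to a sub-index type `{i // P i}` (`desc` re-supplied):
`hgood`, `hhor` and the rationality of the closed point only hold at large, point-dependent levels.
-/
import Mathlib
import Fermat.Agent.ORD.IFACEN.LevelFamily8
import Fermat.Agent.ORD.NODE.NodeLevels4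
import Fermat.Agent.ORD.NODE.NodeSide2
import Fermat.Agent.ORD.NODE.NodeTop4

set_option autoImplicit false
set_option linter.unusedSectionVars false
set_option linter.unusedVariables false
set_option linter.style.longLine false

namespace Fermat.Agent.ORD.NODE.NodeFamily2

open AlgebraicCurve Fermat.Agent.ES.N34.NodalSmooth13
  Fermat.Agent.ORD.IFACEN.LocAt8 Fermat.Agent.ORD.IFACEN.LevelAt8
  Fermat.Agent.ORD.IFACEN.LevelFamily8 Fermat.Agent.ORD.IFACEN.DiscPlaces8
  Fermat.Agent.ORD.ANN.Side3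
  Fermat.Agent.ORD.NODE.GoodCoords4 Fermat.Agent.ORD.NODE.NodeLocal4
  Fermat.Agent.ORD.NODE.NodeLevelAt4
  Fermat.Agent.ORD.NODE.NodeLevels4

/-! ### restriction of a family to a sub-index type -/

section Restrict

variable {L F k Ft : Type*} [Field L] [Field F] [Algebra L F] [Field k] [Field Ft] [Algebra k Ft]
variable {A : ValuationSubring L} [Algebra A F] [IsScalarTower A L F]
variable {res : A →+* k} {BA : Subalgebra A F} {s : BA}
  {Gon : Subring F} {redon : Gon →+* Ft} {Goff : Subring F} {redoff : Goff →+* Ft}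
variable {I : Type*} {RK FK : I → Type*} [∀ i, CommRing (RK i)] [∀ i, Field (FK i)]
  [∀ i, Algebra (RK i) (FK i)] {BK : ∀ i, Subalgebra (RK i) (FK i)} {πK : ∀ i, RK i}
  {j : ∀ i, FK i →+* F} {Oon Ooff : ∀ i, ValuationSubring (FK i)}

/-- **Restriction of a family of levels to the levels satisfying `P`**, provided these still
exhaust the big field and the big chart. -/
theorem restrict (H : LevelFamily res BA s Gon redon Goff redoff RK FK BK πK j Oon Ooff)
    (P : I → Prop)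
    (hdesc : ∀ (y : F) (T : List BA), ∃ i, P i ∧ (∃ x : FK i, j i x = y) ∧
      ∀ b ∈ T, ∃ b' : BK i, j i (b' : FK i) = (b : F)) :
    LevelFamily res BA s Gon redon Goff redoff (fun i : {i // P i} => RK i.1) (fun i => FK i.1)
      (fun i => BK i.1) (fun i => πK i.1) (fun i => j i.1) (fun i => Oon i.1)
      (fun i => Ooff i.1) :=
  { res_surj := H.res_surj
    res_eq_zero_iff := H.res_eq_zero_iff
    const_on := H.const_on
    red_const_on := H.red_const_on
    le_Gon := H.le_Gon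
    le_Goff := H.le_Goff
    inv_mem_on := H.inv_mem_on
    red_surj := H.red_surj
    s_nonconst := H.s_nonconst
    places := H.places
    pir := H.pir
    j_mem := fun i => H.j_mem i.1
    pi_const := fun i => H.pi_const i.1
    noeth := fun i => H.noeth i.1
    le_on := fun i => H.le_on i.1
    le_off := fun i => H.le_off i.1
    unif_on := fun i => H.unif_on i.1
    pi_nonunit_on := fun i => H.pi_nonunit_on i.1
    arch_on := fun i => H.arch_on i.1
    arch_off := fun i => H.arch_off i.1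
    sat := fun i => H.sat i.1
    fracK := fun i => H.fracK i.1
    on_iff := fun i => H.on_iff i.1
    on_zero_iff := fun i => H.on_zero_iff i.1
    off_zero := fun i => H.off_zero i.1
    smooth := fun i => H.smooth i.1
    isMaxK := fun i => H.isMaxK i.1
    desc := by
      intro y T
      obtain ⟨i, hi, hx, hT⟩ := hdesc y T
      exact ⟨⟨i, hi⟩, hx, hT⟩ }

end Restrict

/-! ### the two families at a two-branch closed point -/

section Node

variable {L F k Ft : Type*} [Field L] [Field F] [Algebra L F] [Field k] [Field Ft] [Algebra k Ft]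

variable {B : Base L k} [Algebra B.A F] [IsScalarTower B.A L F]
  {S S' : Side B F Ft} {BA : Subalgebra B.A F} {s s' : BA}
variable {I : Type*} {RK FK : I → Type*} [∀ i, CommRing (RK i)] [∀ i, Field (FK i)]
  [∀ i, Algebra (RK i) (FK i)] {BK : ∀ i, Subalgebra (RK i) (FK i)} {πK : ∀ i, RK i}
  {j : ∀ i, FK i →+* F} {O1 O2 : ∀ i, ValuationSubring (FK i)}

/-- **(L4) on the component `on` from a separator**: `Ft = Frac (redon BA)` as soon as some element of
the chart vanishes identically on `off` and not on `on`. -/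
theorem L4_of_separator
    (H : LevelFamily B.res BA s S.G S.red S'.G S'.red RK FK BK πK j O1 O2)
    (e : BA) (he : S.red ⟨(e : F), H.le_Gon e e.2⟩ ≠ 0)
    (he' : S'.red ⟨(e : F), H.le_Goff e e.2⟩ = 0) (y : Ft) :
    ∃ a b : BA, S.red ⟨(b : F), H.le_Gon b b.2⟩ ≠ 0 ∧
      y * S.red ⟨(b : F), H.le_Gon b b.2⟩ = S.red ⟨(a : F), H.le_Gon a a.2⟩ := by
  obtain ⟨g, rfl⟩ := H.red_surj y
  obtain ⟨i, ⟨x, hx⟩, hT⟩ := H.desc (g : F) [e]
  obtain ⟨eK, heK⟩ := hT e (by simp)
  have hxOn : x ∈ O1 i := (H.on_iff i x).1 (hx ▸ g.2)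
  -- the separator at level `i`
  have heoff : ∃ c ∈ O2 i, (eK : FK i) = algebraMap (RK i) (FK i) (πK i) * c := by
    apply H.off_zero i eK
    have : (⟨j i (eK : FK i), H.le_Goff _ (H.j_mem i _ eK.2)⟩ : S'.G) =
        ⟨(e : F), H.le_Goff e e.2⟩ := Subtype.ext heK
    rw [this]
    exact he'
  have heon : ¬ ∃ c ∈ O1 i, (eK : FK i) = algebraMap (RK i) (FK i) (πK i) * c := by
    intro hc
    apply he
    have hmem : (eK : FK i) ∈ O1 i := H.le_on i _ eK.2
    have h0 := (H.on_zero_iff i _ hmem).mpr hc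
    have : (⟨(e : F), H.le_Gon e e.2⟩ : S.G) =
        ⟨j i (eK : FK i), (H.on_iff i _).2 hmem⟩ := Subtype.ext heK.symm
    rw [this]
    exact h0
  obtain ⟨a, b, hb, hab⟩ := exists_frac_on (BK i) (πK i) (O1 i) (O2 i) (H.le_on i)
    (H.unif_on i) (H.pi_nonunit_on i) (H.arch_on i) (H.sat i) (H.le_off i) (H.fracK i)
    eK heoff heon x hxOn
  refine ⟨⟨j i (a : FK i), H.j_mem i _ a.2⟩, ⟨j i (b : FK i), H.j_mem i _ b.2⟩, ?_, ?_⟩
  · intro h0
    exact hb ((H.on_zero_iff i _ (H.le_on i _ b.2)).mp h0)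
  · rw [← map_mul]
    congr 1
    apply Subtype.ext
    show (g : F) * j i (b : FK i) = j i (a : FK i)
    rw [← hx, ← map_mul, hab]

variable (H₁ : LevelFamily B.res BA s S.G S.red S'.G S'.red RK FK BK πK j O1 O2)
  (H₂ : LevelFamily B.res BA s' S'.G S'.red S.G S.red RK FK BK πK j O2 O1)
  (χ₀ : BA →+* k) (hχ₀ : ∀ a : B.A, χ₀ (algebraMap B.A BA a) = B.res a)
  (hon₁ : ∀ b : BA, S.red ⟨(b : F), H₁.le_Gon b b.2⟩ = 0 → χ₀ b = 0)
  (hon₂ : ∀ b : BA, S'.red ⟨(b : F), H₂.le_Gon b b.2⟩ = 0 → χ₀ b = 0)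

/-- the closed point at level `i`. -/
abbrev xKof (i : I) : Ideal (BK i) :=
  RingHom.ker (χ₀.comp (((j i).comp (BK i).val.toRingHom).codRestrict BA.toSubring
    (fun b => H₁.j_mem i b b.2)))

include H₂ hon₁ hon₂ in
/-- **one level at a two-branch closed point**, from the two families. -/
theorem nodeLevelAt (i : I)
    (hgood : ∃ (E : ℕ) (x y w d0 : BK i), IsGood (πK i) (BK i) (O1 i) (O2 i)
      (xKof H₁ χ₀ i) E x y w d0)
    (hhor : ∀ ε : FK i, (∀ P : Place L F, InDisc (locC BA χ₀) P →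
      j i ε ∈ P.toValuationSubring) → HorInt (πK i) (BK i) (xKof H₁ χ₀ i) ε) :
    NodeLevelAt B.res BA χ₀ S.G S.red S'.G S'.red (BK i) (πK i) (j i) (O1 i) (O2 i) :=
  { j_mem := H₁.j_mem i
    pi_const := H₁.pi_const i
    noeth := H₁.noeth i
    le1 := H₁.le_on i
    le2 := H₁.le_off i
    unif1 := H₁.unif_on i
    unif2 := H₂.unif_on i
    pi_nonunit1 := H₁.pi_nonunit_on i
    pi_nonunit2 := H₂.pi_nonunit_on i
    arch1 := H₁.arch_on i
    arch2 := H₁.arch_off i
    sat := H₁.sat i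
    frac := H₁.fracK i
    on_G := fun f hf => (H₁.on_iff i f).2 hf
    on_G' := fun f hf => (H₂.on_iff i f).2 hf
    red_zero_iff := fun f hf => H₁.on_zero_iff i f hf
    red_zero_iff' := fun f hf => H₂.on_zero_iff i f hf
    isMax := H₁.isMaxK i _
    good := hgood
    hor := hhor }

include H₂ hχ₀ hon₁ hon₂ in
/-- **The level system at a two-branch closed point**, from the two point-independent families of
levels, two separators and the nodal inputs `hgood`, `hhor` at every level. -/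
theorem nodeLevels
    (e₁ : BA) (he₁ : S.red ⟨(e₁ : F), H₁.le_Gon e₁ e₁.2⟩ ≠ 0)
    (he₁' : S'.red ⟨(e₁ : F), H₁.le_Goff e₁ e₁.2⟩ = 0)
    (e₂ : BA) (he₂ : S'.red ⟨(e₂ : F), H₂.le_Gon e₂ e₂.2⟩ ≠ 0)
    (he₂' : S.red ⟨(e₂ : F), H₂.le_Goff e₂ e₂.2⟩ = 0)
    (hgood : ∀ i, ∃ (E : ℕ) (x y w d0 : BK i), IsGood (πK i) (BK i) (O1 i) (O2 i)
      (xKof H₁ χ₀ i) E x y w d0)
    (hhor : ∀ i, ∀ ε : FK i, (∀ P : Place L F, InDisc (locC BA χ₀) P →
      j i ε ∈ P.toValuationSubring) → HorInt (πK i) (BK i) (xKof H₁ χ₀ i) ε) :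
    NodeLevels B S S' BA χ₀ RK FK BK πK j O1 O2 :=
  { chi_const := hχ₀
    onComp := H₁.onComp χ₀ hon₁
    onComp' := H₂.onComp χ₀ hon₂
    frac := H₁.frac
    pir := H₁.pir
    pir' := H₂.pir
    L4 := L4_of_separator H₁ e₁ he₁ he₁'
    L4' := L4_of_separator H₂ e₂ he₂ he₂'
    level := fun i => nodeLevelAt H₁ H₂ χ₀ hon₁ hon₂ i (hgood i) (hhor i)
    L0 := by
      intro T
      obtain ⟨i, -, hT⟩ := H₁.desc 0 T
      exact ⟨i, hT⟩ }

include H₂ hχ₀ hon₁ hon₂ in
/-- **The node system at a two-branch closed point** of the chart `BA`. -/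
theorem exists_nodeSys
    (e₁ : BA) (he₁ : S.red ⟨(e₁ : F), H₁.le_Gon e₁ e₁.2⟩ ≠ 0)
    (he₁' : S'.red ⟨(e₁ : F), H₁.le_Goff e₁ e₁.2⟩ = 0)
    (e₂ : BA) (he₂ : S'.red ⟨(e₂ : F), H₂.le_Gon e₂ e₂.2⟩ ≠ 0)
    (he₂' : S.red ⟨(e₂ : F), H₂.le_Goff e₂ e₂.2⟩ = 0)
    (hgood : ∀ i, ∃ (E : ℕ) (x y w d0 : BK i), IsGood (πK i) (BK i) (O1 i) (O2 i)
      (xKof H₁ χ₀ i) E x y w d0)
    (hhor : ∀ i, ∀ ε : FK i, (∀ P : Place L F, InDisc (locC BA χ₀) P →
      j i ε ∈ P.toValuationSubring) → HorInt (πK i) (BK i) (xKof H₁ χ₀ i) ε) :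
    ∃ (Q Q' : Place k Ft) (x y u : locC BA χ₀) (ϖ : L),
      NodeSys4.NodeSys B S S' (locC BA χ₀) (chiC BA χ₀) Q Q' x y u ϖ := by
  have H := nodeLevels H₁ H₂ χ₀ hχ₀ hon₁ hon₂ e₁ he₁ he₁' e₂ he₂ he₂' hgood hhor
  obtain ⟨x, y, u, ϖ, hN⟩ := NodeTop4.exists_nodeSys H (NodeSide2.locSide H) (NodeSide2.locSide' H)
  exact ⟨_, _, x, y, u, ϖ, hN⟩

/-! ### without separators: the good coordinates are separators at their level -/

/-- **(L4) on the component `on` from good coordinates at every level**: the coordinate `x_i` of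
level `i` vanishes identically on `off` and not on `on`. -/
theorem L4_of_good
    (H : LevelFamily B.res BA s S.G S.red S'.G S'.red RK FK BK πK j O1 O2)
    (hsep : ∀ i, ∃ e : BK i, PiMul (algebraMap (RK i) (FK i) (πK i)) (O2 i) (e : FK i) ∧
      ¬ PiMul (algebraMap (RK i) (FK i) (πK i)) (O1 i) (e : FK i)) (y : Ft) :
    ∃ a b : BA, S.red ⟨(b : F), H.le_Gon b b.2⟩ ≠ 0 ∧
      y * S.red ⟨(b : F), H.le_Gon b b.2⟩ = S.red ⟨(a : F), H.le_Gon a a.2⟩ := by
  obtain ⟨g, rfl⟩ := H.red_surj y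
  obtain ⟨i, ⟨x, hx⟩, -⟩ := H.desc (g : F) []
  obtain ⟨eK, heoff, heon⟩ := hsep i
  have hxOn : x ∈ O1 i := (H.on_iff i x).1 (hx ▸ g.2)
  obtain ⟨a, b, hb, hab⟩ := exists_frac_on (BK i) (πK i) (O1 i) (O2 i) (H.le_on i)
    (H.unif_on i) (H.pi_nonunit_on i) (H.arch_on i) (H.sat i) (H.le_off i) (H.fracK i)
    eK heoff heon x hxOn
  refine ⟨⟨j i (a : FK i), H.j_mem i _ a.2⟩, ⟨j i (b : FK i), H.j_mem i _ b.2⟩, ?_, ?_⟩
  · intro h0
    exact hb ((H.on_zero_iff i _ (H.le_on i _ b.2)).mp h0)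
  · rw [← map_mul]
    congr 1
    apply Subtype.ext
    show (g : F) * j i (b : FK i) = j i (a : FK i)
    rw [← hx, ← map_mul, hab]

include H₂ hχ₀ hon₁ hon₂ in
/-- **The level system at a two-branch closed point**, from the two point-independent families of
levels and the nodal inputs `hgood`, `hhor` at every level (no separators). -/
theorem nodeLevels'
    (hgood : ∀ i, ∃ (E : ℕ) (x y w d0 : BK i), IsGood (πK i) (BK i) (O1 i) (O2 i)
      (xKof H₁ χ₀ i) E x y w d0)
    (hhor : ∀ i, ∀ ε : FK i, (∀ P : Place L F, InDisc (locC BA χ₀) P →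
      j i ε ∈ P.toValuationSubring) → HorInt (πK i) (BK i) (xKof H₁ χ₀ i) ε) :
    NodeLevels B S S' BA χ₀ RK FK BK πK j O1 O2 :=
  { chi_const := hχ₀
    onComp := H₁.onComp χ₀ hon₁
    onComp' := H₂.onComp χ₀ hon₂
    frac := H₁.frac
    pir := H₁.pir
    pir' := H₂.pir
    L4 := L4_of_good H₁ (fun i => by
      obtain ⟨E, x, y, w, d0, Gd⟩ := hgood i
      exact ⟨x, Gd.x_two, Gd.x_one⟩)
    L4' := L4_of_good H₂ (fun i => by
      obtain ⟨E, x, y, w, d0, Gd⟩ := hgood i
      exact ⟨y, Gd.y_one, Gd.y_two⟩)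
    level := fun i => nodeLevelAt H₁ H₂ χ₀ hon₁ hon₂ i (hgood i) (hhor i)
    L0 := by
      intro T
      obtain ⟨i, -, hT⟩ := H₁.desc 0 T
      exact ⟨i, hT⟩ }

include H₂ hχ₀ hon₁ hon₂ in
/-- **The node system at a two-branch closed point** of the chart `BA` (no separators). -/
theorem exists_nodeSys'
    (hgood : ∀ i, ∃ (E : ℕ) (x y w d0 : BK i), IsGood (πK i) (BK i) (O1 i) (O2 i)
      (xKof H₁ χ₀ i) E x y w d0)
    (hhor : ∀ i, ∀ ε : FK i, (∀ P : Place L F, InDisc (locC BA χ₀) P →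
      j i ε ∈ P.toValuationSubring) → HorInt (πK i) (BK i) (xKof H₁ χ₀ i) ε) :
    ∃ (Q Q' : Place k Ft) (x y u : locC BA χ₀) (ϖ : L),
      NodeSys4.NodeSys B S S' (locC BA χ₀) (chiC BA χ₀) Q Q' x y u ϖ := by
  have H := nodeLevels' H₁ H₂ χ₀ hχ₀ hon₁ hon₂ hgood hhor
  obtain ⟨x, y, u, ϖ, hN⟩ := NodeTop4.exists_nodeSys H (NodeSide2.locSide H) (NodeSide2.locSide' H)
  exact ⟨_, _, x, y, u, ϖ, hN⟩

end Node

end Fermat.Agent.ORD.NODE.NodeFamily2
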