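/-
PROGRAMME ORD (S33), chapter NODE = O6c (helper2): **the nodal input `good` of the level system at a
two-branch closed point, from the two families of levels and N34's literal chart fields.**

Setting of `NodeFamily2`: `H₁ H₂` the two point-independent families of levels (`LevelFamily8`) of one
chart `BA`, `χ₀` a closed point of `BA` lying on both components.

* `nodeHyp` : lead's `GoodChart0.NodeHyp` at the closed point `xKof H₁ χ₀ i` of level `i`, from the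
  family fields, witnesses `z₁ z₂` of level `i` (`χ₀ z = 0`, `red z ≠ 0` resp. `red' z ≠ 0`) and the
  rationality `hres` of the closed point at level `i`;
* `exists_isGood` : `∃ E x y w d0, IsGood …` at level `i` (`GoodAt2.isGood`), with N34's `node0` field
  (`hnode`) and (S) (`hS`, lead's `SmoothChart0.exists_pow_mem_derIdeal`) and a separator of level `i`;
* **`exists_nodeSys_of_cofinal`** : the node system of the closed point `χ₀`, when `hres` and `hhor`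
  hold on a cofinal set `P` of levels; the witnesses `z₁ z₂` are `LevelFamily.nonunit`, the separator
  `e : BA` is global (`red e ≠ 0 = red' e`).
-/
import Mathlib
import Fermat.Agent.ORD.NODE.NodeFamily2
import Fermat.Agent.ORD.NODE.GoodAt2

set_option autoImplicit false
set_option linter.unusedSectionVars false
set_option linter.unusedVariables false
set_option linter.style.longLine false
set_option linter.style.haveILetI false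

namespace Fermat.Agent.ORD.NODE.GoodFamily2

open AlgebraicCurve Fermat.Agent.ES.N34.NodalSmooth13 Fermat.Agent.ES.N34.NodalCore13
  Fermat.Agent.ES.N34.NumData13
  Fermat.Agent.ORD.IFACEN.LocAt8 Fermat.Agent.ORD.IFACEN.LevelAt8
  Fermat.Agent.ORD.IFACEN.LevelFamily8 Fermat.Agent.ORD.IFACEN.DiscPlaces8
  Fermat.Agent.ORD.ANN.Side3
  Fermat.Agent.ORD.NODE.Term0 Fermat.Agent.ORD.NODE.GoodChart0
  Fermat.Agent.ORD.NODE.GoodCoords4 Fermat.Agent.ORD.NODE.NodeLocal4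
  Fermat.Agent.ORD.NODE.NodeLevelAt4 Fermat.Agent.ORD.NODE.NodeLevels4
  Fermat.Agent.ORD.NODE.NodeFamily2

variable {L F k Ft : Type*} [Field L] [Field F] [Algebra L F] [Field k] [Field Ft] [Algebra k Ft]

variable {B : Base L k} [Algebra B.A F] [IsScalarTower B.A L F]
  {S S' : Side B F Ft} {BA : Subalgebra B.A F} {s s' : BA}
variable {I : Type*} {RK FK : I → Type*} [∀ i, CommRing (RK i)] [∀ i, Field (FK i)]
  [∀ i, Algebra (RK i) (FK i)] {BK : ∀ i, Subalgebra (RK i) (FK i)} {πK : ∀ i, RK i}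
  {j : ∀ i, FK i →+* F} {O1 O2 : ∀ i, ValuationSubring (FK i)}

variable (H₁ : LevelFamily B.res BA s S.G S.red S'.G S'.red RK FK BK πK j O1 O2)
  (H₂ : LevelFamily B.res BA s' S'.G S'.red S.G S.red RK FK BK πK j O2 O1)
  (χ₀ : BA →+* k) (hχ₀ : ∀ a : B.A, χ₀ (algebraMap B.A BA a) = B.res a)
  (hon₁ : ∀ b : BA, S.red ⟨(b : F), H₁.le_Gon b b.2⟩ = 0 → χ₀ b = 0)
  (hon₂ : ∀ b : BA, S'.red ⟨(b : F), H₂.le_Gon b b.2⟩ = 0 → χ₀ b = 0)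

theorem mem_xKof_iff (i : I) (b : BK i) :
    b ∈ xKof H₁ χ₀ i ↔ χ₀ ⟨j i (b : FK i), H₁.j_mem i b b.2⟩ = 0 := Iff.rfl

include hχ₀ in
theorem pi_mem_xKof (i : I) : algebraMap (RK i) (BK i) (πK i) ∈ xKof H₁ χ₀ i := by
  obtain ⟨ϖ, -, hres, e⟩ := H₁.pi_const i
  rw [mem_xKof_iff]
  have : (⟨j i ((algebraMap (RK i) (BK i) (πK i) : BK i) : FK i),
      H₁.j_mem i _ (algebraMap (RK i) (BK i) (πK i)).2⟩ : BA) = algebraMap B.A BA ϖ :=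
    Subtype.ext (by
      show j i (algebraMap (RK i) (FK i) (πK i)) = ((algebraMap B.A BA ϖ : BA) : F)
      rw [e, ← algebraMap_A_eq]; rfl)
  rw [this, hχ₀, hres]

include H₂ hχ₀ hon₁ hon₂ in
/-- **lead's `NodeHyp` at the closed point of level `i`.** -/
theorem nodeHyp (i : I)
    (z₁ : BK i) (hz₁ : z₁ ∈ xKof H₁ χ₀ i)
    (hz₁' : S.red ⟨j i (z₁ : FK i), H₁.le_Gon _ (H₁.j_mem i _ z₁.2)⟩ ≠ 0)
    (z₂ : BK i) (hz₂ : z₂ ∈ xKof H₁ χ₀ i)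
    (hz₂' : S'.red ⟨j i (z₂ : FK i), H₂.le_Gon _ (H₁.j_mem i _ z₂.2)⟩ ≠ 0)
    (hres : ∀ b : BK i, ∃ r : RK i, b - algebraMap (RK i) (BK i) r ∈ xKof H₁ χ₀ i) :
    NodeHyp (πK i) (BK i) (O1 i) (O2 i) (xKof H₁ χ₀ i) :=
  { leO1 := H₁.le_on i
    leO2 := H₁.le_off i
    pi_ne := by
      intro h0
      apply H₁.pi_nonunit_on i
      rw [h0, inv_zero]
      exact (O1 i).zero_mem
    pi_nonunit1 := H₁.pi_nonunit_on i
    pi_nonunit2 := H₂.pi_nonunit_on i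
    unif1 := H₁.unif_on i
    unif2 := H₂.unif_on i
    sat := H₁.sat i
    pi_mem := pi_mem_xKof H₁ χ₀ hχ₀ i
    hon1 := by
      intro b hb
      rw [mem_xKof_iff]
      apply hon₁
      have h0 := (H₁.on_zero_iff i _ (H₁.le_on i _ b.2)).mpr hb
      exact h0
    hon2 := by
      intro b hb
      rw [mem_xKof_iff]
      apply hon₂
      have h0 := (H₂.on_zero_iff i _ (H₂.le_on i _ b.2)).mpr hb
      exact h0
    ne1 := by
      refine ⟨z₁, hz₁, fun hc => hz₁' ?_⟩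
      exact (H₁.on_zero_iff i _ (H₁.le_on i _ z₁.2)).mpr hc
    ne2 := by
      refine ⟨z₂, hz₂, fun hc => hz₂' ?_⟩
      exact (H₂.on_zero_iff i _ (H₂.le_on i _ z₂.2)).mpr hc
    res := hres }

include H₂ hon₁ hon₂ in
/-- the closed point of level `i` lies on both components. -/
theorem not_offBranch (i : I) :
    ¬ OffBranch (πK i) (BK i) (O1 i) (xKof H₁ χ₀ i) ∧
      ¬ OffBranch (πK i) (BK i) (O2 i) (xKof H₁ χ₀ i) := by
  constructor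
  · rintro ⟨e, he, hc⟩
    apply he
    rw [mem_xKof_iff]
    apply hon₁
    exact (H₁.on_zero_iff i _ (H₁.le_on i _ e.2)).mpr hc
  · rintro ⟨e, he, hc⟩
    apply he
    rw [mem_xKof_iff]
    apply hon₂
    exact (H₂.on_zero_iff i _ (H₂.le_on i _ e.2)).mpr hc

include H₂ hχ₀ hon₁ hon₂ in
/-- **labelled good coordinates at level `i`.** -/
theorem exists_isGood (i : I)
    (z₁ : BK i) (hz₁ : z₁ ∈ xKof H₁ χ₀ i)
    (hz₁' : S.red ⟨j i (z₁ : FK i), H₁.le_Gon _ (H₁.j_mem i _ z₁.2)⟩ ≠ 0)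
    (z₂ : BK i) (hz₂ : z₂ ∈ xKof H₁ χ₀ i)
    (hz₂' : S'.red ⟨j i (z₂ : FK i), H₂.le_Gon _ (H₁.j_mem i _ z₂.2)⟩ ≠ 0)
    (e : BK i) (he : S.red ⟨j i (e : FK i), H₁.le_Gon _ (H₁.j_mem i _ e.2)⟩ ≠ 0)
    (he' : S'.red ⟨j i (e : FK i), H₁.le_Goff _ (H₁.j_mem i _ e.2)⟩ = 0)
    (hres : ∀ b : BK i, ∃ r : RK i, b - algebraMap (RK i) (BK i) r ∈ xKof H₁ χ₀ i)
    (hnode : ∀ 𝔪 : Ideal (BK i), 𝔪.IsMaximal → algebraMap (RK i) (BK i) (πK i) ∈ 𝔪 →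
      ¬ OffBranch (πK i) (BK i) (O1 i) 𝔪 → ¬ OffBranch (πK i) (BK i) (O2 i) 𝔪 →
        NodeCoords (πK i) (BK i) 𝔪)
    (hS : ∀ (𝔪 : Ideal (BK i)) [𝔪.IsPrime], ∃ N : ℕ,
      algebraMap (RK i) ↥(locSub (BK i) 𝔪) (πK i) ^ N ∈ derIdeal (RK i) ↥(locSub (BK i) 𝔪)) :
    ∃ (E : ℕ) (x y w d0 : BK i), IsGood (πK i) (BK i) (O1 i) (O2 i) (xKof H₁ χ₀ i) E x y w d0 := by
  have hmax : (xKof H₁ χ₀ i).IsMaximal := H₁.isMaxK i _
  haveI : (xKof H₁ χ₀ i).IsPrime := hmax.isPrime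
  haveI : IsNoetherianRing (BK i) := H₁.noeth i
  have HN := nodeHyp H₁ H₂ χ₀ hχ₀ hon₁ hon₂ i z₁ hz₁ hz₁' z₂ hz₂ hz₂' hres
  obtain ⟨hoff1, hoff2⟩ := not_offBranch H₁ H₂ χ₀ hon₁ hon₂ i
  refine GoodAt2.isGood HN hmax ⟨e, ?_, ?_⟩
    (hnode _ hmax (pi_mem_xKof H₁ χ₀ hχ₀ i) hoff1 hoff2) (hS _)
  · exact H₁.off_zero i e he'
  · intro hc
    exact he ((H₁.on_zero_iff i _ (H₁.le_on i _ e.2)).mpr hc)

/-! ### the node system from a cofinal set of good levels -/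

include H₂ hχ₀ hon₁ hon₂ in
/-- **The node system of a two-branch closed point `χ₀` of the chart `BA`**, from the two families of
levels, a global separator, N34's `node0` field and (S) at every level, and the rationality of the
closed point + the tube condition `hhor` on a cofinal set `P` of levels. -/
theorem exists_nodeSys_of_cofinal
    (e : BA) (he : S.red ⟨(e : F), H₁.le_Gon e e.2⟩ ≠ 0)
    (he' : S'.red ⟨(e : F), H₁.le_Goff e e.2⟩ = 0)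
    (P : I → Prop)
    (hcof : ∀ (y : F) (T : List BA), ∃ i, P i ∧ (∃ x : FK i, j i x = y) ∧
      ∀ b ∈ T, ∃ b' : BK i, j i (b' : FK i) = (b : F))
    (hres : ∀ i, P i → ∀ b : BK i, ∃ r : RK i,
      b - algebraMap (RK i) (BK i) r ∈ xKof H₁ χ₀ i)
    (hhor : ∀ i, P i → ∀ ε : FK i, (∀ Pl : Place L F, InDisc (locC BA χ₀) Pl →
      j i ε ∈ Pl.toValuationSubring) → HorInt (πK i) (BK i) (xKof H₁ χ₀ i) ε)
    (hnode : ∀ i (𝔪 : Ideal (BK i)), 𝔪.IsMaximal → algebraMap (RK i) (BK i) (πK i) ∈ 𝔪 →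
      ¬ OffBranch (πK i) (BK i) (O1 i) 𝔪 → ¬ OffBranch (πK i) (BK i) (O2 i) 𝔪 →
        NodeCoords (πK i) (BK i) 𝔪)
    (hS : ∀ i (𝔪 : Ideal (BK i)) [𝔪.IsPrime], ∃ N : ℕ,
      algebraMap (RK i) ↥(locSub (BK i) 𝔪) (πK i) ^ N ∈ derIdeal (RK i) ↥(locSub (BK i) 𝔪)) :
    ∃ (Q Q' : Place k Ft) (x y u : locC BA χ₀) (ϖ : L),
      NodeSys4.NodeSys B S S' (locC BA χ₀) (chiC BA χ₀) Q Q' x y u ϖ := by
  obtain ⟨z₁, hz₁, hz₁'⟩ := H₁.nonunit χ₀ hχ₀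
  obtain ⟨z₂, hz₂, hz₂'⟩ := H₂.nonunit χ₀ hχ₀
  -- the good levels
  set P' : I → Prop := fun i => P i ∧ (∃ b : BK i, j i (b : FK i) = (z₁ : F)) ∧
    (∃ b : BK i, j i (b : FK i) = (z₂ : F)) ∧ (∃ b : BK i, j i (b : FK i) = (e : F)) with hP'
  have hdesc : ∀ (y : F) (T : List BA), ∃ i, P' i ∧ (∃ x : FK i, j i x = y) ∧
      ∀ b ∈ T, ∃ b' : BK i, j i (b' : FK i) = (b : F) := by
    intro y T
    obtain ⟨i, hPi, hy, hT⟩ := hcof y (z₁ :: z₂ :: e :: T)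
    refine ⟨i, ⟨hPi, hT z₁ (by simp), hT z₂ (by simp), hT e (by simp)⟩, hy, fun b hb => ?_⟩
    exact hT b (by simp [hb])
  have K₁ := restrict H₁ P' hdesc
  have K₂ := restrict H₂ P' hdesc
  refine exists_nodeSys' K₁ K₂ χ₀ hχ₀ hon₁ hon₂ ?_ ?_
  · rintro ⟨i, hPi, ⟨b₁, hb₁⟩, ⟨b₂, hb₂⟩, ⟨bₑ, hbₑ⟩⟩
    refine exists_isGood H₁ H₂ χ₀ hχ₀ hon₁ hon₂ i b₁ ?_ ?_ b₂ ?_ ?_ bₑ ?_ ?_ (hres i hPi)
      (hnode i) (hS i)
    · rw [mem_xKof_iff]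
      have : (⟨j i (b₁ : FK i), H₁.j_mem i _ b₁.2⟩ : BA) = z₁ := Subtype.ext hb₁
      rw [this]; exact hz₁
    · have : (⟨j i (b₁ : FK i), H₁.le_Gon _ (H₁.j_mem i _ b₁.2)⟩ : S.G) =
          ⟨(z₁ : F), H₁.le_Gon z₁ z₁.2⟩ := Subtype.ext hb₁
      rw [this]; exact hz₁'
    · rw [mem_xKof_iff]
      have : (⟨j i (b₂ : FK i), H₁.j_mem i _ b₂.2⟩ : BA) = z₂ := Subtype.ext hb₂
      rw [this]; exact hz₂
    · have : (⟨j i (b₂ : FK i), H₂.le_Gon _ (H₁.j_mem i _ b₂.2)⟩ : S'.G) =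
          ⟨(z₂ : F), H₂.le_Gon z₂ z₂.2⟩ := Subtype.ext hb₂
      rw [this]; exact hz₂'
    · have : (⟨j i (bₑ : FK i), H₁.le_Gon _ (H₁.j_mem i _ bₑ.2)⟩ : S.G) =
          ⟨(e : F), H₁.le_Gon e e.2⟩ := Subtype.ext hbₑ
      rw [this]; exact he
    · have : (⟨j i (bₑ : FK i), H₁.le_Goff _ (H₁.j_mem i _ bₑ.2)⟩ : S'.G) =
          ⟨(e : F), H₁.le_Goff e e.2⟩ := Subtype.ext hbₑ
      rw [this]; exact he'
  · rintro ⟨i, hPi, -⟩
    exact hhor i hPi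

/-! ### without separators: `O1 i ≠ O2 i` -/

include H₂ hχ₀ hon₁ hon₂ in
/-- **labelled good coordinates at level `i`**, from `O1 i ≠ O2 i` (N34's `OneNeTwo3.o1_ne_o2`)
instead of a separator. -/
theorem exists_isGood' (i : I)
    (z₁ : BK i) (hz₁ : z₁ ∈ xKof H₁ χ₀ i)
    (hz₁' : S.red ⟨j i (z₁ : FK i), H₁.le_Gon _ (H₁.j_mem i _ z₁.2)⟩ ≠ 0)
    (z₂ : BK i) (hz₂ : z₂ ∈ xKof H₁ χ₀ i)
    (hz₂' : S'.red ⟨j i (z₂ : FK i), H₂.le_Gon _ (H₁.j_mem i _ z₂.2)⟩ ≠ 0)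
    (hne : O1 i ≠ O2 i)
    (hres : ∀ b : BK i, ∃ r : RK i, b - algebraMap (RK i) (BK i) r ∈ xKof H₁ χ₀ i)
    (hnode : ∀ 𝔪 : Ideal (BK i), 𝔪.IsMaximal → algebraMap (RK i) (BK i) (πK i) ∈ 𝔪 →
      ¬ OffBranch (πK i) (BK i) (O1 i) 𝔪 → ¬ OffBranch (πK i) (BK i) (O2 i) 𝔪 →
        NodeCoords (πK i) (BK i) 𝔪)
    (hS : ∀ (𝔪 : Ideal (BK i)) [𝔪.IsPrime], ∃ N : ℕ,
      algebraMap (RK i) ↥(locSub (BK i) 𝔪) (πK i) ^ N ∈ derIdeal (RK i) ↥(locSub (BK i) 𝔪)) :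
    ∃ (E : ℕ) (x y w d0 : BK i), IsGood (πK i) (BK i) (O1 i) (O2 i) (xKof H₁ χ₀ i) E x y w d0 := by
  have hmax : (xKof H₁ χ₀ i).IsMaximal := H₁.isMaxK i _
  haveI : (xKof H₁ χ₀ i).IsPrime := hmax.isPrime
  haveI : IsNoetherianRing (BK i) := H₁.noeth i
  have HN := nodeHyp H₁ H₂ χ₀ hχ₀ hon₁ hon₂ i z₁ hz₁ hz₁' z₂ hz₂ hz₂' hres
  obtain ⟨hoff1, hoff2⟩ := not_offBranch H₁ H₂ χ₀ hon₁ hon₂ i
  have hsep := GoodAt2.exists_separator (πK i) (BK i) (O1 i) (O2 i) (H₁.le_on i) (H₁.le_off i)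
    (H₁.pi_nonunit_on i) (H₂.pi_nonunit_on i) (H₁.unif_on i) (H₂.unif_on i) (H₁.arch_on i)
    (H₁.arch_off i) (H₁.sat i) (H₁.fracK i) hne
  exact GoodAt2.isGood' HN hmax hsep
    (hnode _ hmax (pi_mem_xKof H₁ χ₀ hχ₀ i) hoff1 hoff2) (hS _)

include H₂ hχ₀ hon₁ hon₂ in
/-- **The node system of a two-branch closed point `χ₀` of the chart `BA`**, from the two families of
levels, `O1 i ≠ O2 i`, N34's `node0` field and (S) at every level, and the rationality of the closed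
point + the tube condition `hhor` on a cofinal set `P` of levels.  No separator is needed. -/
theorem exists_nodeSys_of_cofinal'
    (hne : ∀ i, O1 i ≠ O2 i)
    (P : I → Prop)
    (hcof : ∀ (y : F) (T : List BA), ∃ i, P i ∧ (∃ x : FK i, j i x = y) ∧
      ∀ b ∈ T, ∃ b' : BK i, j i (b' : FK i) = (b : F))
    (hres : ∀ i, P i → ∀ b : BK i, ∃ r : RK i,
      b - algebraMap (RK i) (BK i) r ∈ xKof H₁ χ₀ i)
    (hhor : ∀ i, P i → ∀ ε : FK i, (∀ Pl : Place L F, InDisc (locC BA χ₀) Pl →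
      j i ε ∈ Pl.toValuationSubring) → HorInt (πK i) (BK i) (xKof H₁ χ₀ i) ε)
    (hnode : ∀ i (𝔪 : Ideal (BK i)), 𝔪.IsMaximal → algebraMap (RK i) (BK i) (πK i) ∈ 𝔪 →
      ¬ OffBranch (πK i) (BK i) (O1 i) 𝔪 → ¬ OffBranch (πK i) (BK i) (O2 i) 𝔪 →
        NodeCoords (πK i) (BK i) 𝔪)
    (hS : ∀ i (𝔪 : Ideal (BK i)) [𝔪.IsPrime], ∃ N : ℕ,
      algebraMap (RK i) ↥(locSub (BK i) 𝔪) (πK i) ^ N ∈ derIdeal (RK i) ↥(locSub (BK i) 𝔪)) :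
    ∃ (Q Q' : Place k Ft) (x y u : locC BA χ₀) (ϖ : L),
      NodeSys4.NodeSys B S S' (locC BA χ₀) (chiC BA χ₀) Q Q' x y u ϖ := by
  obtain ⟨z₁, hz₁, hz₁'⟩ := H₁.nonunit χ₀ hχ₀
  obtain ⟨z₂, hz₂, hz₂'⟩ := H₂.nonunit χ₀ hχ₀
  -- the good levels
  set P' : I → Prop := fun i => P i ∧ (∃ b : BK i, j i (b : FK i) = (z₁ : F)) ∧
    (∃ b : BK i, j i (b : FK i) = (z₂ : F)) with hP'
  have hdesc : ∀ (y : F) (T : List BA), ∃ i, P' i ∧ (∃ x : FK i, j i x = y) ∧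
      ∀ b ∈ T, ∃ b' : BK i, j i (b' : FK i) = (b : F) := by
    intro y T
    obtain ⟨i, hPi, hy, hT⟩ := hcof y (z₁ :: z₂ :: T)
    refine ⟨i, ⟨hPi, hT z₁ (by simp), hT z₂ (by simp)⟩, hy, fun b hb => ?_⟩
    exact hT b (by simp [hb])
  have K₁ := restrict H₁ P' hdesc
  have K₂ := restrict H₂ P' hdesc
  refine exists_nodeSys' K₁ K₂ χ₀ hχ₀ hon₁ hon₂ ?_ ?_
  · rintro ⟨i, hPi, ⟨b₁, hb₁⟩, ⟨b₂, hb₂⟩⟩
    refine exists_isGood' H₁ H₂ χ₀ hχ₀ hon₁ hon₂ i b₁ ?_ ?_ b₂ ?_ ?_ (hne i) (hres i hPi)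
      (hnode i) (hS i)
    · rw [mem_xKof_iff]
      have : (⟨j i (b₁ : FK i), H₁.j_mem i _ b₁.2⟩ : BA) = z₁ := Subtype.ext hb₁
      rw [this]; exact hz₁
    · have : (⟨j i (b₁ : FK i), H₁.le_Gon _ (H₁.j_mem i _ b₁.2)⟩ : S.G) =
          ⟨(z₁ : F), H₁.le_Gon z₁ z₁.2⟩ := Subtype.ext hb₁
      rw [this]; exact hz₁'
    · rw [mem_xKof_iff]
      have : (⟨j i (b₂ : FK i), H₁.j_mem i _ b₂.2⟩ : BA) = z₂ := Subtype.ext hb₂
      rw [this]; exact hz₂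
    · have : (⟨j i (b₂ : FK i), H₂.le_Gon _ (H₁.j_mem i _ b₂.2)⟩ : S'.G) =
          ⟨(z₂ : F), H₂.le_Gon z₂ z₂.2⟩ := Subtype.ext hb₂
      rw [this]; exact hz₂'
  · rintro ⟨i, hPi, -⟩
    exact hhor i hPi

end Fermat.Agent.ORD.NODE.GoodFamily2
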