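/-
Programme ORD (S33), chapter NODE (lead): the derivation `d/dx` of a function field in one
variable `F / K` with transcendental generator `x` (`F` finite over `K(x)`, any characteristic in
which `Ω[F⁄K]` is spanned by `D x`, i.e. `X0.FF.IsGen`): a `K`-derivation `dd : F → F` with `dd x = 1`.
It is the input `D` of `Smooth0.pow_mem_derIdeal`.
-/
import Mathlib
import Fermat.Agent.X0.FFDiff

set_option autoImplicit false

namespace Fermat.Agent.ORD.NODE.Deriv0

open Fermat.Agent.X0 KaehlerDifferential

variable {K F : Type*} [Field K] [Field F] [Algebra K F] [CharZero K]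

/-- A `K`-derivation of `F` with `dd x = 1`. -/
theorem exists_derivation {x : F} (hx : FF.IsGen K x) :
    ∃ dd : Derivation K F F, dd x = 1 := by
  have hne : KaehlerDifferential.D K F x ≠ 0 := FF.D_ne_zero hx
  have hex : ∃ φ : Module.Dual F Ω[F⁄K], φ (KaehlerDifferential.D K F x) ≠ 0 := by
    by_contra h
    have h' : ∀ φ : Module.Dual F Ω[F⁄K], φ (KaehlerDifferential.D K F x) = 0 := by
      intro φ
      by_contra hφ
      exact h ⟨φ, hφ⟩
    exact hne ((Module.forall_dual_apply_eq_zero_iff F _).mp h')
  obtain ⟨φ, hφ⟩ := hex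
  refine ⟨((φ (KaehlerDifferential.D K F x))⁻¹ • φ).compDer (KaehlerDifferential.D K F), ?_⟩
  show ((φ (KaehlerDifferential.D K F x))⁻¹ • φ) (KaehlerDifferential.D K F x) = 1
  rw [LinearMap.smul_apply, smul_eq_mul, inv_mul_cancel₀ hφ]

/-- The same, linear over a subring `R` of constants. -/
theorem exists_derivation_restrict {R : Type*} [CommRing R] [Algebra R K] [Algebra R F]
    [IsScalarTower R K F] {x : F} (hx : FF.IsGen K x) :
    ∃ dd : Derivation R F F, dd x = 1 := by
  obtain ⟨dd, h⟩ := exists_derivation hx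
  exact ⟨dd.restrictScalars R, h⟩

end Fermat.Agent.ORD.NODE.Deriv0
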