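/-
Programme ORD (S33), chapter NODE (lead): **(S) "the generic fibre is smooth" in derivation form**,
the hypothesis `π ^ N ∈ derIdeal R B` of `Term0.exists_good`.

Setting: `F` a field, `R → F`, `π : R`;
* `B0 ⊆ F` an `R`-subalgebra generated by finitely many elements `gen i` (the affine chart of the
  model at one finite level);
* `C` a Dedekind domain with fraction field `F` (the coordinate ring `B0[1/π]` of the generic fibre),
  containing `B0`, every element of which has a `π`-power multiple in `B0`;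
* `B1 ⊇ B0` a localisation of `B0` inside `F` (the local ring `B_𝔪` at the node);
* `D : Derivation R F F` not vanishing on `B0` (`d/dt`).

Then `J := C`-span of the `D (gen i)` is a nonzero finitely generated fractional ideal of the
Dedekind domain `C`, hence INVERTIBLE: `1 = Σ G_i · D (gen i)` with `G_i · J ⊆ C`.  Clearing
`π`-denominators, `δ_i := π^n G_i D` are `R`-derivations of `B0`, hence of `B1` (quotient rule),
and `Σ δ_i (gen i) = π^n`.  So `π^n ∈ derIdeal R B1` (`pow_mem_derIdeal`).
No prime ideals, no heights, no completion.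
-/
import Mathlib
import Fermat.Agent.ORD.NODE.Term0

set_option autoImplicit false

namespace Fermat.Agent.ORD.NODE.Smooth0

open Fermat.Agent.ORD.NODE.Term0
open scoped nonZeroDivisors

variable {R F C : Type*} [CommRing R] [Field F] [Algebra R F]
  [CommRing C] [IsDedekindDomain C] [Algebra C F] [IsFractionRing C F]

section Span

variable {ι : Type*} (gen : ι → F) (D : Derivation R F F)

/-- `J` := the `C`-span of the `D (gen i)`. -/
def JJ (C : Type*) [CommRing C] [Algebra C F] : Submodule C F :=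
  Submodule.span C (Set.range fun i => D (gen i))

/-- `D` maps the `R`-algebra generated by the `gen i` into `J`, provided that algebra lies in the
image of `C`. -/
theorem D_mem_JJ (hC : ∀ b ∈ Algebra.adjoin R (Set.range gen), ∃ c : C, algebraMap C F c = b)
    {b : F} (hb : b ∈ Algebra.adjoin R (Set.range gen)) : D b ∈ JJ gen D C := by
  induction hb using Algebra.adjoin_induction with
  | mem x hx =>
    obtain ⟨i, rfl⟩ := hx
    exact Submodule.subset_span ⟨i, rfl⟩
  | algebraMap r =>
    rw [Derivation.map_algebraMap]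
    exact Submodule.zero_mem _
  | add x y _ _ hx hy =>
    rw [map_add]
    exact Submodule.add_mem _ hx hy
  | mul x y hx' hy' hx hy =>
    rw [Derivation.leibniz]
    obtain ⟨cx, hcx⟩ := hC x hx'
    obtain ⟨cy, hcy⟩ := hC y hy'
    refine Submodule.add_mem _ ?_ ?_
    · have : x • D y = cx • D y := by
        rw [Algebra.smul_def cx, hcx, smul_eq_mul]
      rw [this]
      exact Submodule.smul_mem _ _ hy
    · have : y • D x = cy • D x := by
        rw [Algebra.smul_def cy, hcy, smul_eq_mul]
      rw [this]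
      exact Submodule.smul_mem _ _ hx

end Span

section Inverse

variable {ι : Type*} [Fintype ι] (gen : ι → F) (D : Derivation R F F)

/-- Invertibility of `J`: `1 = Σ G_i D (gen i)` with `G_i · J ⊆ C`. -/
theorem exists_dual (hne : ∃ z ∈ JJ gen D C, z ≠ 0) :
    ∃ G : ι → F, (∑ i, G i * D (gen i) = 1) ∧
      ∀ i, ∀ z ∈ JJ gen D C, ∃ c : C, algebraMap C F c = G i * z := by
  classical
  have hfg : (JJ gen D C).FG := by
    unfold JJ
    exact Submodule.fg_span (Set.finite_range _)
  let I : FractionalIdeal C⁰ F := ⟨JJ gen D C, FractionalIdeal.isFractional_of_fg hfg⟩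
  have hI_mem : ∀ z : F, z ∈ I ↔ z ∈ JJ gen D C := fun z => Iff.rfl
  have hI0 : I ≠ 0 := by
    obtain ⟨z, hz, hz0⟩ := hne
    intro h
    have : z ∈ (0 : FractionalIdeal C⁰ F) := by rw [← h]; exact (hI_mem z).mpr hz
    rw [FractionalIdeal.mem_zero_iff] at this
    exact hz0 this
  have hinv : I * I⁻¹ = 1 := mul_inv_cancel₀ hI0
  have h1 : (1 : F) ∈ I * I⁻¹ := by
    rw [hinv]
    exact (FractionalIdeal.mem_one_iff C⁰).mpr ⟨1, map_one _⟩
  -- every element of `I * I⁻¹` is a combination `Σ G_i D (gen i)` with `G_i ∈ I⁻¹`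
  have key : ∀ z ∈ I * I⁻¹, ∃ G : ι → F, (∑ i, G i * D (gen i) = z) ∧ ∀ i, G i ∈ I⁻¹ := by
    intro z hz
    refine FractionalIdeal.mul_induction_on hz ?_ ?_
    · intro a ha b hb
      have ha' : a ∈ Submodule.span C (Set.range fun i => D (gen i)) := (hI_mem a).mp ha
      obtain ⟨c, hc⟩ := (Submodule.mem_span_range_iff_exists_fun C).mp ha'
      refine ⟨fun i => c i • b, ?_, ?_⟩
      · rw [← hc, Finset.sum_mul]
        apply Finset.sum_congr rfl
        intro i _
        show c i • b * D (gen i) = c i • D (gen i) * b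
        rw [Algebra.smul_def, Algebra.smul_def]; ring
      · intro i
        exact Submodule.smul_mem _ _ hb
    · rintro x y ⟨Gx, hGx, hGx'⟩ ⟨Gy, hGy, hGy'⟩
      refine ⟨fun i => Gx i + Gy i, ?_, ?_⟩
      · rw [← hGx, ← hGy, ← Finset.sum_add_distrib]
        apply Finset.sum_congr rfl
        intro i _; ring
      · intro i
        exact Submodule.add_mem _ (hGx' i) (hGy' i)
  obtain ⟨G, hG, hG'⟩ := key 1 h1
  refine ⟨G, hG, ?_⟩
  intro i z hz
  have := (FractionalIdeal.mem_inv_iff hI0).mp (hG' i) z ((hI_mem z).mpr hz)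
  obtain ⟨c, hc⟩ := (FractionalIdeal.mem_one_iff C⁰).mp this
  exact ⟨c, hc⟩

end Inverse

section Main

variable {ι : Type*} [Fintype ι] (gen : ι → F) (D : Derivation R F F) (π : R)
  (B0 B1 : Subalgebra R F)

/-- A multiplier `g : F` with `g · D (B1) ⊆ B1` gives an `R`-derivation of `B1`. -/
def mkDer (g : F) (hg : ∀ b ∈ B1, g * D b ∈ B1) : Derivation R B1 B1 :=
  Derivation.mk'
    { toFun := fun b => ⟨g * D (b : F), hg _ b.2⟩
      map_add' := by
        intro a b
        apply Subtype.ext
        simp [mul_add]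
      map_smul' := by
        intro r b
        apply Subtype.ext
        simp only [Subalgebra.coe_smul, RingHom.id_apply]
        rw [Derivation.map_smul, Algebra.smul_def, Algebra.smul_def]
        ring }
    (by
      intro a b
      apply Subtype.ext
      simp only [LinearMap.coe_mk, AddHom.coe_mk, Subalgebra.coe_mul, Subalgebra.coe_add,
        smul_eq_mul, Derivation.leibniz]
      ring)

theorem mkDer_apply (g : F) (hg : ∀ b ∈ B1, g * D b ∈ B1) (b : B1) :
    ((mkDer D B1 g hg b : B1) : F) = g * D (b : F) := rfl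

/-- **(S)** `π ^ n ∈ derIdeal R B1`. -/
theorem pow_mem_derIdeal
    (hgen : Algebra.adjoin R (Set.range gen) = B0) (h01 : B0 ≤ B1)
    (hB0C : ∀ b ∈ B0, ∃ c : C, algebraMap C F c = b)
    (hCB0 : ∀ c : C, ∃ n : ℕ, algebraMap R F π ^ n * algebraMap C F c ∈ B0)
    (hloc : ∀ b ∈ B1, ∃ a ∈ B0, ∃ d ∈ B0, d⁻¹ ∈ B1 ∧ b = a / d)
    (hD : ∃ b ∈ B0, D b ≠ 0) :
    ∃ N : ℕ, algebraMap R B1 π ^ N ∈ derIdeal R B1 := by
  classical
  set p : F := algebraMap R F π with hp
  have hadj : ∀ b ∈ Algebra.adjoin R (Set.range gen), ∃ c : C, algebraMap C F c = b := by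
    intro b hb
    exact hB0C b (hgen ▸ hb)
  have hne : ∃ z ∈ JJ gen D C, z ≠ 0 := by
    obtain ⟨b, hb, hb0⟩ := hD
    exact ⟨D b, D_mem_JJ gen D hadj (hgen ▸ hb), hb0⟩
  obtain ⟨G, hG1, hGJ⟩ := exists_dual (C := C) gen D hne
  -- uniform exponent
  have hex : ∀ i k : ι, ∃ n : ℕ, p ^ n * (G i * D (gen k)) ∈ B0 := by
    intro i k
    obtain ⟨c, hc⟩ := hGJ i (D (gen k)) (Submodule.subset_span ⟨k, rfl⟩)
    obtain ⟨n, hn⟩ := hCB0 c
    exact ⟨n, by rw [← hc]; exact hn⟩
  choose nn hnn using hex
  set n : ℕ := ∑ i, ∑ k, nn i k with hn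
  have hpB0 : ∀ m : ℕ, p ^ m ∈ B0 := by
    intro m
    have : p ^ m = algebraMap R F (π ^ m) := by rw [map_pow]
    rw [this]
    exact B0.algebraMap_mem _
  have hle : ∀ i k : ι, nn i k ≤ n := by
    intro i k
    calc nn i k ≤ ∑ k', nn i k' := Finset.single_le_sum (f := fun k' => nn i k')
            (fun _ _ => Nat.zero_le _) (Finset.mem_univ k)
      _ ≤ n := Finset.single_le_sum (f := fun i' => ∑ k', nn i' k')
            (fun _ _ => Nat.zero_le _) (Finset.mem_univ i)
  have hgenk : ∀ i k : ι, p ^ n * G i * D (gen k) ∈ B0 := by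
    intro i k
    have : p ^ n * G i * D (gen k) = p ^ (n - nn i k) * (p ^ nn i k * (G i * D (gen k))) := by
      rw [← mul_assoc, ← mul_assoc, ← pow_add, Nat.sub_add_cancel (hle i k)]
    rw [this]
    exact B0.mul_mem (hpB0 _) (hnn i k)
  -- `p^n G_i D` preserves `B0`
  have hB0 : ∀ i : ι, ∀ b ∈ B0, p ^ n * G i * D b ∈ B0 := by
    intro i b hb
    rw [← hgen] at hb
    induction hb using Algebra.adjoin_induction with
    | mem x hx =>
      obtain ⟨k, rfl⟩ := hx
      exact hgenk i k
    | algebraMap r =>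
      rw [Derivation.map_algebraMap, mul_zero]
      exact B0.zero_mem
    | add x y _ _ hx hy =>
      rw [map_add, mul_add]
      exact B0.add_mem hx hy
    | mul x y hx' hy' hx hy =>
      rw [Derivation.leibniz]
      have : p ^ n * G i * (x • D y + y • D x)
          = x * (p ^ n * G i * D y) + y * (p ^ n * G i * D x) := by
        simp only [smul_eq_mul]; ring
      rw [this]
      exact B0.add_mem (B0.mul_mem (hgen ▸ hx') hy) (B0.mul_mem (hgen ▸ hy') hx)
  -- and `B1`
  have hB1 : ∀ i : ι, ∀ b ∈ B1, p ^ n * G i * D b ∈ B1 := by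
    intro i b hb
    obtain ⟨a, ha, d, hd, hdinv, rfl⟩ := hloc b hb
    rw [Derivation.leibniz_div]
    have : p ^ n * G i * (d⁻¹ ^ 2 • (d • D a - a • D d))
        = d⁻¹ ^ 2 * (d * (p ^ n * G i * D a) - a * (p ^ n * G i * D d)) := by
      simp only [smul_eq_mul]; ring
    rw [this]
    exact B1.mul_mem (B1.pow_mem hdinv 2)
      (B1.sub_mem (B1.mul_mem (h01 hd) (h01 (hB0 i a ha)))
        (B1.mul_mem (h01 ha) (h01 (hB0 i d hd))))
  refine ⟨n, ?_⟩
  have hgen1 : ∀ i : ι, gen i ∈ B1 := fun i =>
    h01 (hgen ▸ Algebra.subset_adjoin ⟨i, rfl⟩)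
  have hsum : algebraMap R B1 π ^ n
      = ∑ i, mkDer D B1 (p ^ n * G i) (hB1 i) ⟨gen i, hgen1 i⟩ := by
    apply Subtype.ext
    rw [Subalgebra.coe_pow, AddSubmonoidClass.coe_finset_sum]
    simp only [mkDer_apply]
    have h1 : ((algebraMap R B1 π : B1) : F) = p := rfl
    rw [h1]
    calc p ^ n = p ^ n * ∑ i, G i * D (gen i) := by rw [hG1, mul_one]
      _ = ∑ i, p ^ n * G i * D (gen i) := by
          rw [Finset.mul_sum]
          apply Finset.sum_congr rfl
          intro i _; ring
  rw [hsum]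
  apply Ideal.sum_mem
  intro i _
  exact Ideal.subset_span ⟨_, _, rfl⟩

end Main

end Fermat.Agent.ORD.NODE.Smooth0
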