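/-
Programme ORD (S33), chapter NODE (lead): **(S) for N34's charts.**

`R` a domain with fraction field `K` (char 0) and "uniformiser" `π` (`dvrR`), `F / K` a function
field with transcendental generator `t` (`X0.FF.IsGen K t`), `B ⊆ F` a chart in the sense of
`NodalCore13.NodalTwoChartModel`: `t ∈ B`, `B` integrally closed in `F`, integral over `R[t]` and a
finite `R[t]`-module (`fin0`).  Then for EVERY prime `𝔪` of `B`:

  `∃ N, π ^ N ∈ Term0.derIdeal R (locSub B 𝔪)`   (`exists_pow_mem_derIdeal`),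

by `Smooth0.pow_mem_derIdeal` with `C := X0.FF.intRing K t` (Dedekind, fraction field `F`) and
`D := d/dt` (`Deriv0`).
-/
import Mathlib
import Fermat.Agent.ORD.NODE.Smooth0
import Fermat.Agent.ORD.NODE.Deriv0
import Fermat.Agent.ES.N34.NodalSmooth13
import Fermat.Agent.ES.N34.SatIntegral18
import Fermat.Agent.X0.FFSum

set_option autoImplicit false

namespace Fermat.Agent.ORD.NODE.SmoothChart0

open Polynomial Fermat.Agent.X0 Fermat.Agent.ES.N34.NodalSmooth13 Fermat.Agent.ES.N34.SatIntegral18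
  Fermat.Agent.ORD.NODE.Term0

variable {R K F : Type*} [CommRing R] [IsDomain R] [Field K] [Field F] [Algebra R K]
  [IsFractionRing R K] [Algebra K F] [Algebra R F] [IsScalarTower R K F]

/-- integrality over `R[t]` implies integrality over `K[t]`. -/
theorem isIntegral_polyRing_of_adjoin (t : F) {x : F}
    (hx : IsIntegral (Algebra.adjoin R {t}) x) : IsIntegral (FF.polyRing K t) x := by
  rw [isIntegral_adjoin_iff (R := R) t] at hx
  show IsIntegral (Algebra.adjoin K {t}) x
  rw [isIntegral_adjoin_iff (R := K) t]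
  have hcomp : ((Polynomial.aeval (R := K) t).toRingHom).comp
      (Polynomial.mapRingHom (algebraMap R K)) = (Polynomial.aeval (R := R) t).toRingHom := by
    ext P
    · simp [← IsScalarTower.algebraMap_apply R K F]
    · simp
  rw [← hcomp] at hx
  exact RingHom.IsIntegralElem.of_comp hx

/-- integrality over `R[t]` implies integrality over a chart containing `t`. -/
theorem isIntegral_of_adjoin (t : F) (B : Subalgebra R F) (t_mem : t ∈ B) {x : F}
    (hx : IsIntegral (Algebra.adjoin R {t}) x) : IsIntegral B x := by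
  have hle : Algebra.adjoin R {t} ≤ B := Algebra.adjoin_le (Set.singleton_subset_iff.mpr t_mem)
  obtain ⟨p, hp, hpx⟩ := hx
  refine ⟨p.map (Subalgebra.inclusion hle).toRingHom, hp.map _, ?_⟩
  rw [Polynomial.eval₂_map]
  exact hpx

variable [CharZero K]

/-- **(S) for a chart.** -/
theorem exists_pow_mem_derIdeal (π : R)
    (dvrR : ∀ r : R, r ≠ 0 → ∃ (k : ℕ) (v : Rˣ), r = π ^ k * v)
    (t : F) (ht : FF.IsGen K t) (B : Subalgebra R F) (t_mem : t ∈ B)
    (intcl : ∀ x : F, IsIntegral B x → x ∈ B)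
    (int0 : ∀ x ∈ B, IsIntegral (Algebra.adjoin R {t}) x)
    (fin0 : ∃ (r : ℕ) (e : Fin r → F), (∀ i, e i ∈ B) ∧
      ∀ x ∈ B, ∃ P : Fin r → R[X], x = ∑ i, aeval t (P i) * e i)
    (𝔪 : Ideal B) [h𝔪 : 𝔪.IsPrime] :
    ∃ N : ℕ, algebraMap R ↥(locSub B 𝔪) π ^ N ∈ derIdeal R ↥(locSub B 𝔪) := by
  classical
  obtain ⟨r, e, heB, hfin⟩ := fin0
  haveI : IsDedekindDomain (FF.intRing K t) := FF.isDedekindDomain_intRing ht
  haveI : IsFractionRing (FF.intRing K t) F := FF.isFractionRing_intRing ht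
  obtain ⟨dd, hdd⟩ := Deriv0.exists_derivation_restrict (R := R) ht
  let gen : Option (Fin r) → F := fun o => o.elim t e
  have hgenB : ∀ o, gen o ∈ B := by
    intro o
    cases o with
    | none => exact t_mem
    | some i => exact heB i
  have hgen : Algebra.adjoin R (Set.range gen) = B := by
    apply le_antisymm
    · apply Algebra.adjoin_le
      rintro _ ⟨o, rfl⟩
      exact hgenB o
    · intro x hx
      obtain ⟨P, rfl⟩ := hfin x hx
      refine Subalgebra.sum_mem _ ?_
      intro i _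
      refine Subalgebra.mul_mem _ ?_ (Algebra.subset_adjoin ⟨some i, rfl⟩)
      have h1 : aeval t (P i) ∈ Algebra.adjoin R {t} := Polynomial.aeval_mem_adjoin_singleton R t
      have h2 : Algebra.adjoin R {t} ≤ Algebra.adjoin R (Set.range gen) := by
        apply Algebra.adjoin_mono
        rw [Set.singleton_subset_iff]
        exact ⟨none, rfl⟩
      exact h2 h1
  refine Smooth0.pow_mem_derIdeal (C := FF.intRing K t) gen dd π B (locSub B 𝔪) hgen
    (le_locSub B 𝔪) ?_ ?_ ?_ ⟨t, t_mem, by rw [hdd]; exact one_ne_zero⟩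
  · -- `B ⊆ C`
    intro b hb
    exact ⟨⟨b, isIntegral_polyRing_of_adjoin t (int0 b hb)⟩, rfl⟩
  · -- `C ⊆ B[1/π]`
    intro c
    have hc : IsIntegral (Algebra.adjoin K {t}) (c : F) := c.2
    obtain ⟨ρ, hρ0, hρ⟩ := exists_mul_isIntegral_adjoin (R := R) t hc
    obtain ⟨k, v, hkv⟩ := dvrR ρ hρ0
    refine ⟨k, ?_⟩
    apply intcl
    have h1 : IsIntegral B (algebraMap R F ρ * (c : F)) := isIntegral_of_adjoin t B t_mem hρ
    have h2 : IsIntegral B (algebraMap R F (↑v⁻¹ : R)) :=
      isIntegral_algebraMap (R := B) (x := (⟨_, B.algebraMap_mem (↑v⁻¹ : R)⟩ : B))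
    have h3 : algebraMap R F π ^ k * (c : F)
        = algebraMap R F (↑v⁻¹ : R) * (algebraMap R F ρ * (c : F)) := by
      have h4 : algebraMap R F (↑v⁻¹ : R) * algebraMap R F ρ = algebraMap R F π ^ k := by
        rw [← map_mul, hkv, ← map_pow]
        congr 1
        rw [mul_comm, mul_assoc, Units.mul_inv, mul_one]
      rw [← mul_assoc, h4]
    show IsIntegral B (algebraMap R F π ^ k * (c : F))
    rw [h3]
    exact h2.mul h1
  · -- `locSub`
    intro b hb
    obtain ⟨a, d, hd, had⟩ := hb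
    have hd0 : (d : F) ≠ 0 := coe_ne_zero_of_notMem B 𝔪 hd
    refine ⟨a, a.2, d, d.2, inv_mem_locSub B 𝔪 hd, ?_⟩
    rw [← had]; field_simp

end Fermat.Agent.ORD.NODE.SmoothChart0
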