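/-
Programme ORD (S33), chapter NODE = O6c (helper4): **(S) at EVERY level of helper8's tower
`BadFamily8.Lvl (K0 MI)`, on both charts** — the hypothesis `hS` of helper2's
`GoodFamily2.exists_nodeSys_of_cofinal'`:

  `∀ i (𝔪 : Ideal (B_c A p (htK MI i))) [𝔪.IsPrime], ∃ N,`
  `   algebraMap (AK A i.K) (locSub (B_c …) 𝔪) (piK hA MI i) ^ N ∈ derIdeal (AK A i.K) (locSub (B_c …) 𝔪)`

(`hS_zero` for `B0`, `hS_one` for `B1`), from lead's `SmoothChart0.exists_pow_mem_derIdeal`.

* `isGen_of_fin` : `X0.FF.IsGen K t` from transcendence and the finiteness fields of ONE chart;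
* `exists_pow_mem_derIdeal_chart` : (S) for `chart R s` (`ChartGeneric22.chart`) with `IsGen K s`;
* `transcendental_tN`, `isGen_tN` : the chart coordinate `tN p ht` of level `K` is a generator of
  `FK (M' p) K / K` (any level, no largeness).
-/
import Mathlib
import Fermat.Agent.ORD.IFACEN.BadInst8
import Fermat.Agent.ORD.NODE.SmoothChart0
import Fermat.Agent.RED.BASE.TqTranscendental19

set_option autoImplicit false
set_option linter.unusedSectionVars false
set_option linter.unusedVariables false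
set_option linter.style.longLine false
set_option linter.style.haveILetI false
set_option synthInstance.maxHeartbeats 400000

open HahnSeries ModularCurve Polynomial AlgebraicCurve IntermediateField

noncomputable section

namespace Fermat.Agent.ORD.NODE.SmoothInst4

open Fermat.Agent.X0 Fermat.Agent.RED.Interface4 Fermat.Agent.RED.NumInst4
  Fermat.Agent.RED.BASE.EtaQuot12 Fermat.Agent.RED.BASE.Interface12
  Fermat.Agent.RED.PUR.ChartGeneric22 Fermat.Agent.RED.DESC.NumberFieldDVR27
  Fermat.Agent.ES.N34.ModelDefs9 Fermat.Agent.ES.N34.ModelInput13 Fermat.Agent.ES.N34.NumData13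
  Fermat.Agent.ES.N34.NodalCore13 Fermat.Agent.ES.N34.NodalSmooth13
  Fermat.Agent.ORD.IFACEN.BadFamily8 Fermat.Agent.ORD.IFACEN.BadInst8
  Fermat.Agent.ORD.NODE.Term0

section Gen

variable {R K F : Type*} [CommRing R] [IsDomain R] [Field K] [Field F] [Algebra R K]
  [IsFractionRing R K] [Algebra K F] [Algebra R F] [IsScalarTower R K F]

/-- **`F` is finite over `K(t)`** from the finiteness fields of a chart with fraction field `F`. -/
theorem isGen_of_fin (t : F) (htr : Transcendental K t) (B : Subalgebra R F)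
    (int0 : ∀ x ∈ B, IsIntegral (Algebra.adjoin R {t}) x)
    (fin0 : ∃ (r : ℕ) (e : Fin r → F), (∀ i, e i ∈ B) ∧
      ∀ x ∈ B, ∃ P : Fin r → R[X], x = ∑ i, aeval t (P i) * e i)
    (frac0 : ∀ x : F, ∃ a ∈ B, ∃ b ∈ B, b ≠ 0 ∧ x * b = a) : FF.IsGen K t := by
  classical
  obtain ⟨r, e, heB, hfin⟩ := fin0
  -- every `e i` is integral over `K(t)`
  have hint : ∀ x ∈ Set.range e, IsIntegral K⟮t⟯ x := by
    rintro _ ⟨i, rfl⟩
    have h1 : IsIntegral (FF.polyRing K t) (e i) :=
      SmoothChart0.isIntegral_polyRing_of_adjoin (R := R) (K := K) t (int0 _ (heB i))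
    have hle : (FF.polyRing K t : Subalgebra K F) ≤ K⟮t⟯.toSubalgebra := by
      show Algebra.adjoin K {t} ≤ K⟮t⟯.toSubalgebra
      exact IntermediateField.algebra_adjoin_le_adjoin K {t}
    obtain ⟨p, hp, hpx⟩ := h1
    refine ⟨p.map (Subalgebra.inclusion hle).toRingHom, hp.map _, ?_⟩
    rw [Polynomial.eval₂_map]
    exact hpx
  haveI : Finite (Set.range e) := Set.finite_range e
  have hfd : FiniteDimensional K⟮t⟯ (IntermediateField.adjoin K⟮t⟯ (Set.range e)) :=
    IntermediateField.finiteDimensional_adjoin hint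
  -- the chart lies in the adjunction
  have hB : ∀ x ∈ B, x ∈ IntermediateField.adjoin K⟮t⟯ (Set.range e) := by
    intro x hx
    obtain ⟨P, rfl⟩ := hfin x hx
    refine sum_mem fun i _ => mul_mem ?_ (IntermediateField.subset_adjoin _ _ ⟨i, rfl⟩)
    have hmem : aeval t (P i) ∈ K⟮t⟯ := by
      have h1 : aeval t (P i) = aeval t ((P i).map (algebraMap R K)) := by
        rw [Polynomial.aeval_map_algebraMap]
      rw [h1]
      exact IntermediateField.algebra_adjoin_le_adjoin K {t}
        (Polynomial.aeval_mem_adjoin_singleton K t)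
    have h2 : aeval t (P i) = algebraMap K⟮t⟯ F ⟨aeval t (P i), hmem⟩ := rfl
    rw [h2]
    exact IntermediateField.algebraMap_mem _ _
  have htop : IntermediateField.adjoin K⟮t⟯ (Set.range e) = ⊤ := by
    rw [eq_top_iff]
    intro x _
    obtain ⟨a, ha, b, hb, hb0, hab⟩ := frac0 x
    have : x = a / b := by
      field_simp
      exact hab
    rw [this]
    exact div_mem (hB a ha) (hB b hb)
  rw [htop] at hfd
  have : FiniteDimensional K⟮t⟯ F :=
    LinearEquiv.finiteDimensional (IntermediateField.topEquiv (F := K⟮t⟯) (E := F)).toLinearEquiv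
  exact ⟨htr, this⟩

end Gen

section Chart

variable {R K F : Type*} [CommRing R] [IsDomain R] [Field K] [Field F] [Algebra R K] [Algebra K F]
  [Algebra R F] [IsScalarTower R K F] [IsFractionRing R K] [IsNoetherianRing R]
  [IsIntegrallyClosed R] [CharZero K]

/-- **(S) for a chart `chart R s`** with `s` a generator of `F / K`. -/
theorem exists_pow_mem_derIdeal_chart (π : R)
    (dvrR : ∀ r : R, r ≠ 0 → ∃ (k : ℕ) (v : Rˣ), r = π ^ k * v)
    (s : F) (hs : FF.IsGen K s) (𝔪 : Ideal ↥(chart R s)) (h𝔪 : 𝔪.IsPrime) :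
    ∃ N : ℕ, algebraMap R ↥(locSub (chart R s) 𝔪) π ^ N ∈
      derIdeal R ↥(locSub (chart R s) 𝔪) := by
  haveI : FiniteDimensional K⟮s⟯ F := hs.finiteDimensional
  have hmem : s ∈ K⟮s⟯ := IntermediateField.mem_adjoin_simple_self K s
  obtain ⟨-, -, hfin⟩ := chart_facts (R := R) K⟮s⟯ hmem le_rfl hs.1
  exact SmoothChart0.exists_pow_mem_derIdeal (K := K) π dvrR s hs (chart R s)
    (self_mem_chart s) (chart_intcl s) (fun x hx => hx) hfin 𝔪

end Chart

/-- shortcut instance (typeclass search takes seconds to find it). -/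
local instance (priority := high) algAKFK' (A : ValuationSubring Qbar) (M : ℕ)
    (K : IntermediateField ℚ Qbar) : Algebra ↥(AK A K) ↥(FK M K) := inferInstance

variable (p M' : ℕ) [Fact p.Prime] [NeZero M'] (A : ValuationSubring Qbar)
  (hA : A.LiesOverPrime p) (MI : ModelInput 4 8 p M' A)

/-- the chart coordinate of level `K` is transcendental over `K`. -/
theorem transcendental_tN (K : IntermediateField ℚ Qbar) (ht : tq (↥K) 4 8 ∈ FK M' K) :
    Transcendental ↥K (tN p ht) := by
  intro halg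
  have h1 : IsAlgebraic ↥K ((tN p ht : ↥(FK (M' * p) K)) : LaurentSeries ↥K) :=
    halg.algHom (FK (M' * p) K).val
  rw [coe_tN] at h1
  exact Fermat.Agent.RED.BASE.TqTranscendental19.transcendental_tq ↥K 4 8 h1

include hA in
/-- the chart coordinate of level `i` generates `FK (M' p) i.K` over `i.K`. -/
theorem isGen_tN (i : Lvl (K0 MI)) : FF.IsGen ↥i.K (tN p (htK MI i)) := by
  haveI := isScalarTower_OE (AK A i.K) (FK (M' * p) i.K)
  have D := nodalK p M' A hA MI i
  exact isGen_of_fin (R := ↥(AK A i.K)) (tN p (htK MI i)) (transcendental_tN p M' i.K (htK MI i))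
    (B0 A p (htK MI i)) D.model.int0 D.model.fin0 D.frac0

/-- **(S) on the chart `B0` at every level.** -/
theorem hS_zero (i : Lvl (K0 MI)) (𝔪 : Ideal ↥(B0 A p (htK MI i))) [𝔪.IsPrime] :
    ∃ N : ℕ, algebraMap ↥(AK A i.K) ↥(locSub (B0 A p (htK MI i)) 𝔪) (piK hA MI i) ^ N ∈
      derIdeal ↥(AK A i.K) ↥(locSub (B0 A p (htK MI i)) 𝔪) := by
  haveI := isScalarTower_OE (AK A i.K) (FK (M' * p) i.K)
  have D := nodalK p M' A hA MI i
  haveI : IsFractionRing ↥(AK A i.K) ↥i.K := D.fracR
  exact SmoothChart0.exists_pow_mem_derIdeal (K := ↥i.K) (piK hA MI i) D.dvrR (tN p (htK MI i))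
    (isGen_tN p M' A hA MI i) (B0 A p (htK MI i)) D.model.t_mem D.model.intcl0 D.model.int0
    D.model.fin0 𝔪

include hA in
/-- **(S) on the chart `B1` at every level.** -/
theorem hS_one (i : Lvl (K0 MI)) (𝔪 : Ideal ↥(B1 A p (htK MI i))) [𝔪.IsPrime] :
    ∃ N : ℕ, algebraMap ↥(AK A i.K) ↥(locSub (B1 A p (htK MI i)) 𝔪) (piK hA MI i) ^ N ∈
      derIdeal ↥(AK A i.K) ↥(locSub (B1 A p (htK MI i)) 𝔪) := by
  haveI := isScalarTower_OE (AK A i.K) (FK (M' * p) i.K)
  have D := nodalK p M' A hA MI i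
  haveI : IsFractionRing ↥(AK A i.K) ↥i.K := D.fracR
  haveI : IsDiscreteValuationRing ↥(AK A i.K) :=
    isDiscreteValuationRing_AK A i.K (Fact.out : p.Prime).ne_zero hA
  have hgen := isGen_tN p M' A hA MI i
  have htr' : Transcendental ↥i.K (tN p (htK MI i))⁻¹ :=
    fun h => hgen.1 (IsAlgebraic.inv_iff.1 h)
  have hgen' : FF.IsGen ↥i.K (tN p (htK MI i))⁻¹ := hgen.of_transcendental htr'
  exact exists_pow_mem_derIdeal_chart (K := ↥i.K) (piK hA MI i) D.dvrR (tN p (htK MI i))⁻¹ hgen' 𝔪
    ‹𝔪.IsPrime›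

end Fermat.Agent.ORD.NODE.SmoothInst4
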