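/-
Programme ORD (S33), chapter NODE (helper7): **commutative algebra for `HorTube7`** (Mathlib only).

* `IntOver T x` : `x` is a root of a monic polynomial with coefficients in the subset `T` of a field
  (integrality without `Algebra` instances); `intOver_of_isIntegral`, `isIntegral_of_intOver`,
  `intOver_subring_iff`, `IntOver.map`;
* `fracSub T S`, `fracSub_closed` : the localisation (inside the field) of an integrally closed
  subring at a multiplicative subset is integrally closed;
* `intOver_of_forall_valuationSubring` : an element lying in every valuation subring containing the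
  image of `ψ` is integral over it; `dvd_of_val_le`;
* **`exists_integral_fraction`** : an element `a` of a valuation ring `V` dominating a discrete
  valuation ring `R`, algebraic over `R`, is `c / s` with `c, s` integral over `R` and `s` a unit of
  `V` (the partial sums `Σ_{i ≥ m} e_i a^{i-m}` of a primitive equation lie in every valuation ring);
* **`exists_valuationSubring_of_le`** : going-down (Mathlib, stacks 00H8) + Chevalley: for primes
  `𝔭 ≤ 𝔪` of an integrally closed domain `R ⊂ F` and a prime `M'` of the integral closure of `R` in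
  `F` over `𝔪`, a valuation subring of `F` containing the integral closure, with centre `⊆ M'` on it
  and centre `𝔭` on `R`.
-/
import Mathlib

set_option autoImplicit false
set_option linter.style.haveILetI false
set_option linter.unusedSectionVars false
set_option linter.style.longLine false

namespace Fermat.Agent.ORD.NODE.HorAlg7

open Polynomial
/-! ### integrality over a subset of a field, without instances -/

section IntOver

variable {F : Type*} [Field F]

/-- `x` is a root of a monic polynomial with coefficients in `T`. -/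
def IntOver (T : Set F) (x : F) : Prop :=
  ∃ p : F[X], p.Monic ∧ (∀ i, p.coeff i ∈ T) ∧ p.eval x = 0

theorem IntOver.mono {T T' : Set F} (h : T ⊆ T') {x : F} (hx : IntOver T x) : IntOver T' x := by
  obtain ⟨p, hp, hc, he⟩ := hx
  exact ⟨p, hp, fun i => h (hc i), he⟩

/-- from `IsIntegral` to `IntOver`. -/
theorem intOver_of_isIntegral {R : Type*} [CommRing R] [Algebra R F] {x : F}
    (hx : IsIntegral R x) : IntOver (Set.range (algebraMap R F)) x := by
  obtain ⟨p, hp, he⟩ := hx
  refine ⟨p.map (algebraMap R F), hp.map _, fun i => ⟨p.coeff i, by rw [coeff_map]⟩, ?_⟩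
  rw [eval_map]; exact he

/-- from `IntOver` to `IsIntegral`. -/
theorem isIntegral_of_intOver {R : Type*} [CommRing R] [Algebra R F] {x : F}
    (hx : IntOver (Set.range (algebraMap R F)) x) : IsIntegral R x := by
  obtain ⟨p, hp, hc, he⟩ := hx
  have hl : p ∈ lifts (algebraMap R F) := (lifts_iff_coeff_lifts p).mpr hc
  obtain ⟨q, hq, -, hqm⟩ := lifts_and_natDegree_eq_and_monic hl hp
  refine ⟨q, hqm, ?_⟩
  rw [← eval_map, hq]; exact he

theorem intOver_subring_iff (T : Subring F) {x : F} : IntOver (T : Set F) x ↔ IsIntegral T x := by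
  have : Set.range (algebraMap T F) = (T : Set F) := by
    ext y
    constructor
    · rintro ⟨z, rfl⟩; exact z.2
    · intro hy; exact ⟨⟨y, hy⟩, rfl⟩
  rw [← this]
  exact ⟨isIntegral_of_intOver, intOver_of_isIntegral⟩

/-- transport along a field homomorphism. -/
theorem IntOver.map {F' : Type*} [Field F'] (g : F →+* F') {T : Set F} {x : F}
    (hx : IntOver T x) : IntOver (g '' T) (g x) := by
  obtain ⟨p, hp, hc, he⟩ := hx
  refine ⟨p.map g, hp.map _, fun i => ⟨p.coeff i, hc i, by rw [coeff_map]⟩, ?_⟩
  rw [eval_map, eval₂_at_apply, he, map_zero]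

end IntOver

/-! ### the localisation of a subring of a field at a multiplicative subset, inside the field -/

section Frac

variable {F : Type*} [Field F] (T : Subring F) (S : Submonoid F) (hST : ∀ s ∈ S, s ∈ T)

/-- the localisation of `T` at `S` inside `F`. -/
def fracSub : Subring F where
  carrier := {x | ∃ s ∈ S, s * x ∈ T}
  mul_mem' := by
    rintro x y ⟨s, hs, hx⟩ ⟨s', hs', hy⟩
    refine ⟨s * s', S.mul_mem hs hs', ?_⟩
    rw [show s * s' * (x * y) = (s * x) * (s' * y) by ring]
    exact T.mul_mem hx hy
  one_mem' := ⟨1, S.one_mem, by rw [mul_one]; exact T.one_mem⟩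
  add_mem' := by
    rintro x y ⟨s, hs, hx⟩ ⟨s', hs', hy⟩
    refine ⟨s * s', S.mul_mem hs hs', ?_⟩
    rw [show s * s' * (x + y) = s' * (s * x) + s * (s' * y) by ring]
    exact T.add_mem (T.mul_mem (hST s' hs') hx) (T.mul_mem (hST s hs) hy)
  zero_mem' := ⟨1, S.one_mem, by rw [mul_zero]; exact T.zero_mem⟩
  neg_mem' := by
    rintro x ⟨s, hs, hx⟩
    exact ⟨s, hs, by rw [mul_neg]; exact T.neg_mem hx⟩

theorem mem_fracSub_iff {x : F} : x ∈ fracSub T S hST ↔ ∃ s ∈ S, s * x ∈ T := Iff.rfl

theorem le_fracSub : T ≤ fracSub T S hST := fun x hx =>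
  ⟨1, S.one_mem, by rw [one_mul]; exact hx⟩

/-- a common denominator for finitely many elements. -/
theorem exists_common_den {ι : Type*} (I : Finset ι) (c : ι → F)
    (hc : ∀ i ∈ I, c i ∈ fracSub T S hST) : ∃ s ∈ S, ∀ i ∈ I, s * c i ∈ T := by
  classical
  induction I using Finset.induction_on with
  | empty => exact ⟨1, S.one_mem, fun i hi => absurd hi (Finset.notMem_empty i)⟩
  | insert a I ha ih =>
    obtain ⟨s, hs, h⟩ := ih fun i hi => hc i (Finset.mem_insert_of_mem hi)
    obtain ⟨s', hs', h'⟩ := hc a (Finset.mem_insert_self a I)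
    refine ⟨s * s', S.mul_mem hs hs', fun i hi => ?_⟩
    rcases Finset.mem_insert.mp hi with rfl | hi
    · rw [show s * s' * c i = s * (s' * c i) by ring]
      exact T.mul_mem (hST s hs) h'
    · rw [show s * s' * c i = s' * (s * c i) by ring]
      exact T.mul_mem (hST s' hs') (h i hi)

/-- **the localisation of an integrally closed subring is integrally closed.** -/
theorem fracSub_closed (hT : ∀ x : F, IntOver (T : Set F) x → x ∈ T) {x : F}
    (hx : IntOver (fracSub T S hST : Set F) x) : x ∈ fracSub T S hST := by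
  classical
  obtain ⟨p, hp, hc, he⟩ := hx
  obtain ⟨s, hs, hsc⟩ := exists_common_den T S hST (Finset.range (p.natDegree + 1)) p.coeff
    (fun i _ => hc i)
  refine ⟨s, hs, hT _ ⟨scaleRoots p s, (monic_scaleRoots_iff s).mpr hp, fun i => ?_, ?_⟩⟩
  · rw [coeff_scaleRoots]
    rcases lt_trichotomy i p.natDegree with hlt | heq | hgt
    · have h1 : p.natDegree - i = (p.natDegree - i - 1) + 1 := by omega
      have h2 : p.coeff i * s ^ (p.natDegree - i) = (s * p.coeff i) * s ^ (p.natDegree - i - 1) := by
        rw [h1, pow_succ]; simp only [Nat.add_sub_cancel]; ring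
      rw [h2]
      exact T.mul_mem (hsc i (Finset.mem_range.mpr (by omega))) (T.pow_mem (hST s hs) _)
    · rw [heq, Nat.sub_self, pow_zero, mul_one, hp.coeff_natDegree]
      exact T.one_mem
    · rw [coeff_eq_zero_of_natDegree_lt hgt, zero_mul]
      exact T.zero_mem
  · have := scaleRoots_eval₂_eq_zero (RingHom.id F) (p := p) (r := x) (s := s) (by simpa using he)
    simpa using this

end Frac






section LocIntegral

variable {R L : Type*} [CommRing R] [Field L] (ψ : R →+* L)

/-- an element lying in every valuation subring containing the image of `ψ` is integral over it. -/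
theorem intOver_of_forall_valuationSubring (x : L)
    (h : ∀ W : ValuationSubring L, (∀ r, ψ r ∈ W) → x ∈ W) : IntOver (Set.range ψ) x := by
  have h1 : x ∈ (⨅ V : {V : ValuationSubring L // Set.range ψ ⊆ V.toSubring}, V.1.toSubring) := by
    rw [Subring.mem_iInf]
    rintro ⟨W, hW⟩
    exact h W fun r => hW ⟨r, rfl⟩
  rw [iInf_valuationSubring_superset] at h1
  have h2 : IsIntegral (Subring.closure (Set.range ψ)) x := h1
  have h3 := intOver_of_isIntegral h2
  have h4 : Set.range (algebraMap (Subring.closure (Set.range ψ)) L) = Set.range ψ := by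
    have : Subring.closure (Set.range ψ) = ψ.range := by
      rw [← RingHom.coe_range, Subring.closure_eq]
    ext y
    constructor
    · rintro ⟨z, rfl⟩
      have hz : (z : L) ∈ ψ.range := this ▸ z.2
      obtain ⟨r, hr⟩ := hz
      exact ⟨r, hr⟩
    · rintro ⟨r, rfl⟩
      exact ⟨⟨ψ r, Subring.subset_closure ⟨r, rfl⟩⟩, rfl⟩
  rwa [h4] at h3

variable (π : R) (dvrR : ∀ r : R, r ≠ 0 → ∃ (n : ℕ) (v : Rˣ), r = π ^ n * v)
  (V : ValuationSubring L) (hV : ∀ r, ψ r ∈ V) (hπ : V.valuation (ψ π) < 1)

include hV in
theorem val_unit_eq_one (v : Rˣ) : V.valuation (ψ v) = 1 := by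
  have h1 : V.valuation (ψ v) ≤ 1 := (V.valuation_le_one_iff _).mpr (hV v)
  have h2 : V.valuation (ψ (v⁻¹ : Rˣ)) ≤ 1 := (V.valuation_le_one_iff _).mpr (hV _)
  have h3 : V.valuation (ψ v) * V.valuation (ψ (v⁻¹ : Rˣ)) = 1 := by
    rw [← map_mul, ← map_mul, Units.mul_inv, map_one, map_one]
  refine le_antisymm h1 ?_
  calc (1 : _) = V.valuation (ψ v) * V.valuation (ψ (v⁻¹ : Rˣ)) := h3.symm
    _ ≤ V.valuation (ψ v) * 1 := mul_le_mul' le_rfl h2
    _ = V.valuation (ψ v) := mul_one _

include dvrR hV hπ in
/-- divisibility in `R` is detected by the valuation of `V`. -/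
theorem dvd_of_val_le {r r' : R} (hr' : ψ r' ≠ 0)
    (h : V.valuation (ψ r) ≤ V.valuation (ψ r')) : ∃ q, r = q * r' := by
  by_cases hr : r = 0
  · exact ⟨0, by rw [hr, zero_mul]⟩
  have hr'0 : r' ≠ 0 := by rintro rfl; exact hr' (map_zero ψ)
  obtain ⟨n, v, rfl⟩ := dvrR r hr
  obtain ⟨n', v', rfl⟩ := dvrR r' hr'0
  by_cases hnn : n' ≤ n
  · refine ⟨π ^ (n - n') * v * (v'⁻¹ : Rˣ), ?_⟩
    have : π ^ n = π ^ (n - n') * π ^ n' := by rw [← pow_add, Nat.sub_add_cancel hnn]
    rw [this]
    have hu : ((v'⁻¹ : Rˣ) : R) * (v' : R) = 1 := Units.inv_mul v'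
    calc π ^ (n - n') * π ^ n' * ↑v = π ^ (n - n') * π ^ n' * ↑v * (((v'⁻¹ : Rˣ) : R) * (v' : R)) := by
          rw [hu, mul_one]
      _ = _ := by ring
  · exfalso
    push Not at hnn
    have hψπ : ψ π ≠ 0 := by
      intro h0
      apply hr'
      have hn' : n' ≠ 0 := by omega
      rw [map_mul, map_pow, h0, zero_pow hn', zero_mul]
    have hρ0 : 0 < V.valuation (ψ π) := by
      rw [zero_lt_iff]
      exact (Valuation.ne_zero_iff _).mpr hψπ
    rw [map_mul, map_pow, map_mul, map_pow, map_mul, map_pow, map_mul, map_pow,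
      val_unit_eq_one ψ V hV v, val_unit_eq_one ψ V hV v', mul_one, mul_one] at h
    exact absurd h (not_le.mpr (pow_lt_pow_right_of_lt_one₀ hρ0 hπ hnn))

theorem inv_pow_mul_pow {a : L} (ha : a ≠ 0) {i m : ℕ} (h : i ≤ m) :
    (a⁻¹) ^ m * a ^ i = (a⁻¹) ^ (m - i) := by
  obtain ⟨k, rfl⟩ := Nat.exists_eq_add_of_le h
  rw [Nat.add_sub_cancel_left, pow_add, mul_comm ((a⁻¹) ^ i), mul_assoc, ← mul_pow,
    inv_mul_cancel₀ ha, one_pow, mul_one]

include dvrR hV hπ in
/-- **an element of a valuation ring `V` dominating a discrete valuation ring `R`, algebraic over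
`R`, is a fraction `c / s` of elements integral over `R` with `s` a unit of `V`.** -/
theorem exists_integral_fraction (a : L) (ha : a ∈ V) (p : R[X]) (hp : p.map ψ ≠ 0)
    (hpa : eval₂ ψ a p = 0) :
    ∃ s c : L, IntOver (Set.range ψ) s ∧ IntOver (Set.range ψ) c ∧ V.valuation s = 1 ∧
      a * s = c := by
  classical
  set c : ℕ → L := fun i => ψ (p.coeff i) with hc
  have hsupp : (p.map ψ).support.Nonempty := support_nonempty.mpr hp
  obtain ⟨m, hm, hmax⟩ := Finset.exists_max_image (p.map ψ).support
    (fun i => toLex (V.valuation (c i), i)) hsupp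
  have hcm : c m ≠ 0 := by
    have := mem_support_iff.mp hm
    rwa [coeff_map] at this
  have hvm : 0 < V.valuation (c m) := by
    rw [zero_lt_iff]; exact (Valuation.ne_zero_iff _).mpr hcm
  have hcases : ∀ i, V.valuation (c i) < V.valuation (c m) ∨
      (V.valuation (c i) = V.valuation (c m) ∧ i ≤ m) := by
    intro i
    by_cases hi : i ∈ (p.map ψ).support
    · have := hmax i hi
      rw [Prod.Lex.le_iff] at this
      exact this
    · left
      have : c i = 0 := by
        have := notMem_support_iff.mp hi
        rwa [coeff_map] at this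
      rw [this, map_zero]; exact hvm
  have hle : ∀ i, V.valuation (c i) ≤ V.valuation (c m) := fun i => by
    rcases hcases i with h | h
    · exact h.le
    · exact h.1.le
  have hlt : ∀ i, m < i → V.valuation (c i) < V.valuation (c m) := fun i hi => by
    rcases hcases i with h | h
    · exact h
    · omega
  -- the normalised coefficients
  have hq : ∀ i, ∃ q : R, p.coeff i = q * p.coeff m := fun i =>
    dvd_of_val_le ψ π dvrR V hV hπ hcm (hle i)
  choose q hq using hq
  set e : ℕ → L := fun i => ψ (q i) with he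
  have hce : ∀ i, c i = e i * c m := fun i => by
    show ψ (p.coeff i) = ψ (q i) * ψ (p.coeff m)
    rw [← map_mul, ← hq i]
  have hem : e m = 1 := by
    have := hce m
    have h2 : (1 : L) * c m = e m * c m := by rw [one_mul]; exact this
    exact (mul_right_cancel₀ hcm h2).symm
  have hve : ∀ i, V.valuation (e i) * V.valuation (c m) = V.valuation (c i) := fun i => by
    rw [← map_mul, ← hce i]
  have hele : ∀ i, V.valuation (e i) ≤ 1 := fun i => by
    by_contra hcon
    push Not at hcon
    have := hle i
    rw [← hve i] at this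
    have h2 : V.valuation (c m) < V.valuation (e i) * V.valuation (c m) := by
      calc V.valuation (c m) = 1 * V.valuation (c m) := (one_mul _).symm
        _ < V.valuation (e i) * V.valuation (c m) := mul_lt_mul_of_pos_right hcon hvm
    exact absurd this (not_le.mpr h2)
  have helt : ∀ i, m < i → V.valuation (e i) < 1 := fun i hi => by
    by_contra hcon
    push Not at hcon
    have := hlt i hi
    rw [← hve i] at this
    have h2 : V.valuation (c m) ≤ V.valuation (e i) * V.valuation (c m) := by
      calc V.valuation (c m) = 1 * V.valuation (c m) := (one_mul _).symm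
        _ ≤ V.valuation (e i) * V.valuation (c m) := mul_le_mul' hcon le_rfl
    exact absurd this (not_lt.mpr h2)
  -- the relation
  set n := p.natDegree with hn
  have hmn : m ≤ n := by
    apply le_natDegree_of_ne_zero
    intro h0
    apply hcm
    show ψ (p.coeff m) = 0
    rw [h0, map_zero]
  have hsum : ∑ i ∈ Finset.range (n + 1), e i * a ^ i = 0 := by
    have h1 : ∑ i ∈ Finset.range (n + 1), c i * a ^ i = 0 := by
      rw [← hpa, eval₂_eq_sum_range]
    have h2 : ∑ i ∈ Finset.range (n + 1), c i * a ^ i =
        c m * ∑ i ∈ Finset.range (n + 1), e i * a ^ i := by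
      rw [Finset.mul_sum]
      refine Finset.sum_congr rfl fun i _ => ?_
      rw [hce i]; ring
    rw [h2] at h1
    exact (mul_eq_zero.mp h1).resolve_left hcm
  set s : L := ∑ i ∈ Finset.Ico m (n + 1), e i * a ^ (i - m) with hs
  have hsplit : ∑ i ∈ Finset.range m, e i * a ^ i + a ^ m * s = 0 := by
    rw [← hsum, ← Finset.sum_range_add_sum_Ico _ (by omega : m ≤ n + 1)]
    congr 1
    rw [hs, Finset.mul_sum]
    refine Finset.sum_congr rfl fun i hi => ?_
    have him : m ≤ i := (Finset.mem_Ico.mp hi).1
    rw [show a ^ m * (e i * a ^ (i - m)) = e i * (a ^ m * a ^ (i - m)) by ring, ← pow_add,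
      Nat.add_sub_cancel' him]
  -- the valuation of `s`
  have hvs : V.valuation s = 1 := by
    have h1 : s = 1 + ∑ i ∈ Finset.Ico (m + 1) (n + 1), e i * a ^ (i - m) := by
      rw [hs, Finset.sum_eq_sum_Ico_succ_bot (by omega : m < n + 1), Nat.sub_self, pow_zero, mul_one,
        hem]
    rw [h1]
    apply Valuation.map_one_add_of_lt
    apply Valuation.map_sum_lt _ one_ne_zero
    intro i hi
    have him : m < i := by have := (Finset.mem_Ico.mp hi).1; omega
    have hak : V.valuation (a ^ (i - m)) ≤ 1 :=
      (V.valuation_le_one_iff _).mpr (V.pow_mem ha _)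
    calc V.valuation (e i * a ^ (i - m)) = V.valuation (e i) * V.valuation (a ^ (i - m)) :=
          map_mul _ _ _
      _ ≤ V.valuation (e i) * 1 := mul_le_mul' le_rfl hak
      _ = V.valuation (e i) := mul_one _
      _ < 1 := helt i him
  -- integrality
  have hint : ∀ W : ValuationSubring L, (∀ r, ψ r ∈ W) → s ∈ W ∧ a * s ∈ W := by
    intro W hW
    have heW : ∀ i, e i ∈ W := fun i => hW (q i)
    by_cases haW : a ∈ W
    · have hsW : s ∈ W := by
        rw [hs]
        exact sum_mem fun i _ => W.mul_mem _ _ (heW i) (W.pow_mem haW _)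
      exact ⟨hsW, W.mul_mem _ _ haW hsW⟩
    · have hinv : a⁻¹ ∈ W := (W.mem_or_inv_mem a).resolve_left haW
      have ha0 : a ≠ 0 := by rintro rfl; exact haW W.zero_mem
      have hs' : s = -((a⁻¹) ^ m * ∑ i ∈ Finset.range m, e i * a ^ i) := by
        have h1 : a ^ m * s = -∑ i ∈ Finset.range m, e i * a ^ i := by
          rw [eq_neg_iff_add_eq_zero, add_comm]; exact hsplit
        have h2 : s = (a⁻¹) ^ m * (a ^ m * s) := by
          rw [← mul_assoc, ← mul_pow, inv_mul_cancel₀ ha0, one_pow, one_mul]
        rw [h2, h1, mul_neg]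
      constructor
      · rw [hs', Finset.mul_sum]
        refine W.neg_mem _ (sum_mem fun i hi => ?_)
        have him : i ≤ m := (Finset.mem_range.mp hi).le
        rw [show (a⁻¹) ^ m * (e i * a ^ i) = e i * ((a⁻¹) ^ m * a ^ i) by ring,
          inv_pow_mul_pow ha0 him]
        exact W.mul_mem _ _ (heW i) (W.pow_mem hinv _)
      · rw [hs', mul_neg, Finset.mul_sum, Finset.mul_sum]
        refine W.neg_mem _ (sum_mem fun i hi => ?_)
        have him : i + 1 ≤ m := Finset.mem_range.mp hi
        rw [show a * ((a⁻¹) ^ m * (e i * a ^ i)) = e i * ((a⁻¹) ^ m * a ^ (i + 1)) by ring,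
          inv_pow_mul_pow ha0 him]
        exact W.mul_mem _ _ (heW i) (W.pow_mem hinv _)
  exact ⟨s, a * s, intOver_of_forall_valuationSubring ψ s fun W hW => (hint W hW).1,
    intOver_of_forall_valuationSubring ψ (a * s) fun W hW => (hint W hW).2, hvs, rfl⟩

end LocIntegral




section GoingDown

variable {R F : Type*} [CommRing R] [IsDomain R] [IsIntegrallyClosed R] [Field F] [Algebra R F]

/-- **Going-down + Chevalley.** -/
theorem exists_valuationSubring_of_le
    (hinj : Function.Injective (algebraMap R F))
    (𝔭 𝔪 : Ideal R) [𝔭.IsPrime] [𝔪.IsPrime] (hle : 𝔭 ≤ 𝔪)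
    (M' : Ideal (integralClosure R F)) [M'.IsPrime] (hM' : M'.under R = 𝔪) :
    ∃ O : ValuationSubring F,
      (∀ x : integralClosure R F, (x : F) ∈ O) ∧
      (∀ x : integralClosure R F, O.valuation (x : F) < 1 → x ∈ M') ∧
      (∀ r : R, O.valuation (algebraMap R F r) < 1 ↔ r ∈ 𝔭) := by
  classical
  have hinjS : Function.Injective (algebraMap R (integralClosure R F)) := by
    intro a b h
    apply hinj
    have := congrArg (algebraMap (integralClosure R F) F) h
    simpa [← IsScalarTower.algebraMap_apply] using this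
  haveI : FaithfulSMul R (integralClosure R F) :=
    (faithfulSMul_iff_algebraMap_injective R (integralClosure R F)).mpr hinjS
  haveI : M'.LiesOver 𝔪 := ⟨hM'.symm⟩
  obtain ⟨P, hPM, hPprime, hPover⟩ :=
    Ideal.exists_ideal_le_liesOver_of_le (p := 𝔭) (q := 𝔪) M' hle
  let P' : Ideal (integralClosure R F).toSubring := P
  haveI : P'.IsPrime := hPprime
  obtain ⟨O, hO⟩ := (LocalSubring.ofPrime (integralClosure R F).toSubring P').exists_le_valuationSubring
  have hSO : ∀ x : integralClosure R F, (x : F) ∈ O := fun x =>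
    hO.1 (LocalSubring.le_ofPrime (integralClosure R F).toSubring P' x.2)
  -- the centre of `O` on `S` is `P`
  have hcentre : ∀ x : integralClosure R F, O.valuation (x : F) < 1 ↔ x ∈ P := by
    intro x
    have hxmem : (x : F) ∈ (LocalSubring.ofPrime (integralClosure R F).toSubring P').toSubring :=
      LocalSubring.le_ofPrime (integralClosure R F).toSubring P' x.2
    have hx' : (⟨(x : F), hxmem⟩ : (LocalSubring.ofPrime (integralClosure R F).toSubring P').toSubring) =
        algebraMap (integralClosure R F).toSubring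
          (LocalSubring.ofPrime (integralClosure R F).toSubring P').toSubring x := Subtype.ext rfl
    have hunit_iff : IsUnit (⟨(x : F), hxmem⟩ :
        (LocalSubring.ofPrime (integralClosure R F).toSubring P').toSubring) ↔ x ∉ P := by
      rw [hx']
      exact IsLocalization.AtPrime.isUnit_to_map_iff
        (LocalSubring.ofPrime (integralClosure R F).toSubring P').toSubring P' x
    have hval : O.valuation (x : F) < 1 ↔ ¬ IsUnit (⟨(x : F), hSO x⟩ : O) := by
      rw [← O.valuation_lt_one_iff ⟨(x : F), hSO x⟩, IsLocalRing.mem_maximalIdeal, mem_nonunits_iff]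
    rw [hval]
    constructor
    · intro hnu
      by_contra hxP
      apply hnu
      have hu := hunit_iff.mpr hxP
      exact hu.map (Subring.inclusion hO.1)
    · intro hxP hu
      have hnu : ¬ IsUnit (⟨(x : F), hxmem⟩ :
          (LocalSubring.ofPrime (integralClosure R F).toSubring P').toSubring) := fun h =>
        hunit_iff.mp h hxP
      exact hnu (hO.2.map_nonunit _ hu)
  refine ⟨O, hSO, fun x hx => hPM ((hcentre x).mp hx), fun r => ?_⟩
  have h1 := hcentre (algebraMap R (integralClosure R F) r)
  have h2 : ((algebraMap R (integralClosure R F) r : integralClosure R F) : F) = algebraMap R F r := rfl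
  rw [h2] at h1
  rw [h1]
  have hov := hPover.over
  rw [hov, Ideal.under_def, Ideal.mem_comap]

end GoingDown

end Fermat.Agent.ORD.NODE.HorAlg7
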