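/-
Programme ORD (S33), chapter NODE (helper7): **horizontal primes through a closed point of a finite
level are centres of places of the tube** — the field `hor` of helper4's `NodeLevelAt4.NodeLevelAt`.

Setting (vocabulary of `LevelAt8` / `HorizPlace13`): big level `A ⊂ L` a valuation ring, `BA ⊂ F` a
chart over `A` (the integral closure of `A[j t]`), `χ₀ : BA →+* k` a closed point; finite level
`RK ⊂ KK` a discrete valuation ring, `BK ⊂ FK` the chart (the integral closure of `RK[t]`),
`j : FK →+* F`, `φ : KK →+* L` on constants, `A` dominating `RK`, `L` algebraic over `RK`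
(`structure HorHyp`).

**CAVEAT.** `BA` is NOT integral over `j(BK)`: `A` is only a LOCALISATION of the integral closure of
`RK` in `L`.  So going-down (Mathlib, stacks 00H8) is applied to `BK ⊂ BI := ` the integral closure of
`j(BK)` in `F`, and `BA = S⁻¹ BI` with `S` = the units of `A` integral over `RK`
(`HorAlg7.exists_integral_fraction`, `HorAlg7.fracSub_closed`).

* `HorHyp.exists_place_over_horizontal` : a nonzero horizontal prime `𝔭 ≤ x_K` of `BK` is the centre
  on `BK` of a place `P` of `F / L` of the tube of `χ₀`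
  (`InDisc (locC BA χ₀) P ∧ ∀ b : BK, |j b|_P < 1 ↔ b ∈ 𝔭`);
* **`HorHyp.horInt_of_tube`** : the field `hor`, literally:
  `(∀ P, InDisc (locC BA χ₀) P → j ε ∈ O_P) → HorInt πK BK x_K ε`.
-/
import Mathlib
import Fermat.Agent.ORD.NODE.HorAlg7
import Fermat.Agent.ORD.IFACEN.LocAt8
import Fermat.Agent.ORD.IFACEN.DiscPlaces8
import Fermat.Agent.ORD.NODE.GoodCoords4
import Fermat.Agent.ES.N34.HorizPlace13

set_option autoImplicit false
set_option linter.style.haveILetI false
set_option linter.unusedSectionVars false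
set_option linter.style.longLine false

namespace Fermat.Agent.ORD.NODE.HorTube7

open Polynomial Fermat.Agent.ORD.NODE.HorAlg7

/-! ### the model statement -/

section Main

open AlgebraicCurve Fermat.Agent.ORD.IFACEN.LocAt8 Fermat.Agent.ORD.IFACEN.DiscPlaces8
  Fermat.Agent.ORD.NODE.GoodCoords4

variable {L F k : Type*} [Field L] [Field F] [Algebra L F] [Field k]
variable {A : ValuationSubring L} [Algebra A F] [IsScalarTower A L F]
variable (res : A →+* k) (BA : Subalgebra A F) (χ₀ : BA →+* k)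
variable {RK KK FK : Type*} [CommRing RK] [Field KK] [Field FK] [Algebra RK KK] [Algebra KK FK]
  [Algebra RK FK] [IsScalarTower RK KK FK]
  (BK : Subalgebra RK FK) (πK : RK) (j : FK →+* F)

/-- **The hypotheses of the dictionary**: one finite level `(RK, KK, FK, BK, πK, t)` of the chart
`BA = ` integral closure of `A[j t]`, with the constants `φ : KK →+* L`. -/
structure HorHyp (t : FK) (φ : KK →+* L) : Prop where
  /- level `K`: the inputs of `HorizPlace13.exists_place_of_horizontal` -/
  t_mem : t ∈ BK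
  noeth : IsNoetherianRing BK
  fracR : IsFractionRing RK KK
  dvrR : ∀ r : RK, r ≠ 0 → ∃ (n : ℕ) (v : RKˣ), r = πK ^ n * v
  pi_ne : algebraMap RK FK πK ≠ 0
  intcl : ∀ x : FK, IsIntegral BK x → x ∈ BK
  int0 : ∀ x ∈ BK, IsIntegral (Algebra.adjoin RK {t}) x
  frac : ∀ x : FK, ∃ a ∈ BK, ∃ b ∈ BK, b ≠ 0 ∧ x * b = a
  /- comparison of the levels -/
  j_mem : ∀ b ∈ BK, j b ∈ BA
  j_const : ∀ c : KK, j (algebraMap KK FK c) = algebraMap L F (φ c)
  const_mem : ∀ r : RK, φ (algebraMap RK KK r) ∈ A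
  res_pi : res ⟨φ (algebraMap RK KK πK), const_mem πK⟩ = 0
  alg : ∀ l : L, ∃ p : RK[X], p ≠ 0 ∧ eval₂ (φ.comp (algebraMap RK KK)) l p = 0
  /- the big level -/
  res_eq_zero_iff : ∀ a : A, res a = 0 ↔ ¬ IsUnit a
  chi_const : ∀ a : A, χ₀ (algebraMap A BA a) = res a
  intA : ∀ b ∈ BA, IsIntegral (Algebra.adjoin A {j t}) b
  intclA : ∀ x : F, IsIntegral BA x → x ∈ BA
  places : ∀ O : ValuationSubring F, (∀ c : L, algebraMap L F c ∈ O) → O ≠ ⊤ →
    (∀ b ∈ BA, b ∈ O) → ∃ P : Place L F, P.toValuationSubring = O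

variable {res BA χ₀ BK πK j}

/-- a valuation subring: elements of valuation `1` are units. -/
theorem inv_mem_of_val_eq_one {K : Type*} [Field K] (O : ValuationSubring K) {x : K}
    (h : O.valuation x = 1) : x⁻¹ ∈ O := by
  rw [← O.valuation_le_one_iff, map_inv₀, h, inv_one]

theorem val_eq_one_of_not_lt {K : Type*} [Field K] (O : ValuationSubring K) {x : K} (hx : x ∈ O)
    (h : ¬ O.valuation x < 1) : O.valuation x = 1 :=
  le_antisymm ((O.valuation_le_one_iff x).mpr hx) (not_lt.mp h)

theorem val_lt_one_of_inv_not_mem {K : Type*} [Field K] (O : ValuationSubring K) {x : K}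
    (hx : x ∈ O) (h : x⁻¹ ∉ O) : O.valuation x < 1 := by
  by_contra hcon
  exact h (inv_mem_of_val_eq_one O (val_eq_one_of_not_lt O hx hcon))

theorem HorHyp.exists_place_over_horizontal {t : FK} {φ : KK →+* L}
    (H : HorHyp res BA χ₀ BK πK j t φ) (𝔭 : Ideal BK) [h𝔭 : 𝔭.IsPrime] (hne : 𝔭 ≠ ⊥)
    (hle : 𝔭 ≤ RingHom.ker (χ₀.comp ((j.comp BK.val.toRingHom).codRestrict BA.toSubring
      (fun b => H.j_mem b b.2))))
    (hπ𝔭 : algebraMap RK BK πK ∉ 𝔭) :
    ∃ P : Place L F, InDisc (locC BA χ₀) P ∧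
      ∀ b : BK, P.toValuationSubring.valuation (j (b : FK)) < 1 ↔ b ∈ 𝔭 := by
  classical
  letI algBF : Algebra BK F := (j.comp BK.val.toRingHom).toAlgebra
  have halgBF : ∀ b : BK, algebraMap BK F b = j (b : FK) := fun _ => rfl
  have hinj : Function.Injective (algebraMap BK F) := fun a b h => Subtype.ext (j.injective h)
  -- `BK` is integrally closed
  have hfracB : IsFractionRing ↥BK FK := by
    refine IsFractionRing.of_field ↥BK FK fun z => ?_
    obtain ⟨a, ha, b, hb, hb0, hab⟩ := H.frac z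
    refine ⟨⟨a, ha⟩, ⟨b, hb⟩, ?_⟩
    show z = a / b
    rw [eq_div_iff hb0, hab]
  haveI hicB : IsIntegrallyClosed ↥BK := by
    refine (isIntegrallyClosed_iff FK).mpr fun {x} hx => ?_
    exact ⟨⟨x, H.intcl x hx⟩, rfl⟩
  -- the base change on the chart
  set jB : BK →+* BA := (j.comp BK.val.toRingHom).codRestrict BA.toSubring
    (fun b => H.j_mem b b.2) with hjB
  have hjB_coe : ∀ b : BK, ((jB b : BA) : F) = j (b : FK) := fun _ => rfl
  -- the integral closure of `BK` in `F` lies in `BA`
  have hBI_BA : ∀ x : F, IsIntegral BK x → x ∈ BA := by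
    intro x hx
    apply H.intclA
    exact IsIntegral.map_of_comp_eq (R := BK) (S := F) (T := BA) (U := F) jB (RingHom.id F)
      (by ext b; rfl) hx
  -- the prime of the integral closure over the closed point
  set ι : integralClosure BK F →+* BA :=
    ((integralClosure BK F).val.toRingHom).codRestrict BA.toSubring
      (fun x => hBI_BA x x.2) with hι
  have hι_coe : ∀ x : integralClosure BK F, ((ι x : BA) : F) = (x : F) := fun _ => rfl
  set M' : Ideal (integralClosure BK F) := RingHom.ker (χ₀.comp ι) with hM'def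
  haveI hM'prime : M'.IsPrime := RingHom.ker_isPrime _
  set xK : Ideal BK := RingHom.ker (χ₀.comp jB) with hxK
  haveI hxKprime : xK.IsPrime := RingHom.ker_isPrime _
  have hM' : M'.under BK = xK := by
    ext b
    rw [Ideal.under_def, Ideal.mem_comap]
    show χ₀ (ι (algebraMap BK (integralClosure BK F) b)) = 0 ↔ χ₀ (jB b) = 0
    have : ι (algebraMap BK (integralClosure BK F) b) = jB b := Subtype.ext rfl
    rw [this]
  obtain ⟨O, hO1, hO2, hO3⟩ := exists_valuationSubring_of_le hinj 𝔭 xK hle M' hM'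
  have hBI_O : ∀ x : F, IsIntegral BK x → x ∈ O := fun x hx => hO1 ⟨x, hx⟩
  have hjO : ∀ b : BK, j (b : FK) ∈ O := fun b => hBI_O _ (isIntegral_algebraMap (x := b))
  -- constants
  set ψ : RK →+* L := φ.comp (algebraMap RK KK) with hψ
  set ψF : RK →+* F := j.comp (algebraMap RK FK) with hψF
  have hcomp : ∀ r : RK, algebraMap L F (ψ r) = ψF r := by
    intro r
    show algebraMap L F (φ (algebraMap RK KK r)) = j (algebraMap RK FK r)
    rw [← H.j_const, ← IsScalarTower.algebraMap_apply RK KK FK]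
  have hψFO : ∀ r, ψF r ∈ O := fun r => hjO (algebraMap RK BK r)
  have hψF_BK : ∀ r : RK, ψF r = algebraMap BK F (algebraMap RK BK r) := fun _ => rfl
  have hconstInt : ∀ x : L, IntOver (Set.range ψ) x → IsIntegral BK (algebraMap L F x) := by
    intro x hx
    apply isIntegral_of_intOver
    refine (hx.map (algebraMap L F)).mono ?_
    rintro _ ⟨_, ⟨r, rfl⟩, rfl⟩
    exact ⟨algebraMap RK BK r, by rw [← hψF_BK, hcomp]⟩
  -- nonzero elements of `RK` are units of `O`
  have hπu : O.valuation (ψF πK) = 1 :=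
    val_eq_one_of_not_lt O (hψFO πK) fun h => hπ𝔭 ((hO3 (algebraMap RK BK πK)).mp h)
  have hRKu : ∀ r : RK, r ≠ 0 → O.valuation (ψF r) = 1 := by
    intro r hr
    obtain ⟨n, v, rfl⟩ := H.dvrR r hr
    rw [map_mul, map_pow, map_mul, map_pow, hπu, one_pow, one_mul]
    exact val_unit_eq_one ψF O hψFO v
  -- `O ⊇ L`
  have hLO : ∀ l : L, algebraMap L F l ∈ O := by
    intro l
    obtain ⟨p, hp0, hpl⟩ := H.alg l
    have h1 : ψ.IsIntegralElem (ψ p.leadingCoeff * l) :=
      ψ.isIntegralElem_leadingCoeff_mul p l hpl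
    have h2 : IntOver (Set.range ψ) (ψ p.leadingCoeff * l) := by
      obtain ⟨q, hq, hql⟩ := h1
      refine ⟨q.map ψ, hq.map _, fun i => ⟨q.coeff i, by rw [coeff_map]⟩, ?_⟩
      rw [eval_map]; exact hql
    have h3 : algebraMap L F (ψ p.leadingCoeff * l) ∈ O := hBI_O _ (hconstInt _ h2)
    rw [map_mul, hcomp] at h3
    have hlc : p.leadingCoeff ≠ 0 := leadingCoeff_ne_zero.mpr hp0
    have hu := inv_mem_of_val_eq_one O (hRKu _ hlc)
    have hne0 : ψF p.leadingCoeff ≠ 0 := by
      intro h0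
      have := hRKu _ hlc
      rw [h0, map_zero] at this
      exact zero_ne_one this
    have : algebraMap L F l = (ψF p.leadingCoeff)⁻¹ * (ψF p.leadingCoeff * algebraMap L F l) := by
      rw [← mul_assoc, inv_mul_cancel₀ hne0, one_mul]
    rw [this]
    exact O.mul_mem _ _ hu h3
  -- `O ≠ ⊤`
  have hOtop : O ≠ ⊤ := by
    intro htop
    obtain ⟨b, hb𝔭, hb0⟩ : ∃ b ∈ 𝔭, b ≠ 0 := by
      by_contra hcon
      push Not at hcon
      exact hne ((Submodule.eq_bot_iff 𝔭).mpr hcon)
    have h1 : O.valuation (algebraMap BK F b) < 1 := (hO3 b).mpr hb𝔭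
    have h2 : (algebraMap BK F b)⁻¹ ∈ O := by rw [htop]; exact ValuationSubring.mem_top _
    have hb0' : algebraMap BK F b ≠ 0 := fun h0 => hb0 (hinj (by rw [h0, map_zero]))
    have h3 : O.valuation ((algebraMap BK F b)⁻¹) ≤ 1 := (O.valuation_le_one_iff _).mpr h2
    rw [map_inv₀] at h3
    have h4 : O.valuation (algebraMap BK F b) ≠ 0 := (Valuation.ne_zero_iff _).mpr hb0'
    have h5 : (1 : _) ≤ O.valuation (algebraMap BK F b) := by
      rwa [inv_le_one₀ (zero_lt_iff.mpr h4)] at h3
    exact absurd h1 (not_lt.mpr h5)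
  -- the integral closure as a subring, and the multiplicative set of the integral units of `A`
  set T : Subring F := (integralClosure BK F).toSubring with hT
  let S : Submonoid F :=
    { carrier := {x | ∃ s : A, IsUnit s ∧ x = algebraMap L F (s : L) ∧ x ∈ T}
      mul_mem' := by
        rintro x y ⟨s, hs, rfl, hx⟩ ⟨s', hs', rfl, hy⟩
        exact ⟨s * s', hs.mul hs', (map_mul (algebraMap L F) (s : L) (s' : L)).symm,
          T.mul_mem hx hy⟩
      one_mem' := ⟨1, isUnit_one, (map_one (algebraMap L F)).symm, T.one_mem⟩ }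
  have hST : ∀ s ∈ S, s ∈ T := by
    rintro s ⟨_, _, _, hs⟩
    exact hs
  have hTclosed : ∀ x : F, IntOver (T : Set F) x → x ∈ T := by
    intro x hx
    have h1 : IsIntegral T x := (intOver_subring_iff T).mp hx
    have h2 : IsIntegral (integralClosure BK F) x := h1
    exact isIntegral_trans x h2
  have hπV : A.valuation (ψ πK) < 1 := by
    have h1 : ¬ IsUnit (⟨ψ πK, H.const_mem πK⟩ : A) := (H.res_eq_zero_iff _).mp H.res_pi
    have h2 : (⟨ψ πK, H.const_mem πK⟩ : A) ∈ IsLocalRing.maximalIdeal A := by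
      rwa [IsLocalRing.mem_maximalIdeal, mem_nonunits_iff]
    exact (A.valuation_lt_one_iff ⟨ψ πK, H.const_mem πK⟩).mp h2
  haveI := H.fracR
  have hψinj : Function.Injective ψ := φ.injective.comp (IsFractionRing.injective RK KK)
  have hA_frac : ∀ a : A, algebraMap L F (a : L) ∈ fracSub T S hST := by
    intro a
    obtain ⟨p, hp0, hpa⟩ := H.alg (a : L)
    have hpm : p.map ψ ≠ 0 := (Polynomial.map_ne_zero_iff hψinj).mpr hp0
    obtain ⟨s, c, hs, hc, hvs, hsc⟩ := exists_integral_fraction ψ πK H.dvrR A H.const_mem hπV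
      (a : L) a.2 p hpm hpa
    have hsA : s ∈ A := (A.valuation_le_one_iff s).mp hvs.le
    have hsu : IsUnit (⟨s, hsA⟩ : A) := (A.valuation_eq_one_iff ⟨s, hsA⟩).mpr hvs
    refine ⟨algebraMap L F s, ⟨⟨s, hsA⟩, hsu, rfl, hconstInt s hs⟩, ?_⟩
    rw [← map_mul, mul_comm, hsc]
    exact hconstInt c hc
  have hjtT : j t ∈ T := isIntegral_algebraMap (R := BK) (x := (⟨t, H.t_mem⟩ : BK))
  have hadj : ∀ x ∈ Algebra.adjoin A {j t}, x ∈ fracSub T S hST := by
    intro x hx
    induction hx using Algebra.adjoin_induction with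
    | mem x hx =>
      rw [Set.mem_singleton_iff.mp hx]
      exact le_fracSub T S hST hjtT
    | algebraMap a =>
      rw [algebraMap_A_eq]
      exact hA_frac a
    | add x y _ _ hx hy => exact (fracSub T S hST).add_mem hx hy
    | mul x y _ _ hx hy => exact (fracSub T S hST).mul_mem hx hy
  have hBAloc : ∀ b ∈ BA, ∃ s ∈ S, s * b ∈ T := by
    intro b hb
    have h1 := intOver_of_isIntegral (H.intA b hb)
    have h2 : IntOver (fracSub T S hST : Set F) b := h1.mono (by
      rintro _ ⟨z, rfl⟩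
      exact hadj _ z.2)
    exact fracSub_closed T S hST hTclosed h2
  -- `BA ⊆ O`
  have hBA_O : ∀ b ∈ BA, b ∈ O := by
    intro b hb
    obtain ⟨s', ⟨s, hsu, rfl, hsT⟩, hsb⟩ := hBAloc b hb
    have hs0 : (s : L) ≠ 0 := fun h0 => hsu.ne_zero (Subtype.ext h0)
    have : b = algebraMap L F ((s : L)⁻¹) * (algebraMap L F (s : L) * b) := by
      rw [← mul_assoc, ← map_mul, inv_mul_cancel₀ hs0, map_one, one_mul]
    rw [this]
    exact O.mul_mem _ _ (hLO _) (hBI_O _ hsb)
  -- the centre of `O` on `BA` is contained in the closed point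
  have hcentre : ∀ b : BA, χ₀ b ≠ 0 → ((b : F))⁻¹ ∈ O := by
    intro b hb
    obtain ⟨s', ⟨s, hsu, rfl, hsT⟩, hsb⟩ := hBAloc b b.2
    set x : integralClosure BK F := ⟨algebraMap L F (s : L) * b, hsb⟩ with hx
    have hxM : x ∉ M' := by
      intro hxM
      have h1 : χ₀ (ι x) = 0 := hxM
      have h2 : ι x = algebraMap A BA s * b := Subtype.ext (by
        show algebraMap L F (s : L) * (b : F) = ((algebraMap A BA s : BA) : F) * (b : F)
        rw [← algebraMap_A_eq]; rfl)
      rw [h2, map_mul, H.chi_const] at h1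
      rcases mul_eq_zero.mp h1 with h3 | h3
      · exact ((H.res_eq_zero_iff s).mp h3) hsu
      · exact hb h3
    have hv : O.valuation (x : F) = 1 :=
      val_eq_one_of_not_lt O (hO1 x) fun h => hxM (hO2 x h)
    have hxinv := inv_mem_of_val_eq_one O hv
    have hb0 : (b : F) ≠ 0 := by
      intro h0
      apply hb
      have : b = 0 := Subtype.ext h0
      rw [this, map_zero]
    have hs0 : (s : L) ≠ 0 := fun h0 => hsu.ne_zero (Subtype.ext h0)
    have hs0F : algebraMap L F (s : L) ≠ 0 := by rwa [Ne, map_eq_zero]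
    have : ((b : F))⁻¹ = algebraMap L F (s : L) * ((x : F))⁻¹ := by
      show _ = _ * (algebraMap L F (s : L) * (b : F))⁻¹
      field_simp
    rw [this]
    exact O.mul_mem _ _ (hLO _) hxinv
  obtain ⟨P, hPO⟩ := H.places O hLO hOtop hBA_O
  refine ⟨P, ?_, fun b => ?_⟩
  · intro x hx
    obtain ⟨a, d, hd, hxd⟩ := (mem_locC_iff BA χ₀).mp hx
    rw [hPO]
    have hd0 : (d : F) ≠ 0 := by
      intro h0
      apply hd
      have : d = 0 := Subtype.ext h0
      rw [this, map_zero]
    have : x = (a : F) * ((d : F))⁻¹ := by rw [← hxd]; field_simp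
    rw [this]
    exact O.mul_mem _ _ (hBA_O _ a.2) (hcentre d hd)
  · rw [hPO]
    exact hO3 b

/-- **The field `hor` of `NodeLevelAt4.NodeLevelAt`**: a function of the finite level which is
regular at every place of the tube of `χ₀` is integral at every nonzero horizontal prime of `BK`
through the closed point of level `K`. -/
theorem HorHyp.horInt_of_tube {t : FK} {φ : KK →+* L} (H : HorHyp res BA χ₀ BK πK j t φ) (ε : FK)
    (hε : ∀ P : Place L F, InDisc (locC BA χ₀) P → j ε ∈ P.toValuationSubring) :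
    HorInt πK BK (RingHom.ker (χ₀.comp ((j.comp BK.val.toRingHom).codRestrict BA.toSubring
      (fun b => H.j_mem b b.2)))) ε := by
  intro 𝔭 h𝔭 hne hle hπ
  haveI := h𝔭
  obtain ⟨v, hv⟩ := Fermat.Agent.ES.N34.HorizPlace13.exists_place_of_horizontal (K := KK) πK t BK
    H.t_mem H.noeth H.fracR H.dvrR H.pi_ne H.intcl H.int0 H.frac 𝔭 hne hπ
  obtain ⟨P, hdisc, hdom⟩ := H.exists_place_over_horizontal 𝔭 hne hle hπ
  have hεP := hε P hdisc
  apply (hv ε).mp
  by_contra hεv
  have hinv : ε⁻¹ ∈ v.toValuationSubring :=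
    (v.toValuationSubring.mem_or_inv_mem ε).resolve_left hεv
  obtain ⟨a, s, hs, has⟩ := (hv ε⁻¹).mp hinv
  have hε0 : ε ≠ 0 := by rintro rfl; exact hεv (zero_mem _)
  have hs0 : (s : FK) ≠ 0 := by
    intro h0
    apply hs
    have : s = 0 := Subtype.ext h0
    rw [this]; exact 𝔭.zero_mem
  have hεa : ε * (a : FK) = (s : FK) := by rw [← has]; field_simp
  have ha : a ∈ 𝔭 := by
    by_contra ha
    exact hεv ((hv ε).mpr ⟨s, a, ha, hεa⟩)
  have hjs : j (s : FK) ∈ P.toValuationSubring :=
    hdisc _ (le_locC BA χ₀ (H.j_mem s s.2))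
  have h1 : P.toValuationSubring.valuation (j (a : FK)) < 1 := (hdom a).mpr ha
  have h2 : P.toValuationSubring.valuation (j (s : FK)) = 1 :=
    val_eq_one_of_not_lt _ hjs fun h => hs ((hdom s).mp h)
  have h3 : j ε * j (a : FK) = j (s : FK) := by rw [← map_mul, hεa]
  have h4 : P.toValuationSubring.valuation (j ε) ≤ 1 :=
    (P.toValuationSubring.valuation_le_one_iff _).mpr hεP
  have h5 : P.toValuationSubring.valuation (j ε) * P.toValuationSubring.valuation (j (a : FK)) = 1 := by
    rw [← map_mul, h3, h2]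
  have h6 : P.toValuationSubring.valuation (j ε) * P.toValuationSubring.valuation (j (a : FK)) ≤
      1 * P.toValuationSubring.valuation (j (a : FK)) := mul_le_mul' h4 le_rfl
  rw [h5, one_mul] at h6
  exact absurd h1 (not_lt.mpr h6)

end Main

end Fermat.Agent.ORD.NODE.HorTube7
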