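/-
Programme ORD (S33), chapter NODE (helper7): **the concrete `hor`/`hhor` on the tower of the N34 model
of `X₀(M' p)`** (helper8's `BadFamily8.Lvl (K0 MI)`), for both charts, at EVERY level and EVERY closed
point of the chart (`χ₀ = ` the residue map on constants).

* `horHyp0`, `horHyp1` : `HorTube7.HorHyp` for `(chart A t, B0)` and `(chart A t⁻¹, B1)`;
* **`hhor0`, `hhor1`** : a function of level `i` regular at every place of the tube of `χ₀` is
  integral at every nonzero horizontal prime of the chart of level `i` through the closed point of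
  level `i` (`GoodCoords4.HorInt`), the closed point written in the `codRestrict` shape of
  `LevelAt8` / `NodeLevelAt4` / `GoodFamily2.xKof`;
* `exists_place0`, `exists_place1` : a nonzero horizontal prime of the chart of level `i` through
  the closed point of level `i` is the centre of a place of the tube of `χ₀`.
-/
import Mathlib
import Fermat.Agent.ORD.NODE.HorTube7
import Fermat.Agent.ORD.IFACEN.BadInst8

set_option autoImplicit false
set_option linter.unusedSectionVars false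
set_option linter.style.longLine false
set_option synthInstance.maxHeartbeats 400000
set_option linter.style.haveILetI false

open HahnSeries ModularCurve Polynomial AlgebraicCurve

noncomputable section

namespace Fermat.Agent.ORD.NODE.HorInst7

open Fermat.Agent.RED.Interface4 Fermat.Agent.RED.DESC.PlaceExtend27
  Fermat.Agent.RED.DESC Fermat.Agent.RED.NumInst4
  Fermat.Agent.RED.PUR.GaussGen8 Fermat.Agent.RED.PUR.GaussBridge10
  Fermat.Agent.RED.PUR.ChartGeneric22
  Fermat.Agent.RED.DESC.NumberFieldDVR27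
  Fermat.Agent.RED.BASE.Interface12 Fermat.Agent.RED.BASE.EtaQuot12
  Fermat.Agent.ES.RED.ChartIntegralA1 Fermat.Agent.ES.RED.GaussUnit25
  Fermat.Agent.ES.N34.ModelDefs9 Fermat.Agent.ES.N34.ModelInput13 Fermat.Agent.ES.N34.NumData13
  Fermat.Agent.ES.N34.NodalCore13 Fermat.Agent.ES.N34.NodalCL13
  Fermat.Agent.ORD.IFACEN.GaussBad1 Fermat.Agent.ORD.IFACEN.SideOne1
  Fermat.Agent.ORD.IFACEN.BadLevelOne8 Fermat.Agent.ORD.IFACEN.BadFamily8
  Fermat.Agent.ORD.IFACEN.BadInst8
  Fermat.Agent.ORD.IFACEN.LevelFamily8 Fermat.Agent.ORD.IFACEN.LocAt8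
  Fermat.Agent.ORD.IFACEN.DiscPlaces8
  Fermat.Agent.ORD.NODE.GoodCoords4 Fermat.Agent.ORD.NODE.HorTube7

/-- fast instance (the canonical search costs seconds). -/
local instance (priority := 100000) algKF (A : ValuationSubring Qbar) (M : ℕ) [NeZero M] :
    Algebra (kA A) ↥(modularFunctionFieldFullC (kA A) M) := inferInstance

/-- shortcut instance (typeclass search takes seconds to find it). -/
local instance (priority := high) algAKFK (A : ValuationSubring Qbar) (M : ℕ)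
    (K : IntermediateField ℚ Qbar) : Algebra ↥(AK A K) ↥(FK M K) := inferInstance

variable (p M' : ℕ) [Fact p.Prime] [NeZero M'] (A : ValuationSubring Qbar)
  (hA : A.LiesOverPrime p) (hpM : ¬ p ∣ M') (h4 : 4 ∣ M')
  (MI : ModelInput 4 8 p M' A)

/-- every algebraic number is a root of a nonzero polynomial over `A ∩ K`. -/
theorem exists_poly_AK (K : IntermediateField ℚ Qbar) (l : Qbar) :
    ∃ P : (↥(AK A K))[X], P ≠ 0 ∧
      eval₂ ((algebraMap ↥K Qbar).comp (algebraMap ↥(AK A K) ↥K)) l P = 0 := by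
  have h1 : IsAlgebraic ℚ l := (isAlgebraic_Qbar).isAlgebraic l
  have h2 : IsAlgebraic ℤ l := (IsFractionRing.isAlgebraic_iff ℤ ℚ Qbar).mpr h1
  obtain ⟨P, hP0, hPl⟩ := h2
  refine ⟨P.map (Int.castRingHom ↥(AK A K)), ?_, ?_⟩
  · rw [Ne, Polynomial.map_eq_zero_iff]
    · exact hP0
    · exact (Int.castRingHom ↥(AK A K)).injective_int
  · rw [eval₂_map]
    have : ((algebraMap ↥K Qbar).comp (algebraMap ↥(AK A K) ↥K)).comp (Int.castRingHom ↥(AK A K)) =
        algebraMap ℤ Qbar := RingHom.ext_int _ _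
    rw [this, ← aeval_def]
    exact hPl

/-- the residue of the uniformiser of level `i` is `0`. -/
theorem res_piK (i : Lvl (K0 MI)) (h : algebraMap ↥i.K Qbar (algebraMap ↥(AK A i.K) ↥i.K (piK hA MI i)) ∈ A) :
    IsLocalRing.residue ↥A ⟨algebraMap ↥i.K Qbar (algebraMap ↥(AK A i.K) ↥i.K (piK hA MI i)), h⟩ = 0 := by
  have h1 : (⟨algebraMap ↥i.K Qbar (algebraMap ↥(AK A i.K) ↥i.K (piK hA MI i)), h⟩ : ↥A) =
      incl A i.K (piK hA MI i) := Subtype.ext rfl
  rw [h1, ← resMap_residue]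
  have : IsLocalRing.residue ↥(AK A i.K) (piK hA MI i) = 0 := res0_unif (piK_unif hA MI i)
  rw [this, map_zero]

set_option maxHeartbeats 3200000 in
/-- **`HorHyp` on the chart `t`.** -/
theorem horHyp0 (i : Lvl (K0 MI)) (χ₀ : ↥(chart ↥A (tB p M' h4)) →+* kA A)
    (hχ₀ : ∀ a : ↥A, χ₀ (algebraMap ↥A ↥(chart ↥A (tB p M' h4)) a) = IsLocalRing.residue ↥A a) :
    haveI := isScalarTower_OE (AK A i.K) (FK (M' * p) i.K)
    HorHyp (IsLocalRing.residue ↥A) (chart ↥A (tB p M' h4)) χ₀ (B0 A p (htK MI i)) (piK hA MI i)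
      (baseChangeHom (M' * p) i.K) (tN p (htK MI i)) (algebraMap ↥i.K Qbar) := by
  haveI := isScalarTower_OE (AK A i.K) (FK (M' * p) i.K)
  have D := nodalK p M' A hA MI i
  have hc : ∀ r : ↥(AK A i.K), algebraMap ↥i.K Qbar (algebraMap ↥(AK A i.K) ↥i.K r) ∈ A :=
    fun r => (mem_AK_iff A i.K _).mp r.2
  have key : ∀ s : ↥(Fbar (M' * p)), s = tB p M' h4 →
      ∀ b ∈ chart ↥A (tB p M' h4), IsIntegral (Algebra.adjoin ↥A {s}) b := by
    rintro s rfl b hb
    exact hb
  refine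
    { t_mem := ?_, noeth := ?_, fracR := ?_, dvrR := ?_, pi_ne := ?_, intcl := ?_, int0 := ?_,
      frac := ?_, j_mem := ?_, j_const := ?_, const_mem := hc, res_pi := ?_, alg := ?_,
      res_eq_zero_iff := ?_, chi_const := hχ₀, intA := ?_, intclA := ?_, places := ?_ }
  · exact D.model.t_mem
  · exact D.noeth0
  · exact D.fracR
  · exact D.dvrR
  · exact D.model.pi_ne
  · exact D.model.intcl0
  · exact D.model.int0
  · exact D.frac0
  · exact fun _ hb => baseChangeHom_mem_chart0 p M' A h4 i.K (htK MI i) hb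
  · exact fun c => baseChangeHom_algebraMap (M' * p) i.K c
  · exact res_piK p M' A hA MI i (hc _)
  · exact exists_poly_AK A i.K
  · exact res_eq_zero_iff A
  · exact key _ (baseChangeHom_tN p M' h4 i.K (htK MI i))
  · exact chart_intcl _
  · exact fun O hL hO hB => places_bad p M' h4 O hL hO (Or.inl (hB _ (self_mem_chart _)))

set_option maxHeartbeats 3200000 in
/-- **`HorHyp` on the chart `t⁻¹`.** -/
theorem horHyp1 (i : Lvl (K0 MI)) (χ₀ : ↥(chart ↥A (tB p M' h4)⁻¹) →+* kA A)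
    (hχ₀ : ∀ a : ↥A, χ₀ (algebraMap ↥A ↥(chart ↥A (tB p M' h4)⁻¹) a) = IsLocalRing.residue ↥A a) :
    haveI := isScalarTower_OE (AK A i.K) (FK (M' * p) i.K)
    HorHyp (IsLocalRing.residue ↥A) (chart ↥A (tB p M' h4)⁻¹) χ₀ (B1 A p (htK MI i)) (piK hA MI i)
      (baseChangeHom (M' * p) i.K) (tN p (htK MI i))⁻¹ (algebraMap ↥i.K Qbar) := by
  haveI := isScalarTower_OE (AK A i.K) (FK (M' * p) i.K)
  have D := nodalK p M' A hA MI i
  have hc : ∀ r : ↥(AK A i.K), algebraMap ↥i.K Qbar (algebraMap ↥(AK A i.K) ↥i.K r) ∈ A :=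
    fun r => (mem_AK_iff A i.K _).mp r.2
  have key : ∀ s : ↥(Fbar (M' * p)), s = (tB p M' h4)⁻¹ →
      ∀ b ∈ chart ↥A (tB p M' h4)⁻¹, IsIntegral (Algebra.adjoin ↥A {s}) b := by
    rintro s rfl b hb
    exact hb
  refine
    { t_mem := ?_, noeth := ?_, fracR := ?_, dvrR := ?_, pi_ne := ?_, intcl := ?_, int0 := ?_,
      frac := ?_, j_mem := ?_, j_const := ?_, const_mem := hc, res_pi := ?_, alg := ?_,
      res_eq_zero_iff := ?_, chi_const := hχ₀, intA := ?_, intclA := ?_, places := ?_ }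
  · exact D.model.tinv_mem
  · exact D.noeth1
  · exact D.fracR
  · exact D.dvrR
  · exact D.model.pi_ne
  · exact D.model.intcl1
  · exact D.model.int1
  · exact D.frac1
  · exact fun _ hb => baseChangeHom_mem_chart1 p M' A h4 i.K (htK MI i) hb
  · exact fun c => baseChangeHom_algebraMap (M' * p) i.K c
  · exact res_piK p M' A hA MI i (hc _)
  · exact exists_poly_AK A i.K
  · exact res_eq_zero_iff A
  · exact key _ (by rw [map_inv₀, baseChangeHom_tN p M' h4 i.K (htK MI i)])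
  · exact chart_intcl _
  · exact fun O hL hO hB => places_bad p M' h4 O hL hO (Or.inr (hB _ (self_mem_chart _)))

/-! ### the statements consumed by the node chain -/

set_option maxHeartbeats 3200000 in
/-- **`hhor` on the chart `t`**, at every level and every closed point. -/
theorem hhor0 (i : Lvl (K0 MI)) (χ₀ : ↥(chart ↥A (tB p M' h4)) →+* kA A)
    (hχ₀ : ∀ a : ↥A, χ₀ (algebraMap ↥A ↥(chart ↥A (tB p M' h4)) a) = IsLocalRing.residue ↥A a)
    (hj : ∀ b ∈ B0 A p (htK MI i), baseChangeHom (M' * p) i.K b ∈ chart ↥A (tB p M' h4))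
    (ε : ↥(FK (M' * p) i.K))
    (hε : ∀ P : Place Qbar ↥(Fbar (M' * p)), InDisc (locC (chart ↥A (tB p M' h4)) χ₀) P →
      baseChangeHom (M' * p) i.K ε ∈ P.toValuationSubring) :
    HorInt (piK hA MI i) (B0 A p (htK MI i))
      (RingHom.ker (χ₀.comp (((baseChangeHom (M' * p) i.K).comp
        (B0 A p (htK MI i)).val.toRingHom).codRestrict (chart ↥A (tB p M' h4)).toSubring
          (fun b => hj b b.2)))) ε :=
  haveI := isScalarTower_OE (AK A i.K) (FK (M' * p) i.K)
  (horHyp0 p M' A hA h4 MI i χ₀ hχ₀).horInt_of_tube ε hε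

set_option maxHeartbeats 3200000 in
/-- **`hhor` on the chart `t⁻¹`**, at every level and every closed point. -/
theorem hhor1 (i : Lvl (K0 MI)) (χ₀ : ↥(chart ↥A (tB p M' h4)⁻¹) →+* kA A)
    (hχ₀ : ∀ a : ↥A, χ₀ (algebraMap ↥A ↥(chart ↥A (tB p M' h4)⁻¹) a) = IsLocalRing.residue ↥A a)
    (hj : ∀ b ∈ B1 A p (htK MI i), baseChangeHom (M' * p) i.K b ∈ chart ↥A (tB p M' h4)⁻¹)
    (ε : ↥(FK (M' * p) i.K))
    (hε : ∀ P : Place Qbar ↥(Fbar (M' * p)), InDisc (locC (chart ↥A (tB p M' h4)⁻¹) χ₀) P →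
      baseChangeHom (M' * p) i.K ε ∈ P.toValuationSubring) :
    HorInt (piK hA MI i) (B1 A p (htK MI i))
      (RingHom.ker (χ₀.comp (((baseChangeHom (M' * p) i.K).comp
        (B1 A p (htK MI i)).val.toRingHom).codRestrict (chart ↥A (tB p M' h4)⁻¹).toSubring
          (fun b => hj b b.2)))) ε :=
  haveI := isScalarTower_OE (AK A i.K) (FK (M' * p) i.K)
  (horHyp1 p M' A hA h4 MI i χ₀ hχ₀).horInt_of_tube ε hε

set_option maxHeartbeats 3200000 in
/-- a nonzero horizontal prime of `B0` of level `i` through the closed point of level `i` is the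
centre of a place of the tube of `χ₀`. -/
theorem exists_place0 (i : Lvl (K0 MI)) (χ₀ : ↥(chart ↥A (tB p M' h4)) →+* kA A)
    (hχ₀ : ∀ a : ↥A, χ₀ (algebraMap ↥A ↥(chart ↥A (tB p M' h4)) a) = IsLocalRing.residue ↥A a)
    (hj : ∀ b ∈ B0 A p (htK MI i), baseChangeHom (M' * p) i.K b ∈ chart ↥A (tB p M' h4))
    (𝔭 : Ideal ↥(B0 A p (htK MI i))) [𝔭.IsPrime] (hne : 𝔭 ≠ ⊥)
    (hle : 𝔭 ≤ RingHom.ker (χ₀.comp (((baseChangeHom (M' * p) i.K).comp
        (B0 A p (htK MI i)).val.toRingHom).codRestrict (chart ↥A (tB p M' h4)).toSubring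
          (fun b => hj b b.2))))
    (hπ : algebraMap ↥(AK A i.K) ↥(B0 A p (htK MI i)) (piK hA MI i) ∉ 𝔭) :
    ∃ P : Place Qbar ↥(Fbar (M' * p)), InDisc (locC (chart ↥A (tB p M' h4)) χ₀) P ∧
      ∀ b : ↥(B0 A p (htK MI i)),
        P.toValuationSubring.valuation (baseChangeHom (M' * p) i.K (b : ↥(FK (M' * p) i.K))) < 1 ↔
          b ∈ 𝔭 :=
  haveI := isScalarTower_OE (AK A i.K) (FK (M' * p) i.K)
  (horHyp0 p M' A hA h4 MI i χ₀ hχ₀).exists_place_over_horizontal 𝔭 hne hle hπ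

set_option maxHeartbeats 3200000 in
/-- a nonzero horizontal prime of `B1` of level `i` through the closed point of level `i` is the
centre of a place of the tube of `χ₀`. -/
theorem exists_place1 (i : Lvl (K0 MI)) (χ₀ : ↥(chart ↥A (tB p M' h4)⁻¹) →+* kA A)
    (hχ₀ : ∀ a : ↥A, χ₀ (algebraMap ↥A ↥(chart ↥A (tB p M' h4)⁻¹) a) = IsLocalRing.residue ↥A a)
    (hj : ∀ b ∈ B1 A p (htK MI i), baseChangeHom (M' * p) i.K b ∈ chart ↥A (tB p M' h4)⁻¹)
    (𝔭 : Ideal ↥(B1 A p (htK MI i))) [𝔭.IsPrime] (hne : 𝔭 ≠ ⊥)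
    (hle : 𝔭 ≤ RingHom.ker (χ₀.comp (((baseChangeHom (M' * p) i.K).comp
        (B1 A p (htK MI i)).val.toRingHom).codRestrict (chart ↥A (tB p M' h4)⁻¹).toSubring
          (fun b => hj b b.2))))
    (hπ : algebraMap ↥(AK A i.K) ↥(B1 A p (htK MI i)) (piK hA MI i) ∉ 𝔭) :
    ∃ P : Place Qbar ↥(Fbar (M' * p)), InDisc (locC (chart ↥A (tB p M' h4)⁻¹) χ₀) P ∧
      ∀ b : ↥(B1 A p (htK MI i)),
        P.toValuationSubring.valuation (baseChangeHom (M' * p) i.K (b : ↥(FK (M' * p) i.K))) < 1 ↔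
          b ∈ 𝔭 :=
  haveI := isScalarTower_OE (AK A i.K) (FK (M' * p) i.K)
  (horHyp1 p M' A hA h4 MI i χ₀ hχ₀).exists_place_over_horizontal 𝔭 hne hle hπ

end Fermat.Agent.ORD.NODE.HorInst7
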