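/-
PROGRAMME ORD (S33), chapter NODE (O6c, helper9): **rationality of the closed points at the finite
levels** (the field `res` of lead's `GoodChart0.NodeHyp`, consumed by helper4's `NodeGood4`).

Abstract statement.  `BA ⊂ F` a chart over `A ⊂ L`, `χ₀ : BA →+* k` a closed point, `P` a place of
`F / L` in the tube of `χ₀` (`InDisc (locC BA χ₀) P`).  A finite level: `BK ⊂ FK`, `j : FK →+* F` with
`j BK ⊂ BA`.  `Γ` a set of semilinear automorphisms of `F / L` (in the model: the arithmetic Galois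
group of the level) which fix `P`, fix `j BK` pointwise, and such that every `a ∈ A` fixed by `Γ` comes
from the level: `a = j r`, `r ∈ RK`.  Then every `b ∈ BK` is congruent to a constant `r ∈ RK` modulo the
closed point `x_K = ker (χ₀ ∘ j)` :

  `∀ b : BK, ∃ r : RK, χ₀ (j (b - r)) = 0`.

Proof: `a := b(P) ∈ A` (value of `j b` at `P`) is fixed by `Γ` (`GalVal1.valF_smul`), so `a = j r`, and
`χ₀ (j b) = res a` because `χ₀` is the centre of `P` (`Centre8.chiP_of_inDisc`).
-/
import Mathlib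
import Fermat.Agent.ORD.IFACEN.Centre8
import Fermat.Agent.MW.EMB.GalVal1

set_option autoImplicit false
set_option linter.unusedSectionVars false
set_option linter.style.longLine false

namespace Fermat.Agent.ORD.NODE.ResRational9

open AlgebraicCurve Fermat.Agent.X0.FF Fermat.Agent.RR.LSpace Fermat.Agent.MW.EMB.Value6
open Fermat.Agent.ORD.IFACEN.LocAt8 Fermat.Agent.ORD.IFACEN.DiscPlaces8
  Fermat.Agent.ORD.IFACEN.Centre8

variable {L F k : Type*} [Field L] [Field F] [Algebra L F] [Field k]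
variable {A : ValuationSubring L} [Algebra A F] [IsScalarTower A L F]
variable (res : A →+* k) (HL : LHyp L F) (hsurj : Function.Surjective res)
  (hzero : ∀ a : A, res a = 0 ↔ ¬ IsUnit a)
variable (BA : Subalgebra A F) (χ₀ : BA →+* k) (hχ₀ : ∀ a : A, χ₀ (algebraMap A BA a) = res a)
variable {RK FK : Type*} [CommRing RK] [Field FK] [Algebra RK FK] (BK : Subalgebra RK FK)
  (j : FK →+* F) (j_mem : ∀ b ∈ BK, j b ∈ BA)

include HL hsurj hzero hχ₀ in
/-- **rationality of the closed point at a level fixing a place of its tube.** -/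
theorem exists_sub_const_mem {P : Place L F} (hP : InDisc (locC BA χ₀) P)
    (Γ : Set (SemilinearAut L F)) (hfixP : ∀ σ ∈ Γ, σ • P = P)
    (hfixj : ∀ σ ∈ Γ, ∀ b ∈ BK, σ • j b = j b)
    (hdesc : ∀ a : A, (∀ σ ∈ Γ, SemilinearAut.baseAut σ (a : L) = (a : L)) →
      ∃ r : RK, j (algebraMap RK FK r) = algebraMap L F (a : L))
    (b : BK) :
    ∃ r : RK, χ₀ ⟨j ((b - algebraMap RK BK r : BK) : FK), j_mem _ (b - algebraMap RK BK r).2⟩ = 0 := by
  have h := onChart_of_inDisc res HL hsurj hzero χ₀ hχ₀ hP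
  have hχ := chiP_of_inDisc res HL hsurj hzero χ₀ hχ₀ hP
  set bA : BA := ⟨j (b : FK), j_mem _ b.2⟩ with hbA
  set a : A := valP h bA with ha
  have hbP : j (b : FK) ∈ P.toValuationSubring := (h _ bA.2).1
  -- `a` is fixed by `Γ`
  have hafix : ∀ σ ∈ Γ, SemilinearAut.baseAut σ (a : L) = (a : L) := by
    intro σ hσ
    have h1 := Fermat.Agent.MW.EMB.GalVal1.valF_smul HL σ P (j (b : FK))
    rw [hfixP σ hσ, hfixj σ hσ _ b.2, valF_of_mem HL P hbP] at h1
    have h2 : ((a : A) : L) = val HL P ⟨j (b : FK), hbP⟩ := coe_valP h bA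
    rw [h2]
    exact h1.symm
  obtain ⟨r, hr⟩ := hdesc a hafix
  refine ⟨r, ?_⟩
  have e : (⟨j ((b - algebraMap RK BK r : BK) : FK), j_mem _ (b - algebraMap RK BK r).2⟩ : BA) =
      bA - algebraMap A BA a := by
    apply Subtype.ext
    show j ((b : FK) - algebraMap RK FK r) = j (b : FK) - ((algebraMap A BA a : BA) : F)
    rw [map_sub, hr, ← algebraMap_A_eq]
    rfl
  rw [e, map_sub, hχ₀, sub_eq_zero]
  have : χ₀ bA = chiP res h bA := by rw [hχ]
  rw [this]
  rfl

end Fermat.Agent.ORD.NODE.ResRational9
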