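/-
PROGRAMME ORD (S33), chapter NODE (O6c, helper9): **the tube of every closed point of a chart is
non-empty** (no smoothness / nodal hypothesis: going-down).

`A ⊂ L` a valuation ring, `s ∈ F` transcendental, `BA = chart A s` (integral closure of `A[s]` in
`F`), `χ₀ : BA →+* k` a closed point above `res : A ↠ k`.  Then there is a place `P` of `F / L` with
`locC BA χ₀ ⊂ O_P` (`InDisc (locC BA χ₀) P`).

Proof.  `a₀ ∈ A` a lift of `χ₀ s`; `𝔮 = ker (A[s] → A, s ↦ a₀)` is a prime of `A[s]` with `𝔮 ∩ A = 0`,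
`𝔮 ≠ 0`, `𝔮 ⊂ ker χ₀ ∩ A[s]`.  `A[s]` is integrally closed and `BA` is a domain integral over it, so
going-down (Mathlib `Algebra.HasGoingDown`) gives a prime `𝔭 ⊂ ker χ₀` of `BA` above `𝔮`.  A valuation
ring `V` of `F` dominating `BA_𝔭` (Mathlib `IsLocalRing.exists_factor_valuationRing`) contains `L`
(`𝔭 ∩ A = 0`), is `≠ ⊤` (`𝔭 ≠ 0`), contains `BA_{ker χ₀}`; the hypothesis `places` (field of
`LevelFamily8.LevelFamily`) makes it a place.
-/
import Mathlib
import Fermat.Agent.ORD.IFACEN.LocAt8
import Fermat.Agent.ORD.IFACEN.DiscPlaces8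
import Fermat.Agent.RED.PUR.ChartGeneric22

set_option autoImplicit false
set_option linter.unusedSectionVars false
set_option linter.style.longLine false
set_option linter.style.haveILetI false
set_option synthInstance.maxHeartbeats 400000

namespace Fermat.Agent.ORD.NODE.TubeNonempty9

open AlgebraicCurve Polynomial
open Fermat.Agent.RED.PUR.ChartGeneric22
open Fermat.Agent.ORD.IFACEN.LocAt8 Fermat.Agent.ORD.IFACEN.DiscPlaces8

/-- a valuation ring dominating the localisation at a prime of a subring of a field. -/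
theorem exists_valuationSubring_of_prime {S F : Type*} [CommRing S] [Field F] [Algebra S F]
    (hinj : Function.Injective (algebraMap S F)) (P : Ideal S) [P.IsPrime] :
    ∃ V : ValuationSubring F, (∀ x : S, algebraMap S F x ∈ V) ∧
      (∀ x : S, x ∉ P → (algebraMap S F x)⁻¹ ∈ V) ∧
      (∀ x ∈ P, x ≠ 0 → (algebraMap S F x)⁻¹ ∉ V) := by
  have hunits : ∀ y : P.primeCompl, IsUnit (algebraMap S F y) := by
    intro y
    apply IsUnit.mk0
    intro h0
    apply y.2
    have : (y : S) = 0 := hinj (by rw [h0, map_zero])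
    rw [this]
    exact P.zero_mem
  let f : Localization.AtPrime P →+* F := IsLocalization.lift (M := P.primeCompl) hunits
  have hf : ∀ x : S, f (algebraMap S (Localization.AtPrime P) x) = algebraMap S F x := fun x =>
    IsLocalization.lift_eq hunits x
  obtain ⟨V, hV, hloc⟩ := IsLocalRing.exists_factor_valuationRing f
  refine ⟨V, fun x => ?_, fun x hx => ?_, fun x hx hx0 hinv => ?_⟩
  · rw [← hf]; exact hV _
  · have hu : IsUnit (algebraMap S (Localization.AtPrime P) x) :=
      IsLocalization.map_units (Localization.AtPrime P) (⟨x, hx⟩ : P.primeCompl)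
    obtain ⟨u, hu⟩ := hu
    have h1 : f (u : Localization.AtPrime P) * f ((u⁻¹ : (Localization.AtPrime P)ˣ) :
        Localization.AtPrime P) = 1 := by
      rw [← map_mul, Units.mul_inv, map_one]
    rw [hu, hf] at h1
    have h2 : (algebraMap S F x)⁻¹ = f ((u⁻¹ : (Localization.AtPrime P)ˣ) : Localization.AtPrime P) :=
      inv_eq_of_mul_eq_one_right h1
    rw [h2]
    exact hV _
  · -- `x ∈ P` is a non-unit of the localisation, hence of `V`
    have hx0' : algebraMap S F x ≠ 0 := fun h => hx0 (hinj (by rw [h, map_zero]))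
    have hunitV : IsUnit (f.codRestrict V.toSubring hV (algebraMap S (Localization.AtPrime P) x)) := by
      refine isUnit_iff_exists_inv.mpr ⟨⟨(algebraMap S F x)⁻¹, hinv⟩, ?_⟩
      apply Subtype.ext
      show f (algebraMap S (Localization.AtPrime P) x) * (algebraMap S F x)⁻¹ = 1
      rw [hf, mul_inv_cancel₀ hx0']
    have hunitL := hloc.map_nonunit _ hunitV
    have : algebraMap S (Localization.AtPrime P) x ∈ IsLocalRing.maximalIdeal (Localization.AtPrime P) := by
      rw [← IsLocalization.AtPrime.map_eq_maximalIdeal P (Localization.AtPrime P)]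
      exact Ideal.mem_map_of_mem _ hx
    exact (IsLocalRing.mem_maximalIdeal _).1 this hunitL

variable {L F k : Type*} [Field L] [Field F] [Algebra L F] [Field k]
variable {A : ValuationSubring L} [Algebra A F] [IsScalarTower A L F]

set_option maxHeartbeats 1600000 in
/-- **the tube of a closed point of `chart A s` is non-empty.** -/
theorem exists_inDisc (res : A →+* k) (hsurj : Function.Surjective res) {s : F}
    (hs : Transcendental A s) (χ₀ : chart A s →+* k)
    (hχ₀ : ∀ a : A, χ₀ (algebraMap A (chart A s) a) = res a)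
    (places : ∀ O : ValuationSubring F, (∀ c : L, algebraMap L F c ∈ O) → O ≠ ⊤ →
      (∀ b ∈ chart A s, b ∈ O) → ∃ P : Place L F, P.toValuationSubring = O) :
    ∃ P : Place L F, InDisc (locC (chart A s) χ₀) P := by
  classical
  obtain ⟨a₀, ha₀⟩ := hsurj (χ₀ ⟨s, self_mem_chart s⟩)
  haveI hicR : IsIntegrallyClosed (Algebra.adjoin A {s}) := isIntegrallyClosed_adjoin hs
  -- the closed point as a prime of the integral closure
  let ι : integralClosure (Algebra.adjoin A {s}) F →+* chart A s :=
    { toFun := fun x => ⟨x.1, x.2⟩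
      map_one' := rfl
      map_mul' := fun _ _ => rfl
      map_zero' := rfl
      map_add' := fun _ _ => rfl }
  let φ : integralClosure (Algebra.adjoin A {s}) F →+* k := χ₀.comp ι
  haveI h𝔪 : (RingHom.ker φ).IsPrime := RingHom.ker_isPrime φ
  -- the horizontal prime of `A[s]`
  let ev : Algebra.adjoin A {s} →+* A :=
    ((aeval a₀ : A[X] →ₐ[A] A) : A[X] →+* A).comp
      (((adjoinEquiv hs).symm : Algebra.adjoin A {s} ≃ₐ[A] A[X]) : Algebra.adjoin A {s} →+* A[X])
  haveI h𝔮 : (RingHom.ker ev).IsPrime := RingHom.ker_isPrime ev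
  have key : ∀ r : Algebra.adjoin A {s},
      φ (algebraMap (Algebra.adjoin A {s}) (integralClosure (Algebra.adjoin A {s}) F) r) =
        res (ev r) := by
    intro r
    obtain ⟨f, rfl⟩ := (adjoinEquiv hs).surjective r
    have h1 : ev (adjoinEquiv hs f) = aeval a₀ f := by
      show aeval a₀ ((adjoinEquiv hs).symm (adjoinEquiv hs f)) = _
      rw [AlgEquiv.symm_apply_apply]
    rw [h1]
    -- two ring homs `A[X] → k`
    let ψ₁ : A[X] →+* k := (φ.comp (algebraMap (Algebra.adjoin A {s})
      (integralClosure (Algebra.adjoin A {s}) F))).comp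
        ((adjoinEquiv hs : A[X] ≃ₐ[A] Algebra.adjoin A {s}) : A[X] →+* Algebra.adjoin A {s})
    let ψ₂ : A[X] →+* k := res.comp ((aeval a₀ : A[X] →ₐ[A] A) : A[X] →+* A)
    have hψ : ψ₁ = ψ₂ := by
      apply Polynomial.ringHom_ext
      · intro a
        show χ₀ (ι (algebraMap _ _ (adjoinEquiv hs (C a)))) = res (aeval a₀ (C a))
        rw [aeval_C, ← hχ₀]
        congr 1
        apply Subtype.ext
        show ((adjoinEquiv hs (C a) : Algebra.adjoin A {s}) : F) = _
        show aeval s (C a) = _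
        rw [aeval_C]
        rfl
      · show χ₀ (ι (algebraMap _ _ (adjoinEquiv hs X))) = res (aeval a₀ X)
        rw [aeval_X, ha₀]
        congr 1
        apply Subtype.ext
        show aeval s (X : A[X]) = s
        rw [aeval_X]
    exact congrArg (fun ψ : A[X] →+* k => ψ f) hψ
  have hle : RingHom.ker ev ≤ (RingHom.ker φ).under (Algebra.adjoin A {s}) := by
    intro r hr
    rw [Ideal.mem_comap, RingHom.mem_ker, key, (RingHom.mem_ker).1 hr, map_zero]
  -- going down
  haveI : FaithfulSMul (Algebra.adjoin A {s}) (integralClosure (Algebra.adjoin A {s}) F) := by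
    rw [faithfulSMul_iff_algebraMap_injective]
    intro x y hxy
    apply Subtype.ext
    exact congrArg (fun z : integralClosure (Algebra.adjoin A {s}) F => (z : F)) hxy
  obtain ⟨𝔪, h𝔪def⟩ : ∃ 𝔪 : Ideal (integralClosure (Algebra.adjoin A {s}) F), 𝔪 = RingHom.ker φ :=
    ⟨_, rfl⟩
  have hm𝔪 : ∀ x : integralClosure (Algebra.adjoin A {s}) F, x ∈ 𝔪 → χ₀ ⟨x.1, x.2⟩ = 0 := by
    intro x hx
    rw [h𝔪def] at hx
    exact hx
  obtain ⟨𝔮, h𝔮def⟩ : ∃ 𝔮 : Ideal (Algebra.adjoin A {s}), 𝔮 = RingHom.ker ev := ⟨_, rfl⟩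
  haveI h𝔪' : 𝔪.IsPrime := h𝔪def ▸ h𝔪
  haveI h𝔮' : 𝔮.IsPrime := h𝔮def ▸ h𝔮
  have hle' : 𝔮 ≤ 𝔪.under (Algebra.adjoin A {s}) := by
    rw [h𝔪def, h𝔮def]; exact hle
  obtain ⟨P, hPle, hPprime, hPover⟩ := Ideal.exists_ideal_le_liesOver_of_le
    (R := Algebra.adjoin A {s}) (S := integralClosure (Algebra.adjoin A {s}) F)
    (p := 𝔮) (q := 𝔪.under (Algebra.adjoin A {s})) 𝔪 hle'
  haveI := hPprime
  -- facts on `P`
  have hunder : ∀ r : Algebra.adjoin A {s},
      algebraMap (Algebra.adjoin A {s}) (integralClosure (Algebra.adjoin A {s}) F) r ∈ P ↔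
        ev r = 0 := by
    intro r
    have h1 : 𝔮 = P.under (Algebra.adjoin A {s}) := hPover.over
    have h2 : r ∈ 𝔮 ↔ ev r = 0 := by rw [h𝔮def, RingHom.mem_ker]
    rw [← h2, h1, Ideal.mem_comap]
  have hev_const : ∀ a : A, ev (algebraMap A (Algebra.adjoin A {s}) a) = a := by
    intro a
    show aeval a₀ ((adjoinEquiv hs).symm (algebraMap A (Algebra.adjoin A {s}) a)) = a
    rw [AlgEquiv.commutes, ← Polynomial.C_eq_algebraMap, aeval_C]
    rfl
  have hconst : ∀ a : A, a ≠ 0 →
      algebraMap A (integralClosure (Algebra.adjoin A {s}) F) a ∉ P := by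
    intro a ha hmem
    apply ha
    have h1 : algebraMap A (integralClosure (Algebra.adjoin A {s}) F) a =
        algebraMap (Algebra.adjoin A {s}) (integralClosure (Algebra.adjoin A {s}) F)
          (algebraMap A (Algebra.adjoin A {s}) a) := rfl
    rw [h1, hunder, hev_const] at hmem
    exact hmem
  -- the element `s - a₀` of `P`
  obtain ⟨x₀, hx₀P, hx₀ne⟩ : ∃ x₀ : integralClosure (Algebra.adjoin A {s}) F, x₀ ∈ P ∧ x₀ ≠ 0 := by
    have hsX : adjoinEquiv hs X = ⟨s, Algebra.self_mem_adjoin_singleton A s⟩ := by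
      apply Subtype.ext
      show aeval s (X : A[X]) = s
      rw [aeval_X]
    have hevs : ev ⟨s, Algebra.self_mem_adjoin_singleton A s⟩ = a₀ := by
      rw [← hsX]
      show aeval a₀ ((adjoinEquiv hs).symm (adjoinEquiv hs X)) = a₀
      rw [AlgEquiv.symm_apply_apply, aeval_X]
    refine ⟨algebraMap (Algebra.adjoin A {s}) (integralClosure (Algebra.adjoin A {s}) F)
      (⟨s, Algebra.self_mem_adjoin_singleton A s⟩ - algebraMap A (Algebra.adjoin A {s}) a₀), ?_, ?_⟩
    · rw [hunder, map_sub, hevs, hev_const, sub_self]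
    · intro h0
      have h1 : s - algebraMap A F a₀ = 0 :=
        congrArg (fun z : integralClosure (Algebra.adjoin A {s}) F => (z : F)) h0
      apply hs
      rw [sub_eq_zero.1 h1]
      exact isAlgebraic_algebraMap a₀
  -- the valuation ring
  obtain ⟨V, hSV, hinv, hnon⟩ := exists_valuationSubring_of_prime
    (S := integralClosure (Algebra.adjoin A {s}) F) (F := F)
    (fun x y hxy => Subtype.ext hxy) P
  have hVL : ∀ c : L, algebraMap L F c ∈ V := by
    intro c
    rcases A.mem_or_inv_mem c with hc | hc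
    · have := hSV (algebraMap A (integralClosure (Algebra.adjoin A {s}) F) ⟨c, hc⟩)
      have e : algebraMap (integralClosure (Algebra.adjoin A {s}) F) F
          (algebraMap A (integralClosure (Algebra.adjoin A {s}) F) ⟨c, hc⟩) = algebraMap L F c := by
        show algebraMap A F ⟨c, hc⟩ = _
        rw [algebraMap_A_eq]
      rwa [e] at this
    · by_cases hc0 : c = 0
      · rw [hc0, map_zero]; exact V.zero_mem
      have hb0 : (⟨c⁻¹, hc⟩ : A) ≠ 0 := fun h => (inv_ne_zero hc0) (congrArg Subtype.val h)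
      have := hinv _ (hconst ⟨c⁻¹, hc⟩ hb0)
      have e : algebraMap (integralClosure (Algebra.adjoin A {s}) F) F
          (algebraMap A (integralClosure (Algebra.adjoin A {s}) F) ⟨c⁻¹, hc⟩) =
            (algebraMap L F c)⁻¹ := by
        show algebraMap A F ⟨c⁻¹, hc⟩ = _
        rw [algebraMap_A_eq, map_inv₀]
      rwa [e, inv_inv] at this
  have hVtop : V ≠ ⊤ := by
    intro h
    apply hnon x₀ hx₀P hx₀ne
    rw [h]
    exact ValuationSubring.mem_top _
  have hVB : ∀ b ∈ chart A s, b ∈ V := fun b hb =>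
    hSV (⟨b, hb⟩ : integralClosure (Algebra.adjoin A {s}) F)
  obtain ⟨Pl, hPl⟩ := places V hVL hVtop hVB
  refine ⟨Pl, fun x hx => ?_⟩
  rw [hPl]
  obtain ⟨a, d, hd, hxd⟩ := (mem_locC_iff (chart A s) χ₀).1 hx
  have hdP : (⟨(d : F), d.2⟩ : integralClosure (Algebra.adjoin A {s}) F) ∉ P := by
    intro hmem
    exact hd (hm𝔪 _ (hPle hmem))
  have hd0 : (d : F) ≠ 0 := by
    intro h0
    apply hd
    have : d = 0 := Subtype.ext h0
    rw [this, map_zero]
  have h1 : x = (a : F) * ((d : F))⁻¹ := by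
    rw [← hxd, mul_assoc, mul_inv_cancel₀ hd0, mul_one]
  rw [h1]
  exact V.mul_mem _ _ (hVB _ a.2) (hinv _ hdP)

end Fermat.Agent.ORD.NODE.TubeNonempty9
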