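/-
PROGRAMME ORD (S33), chapter NODE (O6c, helper3): **a horizontal prime below a two-branch closed
point** of a nodal chart at one finite level.

N34 vocabulary: `B ⊂ E` a noetherian chart over `R`, `π ∈ R`, `O1 O2` the two Gauss valuation rings of
`E` (`le unif pi_nonunit sat` as in `LevelFamily8.LevelFamily`), `𝔪` a prime of `B` which is neither of
the two generic points `𝔭_v = B ∩ π O_v` of the special fibre: `z₁ ∈ 𝔪 ∖ π O1`, `z₂ ∈ 𝔪 ∖ π O2`.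

`exists_horizontal_prime` : `∃ 𝔭 : Ideal B, 𝔭.IsPrime ∧ 𝔭 ≠ ⊥ ∧ 𝔭 ≤ 𝔪 ∧ algebraMap R B π ∉ 𝔭`.

Proof: `f ∈ 𝔪 ∖ (𝔭₁ ∪ 𝔭₂)` (prime avoidance by hand), `𝔭` a minimal prime over `(f)` inside `𝔪`; by
Krull's principal ideal theorem `ht 𝔭 ≤ 1`; if `π ∈ 𝔭` then `𝔭` is minimal over `(π)`, hence `𝔭₁` or
`𝔭₂` because `𝔭₁ ∩ 𝔭₂ = π B` (saturation) — contradiction with `f ∈ 𝔭`.

With helper7's `HorTube7.exists_place_over_horizontal` this gives the non-emptiness of the tube of a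
two-branch closed point (the input `hP` of `ResRational9.exists_sub_const_mem`).
-/
import Mathlib

set_option autoImplicit false
set_option linter.unusedSectionVars false
set_option linter.unusedVariables false
set_option linter.style.longLine false

namespace Fermat.Agent.ORD.NODE.HorPrime3

variable {R E : Type*} [CommRing R] [Field E] [Algebra R E] (B : Subalgebra R E) (π : R)

/-- the generic point of a component: `B ∩ π O`. -/
def genPt (O : ValuationSubring E) (le : ∀ b ∈ B, b ∈ O) : Ideal B where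
  carrier := {b | ∃ c ∈ O, (b : E) = algebraMap R E π * c}
  add_mem' := by
    rintro a b ⟨c, hc, e⟩ ⟨d, hd, e'⟩
    exact ⟨c + d, O.add_mem _ _ hc hd, by push_cast; rw [e, e']; ring⟩
  zero_mem' := ⟨0, O.zero_mem, by simp⟩
  smul_mem' := by
    rintro a b ⟨c, hc, e⟩
    exact ⟨(a : E) * c, O.mul_mem _ _ (le _ a.2) hc, by
      rw [smul_eq_mul]; push_cast; rw [e]; ring⟩

variable {B π}

theorem mem_genPt {O : ValuationSubring E} {le : ∀ b ∈ B, b ∈ O} {b : B} :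
    b ∈ genPt B π O le ↔ ∃ c ∈ O, (b : E) = algebraMap R E π * c := Iff.rfl

theorem pi_mem_genPt (O : ValuationSubring E) (le : ∀ b ∈ B, b ∈ O) :
    algebraMap R B π ∈ genPt B π O le :=
  ⟨1, O.one_mem, by simp⟩

/-- the generic point is a prime ideal. -/
theorem genPt_isPrime (O : ValuationSubring E) (le : ∀ b ∈ B, b ∈ O)
    (unif : ∀ x ∈ O, x⁻¹ ∉ O → ∃ c ∈ O, x = algebraMap R E π * c)
    (pi_nonunit : (algebraMap R E π)⁻¹ ∉ O) : (genPt B π O le).IsPrime := by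
  have hp0 : algebraMap R E π ≠ 0 := by
    intro h0
    apply pi_nonunit
    rw [h0, inv_zero]
    exact O.zero_mem
  -- a nonzero multiple of `π` in `O` is not a unit of `O`
  have hnu : ∀ c ∈ O, c ≠ 0 → (algebraMap R E π * c)⁻¹ ∉ O := by
    intro c hc hc0 hinv
    apply pi_nonunit
    have : (algebraMap R E π)⁻¹ = c * (algebraMap R E π * c)⁻¹ := by
      field_simp
    rw [this]
    exact O.mul_mem _ _ hc hinv
  refine ⟨?_, ?_⟩
  · intro htop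
    have h1 : (1 : B) ∈ genPt B π O le := htop ▸ Submodule.mem_top
    obtain ⟨c, hc, e⟩ := h1
    have hc0 : c ≠ 0 := by
      rintro rfl
      rw [mul_zero] at e
      exact one_ne_zero e
    have := hnu c hc hc0
    rw [← e] at this
    apply this
    simp only [OneMemClass.coe_one, inv_one]
    exact O.one_mem
  · intro a b hab
    by_contra hcon
    rw [not_or] at hcon
    obtain ⟨ha, hb⟩ := hcon
    -- `a`, `b` are units of `O`
    have hainv : ((a : E))⁻¹ ∈ O := by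
      by_contra hni
      exact ha (unif _ (le _ a.2) hni)
    have hbinv : ((b : E))⁻¹ ∈ O := by
      by_contra hni
      exact hb (unif _ (le _ b.2) hni)
    obtain ⟨c, hc, e⟩ := hab
    have ha0 : (a : E) ≠ 0 := by
      intro h0
      exact ha ⟨0, O.zero_mem, by rw [h0, mul_zero]⟩
    have hb0 : (b : E) ≠ 0 := by
      intro h0
      exact hb ⟨0, O.zero_mem, by rw [h0, mul_zero]⟩
    have hc0 : c ≠ 0 := by
      rintro rfl
      rw [mul_zero] at e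
      have : (a : E) * (b : E) = 0 := by rw [← e]; rfl
      exact mul_ne_zero ha0 hb0 this
    have := hnu c hc hc0
    rw [← e] at this
    apply this
    push_cast
    rw [mul_inv]
    exact O.mul_mem _ _ hainv hbinv

/-- saturation: the two generic points meet in `π B`. -/
theorem genPt_inf_le (O1 O2 : ValuationSubring E) (le1 : ∀ b ∈ B, b ∈ O1) (le2 : ∀ b ∈ B, b ∈ O2)
    (hp0 : algebraMap R E π ≠ 0)
    (sat : ∀ b ∈ B, ∀ c : E, c ∈ O1 → c ∈ O2 → b = algebraMap R E π * c → c ∈ B) :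
    genPt B π O1 le1 ⊓ genPt B π O2 le2 ≤ Ideal.span {algebraMap R B π} := by
  rintro x ⟨⟨c₁, hc₁, e₁⟩, ⟨c₂, hc₂, e₂⟩⟩
  have hcc : c₁ = c₂ := mul_left_cancel₀ hp0 (e₁.symm.trans e₂)
  have hcB : c₁ ∈ B := sat _ x.2 c₁ hc₁ (hcc ▸ hc₂) e₁
  rw [Ideal.mem_span_singleton]
  refine ⟨⟨c₁, hcB⟩, Subtype.ext ?_⟩
  rw [e₁]; rfl

/-- **a nonzero horizontal prime below a closed point which is not a generic point of the special
fibre.** -/
theorem exists_horizontal_prime [IsNoetherianRing B] (O1 O2 : ValuationSubring E)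
    (le1 : ∀ b ∈ B, b ∈ O1) (le2 : ∀ b ∈ B, b ∈ O2)
    (unif1 : ∀ x ∈ O1, x⁻¹ ∉ O1 → ∃ c ∈ O1, x = algebraMap R E π * c)
    (unif2 : ∀ x ∈ O2, x⁻¹ ∉ O2 → ∃ c ∈ O2, x = algebraMap R E π * c)
    (pi_nonunit1 : (algebraMap R E π)⁻¹ ∉ O1) (pi_nonunit2 : (algebraMap R E π)⁻¹ ∉ O2)
    (sat : ∀ b ∈ B, ∀ c : E, c ∈ O1 → c ∈ O2 → b = algebraMap R E π * c → c ∈ B)
    (𝔪 : Ideal B) [𝔪.IsPrime] (z₁ z₂ : B)
    (hz₁ : z₁ ∈ 𝔪) (hz₁' : ¬ ∃ c ∈ O1, (z₁ : E) = algebraMap R E π * c)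
    (hz₂ : z₂ ∈ 𝔪) (hz₂' : ¬ ∃ c ∈ O2, (z₂ : E) = algebraMap R E π * c) :
    ∃ 𝔭 : Ideal B, 𝔭.IsPrime ∧ 𝔭 ≠ ⊥ ∧ 𝔭 ≤ 𝔪 ∧ algebraMap R B π ∉ 𝔭 := by
  have hp0 : algebraMap R E π ≠ 0 := by
    intro h0
    apply pi_nonunit1
    rw [h0, inv_zero]
    exact O1.zero_mem
  have hπB : algebraMap R B π ≠ 0 := by
    intro h0
    apply hp0
    have := congrArg (Subtype.val : B → E) h0
    simpa using this
  set 𝔭₁ := genPt B π O1 le1 with h𝔭₁
  set 𝔭₂ := genPt B π O2 le2 with h𝔭₂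
  have P1 : 𝔭₁.IsPrime := genPt_isPrime O1 le1 unif1 pi_nonunit1
  have P2 : 𝔭₂.IsPrime := genPt_isPrime O2 le2 unif2 pi_nonunit2
  -- prime avoidance
  obtain ⟨f, hf𝔪, hf1, hf2⟩ : ∃ f : B, f ∈ 𝔪 ∧ f ∉ 𝔭₁ ∧ f ∉ 𝔭₂ := by
    by_cases h12 : z₁ ∈ 𝔭₂
    · by_cases h21 : z₂ ∈ 𝔭₁
      · refine ⟨z₁ + z₂, 𝔪.add_mem hz₁ hz₂, ?_, ?_⟩
        · intro h
          exact hz₁' ((𝔭₁.add_mem_iff_left h21).mp h)
        · intro h
          exact hz₂' ((𝔭₂.add_mem_iff_right h12).mp h)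
      · exact ⟨z₂, hz₂, h21, hz₂'⟩
    · exact ⟨z₁, hz₁, hz₁', h12⟩
  have hf0 : f ≠ 0 := by
    rintro rfl
    exact hf1 𝔭₁.zero_mem
  -- a minimal prime over `(f)` inside `𝔪`
  have hle : Ideal.span {f} ≤ 𝔪 := (Ideal.span_singleton_le_iff_mem _).mpr hf𝔪
  obtain ⟨𝔭, h𝔭, h𝔭𝔪⟩ := Ideal.exists_minimalPrimes_le hle
  have hprime : 𝔭.IsPrime := h𝔭.1.1
  have hf𝔭 : f ∈ 𝔭 := h𝔭.1.2 (Ideal.mem_span_singleton_self f)
  have hht : 𝔭.height ≤ 1 :=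
    Ideal.height_le_one_of_isPrincipal_of_mem_minimalPrimes (Ideal.span {f}) 𝔭 h𝔭
  refine ⟨𝔭, hprime, ?_, h𝔭𝔪, ?_⟩
  · intro h0
    rw [h0] at hf𝔭
    exact hf0 ((Ideal.mem_bot).mp hf𝔭)
  · intro hπ
    have hle' : Ideal.span {algebraMap R B π} ≤ 𝔭 := (Ideal.span_singleton_le_iff_mem _).mpr hπ
    obtain ⟨𝔮, h𝔮, h𝔮𝔭⟩ := Ideal.exists_minimalPrimes_le hle'
    have hqprime : 𝔮.IsPrime := h𝔮.1.1
    have hπ𝔮 : algebraMap R B π ∈ 𝔮 := h𝔮.1.2 (Ideal.mem_span_singleton_self _)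
    have h𝔮0 : 𝔮 ≠ ⊥ := by
      intro h0
      rw [h0] at hπ𝔮
      exact hπB ((Ideal.mem_bot).mp hπ𝔮)
    -- `𝔮 = 𝔭` by the height
    have h𝔮eq : 𝔮 = 𝔭 := by
      by_contra hne
      have hlt : 𝔮 < 𝔭 := lt_of_le_of_ne h𝔮𝔭 hne
      have h1 := Ideal.height_add_one_le_of_lt_of_isPrime hlt
      have h2 : 𝔮.height ≠ 0 := fun h0 => h𝔮0 (Ideal.height_eq_zero_iff_eq_bot.mp h0)
      have h3 : 1 ≤ 𝔮.height := Order.one_le_iff_pos.mpr (pos_iff_ne_zero.mpr h2)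
      have h4 : (1 : ℕ∞) + 1 ≤ 1 := (add_le_add_left h3 1).trans (h1.trans hht)
      exact absurd h4 (by decide)
    -- `𝔮` is one of the two generic points
    have hmul : 𝔭₁ * 𝔭₂ ≤ 𝔮 :=
      (Ideal.mul_le_inf.trans (genPt_inf_le O1 O2 le1 le2 hp0 sat)).trans h𝔮.1.2
    rcases (hqprime.mul_le).mp hmul with h | h
    · have hge : 𝔮 ≤ 𝔭₁ := h𝔮.2 ⟨P1, (Ideal.span_singleton_le_iff_mem _).mpr
        (pi_mem_genPt O1 le1)⟩ h
      exact hf1 (hge (h𝔮eq ▸ hf𝔭))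
    · have hge : 𝔮 ≤ 𝔭₂ := h𝔮.2 ⟨P2, (Ideal.span_singleton_le_iff_mem _).mpr
        (pi_mem_genPt O2 le2)⟩ h
      exact hf2 (hge (h𝔮eq ▸ hf𝔭))

end Fermat.Agent.ORD.NODE.HorPrime3
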