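/-
PROGRAMME ORD (S33), chapter NODE (O6c, helper3): **a horizontal prime below a two-branch closed
point, in the vocabulary of the families of levels** (`LevelFamily8`, `NodeFamily2.xKof`).

`H₁ H₂` the two point-independent families of levels of a chart `BA`, `χ₀` a closed point lying on both
components.

* `exists_horizontal_prime_xKof` : at a level `i` containing witnesses `z₁ z₂` (`χ₀ z = 0`,
  `red z₁ ≠ 0`, `red' z₂ ≠ 0`; the arguments of `GoodFamily2.nodeHyp`) there is a prime `𝔭 ≠ ⊥` of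
  `BK i` with `𝔭 ≤ xKof H₁ χ₀ i` and `π ∉ 𝔭`;
* `exists_level_horizontal_prime` : such a level exists inside every cofinal set of levels (the
  witnesses are `LevelFamily.nonunit`).

With helper7's `HorTube7.exists_place_over_horizontal` this is the non-emptiness of the tube of a
two-branch closed point.
-/
import Mathlib
import Fermat.Agent.ORD.NODE.HorPrime3
import Fermat.Agent.ORD.NODE.GoodFamily2

set_option autoImplicit false
set_option linter.unusedSectionVars false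
set_option linter.unusedVariables false
set_option linter.style.longLine false

namespace Fermat.Agent.ORD.NODE.HorPrimeFamily3

open AlgebraicCurve
  Fermat.Agent.ORD.IFACEN.LocAt8 Fermat.Agent.ORD.IFACEN.LevelAt8
  Fermat.Agent.ORD.IFACEN.LevelFamily8
  Fermat.Agent.ORD.ANN.Side3
  Fermat.Agent.ORD.NODE.NodeFamily2 Fermat.Agent.ORD.NODE.GoodFamily2
  Fermat.Agent.ORD.NODE.HorPrime3

variable {L F k Ft : Type*} [Field L] [Field F] [Algebra L F] [Field k] [Field Ft] [Algebra k Ft]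

variable {B : Base L k} [Algebra B.A F] [IsScalarTower B.A L F]
  {S S' : Side B F Ft} {BA : Subalgebra B.A F} {s s' : BA}
variable {I : Type*} {RK FK : I → Type*} [∀ i, CommRing (RK i)] [∀ i, Field (FK i)]
  [∀ i, Algebra (RK i) (FK i)] {BK : ∀ i, Subalgebra (RK i) (FK i)} {πK : ∀ i, RK i}
  {j : ∀ i, FK i →+* F} {O1 O2 : ∀ i, ValuationSubring (FK i)}

variable (H₁ : LevelFamily B.res BA s S.G S.red S'.G S'.red RK FK BK πK j O1 O2)
  (H₂ : LevelFamily B.res BA s' S'.G S'.red S.G S.red RK FK BK πK j O2 O1)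
  (χ₀ : BA →+* k) (hχ₀ : ∀ a : B.A, χ₀ (algebraMap B.A BA a) = B.res a)

include H₂ in
/-- **a horizontal prime below the closed point of level `i`.** -/
theorem exists_horizontal_prime_xKof (i : I)
    (z₁ : BK i) (hz₁ : z₁ ∈ xKof H₁ χ₀ i)
    (hz₁' : S.red ⟨j i (z₁ : FK i), H₁.le_Gon _ (H₁.j_mem i _ z₁.2)⟩ ≠ 0)
    (z₂ : BK i) (hz₂ : z₂ ∈ xKof H₁ χ₀ i)
    (hz₂' : S'.red ⟨j i (z₂ : FK i), H₂.le_Gon _ (H₁.j_mem i _ z₂.2)⟩ ≠ 0) :
    ∃ 𝔭 : Ideal (BK i), 𝔭.IsPrime ∧ 𝔭 ≠ ⊥ ∧ 𝔭 ≤ xKof H₁ χ₀ i ∧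
      algebraMap (RK i) (BK i) (πK i) ∉ 𝔭 := by
  have : IsNoetherianRing (BK i) := H₁.noeth i
  have : (xKof H₁ χ₀ i).IsPrime := RingHom.ker_isPrime _
  refine exists_horizontal_prime (O1 i) (O2 i) (H₁.le_on i) (H₁.le_off i) (H₁.unif_on i)
    (H₂.unif_on i) (H₁.pi_nonunit_on i) (H₂.pi_nonunit_on i) (H₁.sat i) (xKof H₁ χ₀ i) z₁ z₂
    hz₁ ?_ hz₂ ?_
  · intro hc
    exact hz₁' ((H₁.on_zero_iff i _ (H₁.le_on i _ z₁.2)).mpr hc)
  · intro hc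
    exact hz₂' ((H₂.on_zero_iff i _ (H₂.le_on i _ z₂.2)).mpr hc)

include H₂ hχ₀ in
/-- **a level with a horizontal prime below the closed point**, inside any cofinal set of levels. -/
theorem exists_level_horizontal_prime (P : I → Prop)
    (hcof : ∀ (y : F) (T : List BA), ∃ i, P i ∧ (∃ x : FK i, j i x = y) ∧
      ∀ b ∈ T, ∃ b' : BK i, j i (b' : FK i) = (b : F)) :
    ∃ i, P i ∧ ∃ 𝔭 : Ideal (BK i), 𝔭.IsPrime ∧ 𝔭 ≠ ⊥ ∧ 𝔭 ≤ xKof H₁ χ₀ i ∧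
      algebraMap (RK i) (BK i) (πK i) ∉ 𝔭 := by
  obtain ⟨z₁, hz₁, hz₁'⟩ := H₁.nonunit χ₀ hχ₀
  obtain ⟨z₂, hz₂, hz₂'⟩ := H₂.nonunit χ₀ hχ₀
  obtain ⟨i, hPi, -, hT⟩ := hcof 0 [z₁, z₂]
  obtain ⟨b₁, hb₁⟩ := hT z₁ (by simp)
  obtain ⟨b₂, hb₂⟩ := hT z₂ (by simp)
  refine ⟨i, hPi, exists_horizontal_prime_xKof H₁ H₂ χ₀ i b₁ ?_ ?_ b₂ ?_ ?_⟩
  · rw [mem_xKof_iff]
    have : (⟨j i (b₁ : FK i), H₁.j_mem i _ b₁.2⟩ : BA) = z₁ := Subtype.ext hb₁
    rw [this]; exact hz₁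
  · have : (⟨j i (b₁ : FK i), H₁.le_Gon _ (H₁.j_mem i _ b₁.2)⟩ : S.G) =
        ⟨(z₁ : F), H₁.le_Gon z₁ z₁.2⟩ := Subtype.ext hb₁
    rw [this]; exact hz₁'
  · rw [mem_xKof_iff]
    have : (⟨j i (b₂ : FK i), H₁.j_mem i _ b₂.2⟩ : BA) = z₂ := Subtype.ext hb₂
    rw [this]; exact hz₂
  · have : (⟨j i (b₂ : FK i), H₂.le_Gon _ (H₁.j_mem i _ b₂.2)⟩ : S'.G) =
        ⟨(z₂ : F), H₂.le_Gon z₂ z₂.2⟩ := Subtype.ext hb₂
    rw [this]; exact hz₂'

end Fermat.Agent.ORD.NODE.HorPrimeFamily3
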