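/-
PROGRAMME ORD (S33), chapter NODE (O6c, helper3): **the tube of a two-branch closed point is
non-empty** — the input `hP : InDisc (locC BA χ₀) P` of `ResRational9.exists_sub_const_mem` at the
nodes.

`HorPrimeFamily3` (a nonzero horizontal prime `𝔭 ≤ x_K` at a level containing the witnesses of
`LevelFamily.nonunit` for both components) + helper7's `HorTube7.HorHyp.exists_place_over_horizontal`
(such a prime is the centre on `B_K` of a place of the tube).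
-/
import Mathlib
import Fermat.Agent.ORD.NODE.HorPrimeFamily3
import Fermat.Agent.ORD.NODE.HorTube7

set_option autoImplicit false
set_option linter.unusedSectionVars false
set_option linter.unusedVariables false
set_option linter.style.longLine false

namespace Fermat.Agent.ORD.NODE.TubeNonempty3

open AlgebraicCurve
  Fermat.Agent.ORD.IFACEN.LocAt8 Fermat.Agent.ORD.IFACEN.LevelAt8
  Fermat.Agent.ORD.IFACEN.LevelFamily8 Fermat.Agent.ORD.IFACEN.DiscPlaces8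
  Fermat.Agent.ORD.ANN.Side3
  Fermat.Agent.ORD.NODE.NodeFamily2 Fermat.Agent.ORD.NODE.GoodFamily2
  Fermat.Agent.ORD.NODE.HorPrime3 Fermat.Agent.ORD.NODE.HorPrimeFamily3
  Fermat.Agent.ORD.NODE.HorTube7

variable {L F k Ft : Type*} [Field L] [Field F] [Algebra L F] [Field k] [Field Ft] [Algebra k Ft]

variable {B : Base L k} [Algebra B.A F] [IsScalarTower B.A L F]
  {S S' : Side B F Ft} {BA : Subalgebra B.A F} {s s' : BA}
variable {I : Type*} {RK FK : I → Type*} [∀ i, CommRing (RK i)] [∀ i, Field (FK i)]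
  [∀ i, Algebra (RK i) (FK i)] {BK : ∀ i, Subalgebra (RK i) (FK i)} {πK : ∀ i, RK i}
  {j : ∀ i, FK i →+* F} {O1 O2 : ∀ i, ValuationSubring (FK i)}

variable (H₁ : LevelFamily B.res BA s S.G S.red S'.G S'.red RK FK BK πK j O1 O2)
  (H₂ : LevelFamily B.res BA s' S'.G S'.red S.G S.red RK FK BK πK j O2 O1)
  (χ₀ : BA →+* k) (hχ₀ : ∀ a : B.A, χ₀ (algebraMap B.A BA a) = B.res a)

include H₁ H₂ in
/-- **the tube of a two-branch closed point is non-empty**, one level: a level `i` containing the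
witnesses `z₁ z₂` and satisfying helper7's `HorHyp`. -/
theorem exists_inDisc_of_level (i : I)
    (z₁ : BK i) (hz₁ : z₁ ∈ xKof H₁ χ₀ i)
    (hz₁' : S.red ⟨j i (z₁ : FK i), H₁.le_Gon _ (H₁.j_mem i _ z₁.2)⟩ ≠ 0)
    (z₂ : BK i) (hz₂ : z₂ ∈ xKof H₁ χ₀ i)
    (hz₂' : S'.red ⟨j i (z₂ : FK i), H₂.le_Gon _ (H₁.j_mem i _ z₂.2)⟩ ≠ 0)
    {KK : Type*} [Field KK] [Algebra (RK i) KK] [Algebra KK (FK i)]
    [IsScalarTower (RK i) KK (FK i)] {t : FK i} {φ : KK →+* L}
    (Hh : HorHyp B.res BA χ₀ (BK i) (πK i) (j i) t φ) :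
    ∃ Pl : Place L F, InDisc (locC BA χ₀) Pl := by
  obtain ⟨𝔭, h𝔭, hne, hle, hπ⟩ :=
    exists_horizontal_prime_xKof H₁ H₂ χ₀ i z₁ hz₁ hz₁' z₂ hz₂ hz₂'
  obtain ⟨Pl, hPl, -⟩ := Hh.exists_place_over_horizontal 𝔭 hne hle hπ
  exact ⟨Pl, hPl⟩

include H₁ H₂ hχ₀ in
/-- **the tube of a two-branch closed point is non-empty**: `HorHyp` on a cofinal set of levels. -/
theorem exists_inDisc (P : I → Prop)
    (hcof : ∀ (y : F) (T : List BA), ∃ i, P i ∧ (∃ x : FK i, j i x = y) ∧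
      ∀ b ∈ T, ∃ b' : BK i, j i (b' : FK i) = (b : F))
    {KK : I → Type*} [∀ i, Field (KK i)] [∀ i, Algebra (RK i) (KK i)]
    [∀ i, Algebra (KK i) (FK i)] [∀ i, IsScalarTower (RK i) (KK i) (FK i)]
    (t : ∀ i, FK i) (φ : ∀ i, KK i →+* L)
    (hHor : ∀ i, P i → HorHyp B.res BA χ₀ (BK i) (πK i) (j i) (t i) (φ i)) :
    ∃ Pl : Place L F, InDisc (locC BA χ₀) Pl := by
  obtain ⟨i, hPi, 𝔭, h𝔭, hne, hle, hπ⟩ := exists_level_horizontal_prime H₁ H₂ χ₀ hχ₀ P hcof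
  obtain ⟨Pl, hPl, -⟩ := (hHor i hPi).exists_place_over_horizontal 𝔭 hne hle hπ
  exact ⟨Pl, hPl⟩

end Fermat.Agent.ORD.NODE.TubeNonempty3
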